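import Fermat.Agent.Tors.Lower

/-!
# Torsion of the class group over the complex numbers

For a function field over `ℂ` the bounds of `Tors.Upper` and `Tors.Lower` give exactly `m ^ (2 g)`
classes of degree zero killed by `m`.
-/

noncomputable section

open AlgebraicCurve Fermat.Agent.FF

namespace Fermat.Agent.Tors

variable {F : Type*} [Field F] [Algebra ℂ F] [FF.IsFunctionField ℂ F] {m : ℕ} [NeZero m]

/-- A function without zeros and poles is an `m`-th power. -/
theorem exists_root_const {f : F} (hf : f ≠ 0) (h : ∀ v : Place ℂ F, v.ord f = 0) :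
    ∃ γ : F, γ ≠ 0 ∧ f = γ ^ m := by
  obtain ⟨a, ha⟩ := mem_range_of_ord_nonneg (K := ℂ) fun v => (h v).ge
  obtain ⟨r, hr⟩ := IsAlgClosed.exists_pow_nat_eq a (Nat.pos_of_ne_zero (NeZero.ne m))
  have he : f = algebraMap ℂ F r ^ m := by rw [← map_pow, hr, ha]
  exact ⟨_, fun h0 => hf (by rw [he, h0, zero_pow (NeZero.ne m)]), he⟩

/-- **`Pic⁰[m]` of a function field over `ℂ` has `m ^ (2 g)` elements.** -/
theorem natCard_torsion_complex :
    Nat.card (Pic0.torsion ℂ F m) = m ^ (2 * genusFF ℂ F) := by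
  classical
  refine le_antisymm natCard_torsion_le ?_
  obtain ⟨M₀⟩ := exists_model (K := ℂ) (F := F)
  obtain ⟨M, R, -⟩ := exists_rays M₀ ∅
  obtain ⟨S⟩ := R.nonempty_sheets
  rw [← S.natCard_monoClasses (Nat.pos_of_ne_zero (NeZero.ne m))]
  choose rep hrep using fun q : MonoClasses S.σ (ZMod m) => QuotientAddGroup.mk_surjective q
  choose f hf hG using fun q => S.exists_rootSys_of_cochain (rep q).1
    (AddMonoidHom.mem_ker.1 (rep q).2)
  have hdvd : ∀ q (v : Place ℂ F), (m : ℤ) ∣ v.ord (f q) := fun q v =>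
    (hG q).some.dvd_ord (hf q) (AddMonoidHom.mem_ker.1 (rep q).2) v
  let D : MonoClasses S.σ (ZMod m) → Divisor ℂ F := fun q =>
    (divOf (f q)).mapRange (· / (m : ℤ)) (by simp)
  have hmD : ∀ q v, (m : ℤ) * D q v = v.ord (f q) := fun q v => by
    simp only [D, Finsupp.mapRange_apply, divOf_apply]
    exact Int.mul_ediv_cancel' (hdvd q v)
  have hD0 : ∀ q, D q ∈ Divisor.degZero (K := ℂ) (F := F) := fun q => by
    rw [Divisor.mem_degZero]
    have h : (m : ℤ) • D q = divOf (f q) := Finsupp.ext fun v => by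
      rw [Finsupp.smul_apply, smul_eq_mul, hmD, divOf_apply]
    have h2 := congrArg Divisor.degree h
    rw [map_zsmul, degree_divOf, smul_eq_mul, mul_eq_zero] at h2
    exact h2.resolve_left (by exact_mod_cast (NeZero.ne m))
  let Ψ : MonoClasses S.σ (ZMod m) → Pic0.torsion ℂ F m := fun q =>
    ⟨Pic0.mk ⟨D q, hD0 q⟩, mem_torsion_iff_exists.2 ⟨f q, hf q, hmD q⟩⟩
  have := finite_torsion (F := F) (m := m)
  refine Nat.card_le_card_of_injective Ψ fun q q' hqq => ?_
  obtain ⟨γ, hγ, hγv⟩ := pic0_mk_eq_iff.1 (congrArg Subtype.val hqq)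
  have hpow : γ ^ m ≠ 0 := pow_ne_zero _ hγ
  obtain ⟨r, hr0, hr⟩ := exists_root_const (m := m) (f := f q * ((f q')⁻¹ * (γ ^ m)⁻¹))
    (mul_ne_zero (hf q) (mul_ne_zero (inv_ne_zero (hf q')) (inv_ne_zero hpow))) fun v => by
      rw [v.ord_mul (hf q) (mul_ne_zero (inv_ne_zero (hf q')) (inv_ne_zero hpow)),
        v.ord_mul (inv_ne_zero (hf q')) (inv_ne_zero hpow), v.ord_inv, v.ord_inv, FF.ord_pow,
        ← hmD q v, ← hmD q' v]
      have := hγv v
      simp only at this
      rw [← this]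
      ring
  have he : f q = f q' * (γ * r) ^ m := by
    rw [mul_pow, ← hr]
    field_simp [hf q', hpow]
  obtain ⟨a, ha⟩ := (hG q).some.gauge_of_pow_eq (hG q').some (hf q) he
  rw [← hrep q, ← hrep q', QuotientAddGroup.eq_iff_sub_mem, AddSubgroup.mem_addSubgroupOf]
  exact ⟨a, ha⟩

end Fermat.Agent.Tors
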