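import Mathlib

/-!
# Monodromy combinatorics of a branched covering of the sphere

`σ k` is the monodromy at the `k`-th finite branch point, `pre σ r` the one at infinity. A cochain
is a function `c : Fin r → ι → A`; `cycleSum σ` records its sums along the loops around all
punctures, and `gauge σ` the coboundaries.
-/

noncomputable section

open Equiv Function

namespace Fermat.Agent.Tors

variable {r : ℕ} {ι : Type*} [Fintype ι] (σ : Fin r → Perm ι)

/-- Product of the inverses of the first `k` local monodromies. -/
def pre : ℕ → Perm ι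
  | 0 => 1
  | k + 1 => if h : k < r then (σ ⟨k, h⟩)⁻¹ * pre k else pre k

omit [Fintype ι] in
@[simp] theorem pre_zero : pre σ 0 = 1 := rfl

omit [Fintype ι] in
/-- Recursion for the products of the local monodromies. -/
theorem pre_succ (k : Fin r) : pre σ ((k : ℕ) + 1) = (σ k)⁻¹ * pre σ k := by
  rw [pre, dif_pos k.isLt]

/-- Monodromy at infinity. -/
def tau : Perm ι := pre σ r

/-- The setoid of cycles. -/
abbrev cyc (p : Perm ι) : Setoid ι := Perm.SameCycle.setoid p

/-- Index set of the punctures of the covering. -/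
abbrev Punct : Type _ := (Σ k : Fin r, Quotient (cyc (σ k))) ⊕ Quotient (cyc (tau σ))

instance finite_punct : Finite (Punct σ) := by
  unfold Punct
  infer_instance

variable {A : Type*} [AddCommGroup A]

/-- Sum of jumps along a big loop starting on sheet `i`. -/
def bigLoop (c : Fin r → ι → A) (i : ι) : A := ∑ k : Fin r, c k (pre σ ((k : ℕ) + 1) i)

open scoped Classical in
/-- Sums of a cochain around the punctures. -/
def cycleSum : (Fin r → ι → A) →+ (Punct σ → A) :=
  AddMonoidHom.mk' (fun c => Sum.elim
      (fun q => ∑ i with Quotient.mk (cyc (σ q.1)) i = q.2, c q.1 i)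
      (fun q => ∑ i with Quotient.mk (cyc (tau σ)) i = q, bigLoop σ c i))
    (fun c d => by
      funext q
      rcases q with q | q <;> simp [bigLoop, Finset.sum_add_distrib])

/-- Coboundary of a function on sheets. -/
def gauge : (ι → A) →+ (Fin r → ι → A) :=
  AddMonoidHom.mk' (fun a k i => a i - a (σ k i)) (fun a b => by
    funext k i; simp only [Pi.add_apply]; abel)

omit [Fintype ι] in
@[simp] theorem gauge_apply (a : ι → A) (k : Fin r) (i : ι) :
    gauge σ a k i = a i - a (σ k i) := rfl

omit [Fintype ι] in
theorem bigLoop_gauge (a : ι → A) (i : ι) : bigLoop σ (gauge σ a) i = a (tau σ i) - a i := by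
  have : ∀ k : Fin r, gauge σ a k (pre σ ((k : ℕ) + 1) i)
      = a (pre σ ((k : ℕ) + 1) i) - a (pre σ k i) := by
    intro k
    rw [gauge_apply, pre_succ, Perm.mul_apply, Perm.coe_inv, apply_symm_apply]
  rw [bigLoop, Finset.sum_congr rfl fun k _ => this k,
    Fin.sum_univ_eq_sum_range (fun k => a (pre σ (k + 1) i) - a (pre σ k i)) r,
    Finset.sum_range_sub (fun k => a (pre σ k i))]
  rfl

open scoped Classical in
theorem sum_filter_cyc_comp (p : Perm ι) (f : ι → A) (q : Quotient (cyc p)) :
    ∑ i with Quotient.mk (cyc p) i = q, f (p i) = ∑ i with Quotient.mk (cyc p) i = q, f i := by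
  refine Finset.sum_bij' (fun i _ => p i) (fun i _ => p.symm i) ?_ ?_ (by simp) (by simp) (by simp)
  · intro i hi
    simp only [Finset.mem_filter, Finset.mem_univ, true_and] at hi ⊢
    rw [← hi]
    exact Quotient.sound (s := cyc p) (Perm.sameCycle_apply_left.2 (Perm.SameCycle.refl _ _))
  · intro i hi
    simp only [Finset.mem_filter, Finset.mem_univ, true_and] at hi ⊢
    rw [← hi]
    refine Quotient.sound (s := cyc p) ?_
    show Perm.SameCycle p (p.symm i) i
    simpa using (Perm.sameCycle_apply_right.2 (Perm.SameCycle.refl p (p.symm i)))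

theorem cycleSum_gauge (a : ι → A) : cycleSum σ (gauge σ a) = 0 := by
  classical
  funext q
  rcases q with q | q
  · simp only [cycleSum, AddMonoidHom.mk'_apply, Sum.elim_inl, gauge_apply,
      Finset.sum_sub_distrib, Pi.zero_apply, sum_filter_cyc_comp, sub_self]
  · simp only [cycleSum, AddMonoidHom.mk'_apply, Sum.elim_inr, bigLoop_gauge,
      Finset.sum_sub_distrib, Pi.zero_apply, sum_filter_cyc_comp, sub_self]

/-- The monodromy is transitive. -/
def IsTransitiveMono : Prop :=
  ∀ T : Set ι, (∀ k i, i ∈ T ↔ σ k i ∈ T) → T = ∅ ∨ T = Set.univ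

omit [Fintype ι] in
/-- A function invariant under transitive monodromy is constant. -/
theorem IsTransitiveMono.const {σ : Fin r → Perm ι} (ht : IsTransitiveMono σ) {β : Type*}
    {f : ι → β} (hf : ∀ k i, f (σ k i) = f i) (i j : ι) : f j = f i := by
  rcases ht {x | f x = f i} (fun k x => by simp [hf]) with h | h
  · exact absurd (show i ∈ {x | f x = f i} from rfl) (h ▸ Set.notMem_empty i)
  · exact (h ▸ Set.mem_univ j : j ∈ {x | f x = f i})

/-- Sum over the finite punctures minus sum over the punctures at infinity. -/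
def balance [Fintype (Punct σ)] : (Punct σ → A) →+ A :=
  AddMonoidHom.mk' (fun x => ∑ q : Punct σ, Sum.elim (fun _ => x q) (fun _ => -x q) q)
    (fun x y => by
      rw [← Finset.sum_add_distrib]
      refine Finset.sum_congr rfl fun q _ => ?_
      rcases q with q | q
      · rfl
      · exact neg_add _ _)

theorem sum_bigLoop (c : Fin r → ι → A) : ∑ i, bigLoop σ c i = ∑ k, ∑ i, c k i := by
  simp only [bigLoop]
  rw [Finset.sum_comm]
  exact Finset.sum_congr rfl fun k _ => Equiv.sum_comp _ _

open scoped Classical in
/-- **The cycle sums** of cochains are exactly the balanced functions. -/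
theorem range_cycleSum [Fintype (Punct σ)] [Nonempty ι] (ht : IsTransitiveMono σ) :
    (cycleSum σ : (Fin r → ι → A) →+ _).range = (balance σ : (Punct σ → A) →+ A).ker := by
  apply le_antisymm
  · rintro x ⟨c, rfl⟩
    let : ∀ k : Fin r, Fintype (Quotient (cyc (σ k))) := fun _ => Fintype.ofFinite _
    let : Fintype (Quotient (cyc (tau σ))) := Fintype.ofFinite _
    rw [AddMonoidHom.mem_ker]
    have e : (balance σ) (cycleSum σ c) = (∑ q : Σ k : Fin r, Quotient (cyc (σ k)),
        cycleSum σ c (.inl q)) + ∑ q : Quotient (cyc (tau σ)), -cycleSum σ c (.inr q) := by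
      refine Eq.trans (Finset.sum_congr ?_ fun _ _ => rfl) (Fintype.sum_sum_type _)
      ext; simp
    rw [e, Fintype.sum_sigma, Finset.sum_neg_distrib]
    simp only [cycleSum, AddMonoidHom.mk'_apply, Sum.elim_inl, Sum.elim_inr,
      Finset.sum_fiberwise, sum_bigLoop, add_neg_cancel]
  · intro x hx
    set R := (cycleSum σ : (Fin r → ι → A) →+ (Punct σ → A)).range
    let cls : Punct σ → A → (Punct σ → A) ⧸ R := fun q a => QuotientAddGroup.mk' R (Pi.single q a)
    let h : ℕ → A → ι → (Punct σ → A) ⧸ R :=
      fun k a i => cls (.inr (Quotient.mk _ ((pre σ k).symm i))) a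
    have edge : ∀ (k : Fin r) (i : ι) (a : A),
        cls (.inl ⟨k, Quotient.mk _ i⟩) a = -h ((k : ℕ) + 1) a i := by
      intro k i a
      rw [eq_neg_iff_add_eq_zero]
      simp only [h, cls, ← map_add]
      rw [QuotientAddGroup.mk'_apply, QuotientAddGroup.eq_zero_iff]
      refine ⟨Pi.single k (Pi.single i a), ?_⟩
      funext q
      rcases q with ⟨l, q⟩ | q
      · simp only [cycleSum, AddMonoidHom.mk'_apply, Sum.elim_inl, Pi.add_apply,
          Pi.single_apply, reduceCtorEq, if_false, add_zero, Sum.inl.injEq]
        by_cases hl : l = k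
        · subst hl
          simp [Pi.single_apply, eq_comm]
        · simp [hl]
      · simp only [cycleSum, AddMonoidHom.mk'_apply, Sum.elim_inr, Pi.add_apply,
          Pi.single_apply, reduceCtorEq, if_false, zero_add, Sum.inr.injEq, bigLoop]
        have : ∀ j, (∑ l : Fin r, (if l = k then (Pi.single i a : ι → A) else 0)
            (pre σ ((l : ℕ) + 1) j)) = if j = (pre σ ((k : ℕ) + 1)).symm i then a else 0 := by
          intro j
          rw [Finset.sum_eq_single k (fun l _ hl => by simp [hl]) (by simp), if_pos rfl,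
            Pi.single_apply]
          exact if_congr (Equiv.eq_symm_apply _).symm rfl rfl
        simp only [this]
        rw [Finset.sum_ite_eq']
        simp [eq_comm]
    have hconst : ∀ (k : ℕ), k ≤ r → ∀ a i, h k a i = h 0 a i := by
      intro k
      induction k with
      | zero => simp
      | succ k ih =>
        intro hk a i
        let K : Fin r := ⟨k, hk⟩
        have hs : ∀ i, h (k + 1) a i = h k a (σ K i) := by
          intro i
          simp only [h]
          rw [show k + 1 = (K : ℕ) + 1 from rfl, pre_succ, ← Perm.coe_inv, mul_inv_rev, inv_inv]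
          rfl
        have hinv : ∀ i, h (k + 1) a (σ K i) = h (k + 1) a i := by
          intro i
          have h1 := edge K (σ K i) a
          rw [show (Quotient.mk (cyc (σ K)) (σ K i)) = Quotient.mk _ i from
            Quotient.sound (s := cyc (σ K))
              (Perm.sameCycle_apply_left.2 (Perm.SameCycle.refl _ _)), edge] at h1
          exact (neg_injective h1).symm
        rw [← ih (Nat.le_of_succ_le hk) a i, ← (σ K).apply_symm_apply i, hinv, hs]
    have hh : ∀ a i j, h 0 a j = h 0 a i := by
      intro a
      refine ht.const fun k i => ?_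
      have hk : (k : ℕ) + 1 ≤ r := k.isLt
      have e1 := edge k (σ k i) a
      rw [show (Quotient.mk (cyc (σ k)) (σ k i)) = Quotient.mk _ i from
        Quotient.sound (s := cyc (σ k))
          (Perm.sameCycle_apply_left.2 (Perm.SameCycle.refl _ _)), edge,
        hconst _ hk, hconst _ hk] at e1
      exact (neg_injective e1).symm
    obtain ⟨i₀⟩ := ‹Nonempty ι›
    have hall : ∀ (q : Punct σ) (a : A),
        cls q a = Sum.elim (fun _ => -h 0 a i₀) (fun _ => h 0 a i₀) q := by
      intro q a
      rcases q with ⟨k, q⟩ | q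
      · induction q using Quotient.inductionOn with
        | h i => rw [edge, hconst _ k.isLt, hh a i₀ i]; rfl
      · induction q using Quotient.inductionOn with
        | h i =>
          rw [Sum.elim_inr, ← hh a i₀ i]
          simp only [h, pre_zero, ← Perm.coe_inv, inv_one, Perm.coe_one, id_eq]
    have hhadd : ∀ a b, h 0 (a + b) i₀ = h 0 a i₀ + h 0 b i₀ := fun a b => by
      simp only [h, cls, ← map_add, ← Pi.single_add]
    let H : A →+ (Punct σ → A) ⧸ R := AddMonoidHom.mk' (fun a => h 0 a i₀) hhadd
    have hx0 : QuotientAddGroup.mk' R x = 0 := by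
      have e : QuotientAddGroup.mk' R x = ∑ q, cls q (x q) := by
        simp only [cls]
        rw [← map_sum, Finset.univ_sum_single]
      rw [e]
      have e2 : ∀ q, cls q (x q) = -H (Sum.elim (fun _ => x q) (fun _ => -x q) q) := by
        intro q
        rw [hall]
        rcases q with q | q
        · rfl
        · rw [Sum.elim_inr, Sum.elim_inr, map_neg, neg_neg]
          rfl
      rw [Finset.sum_congr rfl fun q _ => e2 q, Finset.sum_neg_distrib, ← map_sum]
      rw [show (∑ q, Sum.elim (fun _ => x q) (fun _ => -x q) q) = 0 from hx]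
      simp
    rwa [QuotientAddGroup.mk'_apply, QuotientAddGroup.eq_zero_iff] at hx0

/-- The classes of cochains with trivial loop sums, modulo gauge. -/
abbrev MonoClasses (A : Type*) [AddCommGroup A] : Type _ :=
  (cycleSum σ : (Fin r → ι → A) →+ _).ker ⧸
    ((gauge σ : (ι → A) →+ _).range).addSubgroupOf (cycleSum σ : (Fin r → ι → A) →+ _).ker

/-- **The number of monodromy classes.** -/
theorem natCard_monoClasses [Nonempty ι] (ht : IsTransitiveMono σ) :
    Nat.card (MonoClasses σ A) * Nat.card A ^ (Fintype.card ι + Nat.card (Punct σ))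
      = Nat.card A ^ (r * Fintype.card ι + 2) := by
  classical
  let : Fintype (Punct σ) := Fintype.ofFinite _
  set Φ := (cycleSum σ : (Fin r → ι → A) →+ (Punct σ → A))
  set δ := (gauge σ : (ι → A) →+ (Fin r → ι → A))
  set ψ := (balance σ : (Punct σ → A) →+ A)
  have hle : δ.range ≤ Φ.ker := by
    rintro _ ⟨a, rfl⟩
    exact cycleSum_gauge σ a
  obtain ⟨i₀⟩ := ‹Nonempty ι›
  have hψ : Function.Surjective ψ := by
    intro a
    refine ⟨Pi.single (.inr (Quotient.mk _ i₀)) (-a), ?_⟩
    simp only [ψ, balance, AddMonoidHom.mk'_apply]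
    rw [Finset.sum_eq_single (Sum.inr (Quotient.mk _ i₀))
      (fun q _ hq => by rcases q with q | q <;> simp [Pi.single_eq_of_ne hq]) (by simp)]
    simp
  have h1 : Nat.card (MonoClasses σ A) * Nat.card δ.range = Nat.card Φ.ker := by
    rw [AddSubgroup.card_eq_card_quotient_mul_card_addSubgroup (δ.range.addSubgroupOf Φ.ker),
      Nat.card_congr (AddSubgroup.addSubgroupOfEquivOfLe hle).toEquiv]
  have h2 : Nat.card Φ.ker * Nat.card Φ.range = Nat.card A ^ (r * Fintype.card ι) := by
    rw [← Nat.card_congr (QuotientAddGroup.quotientKerEquivRange Φ).toEquiv, mul_comm,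
      ← AddSubgroup.card_eq_card_quotient_mul_card_addSubgroup]
    rw [Nat.card_fun, Nat.card_fun, Nat.card_eq_fintype_card (α := Fin r), Fintype.card_fin,
      ← pow_mul, mul_comm, Nat.card_eq_fintype_card (α := ι)]
  have h3 : Nat.card Φ.range * Nat.card A = Nat.card A ^ Nat.card (Punct σ) := by
    have e := AddSubgroup.card_eq_card_quotient_mul_card_addSubgroup ψ.ker
    rw [Nat.card_congr (QuotientAddGroup.quotientKerEquivOfSurjective ψ hψ).toEquiv,
      Nat.card_fun] at e
    rw [range_cycleSum σ ht, mul_comm, ← e]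
  have h4 : Nat.card δ.range * Nat.card A = Nat.card A ^ Fintype.card ι := by
    have e := AddSubgroup.card_eq_card_quotient_mul_card_addSubgroup δ.ker
    rw [Nat.card_congr (QuotientAddGroup.quotientKerEquivRange δ).toEquiv, Nat.card_fun] at e
    have ker : Nat.card δ.ker = Nat.card A := by
      refine Nat.card_congr
        { toFun := fun a => a.1 i₀
          invFun := fun x => ⟨fun _ => x, by
            rw [AddMonoidHom.mem_ker]; funext k i; simp [δ]⟩
          left_inv := ?_
          right_inv := fun x => rfl }
      rintro ⟨a, ha⟩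
      apply Subtype.ext
      funext i
      refine (ht.const (f := a) (fun k j => ?_) i₀ i).symm
      have := congr_fun (congr_fun ha k) j
      simp only [δ, gauge_apply, Pi.zero_apply, sub_eq_zero] at this
      exact this.symm
    rw [ker] at e
    rw [← Nat.card_eq_fintype_card, e]
  calc Nat.card (MonoClasses σ A) * Nat.card A ^ (Fintype.card ι + Nat.card (Punct σ))
      = (Nat.card (MonoClasses σ A) * Nat.card δ.range) * Nat.card Φ.range
          * Nat.card A ^ 2 := by rw [pow_add, ← h3, ← h4]; ring
    _ = _ := by rw [h1, h2, pow_add]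

/-- Lifting cochains with trivial loop sums from `ZMod m` to `ℤ`. -/
theorem exists_int_lift [Nonempty ι] (ht : IsTransitiveMono σ) {m : ℕ} (hm : 0 < m)
    (c : Fin r → ι → ZMod m) (hc : cycleSum σ c = 0) :
    ∃ d : Fin r → ι → ℤ, cycleSum σ d = 0 ∧ ∀ k i, (d k i : ZMod m) = c k i := by
  classical
  let : Fintype (Punct σ) := Fintype.ofFinite _
  choose d₀ hd₀ using fun k i => ZMod.intCast_surjective (c k i)
  have hcast : ∀ q, ((cycleSum σ d₀ q : ℤ) : ZMod m) = 0 := by
    intro q
    have := congr_fun hc q
    rcases q with q | q <;>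
      simpa [cycleSum, bigLoop, hd₀] using this
  choose x hx using fun q => (ZMod.intCast_zmod_eq_zero_iff_dvd _ _).1 (hcast q)
  have hx' : cycleSum σ d₀ = (m : ℤ) • x := funext fun q => by simpa using hx q
  have hbal : balance σ x = 0 := by
    have h0 : balance σ (cycleSum σ d₀) = 0 :=
      (range_cycleSum σ ht).le ⟨d₀, rfl⟩
    rw [hx', map_zsmul, smul_eq_zero] at h0
    exact h0.resolve_left (by exact_mod_cast hm.ne')
  obtain ⟨u, hu⟩ := (range_cycleSum σ ht).ge hbal
  refine ⟨d₀ - (m : ℤ) • u, ?_, fun k i => ?_⟩
  · rw [map_sub, map_zsmul, hu, hx', sub_self]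
  · simp [hd₀]

open scoped Classical in
/-- A function with zero cycle sums is of the form `a - a ∘ p`. -/
theorem exists_sub_comp_eq {V : Type*} [AddCommGroup V] [Module ℚ V] (p : Perm ι) (f : ι → V)
    (hf : ∀ q : Quotient (cyc p), ∑ i with Quotient.mk (cyc p) i = q, f i = 0) :
    ∃ a : ι → V, ∀ i, a i - a (p i) = f i := by
  set N := orderOf p
  have hN : 0 < N := orderOf_pos p
  have hpN : p ^ N = 1 := pow_orderOf_eq_one p
  set S : ι → V := fun i => ∑ j ∈ Finset.range N, f ((p ^ j) i)
  have hSinv : ∀ i, S (p i) = S i := by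
    intro i
    have e1 := Finset.sum_range_succ (fun j => f ((p ^ j) i)) N
    rw [Finset.sum_range_succ', hpN] at e1
    simp only [pow_zero, add_left_inj] at e1
    simpa [S, pow_succ] using e1
  have hScyc : ∀ i j, Perm.SameCycle p i j → S j = S i := by
    intro i j hij
    obtain ⟨k, hk, rfl⟩ := hij.exists_pow_eq'
    clear hk hij
    induction k with
    | zero => simp
    | succ k ih => rw [pow_succ', Perm.mul_apply, hSinv, ih]
  have hS : ∀ i, S i = 0 := by
    intro i
    have htot : ∑ j with Quotient.mk (cyc p) j = Quotient.mk _ i, S j = 0 := by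
      simp only [S]
      rw [Finset.sum_comm]
      refine Finset.sum_eq_zero fun k hk => ?_
      clear hk
      induction k with
      | zero => simpa using hf _
      | succ k ih =>
        rw [← ih]
        simp only [pow_succ, Perm.mul_apply]
        exact sum_filter_cyc_comp p (fun j => f ((p ^ k) j)) _
    rw [Finset.sum_congr rfl (g := fun _ => S i) (fun j hj => hScyc i j
      ((Quotient.exact (Finset.mem_filter.1 hj).2.symm))), Finset.sum_const,
      ← Nat.cast_smul_eq_nsmul ℚ, smul_eq_zero] at htot
    refine htot.resolve_left ?_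
    simp only [Nat.cast_eq_zero, Finset.card_eq_zero]
    intro h
    have : i ∈ ({j | Quotient.mk (cyc p) j = Quotient.mk _ i} : Finset ι) := by simp
    rw [h] at this
    simp at this
  refine ⟨fun i => -((N : ℚ)⁻¹ • ∑ j ∈ Finset.range N, (j : ℚ) • f ((p ^ j) i)), fun i => ?_⟩
  have e : (∑ j ∈ Finset.range N, (j : ℚ) • f ((p ^ j) (p i))) + S (p i)
      = (∑ j ∈ Finset.range N, (j : ℚ) • f ((p ^ j) i)) + (N : ℚ) • f i := by
    have e1 := Finset.sum_range_succ (fun j => (j : ℚ) • f ((p ^ j) i)) N
    rw [Finset.sum_range_succ', hpN] at e1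
    simp only [pow_succ, Perm.mul_apply, Nat.cast_zero, zero_smul, add_zero, Perm.one_apply] at e1
    rw [← e1, ← Finset.sum_add_distrib]
    refine Finset.sum_congr rfl fun j _ => ?_
    push_cast
    rw [add_smul, one_smul]
  rw [hS, add_zero] at e
  simp only [sub_neg_eq_add]
  rw [e, smul_add, smul_smul, inv_mul_cancel₀ (by exact_mod_cast hN.ne'), one_smul]
  abel

end Fermat.Agent.Tors
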