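import Mathlib
import Fermat.Agent.FF.Places

/-!
# Plane models of function fields

A `Model K F` presents `F` as `K(x)[θ]` with `θ` integral over `K[x]`, root of the monic `P`.
-/

noncomputable section

open Polynomial IntermediateField AlgebraicCurve

namespace Fermat.Agent.Tors

/-- A plane model `F = K(x)[θ]/P`. -/
structure Model (K F : Type*) [Field K] [Field F] [Algebra K F] where
  /-- The transcendental coordinate. -/
  x : F
  /-- The generator over `K(x)`. -/
  θ : F
  /-- The monic equation of `θ` over `K[x]`. -/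
  P : K[X][X]
  monic : P.Monic
  transc : Transcendental K x
  root : P.eval₂ (aeval x).toRingHom θ = 0
  indep : ∀ A : K[X][X], A.degree < P.degree → A.eval₂ (aeval x).toRingHom θ = 0 → A = 0
  exists_rep : ∀ f : F, ∃ (A : K[X][X]) (d : K[X]), d ≠ 0 ∧
    f * aeval x d = A.eval₂ (aeval x).toRingHom θ

namespace Model

variable {K F : Type*} [Field K] [Field F] [Algebra K F] (M : Model K F)

/-- The degree of the model. -/
def n : ℕ := M.P.natDegree

/-- Evaluation of a representative. -/
def ev : K[X][X] →+* F := eval₂RingHom (aeval M.x).toRingHom M.θ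

theorem ev_apply (A : K[X][X]) : M.ev A = A.eval₂ (aeval M.x).toRingHom M.θ := rfl

@[simp] theorem ev_C (a : K[X]) : M.ev (C a) = aeval M.x a := by simp [ev_apply]

@[simp] theorem ev_X : M.ev X = M.θ := by simp [ev_apply]

@[simp] theorem ev_P : M.ev M.P = 0 := M.root

theorem aeval_eq_zero_iff {a : K[X]} : aeval M.x a = 0 ↔ a = 0 :=
  ⟨fun h => transcendental_iff.mp M.transc a h, fun h => by simp [h]⟩

theorem aeval_ne_zero {a : K[X]} (h : a ≠ 0) : aeval M.x a ≠ 0 :=
  fun h' => h (M.aeval_eq_zero_iff.1 h')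

theorem n_pos : 0 < M.n := by
  rw [pos_iff_ne_zero]
  intro h
  have := M.monic.natDegree_eq_zero.1 h
  simpa [this] using M.ev_P

theorem ev_modByMonic (A : K[X][X]) : M.ev (A %ₘ M.P) = M.ev A := by
  conv_rhs => rw [← modByMonic_add_div A (q := M.P), map_add, map_mul, ev_P, zero_mul, add_zero]

theorem ev_eq_zero_iff {A : K[X][X]} : M.ev A = 0 ↔ M.P ∣ A := by
  refine ⟨fun h => ?_, fun ⟨q, hq⟩ => by simp [hq]⟩
  rw [← modByMonic_eq_zero_iff_dvd M.monic]
  refine M.indep _ (degree_modByMonic_lt _ M.monic) ?_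
  rw [← ev_apply, M.ev_modByMonic, h]

theorem exists_rep' (f : F) : ∃ (A : K[X][X]) (d : K[X]), d ≠ 0 ∧ f * aeval M.x d = M.ev A :=
  M.exists_rep f

theorem mem_adjoin_x (a : K[X]) : aeval M.x a ∈ K⟮M.x⟯ :=
  algebra_adjoin_le_adjoin K _ (aeval_mem_adjoin_singleton K M.x)

/-- The powers of `θ` below the degree are independent over `K(x)`. -/
theorem linearIndependent_pow :
    LinearIndependent K⟮M.x⟯ (fun i : Fin M.n => M.θ ^ (i : ℕ)) := by
  refine Fermat.Agent.FF.linearIndependent_adjoin M.transc _ fun φ hφ i => ?_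
  have h : (∑ j : Fin M.n, C (φ j) * X ^ (j : ℕ) : K[X][X]) = 0 := by
    refine M.indep _ ?_ ?_
    · rw [degree_eq_natDegree M.monic.ne_zero]
      exact degree_sum_fin_lt (fun j => φ j)
    · rw [← ev_apply, ← hφ]
      simp
  have := congrArg (fun q => q.coeff (i : ℕ)) h
  simp only [finsetSum_coeff, coeff_C_mul, coeff_X_pow, mul_ite, mul_one, mul_zero, coeff_zero,
    Fin.val_inj, Finset.sum_ite_eq, Finset.mem_univ, if_true] at this
  simp [this]

/-- The basis `1, θ, …, θ^(n-1)` over `K(x)`. -/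
def basis : Module.Basis (Fin M.n) K⟮M.x⟯ F :=
  Module.Basis.mk M.linearIndependent_pow <| by
    rintro f -
    obtain ⟨A, d, hd, h⟩ := M.exists_rep' f
    rw [← ev_modByMonic] at h
    have hdeg : (A %ₘ M.P).natDegree < M.n ∨ A %ₘ M.P = 0 := by
      by_cases h0 : A %ₘ M.P = 0
      · exact Or.inr h0
      · exact Or.inl (natDegree_lt_natDegree h0 (degree_modByMonic_lt _ M.monic))
    have hsum : M.ev (A %ₘ M.P)
        = ∑ i : Fin M.n, aeval M.x ((A %ₘ M.P).coeff i) * M.θ ^ (i : ℕ) := by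
      rw [ev_apply, Fin.sum_univ_eq_sum_range
        (fun i => aeval M.x ((A %ₘ M.P).coeff i) * M.θ ^ i) M.n]
      rcases hdeg with h' | h'
      · exact eval₂_eq_sum_range' _ h' _
      · simp [h']
    have hf : f = ∑ i : Fin M.n,
        (⟨aeval M.x ((A %ₘ M.P).coeff i) * (aeval M.x d)⁻¹,
          mul_mem (M.mem_adjoin_x _) (inv_mem (M.mem_adjoin_x _))⟩ : K⟮M.x⟯) • M.θ ^ (i : ℕ) := by
      simp only [IntermediateField.smul_def, smul_eq_mul, mul_right_comm _ (aeval M.x d)⁻¹,
        ← Finset.sum_mul]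
      rw [← hsum, ← h, mul_assoc, mul_inv_cancel₀ (M.aeval_ne_zero hd), mul_one]
    rw [hf]
    exact Submodule.sum_mem _ fun i _ => Submodule.smul_mem _ _ (Submodule.subset_span ⟨i, rfl⟩)

theorem finiteDimensional : FiniteDimensional K⟮M.x⟯ F := Module.Finite.of_basis M.basis

theorem finrank_eq : Module.finrank K⟮M.x⟯ F = M.n := by
  rw [Module.finrank_eq_card_basis M.basis, Fintype.card_fin]

theorem isFunctionField (M : Model K F) : Fermat.Agent.FF.IsFunctionField K F :=
  ⟨⟨M.x, M.transc, M.finiteDimensional⟩⟩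

section Specialise

variable {L : Type*} [CommRing L] (ψ : K[X] →+* L)

/-- Matrix of multiplication by `A` in the basis of powers of `θ`. -/
def mulMat (A : K[X][X]) : Matrix (Fin M.n) (Fin M.n) K[X] :=
  Matrix.of fun i j => ((A * X ^ (j : ℕ)) %ₘ M.P).coeff i

/-- At a root `y` the powers of `y` turn `mulMat A` into multiplication by the value of `A`. -/
theorem mulMat_spec (A : K[X][X]) {y : L} (hy : M.P.eval₂ ψ y = 0) (j : Fin M.n) :
    A.eval₂ ψ y * y ^ (j : ℕ) = ∑ i : Fin M.n, ψ (M.mulMat A i j) * y ^ (i : ℕ) := by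
  have h1 : A.eval₂ ψ y * y ^ (j : ℕ) = ((A * X ^ (j : ℕ)) %ₘ M.P).eval₂ ψ y := by
    conv_rhs => rw [← add_zero (eval₂ ψ y _)]
    conv_lhs => rw [← eval₂_X_pow (f := ψ), ← eval₂_mul,
      ← modByMonic_add_div (A * X ^ (j : ℕ)) (q := M.P), eval₂_add, eval₂_mul, hy, zero_mul]
  simp only [h1, mulMat, Matrix.of_apply]
  rw [Fin.sum_univ_eq_sum_range (fun i => ψ (((A * X ^ (j : ℕ)) %ₘ M.P).coeff i) * y ^ i) M.n]
  by_cases h0 : (A * X ^ (j : ℕ)) %ₘ M.P = 0
  · simp [h0]
  · exact eval₂_eq_sum_range' _ (natDegree_lt_natDegree h0 (degree_modByMonic_lt _ M.monic)) _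

/-- The characteristic polynomial of multiplication by `A`. -/
def cpoly (A : K[X][X]) : K[X][X] := (M.mulMat A).charpoly

theorem cpoly_monic (A : K[X][X]) : (M.cpoly A).Monic := Matrix.charpoly_monic _

theorem cpoly_natDegree (A : K[X][X]) : (M.cpoly A).natDegree = M.n := by
  rw [cpoly, Matrix.charpoly_natDegree_eq_dim, Fintype.card_fin]

/-- The value of `A` at a root is a root of the characteristic polynomial. -/
theorem cpoly_eval {L : Type*} [Field L] (ψ : K[X] →+* L) (A : K[X][X]) {y : L}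
    (hy : M.P.eval₂ ψ y = 0) : (M.cpoly A).eval₂ ψ (A.eval₂ ψ y) = 0 := by
  rw [eval₂_eq_eval_map, cpoly, ← Matrix.charpoly_map, Matrix.eval_charpoly]
  refine Matrix.exists_vecMul_eq_zero_iff.1 ⟨fun i => y ^ (i : ℕ), fun h => ?_, ?_⟩
  · simpa using congr_fun h ⟨0, M.n_pos⟩
  · funext j
    simp only [Matrix.vecMul, dotProduct, Matrix.sub_apply, Matrix.map_apply, Matrix.scalar_apply,
      Matrix.diagonal_apply, mul_sub, mul_ite, mul_zero, Finset.sum_sub_distrib,
      Finset.sum_ite_eq', Finset.mem_univ, if_true, Pi.zero_apply, sub_eq_zero]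
    rw [mul_comm, M.mulMat_spec ψ A hy j]
    exact Finset.sum_congr rfl fun i _ => mul_comm _ _

/-- Over `n` distinct roots the characteristic polynomial splits along the values of `A`. -/
theorem cpoly_map_eq_prod {L : Type*} [Field L] (ψ : K[X] →+* L) (A : K[X][X]) (y : Fin M.n → L)
    (hinj : Function.Injective y) (hy : ∀ i, M.P.eval₂ ψ (y i) = 0) :
    (M.cpoly A).map ψ = ∏ i, (X - C (A.eval₂ ψ (y i))) := by
  set V := Matrix.vandermonde y with hV
  have hdet : V.det ≠ 0 := Matrix.det_vandermonde_ne_zero_iff.2 hinj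
  set N := (M.mulMat A).map ψ
  have key : Matrix.diagonal (fun i => A.eval₂ ψ (y i)) * V = V * N := by
    ext i j
    rw [Matrix.diagonal_mul, Matrix.mul_apply, hV, Matrix.vandermonde_apply,
      M.mulMat_spec ψ A (hy i) j]
    simp [N, Matrix.vandermonde_apply, mul_comm]
  obtain ⟨u, hu⟩ := (Matrix.isUnit_iff_isUnit_det V).2 (isUnit_iff_ne_zero.2 hdet)
  have hVu : V⁻¹ * V = 1 := Matrix.nonsing_inv_mul V (isUnit_iff_ne_zero.2 hdet)
  have hN : N = u.val⁻¹ * Matrix.diagonal (fun i => A.eval₂ ψ (y i)) * u.val := by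
    rw [hu, mul_assoc, key, ← mul_assoc, hVu, one_mul]
  rw [cpoly, ← Matrix.charpoly_map]
  show N.charpoly = _
  rw [hN, Matrix.charpoly_units_conj', Matrix.charpoly_diagonal]

theorem cpoly_ev (A : K[X][X]) : (M.cpoly A).eval₂ (aeval M.x).toRingHom (M.ev A) = 0 :=
  M.cpoly_eval _ A M.root

end Specialise

section Disc

variable [CharZero K]

theorem ev_derivative_ne_zero : M.ev (derivative M.P) ≠ 0 := by
  intro h
  have h0 := M.indep _ (degree_derivative_lt M.monic.ne_zero) h
  have := congrArg (fun q => q.coeff (M.n - 1)) h0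
  have hn : M.n - 1 + 1 = M.n := Nat.sub_add_cancel M.n_pos
  simp only [coeff_derivative, coeff_zero] at this
  rw [hn, show M.P.coeff M.n = 1 from M.monic.coeff_natDegree, one_mul, ← Nat.cast_succ,
    Nat.cast_eq_zero] at this
  omega

/-- A non-zero constant lies in the ideal of `P` and its derivative. -/
theorem exists_disc : ∃ (A : K[X][X]) (d : K[X]), d ≠ 0 ∧ M.P ∣ derivative M.P * A - C d := by
  obtain ⟨A, d, hd, h⟩ := M.exists_rep' (M.ev (derivative M.P))⁻¹
  refine ⟨A, d, hd, M.ev_eq_zero_iff.1 ?_⟩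
  rw [map_sub, map_mul, ev_C, ← h, ← mul_assoc, mul_inv_cancel₀ M.ev_derivative_ne_zero, one_mul,
    sub_self]

/-- Constants in the ideal generated by `P` and its derivative. -/
def discIdeal : Ideal K[X] := Ideal.comap C (Ideal.span {M.P, derivative M.P})

/-- A polynomial outside whose roots the equation `P` has simple roots. -/
def disc : K[X] := Submodule.IsPrincipal.generator M.discIdeal

omit [CharZero K] in
theorem mem_discIdeal {d : K[X]} :
    d ∈ M.discIdeal ↔ ∃ A B : K[X][X], A * M.P + B * derivative M.P = C d := by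
  rw [discIdeal, Ideal.mem_comap, Ideal.mem_span_pair]

omit [CharZero K] in
theorem exists_bezout : ∃ A B : K[X][X], A * M.P + B * derivative M.P = C M.disc :=
  M.mem_discIdeal.1 (Submodule.IsPrincipal.generator_mem _)

omit [CharZero K] in
theorem disc_dvd {d : K[X]} (h : d ∈ M.discIdeal) : M.disc ∣ d :=
  (Submodule.IsPrincipal.mem_iff_generator_dvd _).1 h

theorem disc_ne_zero : M.disc ≠ 0 := by
  intro h
  obtain ⟨A, d, hd, q, hq⟩ := M.exists_disc
  have hmem : d ∈ M.discIdeal :=
    M.mem_discIdeal.2 ⟨-q, A, by linear_combination hq⟩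
  have := M.disc_dvd hmem
  rw [h, zero_dvd_iff] at this
  exact hd this

omit [CharZero K] in
theorem derivative_eval_ne_zero {L : Type*} [CommRing L] (ψ : K[X] →+* L)
    {y : L} (hd : ψ M.disc ≠ 0) (hy : M.P.eval₂ ψ y = 0) :
    (derivative M.P).eval₂ ψ y ≠ 0 := by
  intro h
  obtain ⟨A, B, hAB⟩ := M.exists_bezout
  have := congrArg (eval₂ ψ y) hAB
  rw [eval₂_add, eval₂_mul, eval₂_mul, h, hy, eval₂_C, mul_zero, mul_zero, add_zero] at this
  exact hd this.symm

omit [CharZero K] in
/-- Where the discriminant does not vanish the fibre consists of `n` simple roots. -/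
theorem exists_roots {L : Type*} [Field L] [IsAlgClosed L] (ψ : K[X] →+* L)
    (hd : ψ M.disc ≠ 0) : ∃ y : Fin M.n → L, Function.Injective y ∧
      (∀ i, M.P.eval₂ ψ (y i) = 0) ∧ ∀ z, M.P.eval₂ ψ z = 0 → ∃ i, y i = z := by
  classical
  set Q := M.P.map ψ with hQ
  have hQn : Q.natDegree = M.n := M.monic.natDegree_map ψ
  have hmon : Q.Monic := M.monic.map ψ
  have hnd : Q.roots.Nodup := by
    rw [Multiset.nodup_iff_count_le_one]
    intro a
    by_contra hc
    rw [not_le, count_roots] at hc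
    have hr : Q.IsRoot a := (rootMultiplicity_pos hmon.ne_zero).1 (by omega)
    have hdr := (one_lt_rootMultiplicity_iff_isRoot hmon.ne_zero).1 hc
    refine M.derivative_eval_ne_zero ψ hd (y := a) ?_ ?_
    · rw [eval₂_eq_eval_map]; exact hr
    · rw [eval₂_eq_eval_map, ← derivative_map]; exact hdr.2
  have hcard : Q.roots.toFinset.card = M.n := by
    rw [Multiset.toFinset_card_of_nodup hnd, ← (IsAlgClosed.splits Q).natDegree_eq_card_roots,
      hQn]
  let e := Q.roots.toFinset.equivFinOfCardEq hcard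
  refine ⟨fun i => (e.symm i : L), Subtype.coe_injective.comp e.symm.injective, fun i => ?_,
    fun z hz => ⟨e ⟨z, ?_⟩, by simp⟩⟩
  · have := (e.symm i).2
    rw [Multiset.mem_toFinset, mem_roots hmon.ne_zero] at this
    rw [eval₂_eq_eval_map]
    exact this
  · rw [Multiset.mem_toFinset, mem_roots hmon.ne_zero]
    rw [eval₂_eq_eval_map] at hz
    exact hz

end Disc

end Model

end Fermat.Agent.Tors
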