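import Mathlib
import Fermat.Agent.FF.Degree
import Fermat.Agent.FF.DiffUnramified
import Fermat.Agent.Tors.Model

/-!
# Fibres of the projection `x` of a plane model

Base points are `b : Option K`, `none` standing for infinity.
-/

noncomputable section

open Polynomial IntermediateField AlgebraicCurve Fermat.Agent.FF

namespace Fermat.Agent.Tors

variable {K F : Type*} [Field K] [Field F] [Algebra K F]

/-- Order of a polynomial at a point of the projective line. -/
def mu : Option K → K[X] → ℤ
  | some c, a => (a.rootMultiplicity c : ℤ)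
  | none, a => -(a.natDegree : ℤ)

/-- `mu` is additive on products. -/
theorem mu_mul (b : Option K) {a a' : K[X]} (h : a ≠ 0) (h' : a' ≠ 0) :
    mu b (a * a') = mu b a + mu b a' := by
  cases b with
  | some c => simp [mu, rootMultiplicity_mul (mul_ne_zero h h')]
  | none => simp [mu, natDegree_mul h h']; ring

/-- In a vanishing monic relation some lower term has order at most that of the leading one. -/
theorem false_of_monic_relation {v : Place K F} {y : F} (hy : y ≠ 0) {N : ℕ} {a : ℕ → F}
    (h : y ^ N + ∑ k ∈ Finset.range N, a k * y ^ k = 0)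
    (ha : ∀ k < N, a k ≠ 0 → ((N : ℤ) - k) * v.ord y < v.ord (a k)) : False := by
  have hrest : (∑ k ∈ Finset.range N, a k * y ^ k) ∈ poleLe v (-((N : ℤ) * v.ord y + 1)) := by
    refine sum_mem fun k hk => ?_
    rw [mem_poleLe]
    by_cases hk0 : a k = 0
    · left; simp [hk0]
    right
    have := ha k (Finset.mem_range.1 hk) hk0
    rw [v.ord_mul hk0 (pow_ne_zero _ hy), FF.ord_pow]
    linarith
  rw [eq_neg_of_add_eq_zero_right h, neg_mem_iff, mem_poleLe_of_ne v (pow_ne_zero _ hy),
    FF.ord_pow] at hrest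
  omega

namespace Model

variable (M : Model K F)

/-- Local parameter of the projective line at `b`, as a function on the curve. -/
def xi : Option K → F
  | some c => M.x - algebraMap K F c
  | none => M.x⁻¹

theorem transcendental_xi (b : Option K) : Transcendental K (M.xi b) := by
  cases b with
  | some c => exact transcendental_sub_const M.transc c
  | none => exact transcendental_inv M.transc

theorem xi_ne_zero (b : Option K) : M.xi b ≠ 0 :=
  fun h => M.transcendental_xi b (h ▸ isAlgebraic_zero)

theorem finrank_xi (b : Option K) : Module.finrank K⟮M.xi b⟯ F = M.n := by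
  cases b with
  | some c => rw [xi, adjoin_sub_const_eq, M.finrank_eq]
  | none => rw [xi, finrank_adjoin_inv, M.finrank_eq]

theorem xi_mem_adjoin_x (b : Option K) : M.xi b ∈ K⟮M.x⟯ := by
  cases b with
  | some c => exact sub_mem (mem_adjoin_simple_self K _) ((K⟮M.x⟯).algebraMap_mem c)
  | none => exact inv_mem (mem_adjoin_simple_self K _)

/-- `v` lies over the base point `b`. -/
def Over (b : Option K) (v : Place K F) : Prop := 0 < v.ord (M.xi b)

/-- The element is a rational function of `x`, given as a fraction. -/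
theorem mem_adjoin_x_iff {f : F} :
    f ∈ K⟮M.x⟯ ↔ ∃ a d : K[X], d ≠ 0 ∧ f = aeval M.x a / aeval M.x d := by
  constructor
  · intro h
    obtain ⟨a, d, h⟩ := (mem_adjoin_simple_iff K f).1 h
    by_cases hd : d = 0
    · exact ⟨0, 1, one_ne_zero, by simp [h, hd]⟩
    · exact ⟨a, d, hd, h⟩
  · rintro ⟨a, d, -, rfl⟩
    exact div_mem (M.mem_adjoin_x a) (M.mem_adjoin_x d)

theorem ord_x_neg {v : Place K F} (h : M.Over none v) : v.ord M.x < 0 := by
  have : 0 < v.ord M.x⁻¹ := h
  rw [v.ord_inv] at this
  omega

theorem x_ne_zero : M.x ≠ 0 := fun h => M.transc (h ▸ isAlgebraic_zero)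

theorem x_mem_of_over {c : K} {v : Place K F} (h : M.Over (some c) v) :
    M.x ∈ v.toValuationSubring := by
  have h1 : M.x - algebraMap K F c ∈ v.toValuationSubring :=
    (mem_iff_ord_nonneg v).2 (le_of_lt h)
  simpa using add_mem h1 (v.algebraMap_mem' c)

/-- The order of a polynomial in `x` at a place over `b` is its order at `b` times the index. -/
theorem ord_aeval {b : Option K} {v : Place K F} (hv : M.Over b v) :
    ∀ {a : K[X]}, a ≠ 0 → v.ord (aeval M.x a) = v.ord (M.xi b) * mu b a := by
  cases b with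
  | some c =>
    intro a ha
    obtain ⟨q, hq, hqc⟩ := Polynomial.exists_eq_pow_rootMultiplicity_mul_and_not_dvd a ha c
    have hq0 : q.eval c ≠ 0 := fun h => hqc (dvd_iff_isRoot.2 h)
    have hqne : q ≠ 0 := fun h => hq0 (by simp [h])
    obtain ⟨r, hr⟩ := X_sub_C_dvd_sub_C_eval (a := c) (p := q)
    have hq1 : aeval M.x q = algebraMap K F (q.eval c) + M.xi (some c) * aeval M.x r := by
      have h := congrArg (aeval M.x) hr
      simp only [map_sub, map_mul, aeval_X, aeval_C] at h
      simp only [xi]
      linear_combination h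
    have hrnn : 0 ≤ v.ord (aeval M.x r) :=
      (mem_iff_ord_nonneg v).1 (aeval_mem_of_mem _ v.algebraMap_mem' (M.x_mem_of_over hv) r)
    have hordq : v.ord (aeval M.x q) = 0 := by
      rw [hq1, ord_add_eq_of_lt v ((_root_.map_ne_zero _).2 hq0), FF.ord_algebraMap]
      by_cases hr0 : aeval M.x r = 0
      · left; simp [hr0]
      · right
        rw [FF.ord_algebraMap, v.ord_mul (M.xi_ne_zero _) hr0]
        have : 0 < v.ord (M.xi (some c)) := hv
        omega
    conv_lhs => rw [hq]
    rw [map_mul, v.ord_mul (M.aeval_ne_zero (pow_ne_zero _ (X_sub_C_ne_zero c)))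
      (M.aeval_ne_zero hqne), hordq, map_pow, map_sub, aeval_X, aeval_C, FF.ord_pow]
    simp [xi, mu, mul_comm]
  | none =>
    intro a
    induction a using Polynomial.recOnHorner with
    | M0 => simp
    | MC p a hp ha ih =>
      intro hne
      by_cases hp0 : p = 0
      · simp [hp0, mu, FF.ord_algebraMap]
      · have hdeg : 0 < p.natDegree := by
          rw [pos_iff_ne_zero]
          intro h0
          obtain ⟨s, hs⟩ := natDegree_eq_zero.1 h0
          exact hp0 (by rw [← hs] at hp ⊢; simpa using hp)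
        have hord := ih hp0
        rw [map_add, aeval_C, ord_add_eq_of_lt v (M.aeval_ne_zero hp0) (Or.inr ?_), hord]
        · simp [mu]
        · rw [FF.ord_algebraMap, hord]
          simp only [mu, xi, v.ord_inv]
          have := M.ord_x_neg hv
          exact mul_neg_of_pos_of_neg (by omega) (by omega)
    | MX p hp ih =>
      intro hne
      rw [map_mul, aeval_X, v.ord_mul (M.aeval_ne_zero hp) M.x_ne_zero, ih hp]
      simp only [mu, xi, v.ord_inv, natDegree_mul_X hp]
      push_cast
      ring

theorem ord_aeval_div {b : Option K} {v : Place K F} (hv : M.Over b v) {a d : K[X]}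
    (ha : a ≠ 0) (hd : d ≠ 0) :
    v.ord (aeval M.x a / aeval M.x d) = v.ord (M.xi b) * (mu b a - mu b d) := by
  rw [FF.ord_div v (M.aeval_ne_zero ha) (M.aeval_ne_zero hd), M.ord_aeval hv ha,
    M.ord_aeval hv hd, mul_sub]

theorem over_some_unique {c c' : K} {v : Place K F} (h : M.Over (some c) v)
    (h' : M.Over (some c') v) : c = c' :=
  const_unique v (Or.inr h) (Or.inr h')

theorem not_over_none_and_some {c : K} {v : Place K F} (h : M.Over (some c) v) :
    ¬ M.Over none v := fun h' => absurd ((mem_iff_ord_nonneg v).1 (M.x_mem_of_over h))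
      (not_le.2 (M.ord_x_neg h'))

theorem over_unique {b b' : Option K} {v : Place K F} (h : M.Over b v) (h' : M.Over b' v) :
    b = b' := by
  cases b with
  | some c =>
    cases b' with
    | some c' => rw [M.over_some_unique h h']
    | none => exact absurd h' (M.not_over_none_and_some h)
  | none =>
    cases b' with
    | some c' => exact absurd h (M.not_over_none_and_some h')
    | none => rfl

section AlgClosed

variable [IsAlgClosed K]

theorem exists_over (v : Place K F) : ∃ b, M.Over b v := by
  have := M.isFunctionField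
  by_cases hx : 0 ≤ v.ord M.x
  · obtain ⟨c, hc⟩ := exists_const v hx
    exact ⟨some c, hc.resolve_left (M.xi_ne_zero (some c))⟩
  · refine ⟨none, ?_⟩
    show 0 < v.ord M.x⁻¹
    rw [v.ord_inv]
    omega

theorem finite_over (b : Option K) : {v : Place K F | M.Over b v}.Finite :=
  haveI := M.isFunctionField
  finite_ord_pos (M.xi b)

/-- The places over `b`. -/
def fibre (b : Option K) : Finset (Place K F) := (M.finite_over b).toFinset

@[simp] theorem mem_fibre {b : Option K} {v : Place K F} : v ∈ M.fibre b ↔ M.Over b v := by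
  simp [fibre]

/-- `∑ e = n` over every base point. -/
theorem sum_ord_xi (b : Option K) : ∑ v ∈ M.fibre b, v.ord (M.xi b) = (M.n : ℤ) := by
  have := M.isFunctionField
  rw [← M.finrank_xi b, ← degree_zeroDiv (M.transcendental_xi b), degree_eq_sum,
    Finsupp.sum_of_support_subset (s := M.fibre b) _ ?_ _ (by simp)]
  · refine Finset.sum_congr rfl fun v hv => ?_
    rw [zeroDiv_apply, max_eq_left (le_of_lt (M.mem_fibre.1 hv))]
  · intro v hv
    rw [Finsupp.mem_support_iff, zeroDiv_apply] at hv
    rw [mem_fibre]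
    show 0 < v.ord (M.xi b)
    by_contra h
    exact hv (max_eq_right (by omega))

theorem fibre_nonempty (b : Option K) : (M.fibre b).Nonempty := by
  by_contra h
  rw [Finset.not_nonempty_iff_eq_empty] at h
  have h2 := M.sum_ord_xi b
  rw [h, Finset.sum_empty] at h2
  have := M.n_pos
  omega

/-- A function regular over `b` is integral over the local ring of `b`. -/
theorem exists_monic_relation {b : Option K} {h : F} (hreg : ∀ v, M.Over b v → 0 ≤ v.ord h) :
    ∃ q : F[X], q.Monic ∧ q.eval h = 0 ∧ ∀ i, ∃ a d : K[X], d ≠ 0 ∧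
      q.coeff i = aeval M.x a / aeval M.x d ∧ (a = 0 ∨ mu b d ≤ mu b a) := by
  have := M.isFunctionField
  obtain ⟨v₀, hv₀⟩ := M.fibre_nonempty b
  rw [mem_fibre] at hv₀
  have he : 0 < v₀.ord (M.xi b) := hv₀
  set O : Subring F := (K⟮M.x⟯).toSubfield.toSubring ⊓ v₀.toValuationSubring.toSubring with hO
  have hmemA : ∀ A : ValuationSubring F, (O : Set F) ⊆ A.toSubring → h ∈ A := by
    intro A hA
    have hK : ∀ a, algebraMap K F a ∈ A := fun a =>
      hA ⟨(K⟮M.x⟯).algebraMap_mem a, v₀.algebraMap_mem' a⟩
    by_cases htop : A = ⊤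
    · rw [htop]; exact ValuationSubring.mem_top _
    set v := placeOfValuationSubring A hK htop with hv
    have hxiA : M.xi b ∈ v.toValuationSubring :=
      hA ⟨M.xi_mem_adjoin_x b, (mem_iff_ord_nonneg v₀).2 he.le⟩
    suffices M.Over b v from (mem_iff_ord_nonneg v).2 (hreg v this)
    refine lt_of_le_of_ne ((mem_iff_ord_nonneg v).1 hxiA) fun h0 => ?_
    have hnn : ∀ f ∈ K⟮M.x⟯, f ≠ 0 → 0 ≤ v.ord f := by
      intro f hf hf0
      set k := (-v₀.ord f).toNat with hk
      have hp : f * M.xi b ^ k ∈ O := by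
        refine ⟨mul_mem hf (pow_mem (M.xi_mem_adjoin_x b) k), (mem_iff_ord_nonneg v₀).2 ?_⟩
        rw [v₀.ord_mul hf0 (pow_ne_zero _ (M.xi_ne_zero b)), FF.ord_pow]
        have h1 : (k : ℤ) * 1 ≤ (k : ℤ) * v₀.ord (M.xi b) :=
          mul_le_mul_of_nonneg_left (by omega) (by omega)
        omega
      have := (mem_iff_ord_nonneg v).1 (hA hp)
      rwa [v.ord_mul hf0 (pow_ne_zero _ (M.xi_ne_zero b)), FF.ord_pow, ← h0, mul_zero,
        add_zero] at this
    obtain ⟨b', hb'⟩ := M.exists_over v
    have := hnn _ (inv_mem (M.xi_mem_adjoin_x b')) (inv_ne_zero (M.xi_ne_zero b'))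
    rw [v.ord_inv] at this
    have : 0 < v.ord (M.xi b') := hb'
    omega
  have hint : h ∈ (integralClosure (Subring.closure (O : Set F)) F).toSubring := by
    rw [← iInf_valuationSubring_superset, Subring.mem_iInf]
    exact fun V => hmemA V.1 V.2
  obtain ⟨p, hp, hph⟩ := ((mem_integralClosure_iff _ _).1 hint)
  refine ⟨p.map (algebraMap _ F), hp.map _, by rwa [eval_map], fun i => ?_⟩
  have hc : algebraMap (Subring.closure (O : Set F)) F (p.coeff i) ∈ O :=
    Subring.closure_le.2 (le_refl (O : Set F)) (p.coeff i).2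
  rw [coeff_map]
  obtain ⟨a, d, hd, had⟩ := M.mem_adjoin_x_iff.1 hc.1
  refine ⟨a, d, hd, had, ?_⟩
  by_cases ha : a = 0
  · exact Or.inl ha
  right
  have h2 := (mem_iff_ord_nonneg v₀).1 hc.2
  rw [had, M.ord_aeval_div hv₀ ha hd] at h2
  have := nonneg_of_mul_nonneg_right h2 he
  omega

omit [IsAlgClosed K] in
/-- A function all of whose symmetric functions vanish at `b` vanishes over `b`. -/
theorem ord_pos_of_cpoly {b : Option K} {h : F} {A : K[X][X]} {d : K[X]} (hd : d ≠ 0)
    (hrep : h * aeval M.x d = M.ev A)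
    (hco : ∀ k < M.n, (M.cpoly A).coeff k = 0 ∨
      ((M.n : ℤ) - k) * mu b d < mu b ((M.cpoly A).coeff k)) :
    ∀ v, M.Over b v → h = 0 ∨ 0 < v.ord h := by
  intro v hv
  by_contra hcon
  rw [not_or, not_lt] at hcon
  obtain ⟨h0, hle⟩ := hcon
  have he : 0 < v.ord (M.xi b) := hv
  set y := M.ev A with hy
  have hy0 : y ≠ 0 := by
    rw [← hrep]; exact mul_ne_zero h0 (M.aeval_ne_zero hd)
  have hordy : v.ord y = v.ord h + v.ord (M.xi b) * mu b d := by
    rw [← hrep, v.ord_mul h0 (M.aeval_ne_zero hd), M.ord_aeval hv hd]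
  have hsum := M.cpoly_ev A
  rw [eval₂_eq_sum_range, M.cpoly_natDegree, Finset.sum_range_succ, add_comm,
    show (M.cpoly A).coeff M.n = 1 by
      rw [← M.cpoly_natDegree A]; exact (M.cpoly_monic A).coeff_natDegree,
    map_one, one_mul] at hsum
  refine false_of_monic_relation (v := v) hy0 hsum fun k hk hk0 => ?_
  have hc0 : (M.cpoly A).coeff k ≠ 0 := fun h' => hk0 (by simp [h'])
  show _ < v.ord (aeval M.x ((M.cpoly A).coeff k))
  rw [M.ord_aeval hv hc0, hordy]
  have h1 := mul_nonpos_of_nonneg_of_nonpos (show (0 : ℤ) ≤ (M.n : ℤ) - k by omega) hle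
  have h2 := mul_lt_mul_of_pos_left ((hco k hk).resolve_left hc0) he
  linarith

omit [IsAlgClosed K] in
/-- `θ` is regular at every finite place. -/
theorem regular_theta {c : K} {v : Place K F} (hv : M.Over (some c) v) :
    M.θ ∈ v.toValuationSubring := by
  by_contra hθ
  have hne : M.θ ≠ 0 := fun h => hθ (h ▸ zero_mem _)
  rw [mem_iff_ord_nonneg, not_le] at hθ
  have hsum := M.root
  rw [eval₂_eq_sum_range, Finset.sum_range_succ, add_comm, M.monic.coeff_natDegree, map_one,
    one_mul] at hsum
  refine false_of_monic_relation (v := v) hne hsum fun k hk hk0 => ?_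
  show _ < v.ord (aeval M.x (M.P.coeff k))
  have h0 := (mem_iff_ord_nonneg v).1
    (aeval_mem_of_mem _ v.algebraMap_mem' (M.x_mem_of_over hv) (M.P.coeff k))
  have h1 : ((M.P.natDegree : ℤ) - k) * v.ord M.θ < 0 := mul_neg_of_pos_of_neg (by omega) hθ
  omega

omit [IsAlgClosed K] in
theorem regular_ev {c : K} {v : Place K F} (hv : M.Over (some c) v) (A : K[X][X]) :
    M.ev A ∈ v.toValuationSubring := by
  rw [ev_apply, eval₂_eq_sum_range]
  exact sum_mem fun k _ => mul_mem
    (aeval_mem_of_mem _ v.algebraMap_mem' (M.x_mem_of_over hv) _)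
    (pow_mem (M.regular_theta hv) _)

omit [IsAlgClosed K] in
theorem adjoin_x_theta_eq_top : IntermediateField.adjoin K ({M.x, M.θ} : Set F) = ⊤ := by
  refine eq_top_iff.2 fun f _ => ?_
  obtain ⟨A, d, hd, h⟩ := M.exists_rep' f
  have hx : ∀ a : K[X], aeval M.x a ∈ IntermediateField.adjoin K ({M.x, M.θ} : Set F) := fun a =>
    IntermediateField.adjoin.mono K _ _ (by simp) (M.mem_adjoin_x a)
  have hθ : M.θ ∈ IntermediateField.adjoin K ({M.x, M.θ} : Set F) :=
    IntermediateField.subset_adjoin K _ (by simp)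
  have : f = M.ev A * (aeval M.x d)⁻¹ := by
    rw [← h, mul_inv_cancel_right₀ (M.aeval_ne_zero hd)]
  rw [this, ev_apply, eval₂_eq_sum_range]
  exact mul_mem (sum_mem fun k _ => mul_mem (hx _) (pow_mem hθ _)) (inv_mem (hx _))

/-- Outside the roots of the discriminant `x - c` is a local parameter. -/
theorem ord_xi_eq_one [CharZero K] {c : K} (hc : M.disc.eval c ≠ 0) {v : Place K F}
    (hv : M.Over (some c) v) : v.ord (M.xi (some c)) = 1 := by
  have := M.isFunctionField
  have hd : v.ord (aeval M.x M.disc) = 0 := by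
    rw [M.ord_aeval hv M.disc_ne_zero]
    simp [mu, rootMultiplicity_eq_zero hc]
  have hder : v.ord (M.ev (derivative M.P)) = 0 := by
    obtain ⟨A, B, hAB⟩ := M.exists_bezout
    have h1 := congrArg M.ev hAB
    rw [map_add, map_mul, map_mul, ev_C, ev_P, mul_zero, zero_add] at h1
    have h2 := congrArg v.ord h1
    rw [hd] at h2
    have hB0 : M.ev B ≠ 0 := by
      intro h0
      rw [h0, zero_mul] at h1
      exact M.aeval_ne_zero M.disc_ne_zero h1.symm
    rw [v.ord_mul hB0 M.ev_derivative_ne_zero] at h2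
    have e1 := (mem_iff_ord_nonneg v).1 (M.regular_ev hv (derivative M.P))
    have e2 := (mem_iff_ord_nonneg v).1 (M.regular_ev hv B)
    omega
  refine Diff.ord_sub_eq_one_of_simple_root (Diff.constResidue_of_deg_eq_one v (place_deg_eq_one v))
    M.adjoin_x_theta_eq_top (v.adicValuation_le_one_of_mem (M.x_mem_of_over hv))
    (v.adicValuation_le_one_of_mem (M.regular_theta hv)) (M.P.map (aeval M.x).toRingHom)
    (fun i => ⟨M.P.coeff i, by simp [coeff_map]⟩) ?_ ?_ ?_ (M.xi_ne_zero (some c))
  · rw [eval_map]; exact M.root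
  · rw [derivative_map, eval_map, ← ev_apply,
      v.adicValuation_eq_exp_neg_ord M.ev_derivative_ne_zero, hder, neg_zero, WithZero.exp_zero]
  · rw [v.adicValuation_le_exp_iff]
    right
    have : 0 < v.ord (M.xi (some c)) := hv
    simp only [xi] at this
    omega

end AlgClosed

end Model

end Fermat.Agent.Tors
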