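import Mathlib
import Fermat.Agent.Tors.Fibre

/-!
# Existence of plane models and affine changes of coordinate

A function field of characteristic zero has a plane model, and a model stays one after an affine
change of the coordinate `x`.
-/

noncomputable section

open Polynomial IntermediateField AlgebraicCurve

namespace Fermat.Agent.Tors

variable {K F : Type*} [Field K] [Field F] [Algebra K F]

/-- A primitive element of the extension gives a plane model. -/
theorem exists_model_of_primitive {x α : F} (hx : Transcendental K x)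
    [FiniteDimensional K⟮x⟯ F] (hα : (K⟮x⟯)⟮α⟯ = ⊤) : Nonempty (Model K F) := by
  classical
  set E := K⟮x⟯
  have hint : IsIntegral E α := Algebra.IsIntegral.isIntegral α
  set q := minpoly E α with hq
  have hqd : q.natDegree = Module.finrank E F := by
    rw [← IntermediateField.adjoin.finrank hint]
    rw [hα, IntermediateField.finrank_top']
  have hx' : ∀ a : K[X], a ≠ 0 → aeval x a ≠ 0 := fun a ha h => ha (transcendental_iff.mp hx a h)
  have hfrac : ∀ c : E, ∃ a d : K[X], d ≠ 0 ∧ (c : F) * aeval x d = aeval x a := by
    intro c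
    obtain ⟨a, d, h⟩ := (mem_adjoin_simple_iff K (c : F)).1 c.2
    by_cases hd : d = 0
    · exact ⟨0, 1, one_ne_zero, by simp [h, hd]⟩
    · exact ⟨a, d, hd, by rw [h, div_mul_cancel₀ _ (hx' d hd)]⟩
  choose num den hden hnd using hfrac
  set n := q.natDegree
  set D : K[X] := ∏ k ∈ Finset.range n, den (q.coeff k) with hD
  have hD0 : D ≠ 0 := Finset.prod_ne_zero_iff.2 fun k _ => hden _
  -- the coefficients of the scaled equation
  let co : ℕ → K[X] := fun k =>
    num (q.coeff k) * (∏ j ∈ (Finset.range n).erase k, den (q.coeff j)) * D ^ (n - k - 1)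
  have hco : ∀ k < n, aeval x (co k) = (q.coeff k : F) * aeval x D ^ (n - k) := by
    intro k hk
    have : D = den (q.coeff k) * ∏ j ∈ (Finset.range n).erase k, den (q.coeff j) :=
      (Finset.mul_prod_erase _ _ (Finset.mem_range.2 hk)).symm
    rw [show n - k = (n - k - 1) + 1 by omega, pow_succ']
    conv_rhs => arg 2; arg 1; rw [this]
    simp only [co, map_mul, map_pow, ← hnd]
    ring
  set θ := aeval x D * α with hθ
  set P : K[X][X] := X ^ n + ∑ k ∈ Finset.range n, C (co k) * X ^ k with hP
  have hlow : (∑ k ∈ Finset.range n, C (co k) * X ^ k : K[X][X]).degree < n := by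
    rw [← Fin.sum_univ_eq_sum_range (fun k => C (co k) * X ^ k) n]
    exact degree_sum_fin_lt fun j => co j
  have hPm : P.Monic := monic_X_pow_add hlow
  have hPdeg : P.degree = n := by
    rw [hP, degree_add_eq_left_of_degree_lt (by rwa [degree_X_pow]), degree_X_pow]
  refine ⟨⟨x, θ, P, hPm, hx, ?_, ?_, ?_⟩⟩
  · have h0 : q.eval₂ (algebraMap E F) α = 0 := minpoly.aeval E α
    rw [eval₂_eq_sum_range, Finset.sum_range_succ, (minpoly.monic hint).coeff_natDegree,
      map_one, one_mul] at h0
    simp only [hP, eval₂_add, eval₂_pow, eval₂_X, eval₂_finsetSum, eval₂_mul, eval₂_C,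
      AlgHom.toRingHom_eq_coe, RingHom.coe_coe]
    calc θ ^ n + ∑ k ∈ Finset.range n, aeval x (co k) * θ ^ k
        = aeval x D ^ n * (∑ k ∈ Finset.range n, algebraMap E F (q.coeff k) * α ^ k + α ^ n) := by
          rw [mul_add, add_comm, Finset.mul_sum, hθ, mul_pow]
          congr 1
          refine Finset.sum_congr rfl fun k hk => ?_
          rw [Finset.mem_range] at hk
          rw [hco k hk, mul_pow, IntermediateField.algebraMap_apply]
          rw [show aeval x D ^ n = aeval x D ^ (n - k) * aeval x D ^ k by
            rw [← pow_add, Nat.sub_add_cancel hk.le]]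
          ring
      _ = 0 := by rw [h0, mul_zero]
  · intro A hA hev
    let φ : K[X] →+* E := (aeval (R := K) (⟨x, mem_adjoin_simple_self K x⟩ : E)).toRingHom
    have hφ : ∀ a, ((φ a : E) : F) = aeval x a := fun a =>
      (aeval_algHom_apply (IntermediateField.val E) _ a).symm
    have hφc : (algebraMap E F).comp φ = (aeval x).toRingHom := RingHom.ext hφ
    have hfin : (E⟮θ⟯) = ⊤ := by
      rw [eq_top_iff, ← hα, IntermediateField.adjoin_le_iff, Set.singleton_subset_iff]
      have : α = θ * (algebraMap E F ⟨aeval x D, hφ D ▸ (φ D).2⟩)⁻¹ := by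
        rw [IntermediateField.algebraMap_apply, hθ]
        field_simp [hx' D hD0]
      rw [this]
      exact mul_mem (mem_adjoin_simple_self E θ) (inv_mem ((E⟮θ⟯).algebraMap_mem _))
    have hθint : IsIntegral E θ := Algebra.IsIntegral.isIntegral θ
    have hdeg : (minpoly E θ).natDegree = n := by
      rw [← IntermediateField.adjoin.finrank hθint, hfin, IntermediateField.finrank_top', hqd]
    have h0 : A.map φ = 0 := by
      by_contra h
      have hd1 : (minpoly E θ).degree ≤ (A.map φ).degree :=
        minpoly.degree_le_of_ne_zero E θ h (by rw [aeval_def, eval₂_map, hφc]; exact hev)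
      have hd2 : (A.map φ).degree < n := lt_of_le_of_lt degree_map_le (hPdeg ▸ hA)
      rw [degree_eq_natDegree (minpoly.ne_zero hθint), hdeg] at hd1
      exact absurd (hd1.trans_lt hd2) (lt_irrefl _)
    refine (map_eq_zero_iff (mapRingHom φ) (map_injective _ ?_)).1 h0
    intro a b hab
    have := congrArg (fun e : E => (e : F)) hab
    simp only [hφ] at this
    exact sub_eq_zero.1 (transcendental_iff.mp hx (a - b) (by simp [this]))
  · intro f
    have hmem : f ∈ (K⟮x⟯)⟮α⟯ := hα ▸ IntermediateField.mem_top
    have hmem' : f ∈ Algebra.adjoin (K⟮x⟯) ({α} : Set F) := by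
      rw [← IntermediateField.adjoin_simple_toSubalgebra_of_isAlgebraic hint.isAlgebraic]
      exact hmem
    rw [Algebra.adjoin_singleton_eq_range_aeval] at hmem'
    obtain ⟨r, hr⟩ := hmem'
    replace hr : aeval α r = f := hr
    set m := r.natDegree
    set Δ : K[X] := ∏ k ∈ Finset.range (m + 1), den (r.coeff k) with hΔ
    refine ⟨∑ k ∈ Finset.range (m + 1), C (num (r.coeff k) *
      (∏ j ∈ (Finset.range (m + 1)).erase k, den (r.coeff j)) * D ^ (m - k)) * X ^ k,
      Δ * D ^ m, mul_ne_zero (Finset.prod_ne_zero_iff.2 fun k _ => hden _) (pow_ne_zero _ hD0), ?_⟩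
    simp only [eval₂_finsetSum, eval₂_mul, eval₂_C, eval₂_pow, eval₂_X, AlgHom.toRingHom_eq_coe,
      RingHom.coe_coe]
    have hsum : f = ∑ k ∈ Finset.range (m + 1), r.coeff k • α ^ k := by
      rw [← hr, aeval_eq_sum_range]
    rw [hsum, Finset.sum_mul]
    refine Finset.sum_congr rfl fun k hk => ?_
    rw [hΔ, ← Finset.mul_prod_erase _ _ hk, IntermediateField.smul_def, smul_eq_mul]
    simp only [map_mul, map_pow, ← hnd, hθ, mul_pow]
    have hkm : k ≤ m := by rw [Finset.mem_range] at hk; omega
    rw [show aeval x D ^ m = aeval x D ^ (m - k) * aeval x D ^ k by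
      rw [← pow_add, Nat.sub_add_cancel hkm]]
    ring

/-- Every function field in characteristic zero has a model. -/
theorem exists_model [CharZero K] [Fermat.Agent.FF.IsFunctionField K F] :
    Nonempty (Model K F) := by
  obtain ⟨x, hx, hfin⟩ :=
    Fermat.Agent.FF.IsFunctionField.exists_transcendental (K := K) (F := F)
  have := hfin
  have : CharZero K⟮x⟯ := charZero_of_injective_algebraMap (algebraMap K K⟮x⟯).injective
  have : Algebra.IsSeparable K⟮x⟯ F := inferInstance
  obtain ⟨α, hα⟩ := Field.exists_primitive_element K⟮x⟯ F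
  exact exists_model_of_primitive hx hα

/-- The substitution `X ↦ (X - b) / a`. -/
def affSub (a b : K) : K[X] →+* K[X] := (aeval (C a⁻¹ * (X - C b))).toRingHom

/-- Affine change of the coordinate of a model. -/
def Model.shift (M : Model K F) {a : K} (ha : a ≠ 0) (b : K) : Model K F := by
  have key : ∀ p : K[X], aeval (algebraMap K F a * M.x + algebraMap K F b) (affSub a b p)
      = aeval M.x p := fun p => by
    simp only [affSub, AlgHom.toRingHom_eq_coe, RingHom.coe_coe, ← aeval_algHom_apply]
    congr 1
    apply congrArg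
    simp [-map_inv₀]
    rw [← mul_assoc, ← map_mul, inv_mul_cancel₀ ha, map_one, one_mul]
  have key' : ∀ p : K[X], aeval (algebraMap K F a * M.x + algebraMap K F b) p
      = aeval M.x (p.comp (C a * X + C b)) := fun p => by
    rw [aeval_comp]; simp
  have hcomp : ∀ A : K[X][X],
      (A.map (affSub a b)).eval₂ (aeval (algebraMap K F a * M.x + algebraMap K F b)).toRingHom M.θ
        = A.eval₂ (aeval M.x).toRingHom M.θ := fun A => by
    rw [eval₂_map]
    congr 1
    exact RingHom.ext key
  have hinv : ∀ p : K[X], affSub a b (p.comp (C a * X + C b)) = p := fun p => by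
    simp only [affSub, AlgHom.toRingHom_eq_coe, RingHom.coe_coe, aeval_comp]
    simp [← mul_assoc, ← C_mul, ha]
  have hsurj : ∀ A : K[X][X], ∃ B : K[X][X], B.map (affSub a b) = A := fun A =>
    ⟨A.map (compRingHom (C a * X + C b)), by
      rw [Polynomial.map_map]
      conv_rhs => rw [← Polynomial.map_id (p := A)]
      congr 1
      exact RingHom.ext fun p => hinv p⟩
  have hinj : Function.Injective (affSub a b) := fun p q h => by
    have hp := key p
    rw [h, key q] at hp
    exact (sub_eq_zero.1 (transcendental_iff.mp M.transc (q - p) (by simp [hp]))).symm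
  exact
  { x := algebraMap K F a * M.x + algebraMap K F b
    θ := M.θ
    P := M.P.map (affSub a b)
    monic := M.monic.map _
    transc := by
      rw [transcendental_iff]
      intro p hp
      rw [key'] at hp
      have h0 := transcendental_iff.mp M.transc _ hp
      rw [← hinv p, h0, map_zero]
    root := by rw [hcomp]; exact M.root
    indep := fun A hA h => by
      obtain ⟨B, rfl⟩ := hsurj A
      rw [hcomp] at h
      rw [degree_map_eq_of_injective hinj, degree_map_eq_of_injective hinj] at hA
      rw [M.indep B hA h, Polynomial.map_zero]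
    exists_rep := fun f => by
      obtain ⟨A, d, hd, h⟩ := M.exists_rep f
      exact ⟨A.map (affSub a b), affSub a b d, (map_ne_zero_iff _ hinj).2 hd,
        by rw [hcomp, key, h]⟩ }

theorem Model.shift_x (M : Model K F) {a : K} (ha : a ≠ 0) (b : K) :
    (M.shift ha b).x = algebraMap K F a * M.x + algebraMap K F b := rfl

/-- The branch values transform along with the coordinate. -/
theorem Model.eval_disc_of_shift (M : Model K F) {a : K} (ha : a ≠ 0) (b : K) {z : K}
    (hz : (M.shift ha b).disc.eval z = 0) : M.disc.eval (a⁻¹ * (z - b)) = 0 := by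
  obtain ⟨A, B, hAB⟩ := M.exists_bezout
  have hmem : affSub a b M.disc ∈ (M.shift ha b).discIdeal := by
    refine (M.shift ha b).mem_discIdeal.2 ⟨A.map (affSub a b), B.map (affSub a b), ?_⟩
    have := congrArg (Polynomial.map (affSub a b)) hAB
    rw [Polynomial.map_add, Polynomial.map_mul, Polynomial.map_mul, Polynomial.map_C,
      ← derivative_map] at this
    exact this
  have h := eval_eq_zero_of_dvd_of_eval_eq_zero ((M.shift ha b).disc_dvd hmem) hz
  rw [affSub, AlgHom.toRingHom_eq_coe, RingHom.coe_coe, ← comp_eq_aeval, eval_comp] at h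
  simpa using h

theorem Model.over_some_shift (M : Model K F) {a : K} (ha : a ≠ 0) (b : K) {c : K} {v : Place K F}
    (h : M.Over (some c) v) : (M.shift ha b).Over (some (a * c + b)) v := by
  show 0 < v.ord ((M.shift ha b).x - algebraMap K F (a * c + b))
  rw [Model.shift_x, map_add, map_mul, show algebraMap K F a * M.x + algebraMap K F b
      - (algebraMap K F a * algebraMap K F c + algebraMap K F b)
      = algebraMap K F a * (M.x - algebraMap K F c) by ring,
    Fermat.Agent.FF.ord_algebraMap_mul v ha]
  exact h

theorem Model.over_none_shift (M : Model K F) {a : K} (ha : a ≠ 0) (b : K) {v : Place K F}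
    (h : M.Over none v) : (M.shift ha b).Over none v := by
  have hx := M.ord_x_neg h
  show 0 < v.ord ((M.shift ha b).x)⁻¹
  rw [v.ord_inv, Model.shift_x, Fermat.Agent.FF.ord_add_eq_of_lt v
    (mul_ne_zero ((_root_.map_ne_zero _).2 ha) M.x_ne_zero) (Or.inr ?_),
    Fermat.Agent.FF.ord_algebraMap_mul v ha]
  · omega
  · rw [Fermat.Agent.FF.ord_algebraMap, Fermat.Agent.FF.ord_algebraMap_mul v ha]
    exact hx

end Fermat.Agent.Tors
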