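import Mathlib
import Fermat.Agent.Tors.Model

/-!
# Analytic branches of a plane model over the complex numbers

Roots of the equation over good base points, continuous branches over simply connected open sets
(their existence, uniqueness and holomorphy), and values of functions at points of the curve.
-/

noncomputable section

open Polynomial Filter Topology Set AlgebraicCurve

namespace Fermat.Agent.Tors

/-- Evaluation of a bivariate polynomial at a point. -/
def evAt (z y : ℂ) : ℂ[X][X] →+* ℂ := eval₂RingHom (evalRingHom z) y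

theorem evAt_apply (z y : ℂ) (A : ℂ[X][X]) : evAt z y A = A.eval₂ (evalRingHom z) y := rfl

@[simp] theorem evAt_C (z y : ℂ) (a : ℂ[X]) : evAt z y (C a) = a.eval z := by simp [evAt]

@[simp] theorem evAt_X (z y : ℂ) : evAt z y X = y := by simp [evAt]

theorem evAt_eq_sum (z y : ℂ) (A : ℂ[X][X]) :
    evAt z y A = ∑ k ∈ Finset.range (A.natDegree + 1), (A.coeff k).eval z * y ^ k := by
  rw [evAt_apply, eval₂_eq_sum_range]
  rfl

theorem contDiff_evAt (A : ℂ[X][X]) : ContDiff ℂ 1 fun q : ℂ × ℂ => evAt q.1 q.2 A := by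
  simp only [evAt_eq_sum, ← Polynomial.coe_aeval_eq_eval]
  exact ContDiff.sum fun k _ =>
    ((Polynomial.contDiff_aeval (A.coeff k) 1).comp contDiff_fst).mul (contDiff_snd.pow k)

theorem differentiable_evAt (A : ℂ[X][X]) :
    Differentiable ℂ fun q : ℂ × ℂ => evAt q.1 q.2 A :=
  (contDiff_evAt A).differentiable one_ne_zero

theorem hasDerivAt_evAt_snd (z : ℂ) (A : ℂ[X][X]) (y : ℂ) :
    HasDerivAt (fun w => evAt z w A) (evAt z y (derivative A)) y := by
  have h := (A.map (evalRingHom z)).hasDerivAt y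
  simp only [derivative_map, eval_map] at h
  exact h

/-- A root of a monic relation is bounded by bounds on the lower coefficients. -/
theorem norm_le_of_monic_relation {N : ℕ} {c : ℕ → ℂ} {B : ℕ → ℝ} {w : ℂ}
    (h : w ^ N + ∑ k ∈ Finset.range N, c k * w ^ k = 0) (hB : ∀ k < N, ‖c k‖ ≤ B k) :
    ‖w‖ ≤ 1 + ∑ k ∈ Finset.range N, B k := by
  by_contra hlt
  rw [not_le] at hlt
  set s := ∑ k ∈ Finset.range N, B k
  have hs : 0 ≤ s := Finset.sum_nonneg fun k hk =>
    (norm_nonneg _).trans (hB k (Finset.mem_range.1 hk))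
  have hw1 : 1 ≤ ‖w‖ := by linarith
  rcases Nat.eq_zero_or_pos N with hN | hN
  · simp [hN] at h
  have hn : ‖w‖ ^ N ≤ s * ‖w‖ ^ (N - 1) := by
    calc ‖w‖ ^ N = ‖∑ k ∈ Finset.range N, c k * w ^ k‖ := by
          rw [← norm_pow, eq_neg_of_add_eq_zero_left h, norm_neg]
      _ ≤ ∑ k ∈ Finset.range N, ‖c k * w ^ k‖ := norm_sum_le _ _
      _ ≤ _ := by
          rw [Finset.sum_mul]
          refine Finset.sum_le_sum fun k hk => ?_
          rw [Finset.mem_range] at hk
          rw [norm_mul, norm_pow]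
          exact mul_le_mul (hB k hk) (pow_le_pow_right₀ hw1 (by omega)) (by positivity)
            ((norm_nonneg _).trans (hB k hk))
  rw [← Nat.sub_add_cancel hN, pow_succ', Nat.succ_sub_one] at hn
  have := le_of_mul_le_mul_right hn (by positivity)
  linarith

/-- A polynomial of degree less than `N` in `y` vanishing at `N` distinct points over `z` has all
its coefficients vanishing at `z`. -/
theorem coeff_eval_eq_zero_of_evAt {A : ℂ[X][X]} {N : ℕ} (hA : A.natDegree < N) {z : ℂ}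
    {y : Fin N → ℂ} (hy : Function.Injective y) (h : ∀ i, evAt z (y i) A = 0) (j : ℕ) :
    (A.coeff j).eval z = 0 := by
  have h0 : A.map (evalRingHom z) = 0 :=
    eq_zero_of_natDegree_lt_card_of_eval_eq_zero _ hy
      (fun i => by rw [eval_map]; exact h i)
      (by rw [Fintype.card_fin]; exact natDegree_map_le.trans_lt hA)
  simpa [coeff_map] using congrArg (fun p => p.coeff j) h0

namespace Model

variable {F : Type*} [Field F] [Algebra ℂ F] (M : Model ℂ F)

/-- `(z, y)` lies on the plane curve. -/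
def IsRootAt (z y : ℂ) : Prop := evAt z y M.P = 0

/-- `z` is a good (unbranched finite) base point. -/
def Good (z : ℂ) : Prop := M.disc.eval z ≠ 0

theorem isOpen_good : IsOpen {z | M.Good z} :=
  isOpen_ne_fun M.disc.continuous continuous_const

theorem derivative_ne_zero {z y : ℂ} (hz : M.Good z) (hy : M.IsRootAt z y) :
    evAt z y (derivative M.P) ≠ 0 :=
  M.derivative_eval_ne_zero (evalRingHom z) hz hy

theorem exists_roots_at {z : ℂ} (hz : M.Good z) : ∃ y : Fin M.n → ℂ, Function.Injective y ∧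
    (∀ i, M.IsRootAt z (y i)) ∧ ∀ w, M.IsRootAt z w → ∃ i, y i = w :=
  M.exists_roots (evalRingHom z) hz

/-- A root is bounded by the coefficients of the equation. -/
theorem root_bound {z y : ℂ} (h : M.IsRootAt z y) :
    ‖y‖ ≤ 1 + ∑ k ∈ Finset.range M.n, ‖(M.P.coeff k).eval z‖ := by
  refine norm_le_of_monic_relation (c := fun k => (M.P.coeff k).eval z) ?_ fun k _ => le_rfl
  rw [IsRootAt, evAt_eq_sum, Finset.sum_range_succ, M.monic.coeff_natDegree, eval_one, one_mul,
    add_comm] at h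
  exact h

/-- Over a good point the equation defines a local biholomorphism of the plane. -/
theorem exists_local {z₀ y₀ : ℂ} (hz : M.Good z₀) (hy : M.IsRootAt z₀ y₀) :
    ∃ Φ : OpenPartialHomeomorph (ℂ × ℂ) (ℂ × ℂ),
      ((Φ : ℂ × ℂ → ℂ × ℂ) = fun q => (q.1, evAt q.1 q.2 M.P)) ∧ (z₀, y₀) ∈ Φ.source ∧
        DifferentiableAt ℂ Φ.symm (z₀, 0) := by
  set G := fun q : ℂ × ℂ => evAt q.1 q.2 M.P with hG
  set L := fderiv ℂ G (z₀, y₀)
  have hL : HasStrictFDerivAt G L (z₀, y₀) :=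
    (contDiff_evAt M.P).contDiffAt.hasStrictFDerivAt one_ne_zero
  have hL01 : L (0, 1) = evAt z₀ y₀ (derivative M.P) := by
    have h1 : HasDerivAt (fun w => G (z₀, w)) (L (0, 1)) y₀ :=
      hL.hasFDerivAt.comp_hasDerivAt y₀ ((hasDerivAt_const y₀ z₀).prodMk (hasDerivAt_id y₀))
    exact h1.unique (hasDerivAt_evAt_snd z₀ M.P y₀)
  have hne : L (0, 1) ≠ 0 := hL01 ▸ M.derivative_ne_zero hz hy
  set Λ : ℂ × ℂ →L[ℂ] ℂ × ℂ := (ContinuousLinearMap.fst ℂ ℂ ℂ).prod L
  have hinj : Function.Injective Λ := by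
    rw [injective_iff_map_eq_zero]
    rintro ⟨a, b⟩ h
    obtain ⟨rfl, h2⟩ := Prod.ext_iff.1 h
    have h2' : L (b • ((0 : ℂ), (1 : ℂ))) = 0 := by simpa [Λ] using h2
    rw [map_smul, smul_eq_mul, mul_eq_zero] at h2'
    simp [h2'.resolve_right hne]
  let e : (ℂ × ℂ) ≃L[ℂ] ℂ × ℂ :=
    (LinearEquiv.ofInjectiveEndo Λ.toLinearMap hinj).toContinuousLinearEquiv
  have hΨ : HasStrictFDerivAt (fun q : ℂ × ℂ => (q.1, G q)) (e : ℂ × ℂ →L[ℂ] ℂ × ℂ) (z₀, y₀) := by
    have : (e : ℂ × ℂ →L[ℂ] ℂ × ℂ) = Λ := by ext <;> rfl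
    rw [this]
    exact hasStrictFDerivAt_fst.prodMk hL
  refine ⟨hΨ.toOpenPartialHomeomorph _, rfl, hΨ.mem_toOpenPartialHomeomorph_source, ?_⟩
  have := hΨ.to_localInverse.hasFDerivAt.differentiableAt
  simp only [show G (z₀, y₀) = 0 from hy] at this
  exact this

/-- A continuous branch of the curve over `φ`. -/
structure IsBranch (U : Set ℂ) (φ η : ℂ → ℂ) : Prop where
  cont : ContinuousOn η U
  root : ∀ u ∈ U, M.IsRootAt (φ u) (η u)

theorem IsBranch.mono {M : Model ℂ F} {U V : Set ℂ} {φ η : ℂ → ℂ} (h : M.IsBranch U φ η)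
    (hV : V ⊆ U) : M.IsBranch V φ η :=
  ⟨h.cont.mono hV, fun u hu => h.root u (hV hu)⟩

theorem IsBranch.comp {M : Model ℂ F} {U V : Set ℂ} {φ η ψ : ℂ → ℂ} (h : M.IsBranch U φ η)
    (hψ : ContinuousOn ψ V) (hV : MapsTo ψ V U) : M.IsBranch V (φ ∘ ψ) (η ∘ ψ) :=
  ⟨h.cont.comp hψ hV, fun _ hu => h.root _ (hV hu)⟩

theorem IsBranch.congr_base {M : Model ℂ F} {U : Set ℂ} {φ φ' η : ℂ → ℂ} (h : M.IsBranch U φ η)
    (he : EqOn φ φ' U) : M.IsBranch U φ' η :=
  ⟨h.cont, fun u hu => he hu ▸ h.root u hu⟩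

/-- Branches over good points are holomorphic. -/
theorem IsBranch.differentiableAt {M : Model ℂ F} {U : Set ℂ} {φ η : ℂ → ℂ}
    (h : M.IsBranch U φ η) (hU : IsOpen U) (hφ : DifferentiableOn ℂ φ U)
    (hgood : ∀ u ∈ U, M.Good (φ u)) {u : ℂ} (hu : u ∈ U) : DifferentiableAt ℂ η u := by
  obtain ⟨Φ, hΦ, hsrc, hd⟩ := M.exists_local (hgood u hu) (h.root u hu)
  have hφd := hφ.differentiableAt (hU.mem_nhds hu)
  have hηc := h.cont.continuousAt (hU.mem_nhds hu)
  have hev : η =ᶠ[𝓝 u] fun w => (Φ.symm (φ w, 0)).2 := by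
    have hmem : ∀ᶠ w in 𝓝 u, (φ w, η w) ∈ Φ.source :=
      (hφd.continuousAt.prodMk hηc).preimage_mem_nhds (Φ.open_source.mem_nhds hsrc)
    filter_upwards [hmem, hU.mem_nhds hu] with w hw hwU
    have : Φ (φ w, η w) = (φ w, 0) := by
      rw [hΦ]
      exact Prod.ext rfl (h.root w hwU)
    rw [← this, Φ.left_inv hw]
  exact ((hd.comp u (hφd.prodMk (differentiableAt_const 0))).snd).congr_of_eventuallyEq hev

/-- Two branches on a connected set agreeing at one point agree. -/
theorem IsBranch.eqOn {M : Model ℂ F} {U : Set ℂ} {φ η η' : ℂ → ℂ}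
    (h : M.IsBranch U φ η) (h' : M.IsBranch U φ η') (hUc : IsPreconnected U)
    (hφ : ContinuousOn φ U) (hgood : ∀ u ∈ U, M.Good (φ u))
    {u₀ : ℂ} (hu₀ : u₀ ∈ U) (he : η u₀ = η' u₀) : EqOn η η' U := by
  have : PreconnectedSpace U := isPreconnected_iff_preconnectedSpace.1 hUc
  let A : Set U := {u | η u = η' u}
  have hc : IsClosed A := isClosed_eq h.cont.domRestrict h'.cont.domRestrict
  have ho : IsOpen A := by
    rw [isOpen_iff_mem_nhds]
    rintro ⟨u, hu⟩ (hA : η u = η' u)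
    obtain ⟨Φ, hΦ, hsrc, -⟩ := M.exists_local (hgood u hu) (h.root u hu)
    have h1 : ∀ᶠ w : U in 𝓝 ⟨u, hu⟩, (φ w, η w) ∈ Φ.source :=
      (hφ.domRestrict.prodMk h.cont.domRestrict).continuousAt.preimage_mem_nhds
        (Φ.open_source.mem_nhds hsrc)
    have h2 : ∀ᶠ w : U in 𝓝 ⟨u, hu⟩, (φ w, η' w) ∈ Φ.source :=
      (hφ.domRestrict.prodMk h'.cont.domRestrict).continuousAt.preimage_mem_nhds
        (Φ.open_source.mem_nhds (show (φ u, η' u) ∈ Φ.source from hA ▸ hsrc))
    filter_upwards [h1, h2] with w hw hw'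
    have : Φ (φ w, η w) = Φ (φ w, η' w) := by
      simp only [hΦ]
      exact Prod.ext rfl ((h.root w w.2).trans (h'.root w w.2).symm)
    exact (Prod.ext_iff.1 (Φ.injOn hw hw' this)).2
  intro u hu
  have hA : A = univ := IsClopen.eq_univ ⟨hc, ho⟩ ⟨⟨u₀, hu₀⟩, he⟩
  exact (hA ▸ mem_univ (⟨u, hu⟩ : U) : (⟨u, hu⟩ : U) ∈ A)

/-- The plane curve as a topological space. -/
abbrev Curve : Type _ := {q : ℂ × ℂ // M.IsRootAt q.1 q.2}

/-- Over a good point the projection of the curve is a local homeomorphism. -/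
theorem exists_local_chart {z₀ y₀ : ℂ} (hy₀ : M.IsRootAt z₀ y₀) (hz₀ : M.Good z₀) :
    ∃ φ : OpenPartialHomeomorph M.Curve ℂ,
      (⟨(z₀, y₀), hy₀⟩ : M.Curve) ∈ φ.source ∧ ((fun e : M.Curve => e.1.1) = φ) := by
  obtain ⟨Φ, hΦ, hsrc, -⟩ := M.exists_local hz₀ hy₀
  classical
  have hroot : ∀ z, ((z, 0) : ℂ × ℂ) ∈ Φ.target →
      (Φ.symm (z, 0)).1 = z ∧ M.IsRootAt z (Φ.symm (z, 0)).2 := by
    intro z hz
    have h := Φ.right_inv hz
    rw [hΦ] at h
    obtain ⟨h1, h2⟩ := Prod.ext_iff.1 h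
    simp only at h1 h2
    refine ⟨h1, ?_⟩
    rw [h1] at h2
    exact h2
  have himg : ∀ e : M.Curve, e.1 ∈ Φ.source → Φ e.1 = (e.1.1, 0) := by
    intro e _
    rw [hΦ]
    exact Prod.ext rfl e.2
  let φ : OpenPartialHomeomorph M.Curve ℂ :=
  { toFun := fun e => e.1.1
    invFun := fun z => if h : ((z, 0) : ℂ × ℂ) ∈ Φ.target then
        ⟨(z, (Φ.symm (z, 0)).2), (hroot z h).2⟩
      else ⟨(z₀, y₀), hy₀⟩
    source := {e | e.1 ∈ Φ.source}
    target := {z | ((z, 0) : ℂ × ℂ) ∈ Φ.target}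
    map_source' := fun e he => by
      show ((e.1.1, 0) : ℂ × ℂ) ∈ Φ.target
      rw [← himg e he]
      exact Φ.map_source he
    map_target' := fun z hz => by
      rw [dif_pos (show ((z, 0) : ℂ × ℂ) ∈ Φ.target from hz)]
      show ((z, (Φ.symm (z, 0)).2) : ℂ × ℂ) ∈ Φ.source
      convert Φ.map_target hz using 1
      exact Prod.ext (hroot z hz).1.symm rfl
    left_inv' := fun e he => by
      have h := Φ.map_source he
      rw [himg e he] at h
      rw [dif_pos h]
      refine Subtype.ext (Prod.ext rfl ?_)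
      show (Φ.symm (e.1.1, 0)).2 = e.1.2
      rw [← himg e he, Φ.left_inv he]
    right_inv' := fun z hz => by
      rw [dif_pos (show ((z, 0) : ℂ × ℂ) ∈ Φ.target from hz)]
    open_source := Φ.open_source.preimage continuous_subtype_val
    open_target := Φ.open_target.preimage (by fun_prop)
    continuousOn_toFun := by fun_prop
    continuousOn_invFun := by
      refine Topology.IsInducing.subtypeVal.continuousOn_iff.2 ?_
      have hc : ContinuousOn (fun z : ℂ => (z, (Φ.symm (z, 0)).2))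
          {z | ((z, 0) : ℂ × ℂ) ∈ Φ.target} :=
        continuousOn_id.prodMk (continuous_snd.comp_continuousOn
          (Φ.continuousOn_symm.comp (Continuous.continuousOn (by fun_prop)) (fun z hz => hz)))
      refine hc.congr fun z hz => ?_
      show ((if h : ((z, 0) : ℂ × ℂ) ∈ Φ.target then _ else _ : M.Curve) : ℂ × ℂ) = _
      rw [dif_pos (show ((z, 0) : ℂ × ℂ) ∈ Φ.target from hz)] }
  exact ⟨φ, hsrc, rfl⟩

/-- The projection of the curve is a covering over the good base points. -/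
theorem isCoveringMapOn_fst :
    IsCoveringMapOn (fun e : M.Curve => e.1.1) {z | M.Good z} := by
  have hcl : IsClosed {q : ℂ × ℂ | M.IsRootAt q.1 q.2} :=
    isClosed_eq (differentiable_evAt M.P).continuous continuous_const
  have hproper : IsProperMap (fun e : M.Curve => e.1.1) := by
    rw [isProperMap_iff_isCompact_preimage]
    refine ⟨by fun_prop, fun K hK => ?_⟩
    obtain ⟨B, hB⟩ := hK.exists_bound_of_continuousOn
      (f := fun z => (1 + ∑ k ∈ Finset.range M.n, ‖(M.P.coeff k).eval z‖ : ℝ))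
      (Continuous.continuousOn (by fun_prop))
    rw [Subtype.isCompact_iff]
    refine (hK.prod (isCompact_closedBall (0 : ℂ) B)).of_isClosed_subset ?_ ?_
    · exact hcl.isClosedEmbedding_subtypeVal.isClosedMap _
        (hK.isClosed.preimage (by fun_prop))
    · rintro - ⟨⟨q, hq⟩, hqK, rfl⟩
      refine ⟨hqK, mem_closedBall_zero_iff.2 ((M.root_bound hq).trans ?_)⟩
      exact (le_abs_self _).trans (by simpa [Real.norm_eq_abs] using hB q.1 hqK)
  refine hproper.isClosedMap.isCoveringMapOn_of_isLocalHomeomorphOn (fun z hz => ?_) ?_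
  · obtain ⟨y, -, -, hall⟩ := M.exists_roots_at hz
    refine ((Set.finite_range fun i => (z, y i)).preimage Subtype.val_injective.injOn).subset ?_
    rintro ⟨⟨z', w⟩, hw⟩ (rfl : z' = z)
    obtain ⟨i, hi⟩ := hall w hw
    exact ⟨i, by simp [hi]⟩
  · rintro ⟨⟨z₀, y₀⟩, hy₀⟩ hz₀
    exact M.exists_local_chart hy₀ hz₀

/-- Branches exist on simply connected open sets of good points. -/
theorem exists_branch {U : Set ℂ} (hU : IsOpen U) (hUc : IsSimplyConnected U) {φ : ℂ → ℂ}
    (hφ : ContinuousOn φ U) (hgood : ∀ u ∈ U, M.Good (φ u)) {u₀ y₀ : ℂ} (hu₀ : u₀ ∈ U)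
    (hy₀ : M.IsRootAt (φ u₀) y₀) : ∃ η, M.IsBranch U φ η ∧ η u₀ = y₀ := by
  classical
  have := hUc.simplyConnectedSpace
  have := hU.locallyPathConnectedSpace
  obtain ⟨G, ⟨hG0, hG⟩, -⟩ := M.isCoveringMapOn_fst.existsUnique_continuousMap_lifts
    ⟨U.domRestrict φ, hφ.domRestrict⟩ (a₀ := ⟨u₀, hu₀⟩) (e₀ := ⟨(φ u₀, y₀), hy₀⟩) rfl
    fun a => hgood _ a.2
  refine ⟨fun u => if h : u ∈ U then (G ⟨u, h⟩).1.2 else 0, ⟨?_, fun u hu => ?_⟩, ?_⟩
  · rw [continuousOn_iff_continuous_domRestrict]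
    have : U.domRestrict (fun u => if h : u ∈ U then (G ⟨u, h⟩).1.2 else 0)
        = fun u => (G u).1.2 := funext fun u => dif_pos u.2
    rw [this]
    fun_prop
  · rw [dif_pos hu]
    have := (G ⟨u, hu⟩).2
    rwa [show (G ⟨u, hu⟩).1.1 = φ u from congr_fun hG ⟨u, hu⟩] at this
  · simp only [dif_pos hu₀, hG0]

/-- A complete family of branches. -/
structure Branches (U : Set ℂ) (φ : ℂ → ℂ) where
  /-- The branches, with distinct values at each point of `U`. -/
  η : Fin M.n → ℂ → ℂ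
  branch : ∀ i, M.IsBranch U φ (η i)
  injective : ∀ u ∈ U, Function.Injective fun i => η i u

variable {M}

theorem Branches.exists_eq {U : Set ℂ} {φ : ℂ → ℂ} (B : M.Branches U φ)
    (hgood : ∀ u ∈ U, M.Good (φ u)) {u : ℂ} (hu : u ∈ U) {w : ℂ}
    (hw : M.IsRootAt (φ u) w) : ∃ i, B.η i u = w := by
  obtain ⟨y, hyi, -, hall⟩ := M.exists_roots_at (hgood u hu)
  choose g hg using fun i => hall _ ((B.branch i).root u hu)
  have hginj : Function.Injective g := fun a b hab =>
    B.injective u hu (show B.η a u = B.η b u by rw [← hg a, ← hg b, hab])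
  obtain ⟨j, hj⟩ := hall w hw
  obtain ⟨i, hi⟩ := (Finite.injective_iff_surjective.1 hginj) j
  exact ⟨i, by rw [← hg i, hi, hj]⟩

theorem Branches.nonempty {U : Set ℂ} (hU : IsOpen U) (hUc : IsSimplyConnected U) {φ : ℂ → ℂ}
    (hφ : ContinuousOn φ U) (hgood : ∀ u ∈ U, M.Good (φ u)) : Nonempty (M.Branches U φ) := by
  obtain ⟨u₀, hu₀⟩ := hUc.nonempty
  obtain ⟨y, hyi, hy, -⟩ := M.exists_roots_at (hgood u₀ hu₀)
  choose η hη hη0 using fun i => M.exists_branch hU hUc hφ hgood hu₀ (hy i)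
  refine ⟨⟨η, hη, fun u hu i j hij => hyi ?_⟩⟩
  rw [← hη0 i, ← hη0 j]
  exact (hη i).eqOn (hη j) hUc.isPathConnected.isConnected.isPreconnected hφ hgood hu hij hu₀

/-- Two families of branches differ by a permutation of the sheets. -/
theorem Branches.exists_perm {U V : Set ℂ} {φ : ℂ → ℂ} (B : M.Branches U φ) (B' : M.Branches V φ)
    (hVU : V ⊆ U) (hVc : IsPreconnected V) (hVne : V.Nonempty) (hφ : ContinuousOn φ V)
    (hgood : ∀ u ∈ U, M.Good (φ u)) :
    ∃ p : Equiv.Perm (Fin M.n), ∀ i, EqOn (B'.η i) (B.η (p i)) V := by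
  obtain ⟨u, hu⟩ := hVne
  choose p hp using fun i => B.exists_eq hgood (hVU hu) ((B'.branch i).root u hu)
  have hinj : Function.Injective p := fun a b hab =>
    B'.injective u hu (show B'.η a u = B'.η b u by rw [← hp a, ← hp b, hab])
  refine ⟨Equiv.ofBijective p (Finite.injective_iff_bijective.1 hinj), fun i => ?_⟩
  exact (B'.branch i).eqOn ((B.branch (p i)).mono hVU) hVc hφ (fun w hw => hgood w (hVU hw)) hu
    (hp i).symm

variable (M)

/-- `f` has a fraction representation with nonzero denominator at `z`. -/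
def RegAt (f : F) (z : ℂ) : Prop :=
  ∃ (A : ℂ[X][X]) (d : ℂ[X]), d.eval z ≠ 0 ∧ f * aeval M.x d = M.ev A

open scoped Classical in
/-- The value of `f` at a point of the curve. -/
def val (f : F) (z y : ℂ) : ℂ :=
  if h : M.RegAt f z then evAt z y h.choose / h.choose_spec.choose.eval z else 0

/-- Representatives of the same function agree on the curve. -/
theorem evAt_congr {A B : ℂ[X][X]} (h : M.ev A = M.ev B) {z y : ℂ} (hy : M.IsRootAt z y) :
    evAt z y A = evAt z y B := by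
  obtain ⟨q, hq⟩ := M.ev_eq_zero_iff.1 (show M.ev (A - B) = 0 by rw [map_sub, h, sub_self])
  have := congrArg (evAt z y) hq
  rwa [map_sub, map_mul, show evAt z y M.P = 0 from hy, zero_mul, sub_eq_zero] at this

/-- The value of a function is computed by any fraction with nonvanishing denominator. -/
theorem val_eq {f : F} {A : ℂ[X][X]} {d : ℂ[X]} (h : f * aeval M.x d = M.ev A) {z y : ℂ}
    (hd : d.eval z ≠ 0) (hy : M.IsRootAt z y) : M.val f z y = evAt z y A / d.eval z := by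
  have hr : M.RegAt f z := ⟨A, d, hd, h⟩
  rw [val, dif_pos hr]
  set A' := hr.choose
  set d' := hr.choose_spec.choose
  obtain ⟨hd', h'⟩ := hr.choose_spec.choose_spec
  have key : M.ev (A' * C d) = M.ev (A * C d') := by
    rw [map_mul, map_mul, ev_C, ev_C, ← h, ← h']
    ring
  have := M.evAt_congr key hy
  rw [map_mul, map_mul, evAt_C, evAt_C] at this
  rw [div_eq_div_iff hd' hd]
  exact this

theorem val_ev (A : ℂ[X][X]) {z y : ℂ} (hy : M.IsRootAt z y) :
    M.val (M.ev A) z y = evAt z y A := by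
  rw [M.val_eq (A := A) (d := 1) (by simp) (by simp) hy]
  simp

theorem regAt_algebraMap (c : ℂ) (z : ℂ) : M.RegAt (algebraMap ℂ F c) z :=
  ⟨C (C c), 1, by simp, by simp⟩

theorem val_algebraMap (c : ℂ) {z y : ℂ} (hy : M.IsRootAt z y) :
    M.val (algebraMap ℂ F c) z y = c := by
  rw [M.val_eq (A := C (C c)) (d := 1) (by simp) (by simp) hy]
  simp

variable {M}

theorem RegAt.add {f g : F} {z : ℂ} (hf : M.RegAt f z) (hg : M.RegAt g z) :
    M.RegAt (f + g) z := by
  obtain ⟨A, d, hd, h⟩ := hf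
  obtain ⟨B, e, he, h'⟩ := hg
  exact ⟨A * C e + B * C d, d * e, by simp [hd, he], by
    simp only [map_add, map_mul, ev_C]; rw [← h, ← h']; ring⟩

theorem RegAt.mul {f g : F} {z : ℂ} (hf : M.RegAt f z) (hg : M.RegAt g z) :
    M.RegAt (f * g) z := by
  obtain ⟨A, d, hd, h⟩ := hf
  obtain ⟨B, e, he, h'⟩ := hg
  exact ⟨A * B, d * e, by simp [hd, he], by simp only [map_mul]; rw [← h, ← h']; ring⟩

theorem RegAt.sum {ι : Type*} {s : Finset ι} {f : ι → F} {z : ℂ}
    (h : ∀ i ∈ s, M.RegAt (f i) z) : M.RegAt (∑ i ∈ s, f i) z :=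
  Finset.sum_induction _ (M.RegAt · z) (fun _ _ => RegAt.add)
    ⟨0, 1, by simp, by simp⟩ h

theorem RegAt.pow {f : F} {z : ℂ} (hf : M.RegAt f z) : ∀ k : ℕ, M.RegAt (f ^ k) z
  | 0 => ⟨1, 1, by simp, by simp⟩
  | k + 1 => by rw [pow_succ]; exact (RegAt.pow hf k).mul hf

theorem val_add {f g : F} {z y : ℂ} (hf : M.RegAt f z) (hg : M.RegAt g z)
    (hy : M.IsRootAt z y) : M.val (f + g) z y = M.val f z y + M.val g z y := by
  obtain ⟨A, d, hd, h⟩ := hf
  obtain ⟨B, e, he, h'⟩ := hg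
  rw [M.val_eq h hd hy, M.val_eq h' he hy, M.val_eq (A := A * C e + B * C d) (d := d * e)
    (by simp only [map_add, map_mul, ev_C]; rw [← h, ← h']; ring) (by simp [hd, he]) hy]
  simp only [map_add, map_mul, evAt_C, eval_mul]
  field_simp

theorem val_mul {f g : F} {z y : ℂ} (hf : M.RegAt f z) (hg : M.RegAt g z)
    (hy : M.IsRootAt z y) : M.val (f * g) z y = M.val f z y * M.val g z y := by
  obtain ⟨A, d, hd, h⟩ := hf
  obtain ⟨B, e, he, h'⟩ := hg
  rw [M.val_eq h hd hy, M.val_eq h' he hy, M.val_eq (A := A * B) (d := d * e)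
    (by simp only [map_mul]; rw [← h, ← h']; ring) (by simp [hd, he]) hy]
  simp only [map_mul, eval_mul]
  field_simp

theorem val_zero {z y : ℂ} (hy : M.IsRootAt z y) : M.val 0 z y = 0 := by
  simpa using M.val_algebraMap 0 hy

theorem val_one {z y : ℂ} (hy : M.IsRootAt z y) : M.val 1 z y = 1 := by
  simpa using M.val_algebraMap 1 hy

theorem val_sum {ι : Type*} {s : Finset ι} {f : ι → F} {z y : ℂ}
    (h : ∀ i ∈ s, M.RegAt (f i) z) (hy : M.IsRootAt z y) :
    M.val (∑ i ∈ s, f i) z y = ∑ i ∈ s, M.val (f i) z y := by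
  classical
  induction s using Finset.induction_on with
  | empty => simp [val_zero hy]
  | insert a s ha ih =>
    rw [Finset.forall_mem_insert] at h
    rw [Finset.sum_insert ha, Finset.sum_insert ha, val_add h.1 (RegAt.sum h.2) hy, ih h.2]

theorem val_pow {f : F} {z y : ℂ} (hf : M.RegAt f z) (hy : M.IsRootAt z y) :
    ∀ k : ℕ, M.val (f ^ k) z y = M.val f z y ^ k
  | 0 => by simp [val_one hy]
  | k + 1 => by rw [pow_succ, val_mul (hf.pow k) hf hy, val_pow hf hy k, pow_succ]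

variable (M)

theorem finite_not_regAt (f : F) : {z | ¬ M.RegAt f z}.Finite := by
  obtain ⟨A, d, hd, h⟩ := M.exists_rep' f
  refine (Polynomial.finite_setOfPred_isRoot hd).subset fun z hz => ?_
  by_contra h0
  exact hz ⟨A, d, h0, h⟩

theorem differentiableAt_val {f : F} {φ η : ℂ → ℂ} {u : ℂ} (hφ : DifferentiableAt ℂ φ u)
    (hη : DifferentiableAt ℂ η u) (hroot : ∀ᶠ w in 𝓝 u, M.IsRootAt (φ w) (η w))
    (hf : M.RegAt f (φ u)) : DifferentiableAt ℂ (fun w => M.val f (φ w) (η w)) u := by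
  obtain ⟨A, d, hd, h⟩ := hf
  have hev : (fun w => M.val f (φ w) (η w))
      =ᶠ[𝓝 u] fun w => evAt (φ w) (η w) A / d.eval (φ w) := by
    filter_upwards [hroot,
      (d.continuous.continuousAt.comp hφ.continuousAt).eventually_ne hd] with w hw hdw
    exact M.val_eq h hdw hw
  refine DifferentiableAt.congr_of_eventuallyEq ?_ hev
  exact ((differentiable_evAt A).differentiableAt.comp u (hφ.prodMk hη)).div
    (d.differentiable.differentiableAt.comp u hφ) hd

end Model

end Fermat.Agent.Tors
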