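import Mathlib
import Fermat.Agent.Tors.Branch
import Fermat.Agent.Tors.Fibre

/-!
# Exponential charts at the points of the Riemann sphere

`phi b` maps a left half-plane onto a punctured neighbourhood of `b : Option ℂ`.
-/

noncomputable section

open Polynomial Filter Topology Set AlgebraicCurve Complex
open scoped Real

namespace Fermat.Agent.Tors

/-- Exponential chart at `b`. -/
def phi : Option ℂ → ℂ → ℂ
  | some c, u => c + cexp u
  | none, u => cexp (-u)

/-- The filter `re → -∞`. -/
def negInf : Filter ℂ := comap Complex.re atBot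

/-- The open left half-plane `re < R`. -/
def halfPlane (R : ℝ) : Set ℂ := {u | u.re < R}

theorem isOpen_halfPlane (R : ℝ) : IsOpen (halfPlane R) := isOpen_Iio.preimage Complex.continuous_re

theorem convex_halfPlane (R : ℝ) : Convex ℝ (halfPlane R) :=
  convex_halfSpace_lt Complex.reLm.isLinear R

theorem nonempty_halfPlane (R : ℝ) : (halfPlane R).Nonempty := ⟨(R - 1 : ℝ), by simp [halfPlane]⟩

theorem isSimplyConnected_halfPlane (R : ℝ) : IsSimplyConnected (halfPlane R) := by
  have := (convex_halfPlane R).contractibleSpace (nonempty_halfPlane R)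
  show SimplyConnectedSpace (halfPlane R)
  infer_instance

theorem halfPlane_mem_negInf (R : ℝ) : halfPlane R ∈ negInf :=
  preimage_mem_comap (Iio_mem_atBot R)

theorem exists_halfPlane_of_mem {s : Set ℂ} (hs : s ∈ negInf) : ∃ R, halfPlane R ⊆ s := by
  obtain ⟨t, ht, hts⟩ := mem_comap.1 hs
  obtain ⟨R, hR⟩ := mem_atBot_sets.1 ht
  exact ⟨R, fun u hu => hts (hR _ (le_of_lt hu))⟩

theorem exists_halfPlane_of_eventually {p : ℂ → Prop} (h : ∀ᶠ u in negInf, p u) :
    ∃ R, ∀ u, u.re < R → p u := by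
  obtain ⟨R, hR⟩ := exists_halfPlane_of_mem h
  exact ⟨R, fun u hu => hR hu⟩

instance negInf_neBot : negInf.NeBot := by
  refine comap_neBot fun s hs => ?_
  obtain ⟨R, hR⟩ := mem_atBot_sets.1 hs
  exact ⟨(R : ℂ), hR _ (by simp)⟩

theorem tendsto_exp_negInf : Tendsto cexp negInf (𝓝 0) :=
  tendsto_exp_nhds_zero_iff.2 tendsto_comap

theorem tendsto_phi_some (c : ℂ) : Tendsto (phi (some c)) negInf (𝓝[≠] c) := by
  refine tendsto_nhdsWithin_iff.2 ⟨?_, Eventually.of_forall fun u => ?_⟩
  · show Tendsto (fun u => c + cexp u) negInf (𝓝 c)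
    simpa using tendsto_exp_negInf.const_add c
  · simp [phi, exp_ne_zero]

theorem tendsto_norm_phi_none : Tendsto (fun u => ‖phi none u‖) negInf atTop := by
  simp only [phi, norm_exp, neg_re]
  exact Real.tendsto_exp_atTop.comp (tendsto_neg_atBot_atTop.comp tendsto_comap)

theorem eventually_phi_notMem (b : Option ℂ) (T : Set ℂ) (hT : T.Finite) :
    ∀ᶠ u in negInf, phi b u ∉ T := by
  cases b with
  | some c =>
    exact (tendsto_phi_some c).eventually (nhdsNE_le_cofinite c hT.compl_mem_cofinite)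
  | none =>
    obtain ⟨B, hB⟩ := hT.isBounded.exists_norm_le
    filter_upwards [tendsto_norm_phi_none.eventually (eventually_gt_atTop B)] with u hu hmem
    exact absurd (hB _ hmem) (not_le.2 hu)

theorem differentiable_phi (b : Option ℂ) : Differentiable ℂ (phi b) := by
  cases b with
  | some c =>
    show Differentiable ℂ fun u => c + cexp u
    fun_prop
  | none =>
    show Differentiable ℂ fun u => cexp (-u)
    fun_prop

theorem continuous_phi (b : Option ℂ) : Continuous (phi b) := (differentiable_phi b).continuous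

theorem phi_periodic (b : Option ℂ) : Function.Periodic (phi b) (2 * π * I) := by
  intro u
  cases b with
  | some c => simp [phi, Complex.exp_periodic u]
  | none =>
    show cexp (-(u + 2 * π * I)) = cexp (-u)
    rw [neg_add, Complex.exp_add, Complex.exp_neg (2 * π * I), exp_two_pi_mul_I, inv_one, mul_one]

theorem add_two_pi_I_mem_halfPlane {R : ℝ} {u : ℂ} (h : u ∈ halfPlane R) (k : ℤ) :
    u + k * (2 * π * I) ∈ halfPlane R := by
  simpa [halfPlane] using h

theorem eventually_translate {p : ℂ → Prop} (h : ∀ᶠ u in negInf, p u) (k : ℤ) :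
    ∀ᶠ u in negInf, p (u + k * (2 * π * I)) := by
  obtain ⟨R, hR⟩ := exists_halfPlane_of_eventually h
  filter_upwards [halfPlane_mem_negInf R] with u hu
  exact hR _ (add_two_pi_I_mem_halfPlane hu k)

theorem tendsto_translate (k : ℤ) :
    Tendsto (fun u => u + k * (2 * π * I)) negInf negInf :=
  fun _ hs => eventually_translate hs k

/-- Asymptotic of a polynomial in an exponential chart. -/
theorem exists_tendsto_eval_mul_exp (b : Option ℂ) {a : ℂ[X]} (ha : a ≠ 0) :
    ∃ γ ≠ 0, Tendsto (fun u => a.eval (phi b u) * cexp (-(mu b a : ℂ) * u)) negInf (𝓝 γ) := by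
  cases b with
  | some c =>
    obtain ⟨q, hq, hqc⟩ := Polynomial.exists_eq_pow_rootMultiplicity_mul_and_not_dvd a ha c
    refine ⟨q.eval c, fun h => hqc (dvd_iff_isRoot.2 h), ?_⟩
    have h1 : Tendsto (fun u => q.eval (phi (some c) u)) negInf (𝓝 (q.eval c)) :=
      (q.continuous.tendsto c).comp ((tendsto_phi_some c).mono_right nhdsWithin_le_nhds)
    refine h1.congr fun u => ?_
    simp only [mu]
    generalize a.rootMultiplicity c = k at hq
    subst hq
    simp only [phi, eval_mul, eval_pow, eval_sub, eval_X, eval_C, add_sub_cancel_left,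
      Int.cast_natCast, neg_mul, Complex.exp_neg, ← Complex.exp_nat_mul]
    field_simp
  | none =>
    refine ⟨a.leadingCoeff, leadingCoeff_ne_zero.2 ha, ?_⟩
    have h1 : Tendsto (fun u => ∑ k ∈ Finset.range (a.natDegree + 1),
        a.coeff k * cexp u ^ (a.natDegree - k)) negInf
        (𝓝 (∑ k ∈ Finset.range (a.natDegree + 1), a.coeff k * (0 : ℂ) ^ (a.natDegree - k))) :=
      tendsto_finsetSum _ fun k _ => (tendsto_exp_negInf.pow _).const_mul _
    have h2 : ∑ k ∈ Finset.range (a.natDegree + 1), a.coeff k * (0 : ℂ) ^ (a.natDegree - k)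
        = a.leadingCoeff := by
      rw [Finset.sum_range_succ, Finset.sum_eq_zero fun k hk => by
        rw [Finset.mem_range] at hk
        simp [zero_pow (by omega : a.natDegree - k ≠ 0)]]
      rw [Nat.sub_self, pow_zero, mul_one, coeff_natDegree, zero_add]
    rw [h2] at h1
    refine h1.congr fun u => ?_
    rw [eval_eq_sum_range, Finset.sum_mul]
    refine Finset.sum_congr rfl fun k hk => ?_
    rw [Finset.mem_range] at hk
    simp only [phi, mu, Int.cast_neg, Int.cast_natCast, neg_neg, ← Complex.exp_nat_mul]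
    rw [mul_assoc, ← Complex.exp_add]
    congr 2
    push_cast [Nat.cast_sub (by omega : k ≤ a.natDegree)]
    ring

/-- Asymptotic of a quotient of polynomials in an exponential chart. -/
theorem exists_tendsto_ratio_mul_exp (b : Option ℂ) {a d : ℂ[X]} (ha : a ≠ 0) (hd : d ≠ 0) :
    ∃ γ ≠ 0, Tendsto (fun u => a.eval (phi b u) / d.eval (phi b u) *
      cexp (-((mu b a - mu b d : ℤ) : ℂ) * u)) negInf (𝓝 γ) := by
  obtain ⟨γ, hγ, h1⟩ := exists_tendsto_eval_mul_exp b ha
  obtain ⟨δ, hδ, h2⟩ := exists_tendsto_eval_mul_exp b hd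
  refine ⟨γ / δ, div_ne_zero hγ hδ, (h1.div h2 hδ).congr fun u => ?_⟩
  simp only [Pi.div_apply, Int.cast_sub, neg_sub, neg_mul, Complex.exp_neg, sub_mul,
    Complex.exp_sub]
  field_simp

/-- A fraction without pole at `b` is bounded near `b`. -/
theorem ratio_bounded (b : Option ℂ) {a d : ℂ[X]} (hd : d ≠ 0)
    (h : a = 0 ∨ mu b d ≤ mu b a) :
    ∃ B, ∀ᶠ u in negInf, ‖a.eval (phi b u) / d.eval (phi b u)‖ ≤ B := by
  by_cases ha : a = 0
  · exact ⟨0, Eventually.of_forall fun u => by simp [ha]⟩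
  obtain ⟨γ, -, hγ⟩ := exists_tendsto_ratio_mul_exp b ha hd
  have hm : 0 ≤ mu b a - mu b d := by have := h.resolve_left ha; omega
  set m := mu b a - mu b d
  refine ⟨‖γ‖ + 1, ?_⟩
  filter_upwards [hγ.norm.eventually_lt_const (lt_add_one ‖γ‖),
    halfPlane_mem_negInf 0] with u hu hu0
  rw [norm_mul, norm_exp] at hu
  have h1 : (1 : ℝ) ≤ Real.exp ((-(m : ℂ) * u).re) := by
    rw [Real.one_le_exp_iff]
    simp only [neg_mul, neg_re, mul_re, intCast_re, intCast_im, zero_mul, sub_zero]
    have : (0 : ℝ) ≤ (m : ℝ) := by exact_mod_cast hm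
    have hu0 : u.re < 0 := hu0
    nlinarith
  calc _ ≤ ‖a.eval (phi b u) / d.eval (phi b u)‖ * Real.exp ((-(m : ℂ) * u).re) :=
        le_mul_of_one_le_right (norm_nonneg _) h1
    _ ≤ _ := hu.le

/-- A fraction tending to zero at `b` vanishes at `b`. -/
theorem mu_lt_of_tendsto_zero (b : Option ℂ) {a d : ℂ[X]} (ha : a ≠ 0) (hd : d ≠ 0)
    (h : Tendsto (fun u => a.eval (phi b u) / d.eval (phi b u)) negInf (𝓝 0)) :
    mu b d < mu b a := by
  by_contra hle
  rw [not_lt] at hle
  obtain ⟨γ, hγ0, hγ⟩ := exists_tendsto_ratio_mul_exp b ha hd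
  set m := mu b a - mu b d with hm
  have hm0 : m ≤ 0 := by omega
  have hz : Tendsto (fun u => a.eval (phi b u) / d.eval (phi b u) * cexp (-(m : ℂ) * u))
      negInf (𝓝 0) := by
    refine squeeze_zero_norm' ?_ (tendsto_zero_iff_norm_tendsto_zero.1 h)
    filter_upwards [halfPlane_mem_negInf 0] with u hu0
    rw [norm_mul, norm_exp]
    refine mul_le_of_le_one_right (norm_nonneg _) (Real.exp_le_one_iff.2 ?_)
    simp only [neg_mul, neg_re, mul_re, intCast_re, intCast_im, zero_mul, sub_zero]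
    have : (m : ℝ) ≤ 0 := by exact_mod_cast hm0
    have hu0 : u.re < 0 := hu0
    nlinarith
  exact hγ0 (tendsto_nhds_unique hγ hz)

/-- A continuous function approximately valued in a finite set has a limit in it. -/
theorem exists_tendsto_of_prod_tendsto_zero {ι : Type*} [Fintype ι] {c : ι → ℂ}
    (hc : Function.Injective c) {g : ℂ → ℂ} {R : ℝ} (hg : ContinuousOn g (halfPlane R))
    (h : Tendsto (fun u => ∏ j, (g u - c j)) negInf (𝓝 0)) :
    ∃ j, Tendsto g negInf (𝓝 (c j)) := by
  classical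
  obtain ⟨δ, hδ, hsep⟩ : ∃ δ > 0, ∀ i j, i ≠ j → 2 * δ ≤ ‖c i - c j‖ := by
    rcases ((Finset.univ : Finset (ι × ι)).filter fun q => q.1 ≠ q.2).eq_empty_or_nonempty with
      he | he
    · refine ⟨1, one_pos, fun i j hij => ?_⟩
      have : (i, j) ∈ ((Finset.univ : Finset (ι × ι)).filter fun q => q.1 ≠ q.2) := by simp [hij]
      simp [he] at this
    · obtain ⟨q, hq, hmin⟩ := Finset.exists_min_image _ (fun q => ‖c q.1 - c q.2‖) he
      rw [Finset.mem_filter] at hq
      refine ⟨‖c q.1 - c q.2‖ / 2, half_pos (norm_pos_iff.2 (sub_ne_zero.2 (hc.ne hq.2))),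
        fun i j hij => ?_⟩
      linarith [hmin (i, j) (by simp [hij])]
  have key : ∀ ε > 0, ∀ᶠ u in negInf, ∃ j, ‖g u - c j‖ < ε := by
    intro ε hε
    filter_upwards [(tendsto_zero_iff_norm_tendsto_zero.1 h).eventually_lt_const
      (pow_pos hε (Fintype.card ι))] with u hu
    by_contra hcon
    push Not at hcon
    rw [norm_prod] at hu
    have : ε ^ Fintype.card ι ≤ ∏ j, ‖g u - c j‖ := by
      rw [← Finset.card_univ, ← Finset.prod_const]
      exact Finset.prod_le_prod (fun _ _ => hε.le) fun j _ => hcon j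
    linarith
  have hfar : ∀ i j, i ≠ j → ∀ w, ‖w - c j‖ < δ → ¬ ‖w - c i‖ < δ := by
    intro i j hij w hw hw'
    have h2 := norm_sub_le (w - c j) (w - c i)
    rw [sub_sub_sub_cancel_left] at h2
    linarith [hsep i j hij]
  obtain ⟨R₁, hR₁⟩ := exists_halfPlane_of_eventually ((key δ hδ).and (halfPlane_mem_negInf R))
  obtain ⟨u₀, hu₀⟩ := nonempty_halfPlane R₁
  obtain ⟨j₀, hj₀⟩ := (hR₁ u₀ hu₀).1
  have hgc : ContinuousOn g (halfPlane R₁) := hg.mono fun u hu => (hR₁ u hu).2
  have hall : ∀ u ∈ halfPlane R₁, ‖g u - c j₀‖ < δ := by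
    have hP : IsPreconnected (g '' halfPlane R₁) :=
      ((convex_halfPlane R₁).isPreconnected).image g hgc
    have hsub : g '' halfPlane R₁ ⊆ Metric.ball (c j₀) δ := by
      refine hP.subset_left_of_subset_union (v := ⋃ j ∈ {j | j ≠ j₀}, Metric.ball (c j) δ)
        Metric.isOpen_ball (isOpen_biUnion fun j _ => Metric.isOpen_ball) ?_ ?_
        ⟨g u₀, ⟨u₀, hu₀, rfl⟩, by rwa [Metric.mem_ball, dist_eq_norm]⟩
      · rw [Set.disjoint_left]
        intro w hw hw'
        simp only [mem_iUnion, mem_ofPred_eq, exists_prop] at hw'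
        obtain ⟨j, hj, hwj⟩ := hw'
        rw [Metric.mem_ball, dist_eq_norm] at hw hwj
        exact hfar j j₀ hj w hw hwj
      · rintro - ⟨u, hu, rfl⟩
        obtain ⟨j, hj⟩ := (hR₁ u hu).1
        by_cases he : j = j₀
        · left; subst he; rwa [Metric.mem_ball, dist_eq_norm]
        · right
          simp only [mem_iUnion, exists_prop]
          exact ⟨j, he, by rwa [Metric.mem_ball, dist_eq_norm]⟩
    intro u hu
    simpa [Metric.mem_ball, dist_eq_norm] using hsub ⟨u, hu, rfl⟩
  refine ⟨j₀, Metric.tendsto_nhds.2 fun ε hε => ?_⟩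
  filter_upwards [key (min ε δ) (lt_min hε hδ), halfPlane_mem_negInf R₁] with u ⟨j, hj⟩ hu
  have h1 := hall u hu
  have hjeq : j = j₀ := by
    by_contra hne
    exact hfar j j₀ hne _ h1 (lt_of_lt_of_le hj (min_le_right ε δ))
  rw [dist_eq_norm, ← hjeq]
  exact lt_of_lt_of_le hj (min_le_left _ _)

/-- If `g ^ e` tends to a nonzero limit, so does `g`. -/
theorem exists_tendsto_of_pow_tendsto {e : ℕ} (he : 0 < e) {g : ℂ → ℂ} {R : ℝ}
    (hg : ContinuousOn g (halfPlane R)) {c : ℂ} (hc : c ≠ 0)
    (h : Tendsto (fun u => g u ^ e) negInf (𝓝 c)) :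
    ∃ w ≠ 0, w ^ e = c ∧ Tendsto g negInf (𝓝 w) := by
  classical
  set s := (nthRoots e c).toFinset with hs
  have hmem : ∀ x, x ∈ s ↔ x ^ e = c := fun x => by simp [hs, mem_nthRoots he]
  have hnd : (nthRoots e c).Nodup :=
    (Complex.isPrimitiveRoot_exp e he.ne').nthRoots_nodup hc
  have hprod : ∀ x : ℂ, x ^ e - c = ∏ j : s, (x - j) := by
    intro x
    have h1 : (X ^ e - C c : ℂ[X]) = ((nthRoots e c).map fun a => X - C a).prod :=
      (IsAlgClosed.splits _).eq_prod_roots_of_monic (monic_X_pow_sub_C c he.ne')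
    have h2 := congrArg (eval x) h1
    rw [eval_multiset_prod, Multiset.map_map] at h2
    simp only [eval_sub, eval_pow, eval_X, eval_C, Function.comp_def] at h2
    rw [h2, Finset.univ_eq_attach, Finset.prod_attach s (fun a => x - a),
        Finset.prod_eq_multiset_prod,
      hs, Multiset.toFinset_val, hnd.dedup]
  obtain ⟨⟨w, hw⟩, hlim⟩ := exists_tendsto_of_prod_tendsto_zero (c := fun j : s => (j : ℂ))
    Subtype.coe_injective hg (by
      have : Tendsto (fun u => g u ^ e - c) negInf (𝓝 0) := by simpa using h.sub_const c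
      exact this.congr fun u => hprod _)
  rw [hmem] at hw
  exact ⟨w, fun h0 => hc (by rw [← hw, h0, zero_pow he.ne']), hw, hlim⟩

end Fermat.Agent.Tors
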