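import Mathlib
import Fermat.Agent.Tors.Chart

/-!
# Limits of functions along branches near a point

For a lift `η` over the exponential chart at `b`, the behaviour of `f` along `η` as the real part
tends to `-∞`: functions regular over `b` are bounded, vanishing ones tend to zero, and conversely.
-/

noncomputable section

open Polynomial Filter Topology Set AlgebraicCurve Complex Fermat.Agent.FF
open scoped Real

namespace Fermat.Agent.Tors

namespace Model

variable {F : Type*} [Field F] [Algebra ℂ F] (M : Model ℂ F)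

/-- A continuous branch over a punctured neighbourhood of `b`. -/
def IsLift (b : Option ℂ) (η : ℂ → ℂ) : Prop :=
  ∃ R, M.IsBranch (halfPlane R) (phi b) η ∧ ∀ u ∈ halfPlane R, M.Good (phi b u)

/-- The function `f` along the lift `η`. -/
def along (b : Option ℂ) (η : ℂ → ℂ) (f : F) (u : ℂ) : ℂ := M.val f (phi b u) (η u)

theorem eventually_regAt (b : Option ℂ) (f : F) : ∀ᶠ u in negInf, M.RegAt f (phi b u) := by
  filter_upwards [eventually_phi_notMem b _ (M.finite_not_regAt f)] with u hu
  exact not_not.1 hu

theorem exists_regAt_halfPlane (b : Option ℂ) (f : F) :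
    ∃ R, ∀ u ∈ halfPlane R, M.RegAt f (phi b u) :=
  exists_halfPlane_of_eventually (M.eventually_regAt b f)

variable {M} {b : Option ℂ} {η : ℂ → ℂ}

theorem IsLift.eventually_root (h : M.IsLift b η) :
    ∀ᶠ u in negInf, M.IsRootAt (phi b u) (η u) := by
  obtain ⟨R, hR, -⟩ := h
  filter_upwards [halfPlane_mem_negInf R] with u hu using hR.root u hu

theorem IsLift.along_add (h : M.IsLift b η) (f g : F) :
    M.along b η (f + g) =ᶠ[negInf] fun u => M.along b η f u + M.along b η g u := by
  filter_upwards [h.eventually_root, M.eventually_regAt b f, M.eventually_regAt b g]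
    with u hu hf hg using val_add hf hg hu

theorem IsLift.along_mul (h : M.IsLift b η) (f g : F) :
    M.along b η (f * g) =ᶠ[negInf] fun u => M.along b η f u * M.along b η g u := by
  filter_upwards [h.eventually_root, M.eventually_regAt b f, M.eventually_regAt b g]
    with u hu hf hg using val_mul hf hg hu

theorem IsLift.along_pow (h : M.IsLift b η) (f : F) (k : ℕ) :
    M.along b η (f ^ k) =ᶠ[negInf] fun u => M.along b η f u ^ k := by
  filter_upwards [h.eventually_root, M.eventually_regAt b f] with u hu hf using val_pow hf hu k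

theorem IsLift.along_algebraMap (h : M.IsLift b η) (c : ℂ) :
    M.along b η (algebraMap ℂ F c) =ᶠ[negInf] fun _ => c := by
  filter_upwards [h.eventually_root] with u hu using M.val_algebraMap c hu

theorem IsLift.along_one (h : M.IsLift b η) : M.along b η 1 =ᶠ[negInf] fun _ => 1 := by
  filter_upwards [h.eventually_root] with u hu using val_one hu

theorem IsLift.along_zero (h : M.IsLift b η) : M.along b η 0 =ᶠ[negInf] fun _ => 0 := by
  filter_upwards [h.eventually_root] with u hu using val_zero hu

theorem IsLift.along_sub (h : M.IsLift b η) (f g : F) :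
    M.along b η (f - g) =ᶠ[negInf] fun u => M.along b η f u - M.along b η g u := by
  filter_upwards [h.along_add (f - g) g] with u hu
  rw [sub_add_cancel] at hu
  rw [hu]; ring

theorem IsLift.along_sum (h : M.IsLift b η) {ι : Type*} (s : Finset ι) (f : ι → F) :
    M.along b η (∑ i ∈ s, f i) =ᶠ[negInf] fun u => ∑ i ∈ s, M.along b η (f i) u := by
  have hall : ∀ᶠ u in negInf, ∀ i ∈ s, M.RegAt (f i) (phi b u) :=
    (eventually_all_finset s).2 fun i _ => M.eventually_regAt b (f i)
  filter_upwards [h.eventually_root, hall] with u hu hf using val_sum hf hu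

theorem IsLift.along_inv (h : M.IsLift b η) {f : F} (hf : f ≠ 0) :
    M.along b η f⁻¹ =ᶠ[negInf] fun u => (M.along b η f u)⁻¹ := by
  filter_upwards [h.along_mul f f⁻¹, h.along_one] with u hu h1
  rw [mul_inv_cancel₀ hf, h1] at hu
  exact eq_inv_of_mul_eq_one_right hu.symm

theorem IsLift.along_zpow (h : M.IsLift b η) {f : F} (hf : f ≠ 0) (k : ℤ) :
    M.along b η (f ^ k) =ᶠ[negInf] fun u => M.along b η f u ^ k := by
  cases k with
  | ofNat k => simpa using h.along_pow f k
  | negSucc k =>
    simp only [zpow_negSucc]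
    refine (h.along_inv (pow_ne_zero _ hf)).trans ?_
    filter_upwards [h.along_pow f (k + 1)] with u hu using congrArg (·⁻¹) hu

theorem IsLift.along_div_aeval (h : M.IsLift b η) (a : ℂ[X]) {d : ℂ[X]} (hd : d ≠ 0) :
    M.along b η (aeval M.x a / aeval M.x d) =ᶠ[negInf]
      fun u => a.eval (phi b u) / d.eval (phi b u) := by
  filter_upwards [h.eventually_root,
    eventually_phi_notMem b _ (Polynomial.finite_setOfPred_isRoot hd)] with u hu hd'
  rw [along, M.val_eq (A := C a) (d := d) ?_ hd' hu, evAt_C]
  rw [ev_C, div_mul_cancel₀ _ (M.aeval_ne_zero hd)]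

theorem IsLift.along_ev (h : M.IsLift b η) (A : ℂ[X][X]) :
    M.along b η (M.ev A) =ᶠ[negInf] fun u => evAt (phi b u) (η u) A := by
  filter_upwards [h.eventually_root] with u hu using M.val_ev A hu

theorem IsLift.along_xi (h : M.IsLift b η) :
    M.along b η (M.xi b) =ᶠ[negInf] cexp := by
  cases b with
  | some c =>
    have he : M.xi (some c) = M.ev (C (X - C c)) := by simp [xi]
    filter_upwards [h.along_ev (C (X - C c))] with u hu
    rw [he, hu]
    simp [phi]
  | none =>
    refine (h.along_inv M.x_ne_zero).trans ?_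
    have he : M.x = M.ev (C X) := by simp
    filter_upwards [h.along_ev (C X)] with u hu
    rw [he, hu]
    simp [phi, Complex.exp_neg]

theorem IsLift.continuousOn_along (h : M.IsLift b η) (f : F) :
    ∃ R, ContinuousOn (M.along b η f) (halfPlane R) := by
  obtain ⟨R, hR, hgood⟩ := h
  obtain ⟨R', hR'⟩ := M.exists_regAt_halfPlane b f
  refine ⟨min R R', fun u hu => ?_⟩
  have hu1 : u ∈ halfPlane R := lt_of_lt_of_le (show u.re < min R R' from hu) (min_le_left _ _)
  have hu2 : u ∈ halfPlane R' := lt_of_lt_of_le (show u.re < min R R' from hu) (min_le_right _ _)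
  refine (M.differentiableAt_val ((differentiable_phi b) u) ?_ ?_ (hR' u hu2)).continuousAt
    |>.continuousWithinAt
  · exact hR.differentiableAt (isOpen_halfPlane R) (differentiable_phi b).differentiableOn hgood hu1
  · filter_upwards [(isOpen_halfPlane R).mem_nhds hu1] with w hw using hR.root w hw

/-- A function regular over `b` is bounded along every lift. -/
theorem IsLift.bounded_of_regular (h : M.IsLift b η) {f : F}
    (hreg : ∀ v, M.Over b v → 0 ≤ v.ord f) :
    ∃ B, ∀ᶠ u in negInf, ‖M.along b η f u‖ ≤ B := by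
  obtain ⟨q, hq, hqf, hco⟩ := M.exists_monic_relation hreg
  choose a d hd hc hle using hco
  choose B hB using fun k => ratio_bounded b (hd k) (hle k)
  refine ⟨1 + ∑ k ∈ Finset.range q.natDegree, max (B k) 0, ?_⟩
  have hall : ∀ᶠ u in negInf, ∀ k ∈ Finset.range q.natDegree,
      ‖M.along b η (q.coeff k) u‖ ≤ max (B k) 0 := by
    refine (eventually_all_finset _).2 fun k _ => ?_
    filter_upwards [hB k, h.along_div_aeval (a k) (hd k)] with u hu hu'
    rw [hc k, hu']
    exact hu.trans (le_max_left _ _)
  have hterm : ∀ᶠ u in negInf, ∀ k ∈ Finset.range q.natDegree,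
      M.along b η (q.coeff k * f ^ k) u = M.along b η (q.coeff k) u * M.along b η f u ^ k := by
    refine (eventually_all_finset _).2 fun k _ => ?_
    filter_upwards [h.along_mul (q.coeff k) (f ^ k), h.along_pow f k] with u h1 h2
    rw [h1, h2]
  have hrel : f ^ q.natDegree + ∑ k ∈ Finset.range q.natDegree, q.coeff k * f ^ k = 0 := by
    rw [eval_eq_sum_range, Finset.sum_range_succ, hq.coeff_natDegree, one_mul, add_comm] at hqf
    exact hqf
  filter_upwards [hall, hterm, h.along_pow f q.natDegree,
    h.along_add (f ^ q.natDegree) (∑ k ∈ Finset.range q.natDegree, q.coeff k * f ^ k),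
    h.along_sum (Finset.range q.natDegree) (fun k => q.coeff k * f ^ k), h.along_zero]
    with u hu ht hp ha hs h0
  rw [hrel, h0, hp, hs, Finset.sum_congr rfl ht] at ha
  exact norm_le_of_monic_relation ha.symm fun k hk => hu k (Finset.mem_range.2 hk)

/-- A function vanishing over `b` tends to zero along every lift. -/
theorem IsLift.tendsto_zero_of_vanishing (h : M.IsLift b η) {f : F}
    (hv : ∀ v, M.Over b v → f = 0 ∨ 0 < v.ord f) :
    Tendsto (M.along b η f) negInf (𝓝 0) := by
  by_cases hf : f = 0
  · subst hf
    exact tendsto_const_nhds.congr' h.along_zero.symm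
  have hreg : ∀ v, M.Over b v → 0 ≤ v.ord (f ^ M.n * (M.xi b)⁻¹) := by
    intro v hv'
    rw [v.ord_mul (pow_ne_zero _ hf) (inv_ne_zero (M.xi_ne_zero b)), FF.ord_pow, v.ord_inv]
    have h1 : (M.n : ℤ) * 1 ≤ M.n * v.ord f :=
      mul_le_mul_of_nonneg_left ((hv v hv').resolve_left hf) (by omega)
    have h2 : v.ord (M.xi b) ≤ (M.n : ℤ) := by
      rw [← M.sum_ord_xi b]
      exact Finset.single_le_sum (f := fun w => w.ord (M.xi b))
        (fun w hw => le_of_lt (M.mem_fibre.1 hw)) (M.mem_fibre.2 hv')
    omega
  obtain ⟨B, hB⟩ := h.bounded_of_regular hreg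
  have hpow : Tendsto (fun u => ‖M.along b η f u‖ ^ M.n) negInf (𝓝 0) := by
    refine squeeze_zero' (g := fun u => max B 0 * ‖cexp u‖) (Eventually.of_forall fun u => by
      positivity) ?_ ?_
    · filter_upwards [hB, h.along_mul (f ^ M.n) (M.xi b)⁻¹, h.along_pow f M.n,
        h.along_inv (M.xi_ne_zero b), h.along_xi] with u hu h1 h2 h3 h4
      rw [h1, h2, h3, h4, norm_mul, norm_pow, norm_inv, ← div_eq_mul_inv,
        div_le_iff₀ (norm_pos_iff.2 (exp_ne_zero u))] at hu
      exact hu.trans (mul_le_mul_of_nonneg_right (le_max_left _ _) (norm_nonneg _))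
    · simpa using (tendsto_exp_negInf.norm).const_mul (max B 0)
  rw [tendsto_zero_iff_norm_tendsto_zero]
  have := hpow.rpow_const (p := (M.n : ℝ)⁻¹) (Or.inr (by positivity))
  rw [Real.zero_rpow (inv_ne_zero (by exact_mod_cast M.n_pos.ne'))] at this
  refine this.congr fun u => ?_
  exact Real.pow_rpow_inv_natCast (norm_nonneg _) M.n_pos.ne'

/-- If all roots tend to zero, the coefficients tend to those of a power of `X`. -/
theorem tendsto_coeff_prod {ι α : Type*} (s : Finset ι) {l : Filter α} (r : α → ι → ℂ)
    (hr : ∀ i ∈ s, Tendsto (fun u => r u i) l (𝓝 0)) :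
    ∀ k, Tendsto (fun u => (∏ i ∈ s, (X - Polynomial.C (r u i))).coeff k) l
      (𝓝 ((X ^ s.card : ℂ[X]).coeff k)) := by
  classical
  induction s using Finset.induction_on with
  | empty => intro k; simpa using tendsto_const_nhds
  | insert a s ha ih =>
    rw [Finset.forall_mem_insert] at hr
    intro k
    simp only [Finset.prod_insert ha, Finset.card_insert_of_notMem ha]
    cases k with
    | zero =>
      simp only [sub_mul, coeff_sub, coeff_X_mul_zero, coeff_C_mul, zero_sub, coeff_X_pow]
      simpa using (hr.1.mul (ih hr.2 0)).neg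
    | succ k =>
      simp only [sub_mul, coeff_sub, coeff_X_mul, coeff_C_mul, pow_succ' X s.card]
      simpa using (ih hr.2 k).sub (hr.1.mul (ih hr.2 (k + 1)))

/-- If all values of `f` near `b` tend to zero then `f` vanishes over `b`. -/
theorem vanishing_of_tendsto_zero (M : Model ℂ F) (b : Option ℂ) (η : Fin M.n → ℂ → ℂ)
    (hη : ∀ i, M.IsLift b (η i)) (hinj : ∀ᶠ u in negInf, Function.Injective fun i => η i u)
    {f : F} (h : ∀ i, Tendsto (M.along b (η i) f) negInf (𝓝 0)) :
    ∀ v, M.Over b v → f = 0 ∨ 0 < v.ord f := by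
  obtain ⟨A, d, hd, hrep⟩ := M.exists_rep' f
  refine M.ord_pos_of_cpoly hd hrep fun k hk => ?_
  by_cases hc : (M.cpoly A).coeff k = 0
  · exact Or.inl hc
  refine Or.inr ?_
  have hlim := tendsto_coeff_prod Finset.univ (fun u i => M.along b (η i) f u) (fun i _ => h i) k
  rw [Finset.card_univ, Fintype.card_fin, coeff_X_pow, if_neg (ne_of_lt hk)] at hlim
  have key : ∀ᶠ u in negInf, ((M.cpoly A).coeff k).eval (phi b u)
        / (d ^ (M.n - k)).eval (phi b u)
      = (∏ i, (X - Polynomial.C (M.along b (η i) f u))).coeff k := by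
    filter_upwards [(eventually_all (ι := Fin M.n)).2 fun i => (hη i).eventually_root, hinj,
      eventually_phi_notMem b _ (Polynomial.finite_setOfPred_isRoot hd)] with u hu hi hdu
    have hd0 : d.eval (phi b u) ≠ 0 := hdu
    set z := phi b u
    have hval : ∀ i, evAt z (η i u) A = d.eval z * M.along b (η i) f u := fun i => by
      rw [along, M.val_eq hrep hd0 (hu i)]; field_simp
    have hchar := M.cpoly_map_eq_prod (evalRingHom z) A (fun i => η i u) hi hu
    have h1 := congrArg (fun p => p.coeff k) hchar
    simp only [coeff_map, coe_evalRingHom] at h1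
    have h2 : (∏ i, (X - Polynomial.C (evAt z (η i u) A)))
        = (∏ i, (X - Polynomial.C (M.along b (η i) f u))).scaleRoots (d.eval z) := by
      simp only [hval, ← X_sub_C_scaleRoots, mul_comm (d.eval z)]
      clear hchar h1 hlim hinj h
      induction (Finset.univ : Finset (Fin M.n)) using Finset.cons_induction with
      | empty => simp
      | cons a s ha ih =>
        rw [Finset.prod_cons, Finset.prod_cons, ih, Polynomial.mul_scaleRoots_of_noZeroDivisors]
    have hnd : (∏ i, (X - Polynomial.C (M.along b (η i) f u))).natDegree = M.n := by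
      rw [natDegree_prod_of_monic _ _ fun i _ => monic_X_sub_C (M.along b (η i) f u)]
      simp
    simp only [← evAt_apply] at h1
    rw [h1]
    have h3 := congrArg (fun p => p.coeff k) h2
    simp only [coeff_scaleRoots, hnd] at h3
    rw [eval_pow, h3, mul_div_assoc, div_self (pow_ne_zero _ hd0), mul_one]
  have := mu_lt_of_tendsto_zero b hc (pow_ne_zero _ hd) (hlim.congr' (key.mono fun u hu => hu.symm))
  have hpow : ∀ j : ℕ, mu b (d ^ j) = j * mu b d := by
    intro j
    induction j with
    | zero => cases b <;> simp [mu]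
    | succ j ih => rw [pow_succ, mu_mul b (pow_ne_zero _ hd) hd, ih]; push_cast; ring
  rw [hpow, Nat.cast_sub hk.le] at this
  exact this

end Model

end Fermat.Agent.Tors
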