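import Mathlib
import Fermat.Agent.Tors.Along

/-!
# Places above a point and cycles of the local monodromy

A lift over a puncture determines a place there; the order of a function at that place governs its
asymptotic, and the places over a point correspond to the cycles of the local monodromy, the
length being the ramification index.
-/

noncomputable section

open Polynomial Filter Topology Set AlgebraicCurve Complex Fermat.Agent.FF
open scoped Real

namespace Fermat.Agent.Tors

namespace Model

variable {F : Type*} [Field F] [Algebra ℂ F] {M : Model ℂ F} {b : Option ℂ} {η : ℂ → ℂ}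

open scoped Classical in
/-- The value of `f` at the place `v`. -/
def resid (_M : Model ℂ F) (v : Place ℂ F) (f : F) : ℂ :=
  if h : ∃ c : ℂ, f - algebraMap ℂ F c = 0 ∨ 0 < v.ord (f - algebraMap ℂ F c) then h.choose else 0

theorem resid_spec (M : Model ℂ F) {v : Place ℂ F} {f : F} (hf : 0 ≤ v.ord f) :
    f - algebraMap ℂ F (M.resid v f) = 0 ∨ 0 < v.ord (f - algebraMap ℂ F (M.resid v f)) := by
  have := M.isFunctionField
  have h := exists_const v hf
  rw [resid, dif_pos h]
  exact h.choose_spec

theorem resid_ne_zero (M : Model ℂ F) {v : Place ℂ F} {f : F} (hf0 : f ≠ 0) (hf : v.ord f = 0) :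
    M.resid v f ≠ 0 := by
  intro h
  have := M.resid_spec (v := v) (f := f) hf.ge
  rw [h, map_zero, sub_zero] at this
  rcases this with h' | h'
  · exact hf0 h'
  · omega

open scoped Classical in
/-- A function close to the indicator of `v` on the fibre over `b`. -/
theorem exists_bump_fibre (M : Model ℂ F) (b : Option ℂ) (v : Place ℂ F) (N : ℕ) :
    ∃ ε : F, ∀ w ∈ M.fibre b, ε - (if w = v then 1 else 0) ∈ poleLe w (-(N : ℤ)) := by
  have := M.isFunctionField
  obtain ⟨f, hf⟩ := approximation (M.fibre b) (fun w => if w = v then (1 : F) else 0) (fun _ => N)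
  exact ⟨f, fun w hw => hf w hw⟩

theorem vanishing_of_mem_poleLe {v : Place ℂ F} {f : F} {N : ℕ} (hN : 0 < N)
    (h : f ∈ poleLe v (-(N : ℤ))) : f = 0 ∨ 0 < v.ord f :=
  ((mem_poleLe v).1 h).imp_right fun h => by omega

theorem IsLift.tendsto_of_sub_vanishing (h : M.IsLift b η) {f g : F} {c : ℂ}
    (hv : ∀ v, M.Over b v → f - g = 0 ∨ 0 < v.ord (f - g))
    (hg : Tendsto (M.along b η g) negInf (𝓝 c)) : Tendsto (M.along b η f) negInf (𝓝 c) := by
  have h1 := (h.tendsto_zero_of_vanishing hv).add hg
  rw [zero_add] at h1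
  refine h1.congr' ?_
  filter_upwards [h.along_sub f g] with u hu
  rw [hu]; ring

open scoped Classical in
/-- Every lift determines a place over `b`, at which it takes residues as limits. -/
theorem IsLift.exists_place (h : M.IsLift b η) :
    ∃ v, M.Over b v ∧ ∀ f : F, 0 ≤ v.ord f → Tendsto (M.along b η f) negInf (𝓝 (M.resid v f)) := by
  have := M.isFunctionField
  choose ε hε using fun v => M.exists_bump_fibre b v 1
  -- each bump tends to 0 or 1
  have h01 : ∀ v, ∃ j : Fin 2, Tendsto (M.along b η (ε v)) negInf (𝓝 (![0, 1] j)) := by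
    intro v
    obtain ⟨R, hR⟩ := h.continuousOn_along (ε v)
    refine exists_tendsto_of_prod_tendsto_zero ?_ hR ?_
    · intro i j hij; fin_cases i <;> fin_cases j <;> simp at hij ⊢
    · have hvan : ∀ w, M.Over b w → ε v * (ε v - 1) = 0 ∨ 0 < w.ord (ε v * (ε v - 1)) := by
        intro w hw
        have h1 := hε v w (M.mem_fibre.2 hw)
        refine vanishing_of_mem_poleLe one_pos ?_
        have h0 : ε v * (ε v - 1) ∈ poleLe w (-1 + 0) := by
          split_ifs at h1
          · rw [mul_comm]
            refine mul_mem_poleLe w h1 ?_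
            have h2 : (1 : F) ∈ poleLe w 0 := by rw [mem_poleLe]; right; simp
            simpa using add_mem (poleLe_mono w (show -((1 : ℕ) : ℤ) ≤ 0 by omega) h1) h2
          · rw [sub_zero] at h1
            refine mul_mem_poleLe w h1 ?_
            have h2 : (1 : F) ∈ poleLe w 0 := by rw [mem_poleLe]; right; simp
            exact sub_mem (poleLe_mono w (show -((1 : ℕ) : ℤ) ≤ 0 by omega) h1) h2
        simpa using h0
      refine (h.tendsto_zero_of_vanishing hvan).congr' ?_
      filter_upwards [h.along_mul (ε v) (ε v - 1), h.along_sub (ε v) 1, h.along_one] with u h1 h2 h3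
      rw [h1, h2, h3, Fin.prod_univ_two]
      simp
  choose j hj using h01
  -- their sum tends to 1
  have hsum : Tendsto (M.along b η (∑ v ∈ M.fibre b, ε v)) negInf (𝓝 1) := by
    refine h.tendsto_of_sub_vanishing (g := 1) (fun w hw => vanishing_of_mem_poleLe one_pos ?_)
      (tendsto_const_nhds.congr' h.along_one.symm)
    have hw' := M.mem_fibre.2 hw
    have : (∑ v ∈ M.fibre b, ε v) - 1 = ∑ v ∈ M.fibre b, (ε v - if w = v then 1 else 0) := by
      rw [Finset.sum_sub_distrib, Finset.sum_ite_eq, if_pos hw']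
    rw [this]
    exact sum_mem fun v _ => hε v w hw'
  have hsum' : Tendsto (M.along b η (∑ v ∈ M.fibre b, ε v)) negInf
      (𝓝 (∑ v ∈ M.fibre b, ![0, 1] (j v))) :=
    (tendsto_finsetSum _ fun v _ => hj v).congr' (h.along_sum _ _).symm
  have hone := tendsto_nhds_unique hsum' hsum
  obtain ⟨v, hv, hjv⟩ : ∃ v ∈ M.fibre b, j v = 1 := by
    by_contra hcon
    push Not at hcon
    rw [Finset.sum_eq_zero fun v hv => by
      have h0 : j v = 0 := by have := hcon v hv; omega
      simp [h0]] at hone
    exact zero_ne_one hone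
  refine ⟨v, M.mem_fibre.1 hv, fun f hf => ?_⟩
  -- a strong bump
  set N : ℕ := 1 + ∑ w ∈ M.fibre b, (w.ord f).natAbs with hN
  obtain ⟨ε', hε'⟩ := M.exists_bump_fibre b v N
  have hNle : ∀ w ∈ M.fibre b, -(w.ord f) + 1 ≤ (N : ℤ) := fun w hw => by
    have := Finset.single_le_sum (f := fun w => (w.ord f).natAbs) (fun _ _ => Nat.zero_le _) hw
    omega
  have he : Tendsto (M.along b η ε') negInf (𝓝 1) := by
    have h1 := hj v
    rw [hjv] at h1
    refine h.tendsto_of_sub_vanishing (g := ε v) (fun w hw => ?_) (by simpa using h1)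
    refine vanishing_of_mem_poleLe one_pos ?_
    have hw' := M.mem_fibre.2 hw
    have := sub_mem (poleLe_mono w (show -(N : ℤ) ≤ -((1 : ℕ) : ℤ) by omega) (hε' w hw'))
        (hε v w hw')
    simpa using this
  set c := M.resid v f
  have hcspec : f - algebraMap ℂ F c = 0 ∨ 0 < v.ord (f - algebraMap ℂ F c) := M.resid_spec hf
  have hvan : ∀ w, M.Over b w →
      (f - algebraMap ℂ F c) * ε' = 0 ∨ 0 < w.ord ((f - algebraMap ℂ F c) * ε') := by
    intro w hw
    refine vanishing_of_mem_poleLe one_pos ?_
    have hw' := M.mem_fibre.2 hw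
    have h1 := hε' w hw'
    by_cases hwv : w = v
    · subst hwv
      rw [if_pos rfl] at h1
      have h2 : f - algebraMap ℂ F c ∈ poleLe w (-1) :=
        (mem_poleLe w).2 (hcspec.imp_right fun h => by omega)
      have h3 : ε' ∈ poleLe w 0 := by
        have : (1 : F) ∈ poleLe w 0 := by rw [mem_poleLe]; right; simp
        simpa using add_mem (poleLe_mono w (show -(N : ℤ) ≤ 0 by omega) h1) this
      simpa using mul_mem_poleLe w h2 h3
    · rw [if_neg hwv, sub_zero] at h1
      have h2 : f - algebraMap ℂ F c ∈ poleLe w (max 0 (-(w.ord f))) := by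
        refine sub_mem ((mem_poleLe w).2 (Or.inr (by omega))) ((mem_poleLe w).2 (Or.inr ?_))
        rw [FF.ord_algebraMap]
        omega
      refine poleLe_mono w ?_ (mul_mem_poleLe w h2 h1)
      have := hNle w hw'
      omega
  have h0 : Tendsto (fun u => M.along b η f u - c) negInf (𝓝 0) := by
    have hq := (h.tendsto_zero_of_vanishing hvan).div he one_ne_zero
    rw [zero_div] at hq
    refine hq.congr' ?_
    filter_upwards [h.along_mul (f - algebraMap ℂ F c) ε', h.along_sub f (algebraMap ℂ F c),
      h.along_algebraMap c, he.eventually_ne one_ne_zero] with u h1 h2 h3 h4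
    simp only [Pi.div_apply]
    rw [h1, h2, h3, mul_div_cancel_right₀ _ h4]
  simpa using h0.add_const c

/-- The place cut out by a lift. -/
def placeOf (h : M.IsLift b η) : Place ℂ F := h.exists_place.choose

theorem placeOf_over (h : M.IsLift b η) : M.Over b (placeOf h) := h.exists_place.choose_spec.1

theorem tendsto_resid (h : M.IsLift b η) {f : F} (hf : 0 ≤ (placeOf h).ord f) :
    Tendsto (M.along b η f) negInf (𝓝 (M.resid (placeOf h) f)) :=
  h.exists_place.choose_spec.2 f hf

/-- The asymptotic of `f` along a lift is governed by its order. -/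
theorem exists_tendsto_asymp (h : M.IsLift b η) {f : F} (hf : f ≠ 0) :
    ∃ w ≠ 0, Tendsto (fun u => M.along b η f u *
      cexp (-((placeOf h).ord f : ℂ) / ((placeOf h).ord (M.xi b) : ℂ) * u)) negInf (𝓝 w) := by
  set v := placeOf h
  set e := v.ord (M.xi b) with he
  have hepos : 0 < e := placeOf_over h
  obtain ⟨e', hee⟩ : ∃ k : ℕ, (k : ℤ) = e := ⟨e.toNat, by omega⟩
  set N := v.ord f
  set g := f ^ (e : ℤ) * M.xi b ^ (-N) with hg
  have hgord : v.ord g = 0 := by
    rw [hg, v.ord_mul (zpow_ne_zero _ hf) (zpow_ne_zero _ (M.xi_ne_zero b)), v.ord_zpow, v.ord_zpow,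
      ← he]
    ring
  have hg0 : g ≠ 0 := mul_ne_zero (zpow_ne_zero _ hf) (zpow_ne_zero _ (M.xi_ne_zero b))
  have hlim := tendsto_resid h (f := g) hgord.ge
  obtain ⟨R, hR⟩ := h.continuousOn_along f
  have hpow : Tendsto (fun u => (M.along b η f u * cexp (-(N : ℂ) / (e : ℂ) * u)) ^ e') negInf
      (𝓝 (M.resid v g)) := by
    refine hlim.congr' ?_
    filter_upwards [h.along_mul (f ^ (e : ℤ)) (M.xi b ^ (-N)), h.along_zpow hf e,
      h.along_zpow (M.xi_ne_zero b) (-N), h.along_xi] with u h1 h2 h3 h4
    rw [h1, h2, h3, h4, mul_pow, ← Complex.exp_nat_mul, ← zpow_natCast, hee, ← Complex.exp_int_mul,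
      show (e' : ℂ) = (e : ℂ) by rw [← hee]; push_cast; rfl]
    congr 2
    have : (e : ℂ) ≠ 0 := by exact_mod_cast hepos.ne'
    push_cast
    field_simp
  obtain ⟨w, hw, -, hlimw⟩ := exists_tendsto_of_pow_tendsto (e := e') (by omega)
    (R := R) (hR.mul (Continuous.continuousOn (by fun_prop))) (M.resid_ne_zero hg0 hgord) hpow
  exact ⟨w, hw, hlimw⟩

/-- The ramification index divides every period of a lift. -/
theorem ord_xi_dvd_period (h : M.IsLift b η) (L : ℕ)
    (hper : ∀ᶠ u in negInf, η (u + (L : ℤ) * (2 * π * I)) = η u) :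
    (placeOf h).ord (M.xi b) ∣ (L : ℤ) := by
  obtain ⟨t, ht0, ht⟩ := exists_ord_eq_one (placeOf h)
  obtain ⟨w, hw, hlim⟩ := exists_tendsto_asymp h ht0
  set e := (placeOf h).ord (M.xi b)
  have hepos : 0 < e := placeOf_over h
  rw [ht] at hlim
  have h2 := hlim.comp (tendsto_translate (L : ℤ))
  have h3 : Tendsto (fun u => (M.along b η t u * cexp (-((1 : ℤ) : ℂ) / (e : ℂ) * u)) *
      cexp (-((1 : ℤ) : ℂ) / (e : ℂ) * ((L : ℤ) * (2 * π * I)))) negInf (𝓝 w) := by
    refine h2.congr' ?_
    filter_upwards [hper] with u hu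
    simp only [Function.comp_def, along, (phi_periodic b).int_mul (L : ℤ) u, hu]
    rw [mul_add, Complex.exp_add]
    ring
  have h4 := tendsto_nhds_unique h3 (hlim.mul_const _)
  have h5 : cexp (-((1 : ℤ) : ℂ) / (e : ℂ) * ((L : ℤ) * (2 * π * I))) = 1 :=
    mul_left_cancel₀ hw (h4.symm.trans (mul_one w).symm)
  obtain ⟨m, hm⟩ := Complex.exp_eq_one_iff.1 h5
  refine ⟨-m, ?_⟩
  have he0 : (e : ℂ) ≠ 0 := by exact_mod_cast hepos.ne'
  have hpi : (2 * π * I : ℂ) ≠ 0 := by simp [Real.pi_ne_zero]
  have : ((L : ℤ) : ℂ) = ((e * -m : ℤ) : ℂ) := by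
    refine mul_right_cancel₀ hpi ?_
    field_simp at hm
    push_cast at hm ⊢
    linear_combination (-(2 * π * I : ℂ)) * hm
  exact_mod_cast this

/-- Every place over `b` comes from some lift of a complete family. -/
theorem exists_lift_of_over (η : Fin M.n → ℂ → ℂ) (hη : ∀ i, M.IsLift b (η i))
    (hinj : ∀ᶠ u in negInf, Function.Injective fun i => η i u) {v : Place ℂ F}
    (hv : M.Over b v) : ∃ i, placeOf (hη i) = v := by
  classical
  by_contra hcon
  push Not at hcon
  obtain ⟨ε, hε⟩ := M.exists_bump_fibre b v 1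
  have hlim : ∀ i, Tendsto (M.along b (η i) ε) negInf (𝓝 0) := by
    intro i
    have hw := M.mem_fibre.2 (placeOf_over (hη i))
    have h1 := hε _ hw
    rw [if_neg (hcon i), sub_zero] at h1
    have h2 := vanishing_of_mem_poleLe one_pos h1
    have h3 : 0 ≤ (placeOf (hη i)).ord ε := by
      rcases h2 with h2 | h2
      · simp [h2]
      · omega
    have h4 : M.resid (placeOf (hη i)) ε = 0 := by
      refine const_unique (placeOf (hη i)) (M.resid_spec h3) ?_
      simpa using h2
    simpa [h4] using tendsto_resid (hη i) h3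
  have h1 := vanishing_of_tendsto_zero M b η hη hinj hlim v hv
  have h2 := vanishing_of_mem_poleLe one_pos (hε v (M.mem_fibre.2 hv))
  rw [if_pos rfl] at h2
  have := M.isFunctionField
  have h0 : ε - algebraMap ℂ F 0 = 0 ∨ 0 < v.ord (ε - algebraMap ℂ F 0) := by simpa using h1
  have h1' : ε - algebraMap ℂ F 1 = 0 ∨ 0 < v.ord (ε - algebraMap ℂ F 1) := by simpa using h2
  exact zero_ne_one (const_unique v h0 h1')

variable {R : ℝ}

theorem Branches.isLift (B : M.Branches (halfPlane R) (phi b))
    (hgood : ∀ u ∈ halfPlane R, M.Good (phi b u)) (i : Fin M.n) : M.IsLift b (B.η i) :=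
  ⟨R, B.branch i, hgood⟩

/-- Translation by `2 π i` permutes a family of branches. -/
theorem exists_monodromy (B : M.Branches (halfPlane R) (phi b))
    (hgood : ∀ u ∈ halfPlane R, M.Good (phi b u)) :
    ∃ π' : Equiv.Perm (Fin M.n), ∀ i, ∀ u ∈ halfPlane R,
      B.η i (u + 2 * π * I) = B.η (π' i) u := by
  have hmap : MapsTo (fun u : ℂ => u + 2 * π * I) (halfPlane R) (halfPlane R) := fun u hu => by
    simpa using add_two_pi_I_mem_halfPlane hu 1
  have heq : EqOn (phi b ∘ fun u => u + 2 * π * I) (phi b) (halfPlane R) := fun u _ => by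
    simp [(phi_periodic b) u]
  let B' : M.Branches (halfPlane R) (phi b) :=
    { η := fun i u => B.η i (u + 2 * π * I)
      branch := fun i => ((B.branch i).comp (by fun_prop) hmap).congr_base heq
      injective := fun u hu => B.injective _ (hmap hu) }
  obtain ⟨p, hp⟩ := B.exists_perm B' subset_rfl (convex_halfPlane R).isPreconnected
    (nonempty_halfPlane R) (continuous_phi b).continuousOn hgood
  exact ⟨p, fun i u hu => hp i hu⟩

/-- Translating a lift by `2 π i` does not change its place. -/
theorem placeOf_monodromy (B : M.Branches (halfPlane R) (phi b))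
    (hgood : ∀ u ∈ halfPlane R, M.Good (phi b u)) {π' : Equiv.Perm (Fin M.n)}
    (hπ : ∀ i, ∀ u ∈ halfPlane R, B.η i (u + 2 * π * I) = B.η (π' i) u) (i : Fin M.n) :
    placeOf (B.isLift hgood (π' i)) = placeOf (B.isLift hgood i) := by
  classical
  have := M.isFunctionField
  set v : Fin M.n → Place ℂ F := fun i => placeOf (B.isLift hgood i)
  by_contra hne
  obtain ⟨ε, hε⟩ := M.exists_bump_fibre b (v i) 1
  have hw : ∀ j, v j ∈ M.fibre b := fun j => M.mem_fibre.2 (placeOf_over _)
  have h1 := vanishing_of_mem_poleLe one_pos (hε _ (hw i))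
  have h2 := vanishing_of_mem_poleLe one_pos (hε _ (hw (π' i)))
  rw [if_pos rfl] at h1
  rw [if_neg hne, sub_zero] at h2
  have h1' : 0 ≤ (v i).ord ε := by
    have ha : ε - 1 ∈ poleLe (v i) 0 := (mem_poleLe _).2 (h1.imp_right fun h => by omega)
    have hb : (1 : F) ∈ poleLe (v i) 0 := (mem_poleLe _).2 (Or.inr (by simp))
    have := add_mem ha hb
    rw [sub_add_cancel, mem_poleLe] at this
    rcases this with h | h
    · simp [h]
    · omega
  have h2' : 0 ≤ (v (π' i)).ord ε := by
    rcases h2 with h | h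
    · simp [h]
    · omega
  have r1 : M.resid (v i) ε = 1 :=
    const_unique (v i) (M.resid_spec h1') (by simpa using h1)
  have r2 : M.resid (v (π' i)) ε = 0 :=
    const_unique (v (π' i)) (M.resid_spec h2') (by simpa using h2)
  have l1 := (tendsto_resid (B.isLift hgood i) h1').comp (tendsto_translate 1)
  have l2 := tendsto_resid (B.isLift hgood (π' i)) h2'
  rw [show M.resid (v i) ε = 1 from r1] at l1
  rw [show M.resid (v (π' i)) ε = 0 from r2] at l2
  refine one_ne_zero (tendsto_nhds_unique l1 (l2.congr' ?_))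
  filter_upwards [halfPlane_mem_negInf R] with u hu
  simp only [Function.comp_def, along, Int.cast_one, one_mul, hπ i u hu, phi_periodic b u]

open scoped Classical in
/-- The ramification index is at most the length of the cycle. -/
theorem ord_xi_le_card_cycle (B : M.Branches (halfPlane R) (phi b))
    (hgood : ∀ u ∈ halfPlane R, M.Good (phi b u)) {π' : Equiv.Perm (Fin M.n)}
    (hπ : ∀ i, ∀ u ∈ halfPlane R, B.η i (u + 2 * π * I) = B.η (π' i) u) (i : Fin M.n) :
    (placeOf (B.isLift hgood i)).ord (M.xi b) ≤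
      ((Finset.univ.filter fun j =>
        Quotient.mk (Equiv.Perm.SameCycle.setoid π') j = ⟦i⟧).card : ℤ) := by
  set C := Finset.univ.filter fun j =>
    Quotient.mk (Equiv.Perm.SameCycle.setoid π') j = ⟦i⟧ with hC
  set m := C.card
  have hin : ∀ k : ℕ, (π' ^ k) i ∈ C := fun k => by
    simp only [C, Finset.mem_filter, Finset.mem_univ, true_and]
    refine Quotient.sound (s := Equiv.Perm.SameCycle.setoid π') ?_
    exact ⟨-(k : ℤ), by simp [zpow_neg]⟩
  obtain ⟨a, ha, c, hc, hac, heq⟩ := Finset.exists_ne_map_eq_of_card_lt_of_maps_to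
    (s := Finset.range (m + 1)) (t := C) (f := fun k => (π' ^ k) i)
    (by rw [Finset.card_range]; omega) (fun k _ => hin k)
  rw [Finset.mem_range] at ha hc
  wlog hlt : a < c generalizing a c with H
  · exact H c hc a ha hac.symm heq.symm (by omega)
  have hper : (π' ^ (c - a)) i = i := by
    refine (π' ^ a).injective ?_
    rw [← Equiv.Perm.mul_apply, ← pow_add, Nat.add_sub_cancel' hlt.le]
    exact heq.symm
  have hk : ∀ k : ℕ, ∀ u ∈ halfPlane R,
      B.η i (u + (k : ℤ) * (2 * π * I)) = B.η ((π' ^ k) i) u := by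
    intro k
    induction k with
    | zero => simp
    | succ k ih =>
      intro u hu
      rw [pow_succ', Equiv.Perm.mul_apply, ← hπ _ u hu,
        ← ih _ (by simpa using add_two_pi_I_mem_halfPlane hu 1)]
      push_cast
      ring_nf
  have hdvd := ord_xi_dvd_period (B.isLift hgood i) (c - a) (by
    filter_upwards [halfPlane_mem_negInf R] with u hu
    rw [hk _ u hu, hper])
  have := Int.le_of_dvd (by omega) hdvd
  omega

/-- Places over `b` are the cycles of the monodromy, ramification being the length. -/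
theorem monodromy_cycles (B : M.Branches (halfPlane R) (phi b))
    (hgood : ∀ u ∈ halfPlane R, M.Good (phi b u)) {π' : Equiv.Perm (Fin M.n)}
    (hπ : ∀ i, ∀ u ∈ halfPlane R, B.η i (u + 2 * π * I) = B.η (π' i) u) :
    (∀ i j, placeOf (B.isLift hgood i) = placeOf (B.isLift hgood j) ↔ π'.SameCycle i j) ∧
      Nat.card (Quotient (Equiv.Perm.SameCycle.setoid π')) = (M.fibre b).card ∧
      ∀ i, (placeOf (B.isLift hgood i)).ord (M.xi b)
        = (Nat.card {j // π'.SameCycle i j} : ℤ) := by
  classical
  set v : Fin M.n → Place ℂ F := fun i => placeOf (B.isLift hgood i) with hv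
  have hfun := M.isFunctionField
  have hstep : ∀ i, v (π' i) = v i := fun i => placeOf_monodromy B hgood hπ i
  have hcycle : ∀ i j, π'.SameCycle i j → v i = v j := by
    intro i j hij
    obtain ⟨k, -, rfl⟩ := hij.exists_pow_eq'
    induction k with
    | zero => simp
    | succ k ih => rw [pow_succ', Equiv.Perm.mul_apply, hstep, ← ih]; exact ⟨k, by simp⟩
  let Q := Quotient (Equiv.Perm.SameCycle.setoid π')
  let : Fintype Q := Fintype.ofFinite _
  let g : Q → Place ℂ F := Quotient.lift v hcycle
  let cls : Q → Finset (Fin M.n) := fun q => Finset.univ.filter fun i => ⟦i⟧ = q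
  -- `e` is at most the size of the cycle
  have hle : ∀ q, (g q).ord (M.xi b) ≤ ((cls q).card : ℤ) := by
    intro q
    induction q using Quotient.inductionOn with
    | h i =>
      exact ord_xi_le_card_cycle B hgood hπ i
  have hsurj : ∀ w ∈ M.fibre b, ∃ q, g q = w := by
    intro w hw
    have hinj : ∀ᶠ u in negInf, Function.Injective fun i => B.η i u := by
      filter_upwards [halfPlane_mem_negInf R] with u hu using B.injective u hu
    obtain ⟨i, hi⟩ := exists_lift_of_over B.η (B.isLift hgood) hinj (M.mem_fibre.1 hw)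
    exact ⟨⟦i⟧, hi⟩
  have hgmem : ∀ q ∈ (Finset.univ : Finset Q), g q ∈ M.fibre b := by
    intro q _
    induction q using Quotient.inductionOn with
    | h i => exact M.mem_fibre.2 (placeOf_over _)
  have htot : ∑ q : Q, (g q).ord (M.xi b) ≤ (M.n : ℤ) := by
    refine (Finset.sum_le_sum fun q _ => hle q).trans (le_of_eq ?_)
    rw [← Nat.cast_sum, ← Finset.card_eq_sum_card_fiberwise (fun i _ => Finset.mem_univ _),
      Finset.card_univ, Fintype.card_fin]
  have hinjg : Function.Injective g := by
    intro q q' hqq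
    by_contra hne
    have h1 := Finset.sum_fiberwise_of_maps_to hgmem (fun q => (g q).ord (M.xi b))
    rw [← h1, ← M.sum_ord_xi b] at htot
    refine (not_lt.2 htot) (Finset.sum_lt_sum (fun w hw => ?_)
      ⟨g q, hgmem q (Finset.mem_univ _), ?_⟩)
    · obtain ⟨q₀, rfl⟩ := hsurj w hw
      refine Finset.single_le_sum (f := fun q => (g q).ord (M.xi b)) (fun q' hq' => ?_)
        (by simp : q₀ ∈ _)
      exact le_of_lt (M.mem_fibre.1 (hgmem q' (Finset.mem_univ _)))
    · refine Finset.single_lt_sum (f := fun p => (g p).ord (M.xi b)) (Ne.symm hne)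
        (by simp : q ∈ _) (by simp [hqq] : q' ∈ _)
        (M.mem_fibre.1 (hgmem q' (Finset.mem_univ _))) fun p _ _ => ?_
      exact le_of_lt (M.mem_fibre.1 (hgmem p (Finset.mem_univ _)))
  refine ⟨fun i j => ⟨fun h => Quotient.exact (hinjg (a₁ := ⟦i⟧) (a₂ := ⟦j⟧) h), hcycle i j⟩, ?_,
    fun i => ?_⟩
  rotate_left
  · have hsum : ∑ q : Q, (((cls q).card : ℤ) - (g q).ord (M.xi b)) = 0 := by
      rw [Finset.sum_sub_distrib, sub_eq_zero]
      refine le_antisymm (le_of_le_of_eq ?_ rfl) (Finset.sum_le_sum fun q _ => hle q)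
      rw [← Nat.cast_sum, ← Finset.card_eq_sum_card_fiberwise (fun i _ => Finset.mem_univ _),
        Finset.card_univ, Fintype.card_fin, ← M.sum_ord_xi b]
      refine le_of_eq (Finset.sum_bij (fun q _ => g q) hgmem (fun q _ q' _ h => hinjg h) ?_
        (fun q _ => rfl)).symm
      intro w hw
      obtain ⟨q, hq⟩ := hsurj w hw
      exact ⟨q, Finset.mem_univ _, hq⟩
    have := (Finset.sum_eq_zero_iff_of_nonneg (fun q _ => sub_nonneg.2 (hle q))).1 hsum ⟦i⟧
      (Finset.mem_univ _)
    rw [sub_eq_zero] at this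
    rw [show (placeOf (B.isLift hgood i)) = g ⟦i⟧ from rfl, ← this]
    congr 1
    rw [Nat.card_eq_fintype_card, Fintype.card_subtype]
    refine congrArg Finset.card (Finset.ext fun j => ?_)
    simp only [cls, Finset.mem_filter, Finset.mem_univ, true_and]
    exact ⟨fun h => (Quotient.exact h).symm, fun h => Quotient.sound h.symm⟩
  rw [Nat.card_eq_fintype_card, ← Finset.card_univ]
  refine Finset.card_bij (fun q _ => g q) hgmem (fun q _ q' _ h => hinjg h) fun w hw => ?_
  obtain ⟨q, hq⟩ := hsurj w hw
  exact ⟨q, Finset.mem_univ _, hq⟩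

end Model

end Fermat.Agent.Tors
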