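import Mathlib
import Fermat.Agent.Tors.Exists
import Fermat.Agent.Tors.Puncture

/-!
# The cut plane

Branch points `p k` with pairwise distinct directions, cut along the rays `[1, ∞) • p k`.
-/

noncomputable section

open Polynomial Filter Topology Set AlgebraicCurve Complex
open scoped Real

namespace Fermat.Agent.Tors

/-- Branch points in general position. -/
structure Rays {F : Type*} [Field F] [Algebra ℂ F] (M : Model ℂ F) where
  /-- The number of branch points. -/
  r : ℕ
  r_pos : 0 < r
  /-- The branch points, by increasing argument; they include the zeros of the discriminant. -/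
  p : Fin r → ℂ
  im_ne : ∀ k, (p k).im ≠ 0
  cross_ne : ∀ k l, k ≠ l → (p l / p k).im ≠ 0
  mono : StrictMono fun k => (p k).arg
  disc : ∀ z, M.disc.eval z = 0 → ∃ k, p k = z

variable {F : Type*} [Field F] [Algebra ℂ F] {M : Model ℂ F}

namespace Rays

variable (R : Rays M)

theorem p_ne (k : Fin R.r) : R.p k ≠ 0 := fun h => R.im_ne k (by simp [h])

theorem p_injective : Function.Injective R.p := fun k l h => by
  by_contra hne
  exact R.cross_ne k l hne (by rw [h, div_self (R.p_ne l)]; simp)

/-- The cut issuing from `p k`. -/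
def cut (k : Fin R.r) : Set ℂ := {z | (z / R.p k).im = 0 ∧ 1 ≤ (z / R.p k).re}

theorem isClosed_cut (k : Fin R.r) : IsClosed (R.cut k) :=
  (isClosed_eq (by fun_prop) continuous_const).inter (isClosed_le continuous_const
      (Complex.continuous_re.comp (continuous_id.div_const _)))

theorem p_mem_cut (k : Fin R.r) : R.p k ∈ R.cut k := by
  simp [cut, div_self (R.p_ne k)]

/-- The cut plane. -/
def Omega : Set ℂ := {z | ∀ k, z ∉ R.cut k}

theorem isOpen_Omega : IsOpen R.Omega := by
  have : R.Omega = ⋂ k, (R.cut k)ᶜ := by ext; simp [Omega]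
  rw [this]
  exact isOpen_iInter_of_finite fun k => (R.isClosed_cut k).isOpen_compl

theorem zero_mem_Omega : (0 : ℂ) ∈ R.Omega := fun k h => by
  have := h.2
  simp at this
  linarith

theorem starConvex_Omega : StarConvex ℝ (0 : ℂ) R.Omega := by
  rw [starConvex_zero_iff]
  intro z hz a ha0 ha1 k hk
  rcases ha0.eq_or_lt with rfl | hpos
  · exact R.zero_mem_Omega k (by simpa using hk)
  obtain ⟨h1, h2⟩ := hk
  rw [Complex.real_smul, mul_div_assoc, im_ofReal_mul] at h1
  rw [Complex.real_smul, mul_div_assoc, re_ofReal_mul] at h2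
  have him : (z / R.p k).im = 0 := (mul_eq_zero.1 h1).resolve_left hpos.ne'
  refine hz k ⟨him, ?_⟩
  by_contra hlt
  nlinarith [mul_le_mul_of_nonneg_right ha1 (show (0 : ℝ) ≤ (z / R.p k).re by nlinarith)]

theorem isSimplyConnected_Omega : IsSimplyConnected R.Omega := by
  have := R.starConvex_Omega.contractibleSpace ⟨0, R.zero_mem_Omega⟩
  show SimplyConnectedSpace R.Omega
  infer_instance

theorem isPreconnected_Omega : IsPreconnected R.Omega :=
  R.isSimplyConnected_Omega.isPathConnected.isConnected.isPreconnected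

/-- Off the branch points everything is good. -/
theorem good_of_ne {z : ℂ} (hz : ∀ k, R.p k ≠ z) : M.Good z := fun h => by
  obtain ⟨k, hk⟩ := R.disc z h
  exact hz k hk

theorem p_ne_of_mem_Omega {z : ℂ} (hz : z ∈ R.Omega) (k : Fin R.r) : R.p k ≠ z :=
  fun h => hz k (h ▸ R.p_mem_cut k)

theorem good_Omega {z : ℂ} (hz : z ∈ R.Omega) : M.Good z :=
  R.good_of_ne (R.p_ne_of_mem_Omega hz)

/-- Half-width of the wedges around the cuts. -/
theorem exists_slope :
    ∃ δ : ℝ, 0 < δ ∧ δ ≤ 1 ∧ ∀ k l, k ≠ l → δ * |(R.p l / R.p k).re| < |(R.p l / R.p k).im| := by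
  classical
  have hk : ∀ q ∈ (Finset.univ : Finset (Fin R.r × Fin R.r)), ∃ d : ℝ, 0 < d ∧
      (q.1 ≠ q.2 → ∀ δ, 0 < δ → δ ≤ d →
        δ * |(R.p q.2 / R.p q.1).re| < |(R.p q.2 / R.p q.1).im|) := by
    intro q _
    set β := R.p q.2 / R.p q.1
    refine ⟨if q.1 = q.2 then 1 else |β.im| / (2 * (|β.re| + 1)), ?_, fun hne δ hδ hle => ?_⟩
    · split_ifs with h
      · exact one_pos
      · have := abs_pos.2 (R.cross_ne _ _ h)
        positivity
    · rw [if_neg hne, le_div_iff₀ (by positivity)] at hle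
      have := abs_pos.2 (R.cross_ne _ _ hne)
      nlinarith [abs_nonneg β.re]
  choose! d hd hd' using hk
  have hne : (Finset.univ : Finset (Fin R.r × Fin R.r)).Nonempty :=
    ⟨(⟨0, R.r_pos⟩, ⟨0, R.r_pos⟩), Finset.mem_univ _⟩
  refine ⟨min 1 (Finset.univ.inf' hne d), lt_min one_pos ((Finset.lt_inf'_iff _).2 hd),
    min_le_left _ _, fun k l hkl => hd' (k, l) (Finset.mem_univ _) hkl _
      (lt_min one_pos ((Finset.lt_inf'_iff _).2 hd))
      ((min_le_right _ _).trans (Finset.inf'_le _ (Finset.mem_univ _)))⟩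

/-- Half-width of the wedges. -/
def slope : ℝ := R.exists_slope.choose

theorem slope_pos : 0 < R.slope := R.exists_slope.choose_spec.1

theorem slope_le_one : R.slope ≤ 1 := R.exists_slope.choose_spec.2.1

theorem slope_lt {k l : Fin R.r} (h : k ≠ l) :
    R.slope * |(R.p l / R.p k).re| < |(R.p l / R.p k).im| :=
  R.exists_slope.choose_spec.2.2 k l h

/-- Wedge around the `k`-th cut, without its apex. -/
def wedge (k : Fin R.r) : Set ℂ :=
  {z | |(z / R.p k).im| < R.slope * ((z / R.p k).re - 1)}

/-- The side of the wedge of positive orientation. -/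
def wedgePos (k : Fin R.r) : Set ℂ := {z | z ∈ R.wedge k ∧ 0 < (z / R.p k).im}

/-- The side of the wedge of negative orientation. -/
def wedgeNeg (k : Fin R.r) : Set ℂ := {z | z ∈ R.wedge k ∧ (z / R.p k).im < 0}

theorem isOpen_wedge (k : Fin R.r) : IsOpen (R.wedge k) :=
  isOpen_lt (by fun_prop) (by fun_prop)

theorem isOpen_wedgePos (k : Fin R.r) : IsOpen (R.wedgePos k) :=
  (R.isOpen_wedge k).inter
    (isOpen_lt continuous_const (Complex.continuous_im.comp (continuous_id.div_const _)))

theorem isOpen_wedgeNeg (k : Fin R.r) : IsOpen (R.wedgeNeg k) :=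
  (R.isOpen_wedge k).inter
    (isOpen_lt (Complex.continuous_im.comp (continuous_id.div_const _)) continuous_const)

theorem convex_wedge (k : Fin R.r) : Convex ℝ (R.wedge k) := by
  intro x hx y hy a b ha hb hab
  simp only [wedge, mem_ofPred_eq, Complex.real_smul, add_div, mul_div_assoc, add_re, add_im,
    re_ofReal_mul, im_ofReal_mul, abs_lt] at hx hy ⊢
  set u := x / R.p k
  set v := y / R.p k
  rcases ha.eq_or_lt with rfl | hapos
  · obtain rfl : b = 1 := by linarith
    simpa using hy
  obtain rfl : b = 1 - a := by linarith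
  constructor
  · linarith [mul_lt_mul_of_pos_left hx.1 hapos, mul_le_mul_of_nonneg_left hy.1.le hb]
  · linarith [mul_lt_mul_of_pos_left hx.2 hapos, mul_le_mul_of_nonneg_left hy.2.le hb]

theorem convex_wedgePos (k : Fin R.r) : Convex ℝ (R.wedgePos k) := by
  refine (R.convex_wedge k).inter ?_
  intro x hx y hy a b ha hb hab
  show 0 < ((a • x + b • y) / R.p k).im
  simp only [Complex.real_smul, add_div, mul_div_assoc, add_im, im_ofReal_mul]
  rcases ha.eq_or_lt with rfl | hapos
  · obtain rfl : b = 1 := by linarith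
    rw [zero_mul, zero_add, one_mul]
    exact hy
  exact add_pos_of_pos_of_nonneg (mul_pos hapos hx) (mul_nonneg hb (le_of_lt hy))

theorem convex_wedgeNeg (k : Fin R.r) : Convex ℝ (R.wedgeNeg k) := by
  refine (R.convex_wedge k).inter ?_
  intro x hx y hy a b ha hb hab
  show ((a • x + b • y) / R.p k).im < 0
  simp only [Complex.real_smul, add_div, mul_div_assoc, add_im, im_ofReal_mul]
  rcases ha.eq_or_lt with rfl | hapos
  · obtain rfl : b = 1 := by linarith
    rw [zero_mul, zero_add, one_mul]
    exact hy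
  exact add_neg_of_neg_of_nonpos (mul_neg_of_pos_of_neg hapos hx)
    (mul_nonpos_of_nonneg_of_nonpos hb (le_of_lt hy))

theorem mem_wedge_iff {k : Fin R.r} {w : ℂ} :
    R.p k * w ∈ R.wedge k ↔ |w.im| < R.slope * (w.re - 1) := by
  simp [wedge, mul_div_cancel_left₀, R.p_ne k]

theorem wedgePos_nonempty (k : Fin R.r) : (R.wedgePos k).Nonempty := by
  refine ⟨R.p k * ⟨3, R.slope⟩, R.mem_wedge_iff.2 ?_, ?_⟩
  · simp only [abs_of_pos R.slope_pos]
    linarith [R.slope_pos]
  · rw [mul_div_cancel_left₀ _ (R.p_ne k)]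
    exact R.slope_pos

theorem wedgeNeg_nonempty (k : Fin R.r) : (R.wedgeNeg k).Nonempty := by
  refine ⟨R.p k * ⟨3, -R.slope⟩, R.mem_wedge_iff.2 ?_, ?_⟩
  · simp only [abs_neg, abs_of_pos R.slope_pos]
    linarith [R.slope_pos]
  · rw [mul_div_cancel_left₀ _ (R.p_ne k)]
    exact neg_lt_zero.2 R.slope_pos

theorem re_gt_one_of_mem_wedge {k : Fin R.r} {z : ℂ} (hz : z ∈ R.wedge k) :
    1 < (z / R.p k).re := by
  have h : |(z / R.p k).im| < R.slope * ((z / R.p k).re - 1) := hz
  have := (abs_nonneg (z / R.p k).im).trans_lt h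
  have := pos_of_mul_pos_right this R.slope_pos.le
  linarith

/-- A wedge meets no other cut. -/
theorem notMem_cut_of_mem_wedge {k l : Fin R.r} {z : ℂ} (hz : z ∈ R.wedge k) (hkl : k ≠ l) :
    z ∉ R.cut l := by
  rintro ⟨h1, h2⟩
  set t := (z / R.p l).re with ht
  have hz' : z / R.p k = (t : ℂ) * (R.p l / R.p k) := by
    rw [← mul_div_assoc]
    congr 1
    have : z / R.p l = (t : ℂ) := by
      apply Complex.ext <;> simp [h1, t]
    rw [← this, div_mul_cancel₀ _ (R.p_ne l)]
  have h : |(z / R.p k).im| < R.slope * ((z / R.p k).re - 1) := hz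
  rw [hz', im_ofReal_mul, re_ofReal_mul, abs_mul, abs_of_pos (by linarith : (0 : ℝ) < t)] at h
  have hs := R.slope_lt hkl
  have h3 : t * (R.slope * |(R.p l / R.p k).re|) ≤ t * |(R.p l / R.p k).im| :=
    mul_le_mul_of_nonneg_left hs.le (by linarith)
  have h4 : t * (R.p l / R.p k).re ≤ t * |(R.p l / R.p k).re| :=
    mul_le_mul_of_nonneg_left (le_abs_self _) (by linarith)
  nlinarith [mul_le_mul_of_nonneg_left h4 R.slope_pos.le, R.slope_pos]

theorem mem_Omega_of_mem_wedge {k : Fin R.r} {z : ℂ} (hz : z ∈ R.wedge k)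
    (h : (z / R.p k).im ≠ 0) : z ∈ R.Omega := fun l => by
  by_cases hkl : k = l
  · subst hkl; exact fun h' => h h'.1
  · exact R.notMem_cut_of_mem_wedge hz hkl

theorem wedgePos_subset (k : Fin R.r) : R.wedgePos k ⊆ R.Omega :=
  fun _ hz => R.mem_Omega_of_mem_wedge hz.1 hz.2.ne'

theorem wedgeNeg_subset (k : Fin R.r) : R.wedgeNeg k ⊆ R.Omega :=
  fun _ hz => R.mem_Omega_of_mem_wedge hz.1 hz.2.ne

theorem p_ne_of_mem_wedge {l : Fin R.r} {z : ℂ} (hz : z ∈ R.wedge l) (k : Fin R.r) :
    R.p k ≠ z := by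
  rintro rfl
  by_cases hkl : k = l
  · subst hkl
    have := R.re_gt_one_of_mem_wedge hz
    rw [div_self (R.p_ne k)] at this
    simp at this
  · exact R.notMem_cut_of_mem_wedge hz (Ne.symm hkl) (R.p_mem_cut k)

/-- Wedges consist of good points. -/
theorem good_wedge {k : Fin R.r} {z : ℂ} (hz : z ∈ R.wedge k) : M.Good z :=
  R.good_of_ne (R.p_ne_of_mem_wedge hz)

theorem eq_of_mem_cut_of_mem_wedge {k l : Fin R.r} {z : ℂ} (hk : z ∈ R.cut k)
    (hl : z ∈ R.wedge l) : l = k := by
  by_contra hne
  exact R.notMem_cut_of_mem_wedge hl hne hk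

/-- Apart from its apex a cut lies in its wedge. -/
theorem mem_wedge_of_mem_cut {k : Fin R.r} {z : ℂ} (hz : z ∈ R.cut k) (hne : z ≠ R.p k) :
    z ∈ R.wedge k := by
  show |(z / R.p k).im| < R.slope * ((z / R.p k).re - 1)
  rw [hz.1, abs_zero]
  refine mul_pos R.slope_pos (sub_pos.2 (lt_of_le_of_ne hz.2 fun h => hne ?_))
  rw [← div_eq_one_iff_eq (R.p_ne k)]
  exact Complex.ext (by simpa using h.symm) (by simpa using hz.1)

theorem isSimplyConnected_wedge (k : Fin R.r) : IsSimplyConnected (R.wedge k) := by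
  have := (R.convex_wedge k).contractibleSpace
    ((R.wedgePos_nonempty k).mono fun z hz => hz.1)
  show SimplyConnectedSpace (R.wedge k)
  infer_instance

end Rays

/-- Reindex a family of branches. -/
def Model.Branches.reindex {U : Set ℂ} {φ : ℂ → ℂ} (B : M.Branches U φ)
    (e : Equiv.Perm (Fin M.n)) : M.Branches U φ where
  η i := B.η (e i)
  branch i := B.branch (e i)
  injective u hu := (B.injective u hu).comp e.injective

/-- The sheets over the cut plane and the crossing permutations. -/
structure Sheets (R : Rays M) where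
  /-- The branches over the cut plane: the sheets. -/
  θ : M.Branches R.Omega id
  /-- The branches over each wedge. -/
  w : ∀ k, M.Branches (R.wedge k) id
  /-- The permutation of the sheets in crossing each cut. -/
  σ : Fin R.r → Equiv.Perm (Fin M.n)
  pos : ∀ k i, EqOn ((w k).η i) (θ.η i) (R.wedgePos k)
  neg : ∀ k i, EqOn ((w k).η i) (θ.η (σ k i)) (R.wedgeNeg k)

/-- Every choice of rays admits a choice of sheets. -/
theorem Rays.nonempty_sheets (R : Rays M) : Nonempty (Sheets R) := by
  obtain ⟨θ⟩ := Model.Branches.nonempty (M := M) R.isOpen_Omega R.isSimplyConnected_Omega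
    continuousOn_id (fun z hz => R.good_Omega hz)
  have hV : ∀ k, Nonempty (M.Branches (R.wedge k) id) := fun k =>
    Model.Branches.nonempty (R.isOpen_wedge k) (R.isSimplyConnected_wedge k)
      continuousOn_id (fun z hz => R.good_wedge hz)
  let V := fun k => (hV k).some
  have hres : ∀ (k : Fin R.r) (W : Set ℂ), W ⊆ R.Omega → W ⊆ R.wedge k → IsPreconnected W →
      W.Nonempty → ∃ a : Equiv.Perm (Fin M.n), ∀ i, EqOn ((V k).η i) (θ.η (a i)) W := by
    intro k W hW hW' hc hne
    let Vr : M.Branches W id :=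
      { η := (V k).η
        branch := fun i => ((V k).branch i).mono hW'
        injective := fun u hu => (V k).injective u (hW' hu) }
    exact θ.exists_perm Vr hW hc hne continuousOn_id (fun z hz => R.good_Omega hz)
  choose a ha using fun k => hres k _ (R.wedgePos_subset k) (fun _ h => h.1)
    (R.convex_wedgePos k).isPreconnected (R.wedgePos_nonempty k)
  choose b hb using fun k => hres k _ (R.wedgeNeg_subset k) (fun _ h => h.1)
    (R.convex_wedgeNeg k).isPreconnected (R.wedgeNeg_nonempty k)
  refine ⟨⟨θ, fun k => (V k).reindex (a k).symm, fun k => b k * (a k)⁻¹, fun k i z hz => ?_,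
    fun k i z hz => hb k _ hz⟩⟩
  simpa [Model.Branches.reindex] using ha k ((a k).symm i) hz

/-- General position after an affine change of coordinate. -/
theorem exists_general_position (T : Finset ℂ) :
    ∃ a c : ℂ, a ≠ 0 ∧ (∀ t ∈ T, (a * t + c).im ≠ 0) ∧
      ∀ t ∈ T, ∀ t' ∈ T, t ≠ t' → ((a * t' + c) / (a * t + c)).im ≠ 0 := by
  classical
  -- the centre on the parabola `x + i x²`
  let γ : ℝ → ℂ := fun x => (x : ℂ) + (x : ℂ) ^ 2 * I
  let q : ℂ → ℂ → ℝ[X] := fun t t' =>
    Polynomial.C ((t * (starRingEnd ℂ) t').im)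
      + Polynomial.C (((starRingEnd ℂ) (t - t')).im) * Polynomial.X
      + Polynomial.C (((starRingEnd ℂ) (t - t')).re) * Polynomial.X ^ 2
  have hq : ∀ (t t' : ℂ) (x : ℝ), (q t t').eval x = ((t - γ x) * (starRingEnd ℂ)
      (t' - γ x)).im := by
    intro t t' x
    simp [q, γ, mul_re, mul_im, pow_two]
    ring
  have hq0 : ∀ t t' : ℂ, t ≠ t' → q t t' ≠ 0 := by
    intro t t' hne h
    have h1 := congrArg (fun p => p.coeff 1) h
    have h2 := congrArg (fun p => p.coeff 2) h
    simp only [q, coeff_add, coeff_C, coeff_C_mul, coeff_X, coeff_X_pow,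
      Polynomial.coeff_zero] at h1 h2
    norm_num at h1 h2
    exact hne (Complex.ext (by linarith) (by linarith))
  let bad : Set ℝ := (⋃ t ∈ T, ⋃ t' ∈ T, if t = t' then ∅ else {x | (q t t').IsRoot x})
    ∪ (⋃ t ∈ T, {x | γ x = t})
  have hbad : bad.Finite := by
    refine (T.finite_toSet.biUnion fun t _ => T.finite_toSet.biUnion fun t' _ => ?_).union
      (T.finite_toSet.biUnion fun t _ => ?_)
    · split_ifs with h
      · exact Set.finite_empty
      · exact Polynomial.finite_setOfPred_isRoot (hq0 t t' h)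
    · refine (Set.finite_singleton t.re).subset fun x hx => ?_
      have := congrArg Complex.re (show γ x = t from hx)
      simp [γ, pow_two] at this
      simpa using this
  obtain ⟨x, hx⟩ := hbad.exists_notMem
  simp only [bad, Set.mem_union, Set.mem_iUnion, not_or, not_exists] at hx
  have hne : ∀ t ∈ T, t - γ x ≠ 0 := fun t ht h =>
    hx.2 t ht (sub_eq_zero.1 h).symm
  -- the rotation `1 + i s`
  have hbad2 : (⋃ t ∈ T, {s : ℝ | ((1 + s * I) * (t - γ x)).im = 0}).Finite := by
    refine T.finite_toSet.biUnion fun t ht => Set.Subsingleton.finite fun s hs s' hs' => ?_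
    simp only [mem_ofPred_eq, mul_im, add_re, add_im, one_re, one_im, ofReal_re, ofReal_im, mul_re,
      I_re, I_im, mul_zero, mul_one, sub_zero, zero_add, add_zero, one_mul] at hs hs'
    by_contra hss
    have h0 : (s - s') * (t - γ x).re = 0 := by linarith
    have hre : (t - γ x).re = 0 := (mul_eq_zero.1 h0).resolve_left (sub_ne_zero.2 hss)
    rw [hre] at hs
    exact hne t ht (Complex.ext hre (by simpa using hs))
  obtain ⟨s, hs⟩ := hbad2.exists_notMem
  simp only [Set.mem_iUnion, not_exists, mem_ofPred_eq] at hs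
  set a : ℂ := 1 + s * I
  have ha : a ≠ 0 := fun h => by simpa [a] using congrArg Complex.re h
  refine ⟨a, -(a * γ x), ha, fun t ht => ?_, fun t ht t' ht' htt => ?_⟩
  · rw [← sub_eq_add_neg, ← mul_sub]; exact hs t ht
  · rw [← sub_eq_add_neg, ← mul_sub, ← sub_eq_add_neg, ← mul_sub, mul_div_mul_left _ _ ha]
    have h := hx.1 t' ht' t ht
    rw [if_neg (Ne.symm htt)] at h
    simp only [mem_ofPred_eq, IsRoot.def, hq, mul_im, conj_re, conj_im] at h
    intro h0
    rw [div_im, div_sub_div_same, div_eq_zero_iff] at h0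
    refine h ?_
    rcases h0 with h0 | h0
    · linarith
    · exact absurd (normSq_eq_zero.1 h0) (hne t ht)

/-- After changing coordinates, given places lie over branch points in general position. -/
theorem exists_rays (M : Model ℂ F) (V : Finset (Place ℂ F)) :
    ∃ (M' : Model ℂ F) (R : Rays M'),
      ∀ v ∈ V, M'.Over none v ∨ ∃ k, M'.Over (some (R.p k)) v := by
  classical
  choose bpt hbpt using fun v => M.exists_over v
  let T₀ : Finset ℂ := insert I ((V.image bpt).filterMap id (fun o o' t h h' => h.trans h'.symm)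
      ∪ M.disc.roots.toFinset)
  obtain ⟨a, c, ha, him, hcross⟩ := exists_general_position T₀
  set M' := M.shift ha c with hM'
  let T : Finset ℂ := T₀.image fun t => a * t + c
  have hT : ∀ t' ∈ T, t'.im ≠ 0 := by
    intro t' ht'
    obtain ⟨t, ht, rfl⟩ := Finset.mem_image.1 ht'
    exact him t ht
  have hTc : ∀ t ∈ T, ∀ t' ∈ T, t ≠ t' → (t' / t).im ≠ 0 := by
    intro t ht t' ht' hne
    obtain ⟨u, hu, rfl⟩ := Finset.mem_image.1 ht
    obtain ⟨u', hu', rfl⟩ := Finset.mem_image.1 ht'
    exact hcross u hu u' hu' fun h => hne (by rw [h])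
  have hinj : Set.InjOn Complex.arg (T : Set ℂ) := by
    intro t ht t' ht' h
    by_contra hne
    refine hTc t ht t' ht' hne ?_
    have ht0 : t ≠ 0 := fun h0 => hT t ht (by simp [h0])
    have ht0' : t' ≠ 0 := fun h0 => hT t' ht' (by simp [h0])
    have hh := (arg_eq_arg_iff ht0 ht0').1 h
    rw [← hh, mul_div_assoc, div_self ht0, mul_one, ← ofReal_div, ofReal_im]
  let A : Finset ℝ := T.image Complex.arg
  have hA : A.card = T.card := Finset.card_image_of_injOn hinj
  have hmem : ∀ k : Fin T.card, ∃ t ∈ T, t.arg = A.orderEmbOfFin hA k := fun k =>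
    Finset.mem_image.1 (A.orderEmbOfFin_mem hA k)
  choose p hpT hparg using hmem
  have hsurj : ∀ t ∈ T, ∃ k, p k = t := by
    intro t ht
    have : t.arg ∈ Set.range (A.orderEmbOfFin hA) := by
      rw [Finset.range_orderEmbOfFin]; exact Finset.mem_image_of_mem _ ht
    obtain ⟨k, hk⟩ := this
    exact ⟨k, hinj (hpT k) ht ((hparg k).trans hk)⟩
  have hpinj : ∀ k l, p k = p l → k = l := fun k l h => by
    have h1 := hparg k
    rw [h, hparg l] at h1
    exact ((A.orderEmbOfFin hA).injective h1).symm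
  let R : Rays M' :=
    { r := T.card
      r_pos := Finset.card_pos.2 ((Finset.insert_nonempty _ _).image _)
      p := p
      im_ne := fun k => hT _ (hpT k)
      cross_ne := fun k l hkl => hTc _ (hpT k) _ (hpT l) fun h => hkl (hpinj _ _ h)
      mono := fun k l hkl => by
        simp only [hparg]
        exact (A.orderEmbOfFin hA).strictMono hkl
      disc := fun z hz => hsurj z (by
        refine Finset.mem_image.2 ⟨a⁻¹ * (z - c), ?_, by field_simp; ring⟩
        refine Finset.mem_insert_of_mem (Finset.mem_union_right _ ?_)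
        rw [Multiset.mem_toFinset, Polynomial.mem_roots M.disc_ne_zero]
        exact M.eval_disc_of_shift ha c hz) }
  refine ⟨M', R, fun v hv => ?_⟩
  rcases hb : bpt v with _ | t
  · exact Or.inl (M.over_none_shift ha c (hb ▸ hbpt v))
  · refine Or.inr ?_
    obtain ⟨k, hk⟩ := hsurj (a * t + c) (Finset.mem_image_of_mem _ (Finset.mem_insert_of_mem
      (Finset.mem_union_left _ ((Finset.mem_filterMap _).2
        ⟨some t, Finset.mem_image.2 ⟨v, hv, hb⟩, rfl⟩))))
    exact ⟨k, show M'.Over (some (p k)) v from hk ▸ M.over_some_shift ha c (hb ▸ hbpt v)⟩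

end Fermat.Agent.Tors
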