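import Mathlib
import Fermat.Agent.Tors.Count
import Fermat.Agent.Tors.Rays

/-!
# Lifts near the punctures and their monodromy

Lifts of the sheets in the exponential charts at the branch points and at infinity, permuted under
translation by `2 π i` by the local monodromy.
-/

noncomputable section

open Polynomial Filter Topology Set AlgebraicCurve Complex
open scoped Real

namespace Fermat.Agent.Tors

variable {F : Type*} [Field F] [Algebra ℂ F] {M : Model ℂ F} {R : Rays M}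

/-- A rectangle `re < L`, `im ∈ (a, b)`. -/
def strip (L a b : ℝ) : Set ℂ := {u | u.re < L ∧ a < u.im ∧ u.im < b}

theorem convex_strip (L a b : ℝ) : Convex ℝ (strip L a b) :=
  ((convex_halfSpace_lt Complex.reLm.isLinear L).inter
    ((convex_halfSpace_gt Complex.imLm.isLinear a).inter
      (convex_halfSpace_lt Complex.imLm.isLinear b)))

theorem strip_subset_halfPlane (L a b : ℝ) : strip L a b ⊆ halfPlane L := fun _ h => h.1

theorem strip_nonempty {L a b : ℝ} (h : a < b) : (strip L a b).Nonempty :=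
  ⟨⟨L - 1, (a + b) / 2⟩, by simp only; linarith, by simp only; linarith, by simp only; linarith⟩

theorem strip_mono {L L' a a' b b' : ℝ} (hL : L ≤ L') (ha : a' ≤ a) (hb : b ≤ b') :
    strip L a b ⊆ strip L' a' b' := fun _ h =>
  ⟨lt_of_lt_of_le h.1 hL, lt_of_le_of_lt ha h.2.1, lt_of_lt_of_le h.2.2 hb⟩

/-- Values of a branch on an open set mapped into the domain of another. -/
theorem Model.Branches.eqOn_comp {U V W : Set ℂ} {φ : ℂ → ℂ} (B : M.Branches U φ)
    (C : M.Branches V id) (hW : IsPreconnected W) (hWU : W ⊆ U) (hφc : ContinuousOn φ W)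
    (hmap : MapsTo φ W V) (hgood : ∀ u ∈ W, M.Good (φ u)) {i j : Fin M.n} {u₀ : ℂ} (hu₀ : u₀ ∈ W)
    (he : B.η i u₀ = C.η j (φ u₀)) : EqOn (B.η i) (fun u => C.η j (φ u)) W :=
  ((B.branch i).mono hWU).eqOn
    (((C.branch j).comp hφc hmap).congr_base fun _ _ => rfl) hW hφc hgood hu₀ he

/-- Branches can be numbered to take given values of sheets at a point. -/
theorem Model.Branches.exists_numbered {U V : Set ℂ} {φ : ℂ → ℂ} (B : M.Branches U φ)
    (C : M.Branches V id) (hgood : ∀ u ∈ U, M.Good (φ u)) {u₀ : ℂ} (hu₀ : u₀ ∈ U)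
    (hv : φ u₀ ∈ V) : ∃ B' : M.Branches U φ, ∀ i, B'.η i u₀ = C.η i (φ u₀) := by
  choose g hg using fun i => B.exists_eq hgood hu₀
    (show M.IsRootAt (φ u₀) (C.η i (φ u₀)) from (C.branch i).root _ hv)
  have hginj : Function.Injective g := fun a b hab =>
    C.injective _ hv (show C.η a (φ u₀) = C.η b (φ u₀) by rw [← hg a, ← hg b, hab])
  exact ⟨B.reindex (Equiv.ofBijective g (Finite.injective_iff_bijective.1 hginj)), hg⟩

namespace Rays

variable (R)

theorem div_p_finite (k : Fin R.r) (u : ℂ) :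
    (phi (some (R.p k)) u / R.p k).re =
        1 + Real.exp u.re / ‖R.p k‖ * Real.cos (u.im - (R.p k).arg) ∧
    (phi (some (R.p k)) u / R.p k).im =
        Real.exp u.re / ‖R.p k‖ * Real.sin (u.im - (R.p k).arg) := by
  have hp := R.p_ne k
  have h1 : phi (some (R.p k)) u / R.p k
      = 1 + ((Real.exp u.re / ‖R.p k‖ : ℝ) : ℂ) * cexp (((u.im - (R.p k).arg : ℝ) : ℂ) * I) := by
    rw [phi, add_div, div_self hp]
    congr 1
    conv_lhs => rw [← norm_mul_exp_arg_mul_I (R.p k), ← re_add_im u]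
    rw [Complex.exp_add, ← ofReal_exp]
    push_cast
    rw [sub_mul, Complex.exp_sub]
    field_simp
  rw [h1, exp_mul_I]
  constructor <;>
    simp only [add_re, add_im, mul_re, mul_im, one_re, one_im, ofReal_re, ofReal_im, I_re, I_im,
      ← ofReal_cos, ← ofReal_sin, mul_zero, zero_mul, sub_zero, mul_one, add_zero, zero_add]

/-- Near a branch point, off the direction of its cut, the chart maps into the slit plane. -/
theorem phi_some_mem_Omega (k : Fin R.r) {u : ℂ}
    (hcut : ∀ l, k ≠ l → phi (some (R.p k)) u ∉ R.cut l)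
    (hm : ∀ m : ℤ, u.im - (R.p k).arg ≠ 2 * π * m) : phi (some (R.p k)) u ∈ R.Omega := by
  intro l
  by_cases hkl : k = l
  · subst hkl
    rintro ⟨h1, h2⟩
    have hρ : 0 < Real.exp u.re / ‖R.p k‖ :=
      div_pos (Real.exp_pos _) (norm_pos_iff.2 (R.p_ne k))
    rw [(R.div_p_finite k u).2] at h1
    rw [(R.div_p_finite k u).1] at h2
    obtain ⟨m, hmeq⟩ := Real.sin_eq_zero_iff.1 ((mul_eq_zero.1 h1).resolve_left hρ.ne')
    rcases Int.even_or_odd m with ⟨j, rfl⟩ | ⟨j, rfl⟩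
    · exact hm j (by rw [← hmeq]; push_cast; ring)
    · rw [← hmeq, show ((2 * j + 1 : ℤ) : ℝ) * π = π + j * (2 * π) by push_cast; ring,
        Real.cos_add_int_mul_two_pi, Real.cos_pi] at h2
      nlinarith [hρ]
  · exact hcut l hkl

/-- Near a branch point, a thin strip around the direction of its cut maps into its wedge, side
by side. -/
theorem phi_some_mem_wedge (k : Fin R.r) {L : ℝ} {u : ℂ}
    (hu : u ∈ strip L ((R.p k).arg - R.slope / 2) ((R.p k).arg + R.slope / 2)) :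
    phi (some (R.p k)) u ∈ R.wedge k ∧
      ((R.p k).arg < u.im → phi (some (R.p k)) u ∈ R.wedgePos k) ∧
      (u.im < (R.p k).arg → phi (some (R.p k)) u ∈ R.wedgeNeg k) := by
  obtain ⟨-, h1, h2⟩ := hu
  have hρ : ∀ u : ℂ, 0 < Real.exp u.re / ‖R.p k‖ := fun u =>
    div_pos (Real.exp_pos _) (norm_pos_iff.2 (R.p_ne k))
  have hh1 : R.slope / 2 ≤ 1 / 2 := by linarith [R.slope_le_one]
  have hhπ : R.slope / 2 < π := by linarith [Real.pi_gt_three]
  set t := u.im - (R.p k).arg with ht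
  have htabs : |t| < R.slope / 2 := abs_lt.2 ⟨by rw [ht]; linarith, by rw [ht]; linarith⟩
  have hmem : phi (some (R.p k)) u ∈ R.wedge k := by
    show |(phi (some (R.p k)) u / R.p k).im| < R.slope * ((phi (some (R.p k)) u / R.p k).re - 1)
    rw [(R.div_p_finite k u).1, (R.div_p_finite k u).2, abs_mul, abs_of_pos (hρ u),
      add_sub_cancel_left, mul_left_comm]
    refine mul_lt_mul_of_pos_left ?_ (hρ u)
    have h3 : |Real.sin t| ≤ |t| := Real.abs_sin_le_abs
    have h4 : 1 - t ^ 2 / 2 ≤ Real.cos t := Real.one_sub_sq_div_two_le_cos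
    have h5 : t ^ 2 ≤ 1 / 4 := by rw [← sq_abs]; nlinarith [abs_nonneg t]
    show |Real.sin t| < R.slope * Real.cos t
    nlinarith [R.slope_pos]
  refine ⟨hmem, fun hpos => ⟨hmem, ?_⟩, fun hneg => ⟨hmem, ?_⟩⟩
  · rw [(R.div_p_finite k u).2]
    exact mul_pos (hρ u) (Real.sin_pos_of_pos_of_lt_pi (by linarith) (by linarith))
  · rw [(R.div_p_finite k u).2]
    exact mul_neg_of_pos_of_neg (hρ u)
      (Real.sin_neg_of_neg_of_neg_pi_lt (by linarith) (by linarith))

end Rays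

namespace Sheets

variable (S : Sheets R)

/-- Lifts near a finite branch point. -/
theorem exists_lifts_finite (k : Fin R.r) :
    ∃ (L h : ℝ) (B : M.Branches (halfPlane L) (phi (some (R.p k)))), 0 < h ∧ h < π ∧
      (∀ u ∈ halfPlane L, M.Good (phi (some (R.p k)) u)) ∧
      (∀ u ∈ strip L (R.p k).arg ((R.p k).arg + 2 * π),
        phi (some (R.p k)) u ∈ R.Omega ∧ ∀ i, B.η i u = S.θ.η i (phi (some (R.p k)) u)) ∧
      (∀ u ∈ strip L ((R.p k).arg - 2 * π) (R.p k).arg,
        phi (some (R.p k)) u ∈ R.Omega ∧ ∀ i, B.η i u = S.θ.η (S.σ k i) (phi (some (R.p k)) u)) ∧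
      (∀ u ∈ strip L ((R.p k).arg - h) ((R.p k).arg + h),
        phi (some (R.p k)) u ∈ R.wedge k ∧
        (∀ i, B.η i u = (S.w k).η i (phi (some (R.p k)) u)) ∧
        ((R.p k).arg < u.im → phi (some (R.p k)) u ∈ R.wedgePos k) ∧
        (u.im < (R.p k).arg → phi (some (R.p k)) u ∈ R.wedgeNeg k)) ∧
      (∀ i, ∀ u ∈ halfPlane L, B.η i (u + 2 * π * I) = B.η ((S.σ k)⁻¹ i) u) := by
  set φ := phi (some (R.p k)) with hφ
  set a₀ := (R.p k).arg
  -- avoid the other cuts and all bad points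
  have hev : ∀ᶠ u in negInf, (∀ l, k ≠ l → φ u ∉ R.cut l) ∧ M.Good (φ u) := by
    refine Eventually.and ?_ (eventually_phi_notMem _ _
      (Polynomial.finite_setOfPred_isRoot M.disc_ne_zero))
    rw [eventually_all]
    intro l
    by_cases hkl : k = l
    · exact Eventually.of_forall fun u h => absurd hkl h
    · have hnot : R.p k ∉ R.cut l := by
        rintro ⟨h1, -⟩
        exact R.cross_ne l k (Ne.symm hkl) h1
      refine (((tendsto_phi_some (R.p k)).mono_right nhdsWithin_le_nhds).eventually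
        ((R.isClosed_cut l).isOpen_compl.mem_nhds hnot)).mono fun u hu _ => hu
  obtain ⟨L, hL⟩ := exists_halfPlane_of_eventually hev
  set h : ℝ := R.slope / 2 with hh
  have hhpos : 0 < h := half_pos R.slope_pos
  have hh1 : h ≤ 1 / 2 := by rw [hh]; linarith [R.slope_le_one]
  have hhπ : h < π := by linarith [Real.pi_gt_three]
  have hopen : ∀ u, u.re < L → (∀ m : ℤ, u.im - a₀ ≠ 2 * π * m) → φ u ∈ R.Omega :=
    fun u hu hm => R.phi_some_mem_Omega k (hL u hu).1 hm
  have hs0 : ∀ u ∈ strip L a₀ (a₀ + 2 * π), φ u ∈ R.Omega := fun u ⟨hu, h1, h2⟩ =>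
    hopen u hu fun m hm => by
      have h3 : (0 : ℝ) < m := by by_contra h'; nlinarith [Real.pi_pos]
      have h4 : (m : ℝ) < 1 := by by_contra h'; nlinarith [Real.pi_pos]
      norm_cast at h3 h4; omega
  have hs1 : ∀ u ∈ strip L (a₀ - 2 * π) a₀, φ u ∈ R.Omega := fun u ⟨hu, h1, h2⟩ =>
    hopen u hu fun m hm => by
      have h3 : (-1 : ℝ) < m := by by_contra h'; nlinarith [Real.pi_pos]
      have h4 : (m : ℝ) < 0 := by by_contra h'; nlinarith [Real.pi_pos]
      norm_cast at h3 h4; omega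
  have hrect : ∀ u ∈ strip L (a₀ - h) (a₀ + h), φ u ∈ R.wedge k ∧
      (a₀ < u.im → φ u ∈ R.wedgePos k) ∧ (u.im < a₀ → φ u ∈ R.wedgeNeg k) := fun u hu =>
    R.phi_some_mem_wedge k hu
  -- the family
  have hgood : ∀ u ∈ halfPlane L, M.Good (φ u) := fun u hu => (hL u hu).2
  obtain ⟨B₀⟩ := Model.Branches.nonempty (isOpen_halfPlane L)
    (isSimplyConnected_halfPlane L) (continuous_phi _).continuousOn hgood
  obtain ⟨u₀, hu₀⟩ := strip_nonempty (L := L) (show a₀ < a₀ + 2 * π by linarith [Real.pi_pos])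
  obtain ⟨B, hg⟩ := B₀.exists_numbered S.θ hgood hu₀.1 (hs0 u₀ hu₀)
  have hB0 : ∀ u ∈ strip L a₀ (a₀ + 2 * π), ∀ i, B.η i u = S.θ.η i (φ u) := fun u hu i =>
    B.eqOn_comp S.θ (convex_strip _ _ _).isPreconnected (strip_subset_halfPlane _ _ _)
      (continuous_phi _).continuousOn hs0 (fun w hw => hgood w hw.1) hu₀ (hg i) hu
  have hBrect : ∀ u ∈ strip L (a₀ - h) (a₀ + h), ∀ i, B.η i u = (S.w k).η i (φ u) := by
    obtain ⟨u₁, hu₁⟩ := strip_nonempty (L := L) (show a₀ < a₀ + h by linarith)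
    have hu₁' : u₁ ∈ strip L (a₀ - h) (a₀ + h) := strip_mono le_rfl (by linarith) le_rfl hu₁
    have hu₁'' : u₁ ∈ strip L a₀ (a₀ + 2 * π) :=
      strip_mono le_rfl le_rfl (by linarith [Real.pi_pos]) hu₁
    intro u hu i
    refine B.eqOn_comp (S.w k) (convex_strip _ _ _).isPreconnected (strip_subset_halfPlane _ _ _)
      (continuous_phi _).continuousOn (fun w hw => (hrect w hw).1) (fun w hw => hgood w hw.1) hu₁'
      ?_ hu
    rw [hB0 u₁ hu₁'' i]
    exact (S.pos k i ((hrect u₁ hu₁').2.1 hu₁.2.1)).symm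
  have hB1 : ∀ u ∈ strip L (a₀ - 2 * π) a₀, ∀ i, B.η i u = S.θ.η (S.σ k i) (φ u) := by
    obtain ⟨u₂, hu₂⟩ := strip_nonempty (L := L) (show a₀ - h < a₀ by linarith)
    have hu₂' : u₂ ∈ strip L (a₀ - h) (a₀ + h) := strip_mono le_rfl le_rfl (by linarith) hu₂
    have hu₂'' : u₂ ∈ strip L (a₀ - 2 * π) a₀ :=
      strip_mono le_rfl (by linarith [Real.pi_pos]) le_rfl hu₂
    intro u hu i
    refine B.eqOn_comp S.θ (convex_strip _ _ _).isPreconnected (strip_subset_halfPlane _ _ _)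
      (continuous_phi _).continuousOn hs1 (fun w hw => hgood w hw.1) hu₂'' ?_ hu
    rw [hBrect u₂ hu₂' i]
    exact S.neg k i ((hrect u₂ hu₂').2.2 hu₂.2.2)
  refine ⟨L, h, B, hhpos, hhπ, hgood, fun u hu => ⟨hs0 u hu, hB0 u hu⟩,
    fun u hu => ⟨hs1 u hu, hB1 u hu⟩,
    fun u hu => ⟨(hrect u hu).1, hBrect u hu, (hrect u hu).2⟩, ?_⟩
  obtain ⟨π', hπ'⟩ := Model.exists_monodromy B hgood
  obtain ⟨u₃, hu₃⟩ := strip_nonempty (L := L) (show a₀ - 2 * π < a₀ by linarith [Real.pi_pos])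
  have hu₃' : u₃ + 2 * π * I ∈ strip L a₀ (a₀ + 2 * π) := by
    obtain ⟨h1, h2, h3⟩ := hu₃
    refine ⟨?_, ?_, ?_⟩ <;> simp <;> linarith
  have hπeq : π' = (S.σ k)⁻¹ := by
    refine Equiv.ext fun i => (S.σ k).injective ?_
    rw [Equiv.Perm.coe_inv, Equiv.apply_symm_apply]
    refine S.θ.injective _ (hs1 u₃ hu₃) ?_
    show S.θ.η (S.σ k (π' i)) (φ u₃) = S.θ.η i (φ u₃)
    rw [← hB1 u₃ hu₃, ← hπ' i u₃ hu₃.1, hB0 _ hu₃', hφ, phi_periodic]
  intro i u hu
  rw [hπ' i u hu, hπeq]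

/-- Boundaries of the angular sectors at infinity. -/
def bd (R : Rays M) (j : ℕ) : ℝ :=
  if j = 0 then (R.p ⟨R.r - 1, by have := R.r_pos; omega⟩).arg - 2 * π
  else if h : j ≤ R.r then (R.p ⟨j - 1, by have := R.r_pos; omega⟩).arg
  else (R.p ⟨0, R.r_pos⟩).arg + 2 * π

theorem bd_succ {j : ℕ} (hj : j < R.r) : bd R (j + 1) = (R.p ⟨j, hj⟩).arg := by
  rw [bd, if_neg (by omega), dif_pos (by omega)]
  simp

theorem bd_zero : bd R 0 = (R.p ⟨R.r - 1, by have := R.r_pos; omega⟩).arg - 2 * π := by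
  rw [bd, if_pos rfl]

theorem bd_top : bd R (R.r + 1) = bd R 1 + 2 * π := by
  rw [bd_succ R.r_pos, bd, if_neg (by omega), dif_neg (by omega)]

theorem bd_r : bd R R.r = bd R 0 + 2 * π := by
  rw [bd_zero, sub_add_cancel, bd, if_neg (by have := R.r_pos; omega), dif_pos le_rfl]

theorem bd_lt_succ {j : ℕ} (hj : j ≤ R.r) : bd R j < bd R (j + 1) := by
  rcases Nat.eq_zero_or_pos j with rfl | hpos
  · rw [bd_zero, bd_succ R.r_pos]
    have h1 := neg_pi_lt_arg (R.p ⟨0, R.r_pos⟩)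
    have h2 := arg_le_pi (R.p ⟨R.r - 1, by have := R.r_pos; omega⟩)
    linarith
  · obtain ⟨i, rfl⟩ : ∃ i, j = i + 1 := ⟨j - 1, by omega⟩
    rw [bd_succ (by omega)]
    rcases hj.lt_or_eq with hlt | heq
    · rw [bd_succ hlt]
      exact R.mono (by show i < i + 1; omega)
    · rw [bd, if_neg (by omega), dif_neg (by omega)]
      have h1 := neg_pi_lt_arg (R.p ⟨0, R.r_pos⟩)
      have h2 := arg_le_pi (R.p ⟨i, by omega⟩)
      linarith

theorem bd_mono {i j : ℕ} (hij : i ≤ j) (hj : j ≤ R.r + 1) : bd R i ≤ bd R j := by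
  induction j with
  | zero => rw [Nat.le_zero.1 hij]
  | succ j ih =>
    rcases hij.lt_or_eq with h | h
    · exact (ih (by omega) (by omega)).trans (bd_lt_succ (by omega)).le
    · rw [h]

theorem not_angle_in_sector {j : ℕ} (hj : j ≤ R.r) {x : ℝ} (h1 : bd R j < x)
    (h2 : x < bd R (j + 1)) (l : Fin R.r) (m : ℤ) : x - (R.p l).arg ≠ 2 * π * m := by
  intro h
  have hl : bd R ((l : ℕ) + 1) = (R.p l).arg := bd_succ l.isLt
  have hlo := bd_mono (R := R) (i := 1) (j := (l : ℕ) + 1) (by omega) (by omega)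
  have hhi := bd_mono (R := R) (i := (l : ℕ) + 1) (j := R.r) (by omega) (by omega)
  rcases lt_trichotomy m 0 with hm | rfl | hm
  · have hm' : (m : ℝ) ≤ -1 := by exact_mod_cast (by omega : m ≤ -1)
    have := bd_mono (R := R) (i := 0) (j := j) (by omega) (by omega)
    have := bd_r (R := R)
    nlinarith [Real.pi_pos]
  · simp at h
    by_cases hle : (l : ℕ) + 1 ≤ j
    · have := bd_mono (R := R) hle (by omega)
      linarith
    · have := bd_mono (R := R) (i := j + 1) (j := (l : ℕ) + 1) (by omega) (by omega)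
      linarith
  · have hm' : (1 : ℝ) ≤ m := by exact_mod_cast hm
    have := bd_mono (R := R) (i := j + 1) (j := R.r + 1) (by omega) le_rfl
    have := bd_top (R := R)
    nlinarith [Real.pi_pos]

theorem div_p_infty (k : Fin R.r) (u : ℂ) :
    (phi none u / R.p k).re = Real.exp (-u.re) / ‖R.p k‖ * Real.cos (-u.im - (R.p k).arg) ∧
    (phi none u / R.p k).im = Real.exp (-u.re) / ‖R.p k‖ * Real.sin (-u.im - (R.p k).arg) := by
  have hp := R.p_ne k
  have h1 : phi none u / R.p k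
      = ((Real.exp (-u.re) / ‖R.p k‖ : ℝ) : ℂ) * cexp (((-u.im - (R.p k).arg : ℝ) : ℂ) * I) := by
    rw [phi]
    conv_lhs => rw [← norm_mul_exp_arg_mul_I (R.p k), ← re_add_im u]
    rw [show -((u.re : ℂ) + u.im * I) = ((-u.re : ℝ) : ℂ) + ((-u.im : ℝ) : ℂ) * I by
      push_cast; ring,
      Complex.exp_add, ← ofReal_exp]
    push_cast
    rw [sub_mul, Complex.exp_sub]
    field_simp
  rw [h1, exp_mul_I]
  constructor <;>
    simp only [add_re, add_im, mul_re, mul_im, ofReal_re, ofReal_im, I_re, I_im,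
      ← ofReal_cos, ← ofReal_sin, mul_zero, zero_mul, sub_zero, mul_one, add_zero, zero_add]

/-- Far out, the strips between the arguments of consecutive rays map into the slit plane. -/
theorem phi_none_mem_Omega {L : ℝ}
    (hρ : ∀ u : ℂ, u.re < L → ∀ k, 4 < Real.exp (-u.re) / ‖R.p k‖) {j : ℕ} (hj : j ≤ R.r) {u : ℂ}
    (hu' : u ∈ strip L (-bd R (j + 1)) (-bd R j)) : phi none u ∈ R.Omega := by
  obtain ⟨hu, h1, h2⟩ := hu'
  rintro l ⟨e1, e2⟩
  rw [(div_p_infty l u).2, mul_eq_zero] at e1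
  rw [(div_p_infty l u).1] at e2
  have hpos := hρ u hu l
  obtain ⟨m, hm⟩ := Real.sin_eq_zero_iff.1 (e1.resolve_left (by linarith))
  rcases Int.even_or_odd m with ⟨q, rfl⟩ | ⟨q, rfl⟩
  · exact not_angle_in_sector hj (x := -u.im) (by linarith) (by linarith) l q
      (by rw [← hm]; push_cast; ring)
  · rw [← hm, show ((2 * q + 1 : ℤ) : ℝ) * π = π + q * (2 * π) by push_cast; ring,
      Real.cos_add_int_mul_two_pi, Real.cos_pi] at e2
    linarith

/-- Far out, a thin strip around the argument of a ray maps into its wedge, side by side. -/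
theorem phi_none_mem_wedge {L h : ℝ}
    (hρ : ∀ u : ℂ, u.re < L → ∀ k, 4 < Real.exp (-u.re) / ‖R.p k‖) (hslope : h ≤ R.slope / 4)
    (k : Fin R.r) {u : ℂ} (hu' : u ∈ strip L (-(R.p k).arg - h) (-(R.p k).arg + h)) :
    phi none u ∈ R.wedge k ∧ (u.im < -(R.p k).arg → phi none u ∈ R.wedgePos k) ∧
      (-(R.p k).arg < u.im → phi none u ∈ R.wedgeNeg k) := by
  obtain ⟨hu, h1, h2⟩ := hu'
  set t := -u.im - (R.p k).arg with ht
  set ρ := Real.exp (-u.re) / ‖R.p k‖ with hρdef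
  have hρ4 : 4 < ρ := hρ u hu k
  have hth : |t| < R.slope / 4 :=
    lt_of_lt_of_le (abs_lt.2 ⟨by rw [ht]; linarith, by rw [ht]; linarith⟩) hslope
  have hmem : phi none u ∈ R.wedge k := by
    show |(phi none u / R.p k).im| < R.slope * ((phi none u / R.p k).re - 1)
    rw [(div_p_infty k u).1, (div_p_infty k u).2]
    show |ρ * Real.sin t| < R.slope * (ρ * Real.cos t - 1)
    rw [abs_mul, abs_of_pos (show 0 < ρ by linarith)]
    have h3 : |Real.sin t| ≤ |t| := Real.abs_sin_le_abs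
    have h4 : 1 - t ^ 2 / 2 ≤ Real.cos t := Real.one_sub_sq_div_two_le_cos
    have hs := R.slope_le_one
    have h5 : t ^ 2 ≤ 1 / 16 := by rw [← sq_abs]; nlinarith [abs_nonneg t]
    have h6 : R.slope * (31 / 32) ≤ R.slope * Real.cos t :=
      mul_le_mul_of_nonneg_left (by linarith) R.slope_pos.le
    have h7 : ρ * |Real.sin t| ≤ ρ * (R.slope / 4) :=
      mul_le_mul_of_nonneg_left (by linarith) (by linarith)
    nlinarith [mul_le_mul_of_nonneg_left h6 (show 0 ≤ ρ by linarith),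
      mul_lt_mul_of_pos_left hρ4 R.slope_pos, R.slope_pos]
  have hπ : R.slope / 4 < π := by linarith [R.slope_le_one, Real.pi_gt_three]
  refine ⟨hmem, fun hpos => ⟨hmem, ?_⟩, fun hneg => ⟨hmem, ?_⟩⟩
  · rw [(div_p_infty k u).2]
    refine mul_pos (by linarith [hρ u hu k]) (Real.sin_pos_of_pos_of_lt_pi (by linarith) ?_)
    linarith [(abs_lt.1 hth).2]
  · rw [(div_p_infty k u).2]
    refine mul_neg_of_pos_of_neg (by linarith [hρ u hu k])
      (Real.sin_neg_of_neg_of_neg_pi_lt (by linarith) ?_)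
    linarith [(abs_lt.1 hth).1]

/-- Lifts near infinity. -/
theorem exists_lifts_infty :
    ∃ (L h : ℝ) (B : M.Branches (halfPlane L) (phi none)), 0 < h ∧
      (∀ u ∈ halfPlane L, M.Good (phi none u)) ∧
      (∀ j ≤ R.r, bd R j + h < bd R (j + 1) - h) ∧
      (∀ j ≤ R.r, ∀ u ∈ strip L (-bd R (j + 1)) (-bd R j),
        phi none u ∈ R.Omega ∧ ∀ i, B.η i u = S.θ.η (pre S.σ j i) (phi none u)) ∧
      (∀ k : Fin R.r, ∀ u ∈ strip L (-(R.p k).arg - h) (-(R.p k).arg + h),
        phi none u ∈ R.wedge k ∧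
        (∀ i, B.η i u = (S.w k).η (pre S.σ ((k : ℕ) + 1) i) (phi none u)) ∧
        (u.im < -(R.p k).arg → phi none u ∈ R.wedgePos k) ∧
        (-(R.p k).arg < u.im → phi none u ∈ R.wedgeNeg k)) ∧
      (∀ i, ∀ u ∈ halfPlane L, B.η i (u + 2 * π * I) = B.η ((tau S.σ)⁻¹ i) u) := by
  classical
  set φ := phi none with hφ
  -- radius
  set ρ₀ : ℝ := 4 * (1 + ∑ k, ‖R.p k‖) with hρ₀
  obtain ⟨L, hL⟩ := exists_halfPlane_of_eventually ((tendsto_norm_phi_none.eventually
    (eventually_gt_atTop ρ₀)).and (eventually_phi_notMem none _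
    (Polynomial.finite_setOfPred_isRoot M.disc_ne_zero)))
  have hgood : ∀ u ∈ halfPlane L, M.Good (φ u) := fun u hu => (hL u hu).2
  have hρ : ∀ u : ℂ, u.re < L → ∀ k, 4 < Real.exp (-u.re) / ‖R.p k‖ := by
    intro u hu k
    have h1 := (hL u hu).1
    rw [show ‖phi none u‖ = Real.exp (-u.re) by simp [phi, norm_exp]] at h1
    rw [lt_div_iff₀ (norm_pos_iff.2 (R.p_ne k))]
    have := Finset.single_le_sum (f := fun k => ‖R.p k‖) (fun _ _ => norm_nonneg _)
      (Finset.mem_univ k)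
    linarith
  -- width
  set gap : ℝ := (Finset.range (R.r + 1)).inf' (by simp) (fun j => bd R (j + 1) - bd R j) with hgap
  have hgappos : 0 < gap := (Finset.lt_inf'_iff _).2 fun j hj =>
    sub_pos.2 (bd_lt_succ (by rw [Finset.mem_range] at hj; omega))
  set h : ℝ := min (R.slope / 4) (gap / 4)
  have hhpos : 0 < h := lt_min (by linarith [R.slope_pos]) (by linarith)
  have hgaph : ∀ j ≤ R.r, bd R j + h < bd R (j + 1) - h := by
    intro j hj
    have h1 : gap ≤ bd R (j + 1) - bd R j :=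
      Finset.inf'_le (s := Finset.range (R.r + 1)) (f := fun j => bd R (j + 1) - bd R j)
        (b := j) (Finset.mem_range.2 (by omega))
    have h2 : h ≤ gap / 4 := min_le_right _ _
    linarith
  have hΩ : ∀ j ≤ R.r, ∀ u ∈ strip L (-bd R (j + 1)) (-bd R j), φ u ∈ R.Omega := fun _ hj _ hu =>
    phi_none_mem_Omega hρ hj hu
  have hrect : ∀ k : Fin R.r, ∀ u ∈ strip L (-(R.p k).arg - h) (-(R.p k).arg + h),
      φ u ∈ R.wedge k ∧ (u.im < -(R.p k).arg → φ u ∈ R.wedgePos k) ∧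
        (-(R.p k).arg < u.im → φ u ∈ R.wedgeNeg k) := fun k _ hu =>
    phi_none_mem_wedge hρ (min_le_left _ _) k hu
  obtain ⟨B₀⟩ := Model.Branches.nonempty (isOpen_halfPlane L)
    (isSimplyConnected_halfPlane L) (continuous_phi _).continuousOn hgood
  obtain ⟨u₀, hu₀⟩ := strip_nonempty (L := L)
    (show -bd R 1 < -bd R 0 by linarith [bd_lt_succ (R := R) (j := 0) (by omega)])
  have hs0 := hΩ 0 (by omega)
  obtain ⟨B, hg⟩ := B₀.exists_numbered S.θ hgood hu₀.1 (hs0 u₀ hu₀)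
  -- crossing a ray
  have step : ∀ k : Fin R.r,
      (∀ u ∈ strip L (-bd R ((k : ℕ) + 1)) (-bd R k),
        ∀ i, B.η i u = S.θ.η (pre S.σ k i) (φ u)) →
      ∀ u ∈ strip L (-(R.p k).arg - h) (-(R.p k).arg + h),
        ∀ i, B.η i u = (S.w k).η (pre S.σ ((k : ℕ) + 1) i) (φ u) := by
    intro k hk u hu i
    have hbk : bd R ((k : ℕ) + 1) = (R.p k).arg := bd_succ k.isLt
    obtain ⟨u₁, hu₁⟩ := strip_nonempty (L := L)
      (show -(R.p k).arg < -(R.p k).arg + h by linarith)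
    have hu₁' : u₁ ∈ strip L (-(R.p k).arg - h) (-(R.p k).arg + h) :=
      strip_mono le_rfl (by linarith) le_rfl hu₁
    have hu₁'' : u₁ ∈ strip L (-bd R ((k : ℕ) + 1)) (-bd R k) := by
      refine strip_mono le_rfl (by rw [hbk]) ?_ hu₁
      have := hgaph k (by omega)
      linarith
    refine B.eqOn_comp (S.w k) (convex_strip _ _ _).isPreconnected (strip_subset_halfPlane _ _ _)
      (continuous_phi _).continuousOn (fun w hw => (hrect k w hw).1) (fun w hw => hgood w hw.1)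
      hu₁' ?_ hu
    rw [hk u₁ hu₁'' i, S.neg k _ ((hrect k u₁ hu₁').2.2 hu₁.2.1), pre_succ, Equiv.Perm.mul_apply,
      Equiv.Perm.coe_inv, Equiv.apply_symm_apply]
  have hsec : ∀ j ≤ R.r, ∀ u ∈ strip L (-bd R (j + 1)) (-bd R j),
      ∀ i, B.η i u = S.θ.η (pre S.σ j i) (φ u) := by
    intro j
    induction j with
    | zero =>
      intro _ u hu i
      rw [pre_zero, Equiv.Perm.one_apply]
      exact B.eqOn_comp S.θ (convex_strip _ _ _).isPreconnected (strip_subset_halfPlane _ _ _)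
        (continuous_phi _).continuousOn hs0 (fun w hw => hgood w hw.1) hu₀ (hg i) hu
    | succ j ih =>
      intro hj u hu i
      let k : Fin R.r := ⟨j, by omega⟩
      have hrk := step k (ih (by omega))
      have hbk : bd R (j + 1) = (R.p k).arg := bd_succ k.isLt
      have hgj := hgaph (j + 1) hj
      obtain ⟨u₂, hu₂⟩ := strip_nonempty (L := L)
        (show -(R.p k).arg - h < -(R.p k).arg by linarith)
      have hu₂' : u₂ ∈ strip L (-(R.p k).arg - h) (-(R.p k).arg + h) :=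
        strip_mono le_rfl le_rfl (by linarith) hu₂
      have hu₂'' : u₂ ∈ strip L (-bd R (j + 1 + 1)) (-bd R (j + 1)) :=
        strip_mono le_rfl (by linarith) (by rw [hbk]) hu₂
      refine B.eqOn_comp S.θ (convex_strip _ _ _).isPreconnected (strip_subset_halfPlane _ _ _)
        (continuous_phi _).continuousOn (hΩ _ hj) (fun w hw => hgood w hw.1) hu₂'' ?_ hu
      rw [hrk u₂ hu₂' i]
      exact S.pos k _ ((hrect k u₂ hu₂').2.1 hu₂.2.2)
  refine ⟨L, h, B, hhpos, hgood, hgaph, fun j hj u hu => ⟨hΩ j hj u hu, hsec j hj u hu⟩,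
    fun k u hu => ⟨(hrect k u hu).1, step k (hsec k (by omega)) u hu, (hrect k u hu).2⟩, ?_⟩
  obtain ⟨π', hπ'⟩ := Model.exists_monodromy B hgood
  obtain ⟨u₃, hu₃⟩ := strip_nonempty (L := L)
    (show -bd R (R.r + 1) < -bd R R.r by linarith [bd_lt_succ (R := R) (le_refl R.r)])
  have hu₃' : u₃ + 2 * π * I ∈ strip L (-bd R 1) (-bd R 0) := by
    obtain ⟨h1, h2, h3⟩ := hu₃
    have := bd_top (R := R)
    have := bd_r (R := R)
    refine ⟨?_, ?_, ?_⟩ <;> simp <;> linarith
  have hπeq : π' = (tau S.σ)⁻¹ := by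
    refine Equiv.ext fun i => (tau S.σ).injective ?_
    rw [Equiv.Perm.coe_inv, Equiv.apply_symm_apply]
    refine S.θ.injective _ (hΩ R.r le_rfl u₃ hu₃) ?_
    show S.θ.η (pre S.σ R.r (π' i)) (φ u₃) = S.θ.η i (φ u₃)
    rw [← hsec R.r le_rfl u₃ hu₃, ← hπ' i u₃ hu₃.1, hsec 0 (by omega) _ hu₃', pre_zero,
      Equiv.Perm.one_apply, hφ, phi_periodic]
  intro i u hu
  rw [hπ' i u hu, hπeq]

end Sheets

end Fermat.Agent.Tors
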