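import Mathlib

/-!
# Moderate growth implies rationality

A function holomorphic outside a finite set with at most polar growth at those points and
polynomial growth at infinity is rational.
-/

noncomputable section

open Complex Filter Topology Set Polynomial
open scoped Real

namespace Fermat.Agent.Tors

/-- Liouville's theorem with polynomial growth. -/
theorem exists_polynomial_of_growth : ∀ (N : ℕ) (f : ℂ → ℂ), Differentiable ℂ f →
    (∃ C : ℝ, ∀ᶠ z in Bornology.cobounded ℂ, ‖f z‖ ≤ C * ‖z‖ ^ N) →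
    ∃ p : ℂ[X], ∀ z, f z = p.eval z := by
  intro N
  induction N with
  | zero =>
    rintro f hf ⟨C, hC⟩
    obtain ⟨c, hc⟩ := Differentiable.exists_eq_const_of_bounded hf (by
      have h0 : ∀ᶠ z in Bornology.cobounded ℂ, ‖f z‖ ≤ C := by simpa using hC
      rw [Metric.cobounded_eq_cocompact] at h0
      obtain ⟨K, hK, hKC⟩ := mem_cocompact.1 h0
      obtain ⟨B, hB⟩ := (hK.image hf.continuous).isBounded.exists_norm_le
      refine (Metric.isBounded_closedBall (x := (0 : ℂ)) (r := max B C)).subset ?_
      rintro - ⟨z, rfl⟩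
      rw [mem_closedBall_zero_iff]
      by_cases hz : z ∈ K
      · exact (hB _ (mem_image_of_mem f hz)).trans (le_max_left _ _)
      · exact (hKC hz).trans (le_max_right _ _))
    exact ⟨Polynomial.C c, fun z => by simp [hc]⟩
  | succ N ih =>
    rintro f hf ⟨C, hC⟩
    have hg : Differentiable ℂ (dslope f 0) := by
      rw [← differentiableOn_univ]
      exact (Complex.differentiableOn_dslope univ_mem).2 hf.differentiableOn
    obtain ⟨q, hq⟩ := ih (dslope f 0) hg ⟨C + ‖f 0‖, by
      filter_upwards [hC, tendsto_norm_cobounded_atTop.eventually (eventually_ge_atTop 1)]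
        with z hz hz1
      have hz0 : z ≠ 0 := by
        rintro rfl
        simp at hz1
        linarith
      rw [dslope_of_ne _ hz0, slope, vsub_eq_sub, sub_zero, smul_eq_mul, norm_mul, norm_inv,
        inv_mul_le_iff₀ (by linarith)]
      calc ‖f z - f 0‖ ≤ ‖f z‖ + ‖f 0‖ := norm_sub_le _ _
        _ ≤ C * ‖z‖ ^ (N + 1) + ‖f 0‖ * ‖z‖ ^ (N + 1) := by
            gcongr
            exact le_mul_of_one_le_right (norm_nonneg _) (one_le_pow₀ hz1)
        _ = ‖z‖ * ((C + ‖f 0‖) * ‖z‖ ^ N) := by ring⟩
    refine ⟨Polynomial.C (f 0) + Polynomial.X * q, fun z => ?_⟩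
    have := sub_smul_dslope f 0 z
    rw [sub_zero, hq, smul_eq_mul] at this
    simp [this]

/-- A function, holomorphic outside a finite set, with at most polar growth at those points and
polynomial growth at infinity, is rational. -/
theorem exists_rational_of_growth (T : Finset ℂ) (h : ℂ → ℂ)
    (hd : ∀ z ∉ T, DifferentiableAt ℂ h z)
    (hloc : ∀ p ∈ T, ∃ (M : ℕ) (C : ℝ), ∀ᶠ z in 𝓝[≠] p, ‖h z‖ * ‖z - p‖ ^ M ≤ C)
    (hinf : ∃ (M : ℕ) (C : ℝ), ∀ᶠ z in Bornology.cobounded ℂ, ‖h z‖ ≤ C * ‖z‖ ^ M) :
    ∃ (M : ℕ) (a : ℂ[X]), ∀ z ∉ T, h z * (∏ p ∈ T, (z - p) ^ M) = a.eval z := by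
  classical
  choose! Mp Cp hMC using hloc
  set M := T.sup Mp + 1 with hM
  set g : ℂ → ℂ := fun z => if z ∈ T then 0 else h z * ∏ p ∈ T, (z - p) ^ M with hg
  have hgT : ∀ z ∉ T, g =ᶠ[𝓝 z] fun z => h z * ∏ p ∈ T, (z - p) ^ M := by
    intro z hz
    filter_upwards [T.finite_toSet.isClosed.isOpen_compl.mem_nhds hz] with w hw
    exact if_neg hw
  have hgd : Differentiable ℂ g := by
    intro z
    by_cases hz : z ∈ T
    · have hpunct : ∀ᶠ w in 𝓝[≠] z, w ∉ T := by
        filter_upwards [(nhdsNE_le_cofinite z) T.finite_toSet.compl_mem_cofinite] with w hw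
        exact hw
      refine (Complex.analyticAt_of_differentiable_on_punctured_nhds_of_continuousAt ?_
          ?_).differentiableAt
      · filter_upwards [hpunct] with w hw
        exact ((hd w hw).mul (by fun_prop)).congr_of_eventuallyEq (hgT w hw)
      · rw [← continuousWithinAt_compl_self, ContinuousWithinAt, show g z = 0 from if_pos hz,
          tendsto_zero_iff_norm_tendsto_zero]
        set Q : ℂ → ℂ := fun w => (w - z) ^ (M - Mp z) * ∏ p ∈ T.erase z, (w - p) ^ M
        have hMz : Mp z < M := by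
          have := Finset.le_sup (f := Mp) hz
          omega
        have hQ : Tendsto (fun w => Cp z * ‖Q w‖) (𝓝[≠] z) (𝓝 0) := by
          have : Tendsto (fun w => Cp z * ‖Q w‖) (𝓝 z) (𝓝 (Cp z * ‖Q z‖)) :=
            Continuous.tendsto (by fun_prop) z
          simp only [Q, sub_self, zero_pow (by omega : M - Mp z ≠ 0), zero_mul, norm_zero,
            mul_zero] at this
          exact this.mono_left nhdsWithin_le_nhds
        refine squeeze_zero' (Eventually.of_forall fun w => norm_nonneg _) ?_ hQ
        filter_upwards [hMC z hz, hpunct] with w hw hwT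
        rw [show g w = h w * ∏ p ∈ T, (w - p) ^ M from if_neg hwT, ← Finset.mul_prod_erase T _ hz,
          show (w - z) ^ M = (w - z) ^ Mp z * (w - z) ^ (M - Mp z) by
            rw [← pow_add]; congr 1; omega]
        calc ‖h w * ((w - z) ^ Mp z * (w - z) ^ (M - Mp z) * ∏ p ∈ T.erase z, (w - p) ^ M)‖
            = ‖h w‖ * ‖w - z‖ ^ Mp z * ‖Q w‖ := by
              simp only [Q, norm_mul, norm_pow]; ring
          _ ≤ Cp z * ‖Q w‖ := mul_le_mul_of_nonneg_right hw (norm_nonneg _)
    · exact (((hd z hz).mul (by fun_prop)).congr_of_eventuallyEq (hgT z hz))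
  obtain ⟨Mi, Ci, hi⟩ := hinf
  obtain ⟨a, ha⟩ := exists_polynomial_of_growth (Mi + T.card * M) g hgd
    ⟨max Ci 0 * 2 ^ (T.card * M), by
      have hbig : ∀ᶠ z in Bornology.cobounded ℂ, ∀ p ∈ T, ‖p‖ ≤ ‖z‖ := by
        rw [eventually_all_finset]
        exact fun p _ => tendsto_norm_cobounded_atTop.eventually (eventually_ge_atTop _)
      filter_upwards [hi, hbig] with z hz hzT
      by_cases h' : z ∈ T
      · rw [show g z = 0 from if_pos h', norm_zero]
        exact mul_nonneg (mul_nonneg (le_max_right _ _) (by positivity)) (by positivity)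
      · rw [show g z = h z * ∏ p ∈ T, (z - p) ^ M from if_neg h', norm_mul]
        have hprod : ‖∏ p ∈ T, (z - p) ^ M‖ ≤ (2 * ‖z‖) ^ (T.card * M) := by
          rw [norm_prod, mul_comm T.card M, pow_mul, ← Finset.prod_const]
          refine Finset.prod_le_prod (fun p _ => norm_nonneg _) fun p hp => ?_
          rw [norm_pow]
          exact pow_le_pow_left₀ (norm_nonneg _)
            ((norm_sub_le _ _).trans (by linarith [hzT p hp])) _
        calc ‖h z‖ * ‖∏ p ∈ T, (z - p) ^ M‖
            ≤ (max Ci 0 * ‖z‖ ^ Mi) * (2 * ‖z‖) ^ (T.card * M) := by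
              refine mul_le_mul (hz.trans ?_) hprod (norm_nonneg _) (by positivity)
              exact mul_le_mul_of_nonneg_right (le_max_left _ _) (by positivity)
          _ = _ := by ring⟩
  exact ⟨M, a, fun z hz => by rw [← ha, show g z = _ from if_neg hz]⟩

end Fermat.Agent.Tors
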