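import Mathlib
import Fermat.Agent.Tors.Lifts
import Fermat.Agent.Tors.Rational

/-!
# Single-valued functions of moderate growth come from the function field

Functions on the cut plane and the wedges agreeing on overlaps glue; a compatible system of
functions of moderate growth on the sheets is given by an element of the function field. As a
consequence the monodromy is transitive.
-/

noncomputable section

open Polynomial Filter Topology Set AlgebraicCurve Complex
open scoped Real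

namespace Fermat.Agent.Tors

variable {F : Type*} [Field F] [Algebra ℂ F] {M : Model ℂ F} {R : Rays M}

namespace Rays

variable (R)

theorem exists_mem_of_notMem_Omega {z : ℂ} (hz : z ∉ R.Omega) (hp : ∀ k, z ≠ R.p k) :
    ∃ k, z ∈ R.cut k ∧ z ∈ R.wedge k := by
  simp only [Omega, mem_ofPred_eq, not_forall, not_not] at hz
  obtain ⟨k, h1, h2⟩ := hz
  exact ⟨k, ⟨h1, h2⟩, R.mem_wedge_of_mem_cut ⟨h1, h2⟩ (hp k)⟩

theorem mem_closure_wedgePos {k : Fin R.r} {z : ℂ} (hc : z ∈ R.cut k) (hw : z ∈ R.wedge k) :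
    z ∈ closure (R.wedgePos k) := by
  have hpath : Tendsto (fun t : ℝ => z + (t : ℂ) * (I * R.p k)) (𝓝[>] 0) (𝓝 z) := by
    have : Tendsto (fun t : ℝ => z + (t : ℂ) * (I * R.p k)) (𝓝 0)
        (𝓝 (z + ((0 : ℝ) : ℂ) * (I * R.p k))) := Continuous.tendsto (by fun_prop) 0
    simpa using this.mono_left nhdsWithin_le_nhds
  refine mem_closure_of_tendsto hpath ?_
  filter_upwards [self_mem_nhdsWithin, hpath.eventually ((R.isOpen_wedge k).mem_nhds hw)]
    with t ht htw
  refine ⟨htw, ?_⟩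
  have ht : (0 : ℝ) < t := ht
  rw [add_div, mul_div_assoc, mul_div_assoc, div_self (R.p_ne k), mul_one, add_im, hc.1]
  simpa using ht

open scoped Classical in
/-- Glue a function on the cut plane with functions on the wedges. -/
def glue (h : ℂ → ℂ) (hV : Fin R.r → ℂ → ℂ) (z : ℂ) : ℂ :=
  if z ∈ R.Omega then h z else if hk : ∃ k, z ∈ R.wedge k then hV hk.choose z else 0

variable {R} {h : ℂ → ℂ} {hV : Fin R.r → ℂ → ℂ}

theorem glue_eq_Omega {z : ℂ} (hz : z ∈ R.Omega) : R.glue h hV z = h z := if_pos hz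

theorem glue_eq_wedge (hpos : ∀ k, EqOn (hV k) h (R.wedgePos k))
    (hneg : ∀ k, EqOn (hV k) h (R.wedgeNeg k)) {k : Fin R.r} {z : ℂ} (hz : z ∈ R.wedge k) :
    R.glue h hV z = hV k z := by
  by_cases hΩ : z ∈ R.Omega
  · rw [glue_eq_Omega hΩ]
    have him : (z / R.p k).im ≠ 0 := fun h0 =>
      hΩ k ⟨h0, (R.re_gt_one_of_mem_wedge hz).le⟩
    rcases him.lt_or_gt with hlt | hgt
    · exact (hneg k ⟨hz, hlt⟩).symm
    · exact (hpos k ⟨hz, hgt⟩).symm
  · have hex : ∃ k, z ∈ R.wedge k := ⟨k, hz⟩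
    rw [glue, if_neg hΩ, dif_pos hex]
    congr 1
    simp only [Omega, mem_ofPred_eq, not_forall, not_not] at hΩ
    obtain ⟨l, hl⟩ := hΩ
    have e1 : k = l := R.eq_of_mem_cut_of_mem_wedge hl hz
    have e2 : hex.choose = l := R.eq_of_mem_cut_of_mem_wedge hl hex.choose_spec
    rw [e1, e2]

theorem differentiableAt_glue (hpos : ∀ k, EqOn (hV k) h (R.wedgePos k))
    (hneg : ∀ k, EqOn (hV k) h (R.wedgeNeg k)) {T : Finset ℂ}
    (hd : ∀ z ∈ R.Omega, z ∉ T → DifferentiableAt ℂ h z)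
    (hdV : ∀ k, ∀ z ∈ R.wedge k, z ∉ T → DifferentiableAt ℂ (hV k) z) {z : ℂ}
    (hp : ∀ k, z ≠ R.p k) (hT : z ∉ T) : DifferentiableAt ℂ (R.glue h hV) z := by
  by_cases hΩ : z ∈ R.Omega
  · refine (hd z hΩ hT).congr_of_eventuallyEq ?_
    filter_upwards [R.isOpen_Omega.mem_nhds hΩ] with w hw using glue_eq_Omega hw
  · obtain ⟨k, -, hk⟩ := R.exists_mem_of_notMem_Omega hΩ hp
    refine (hdV k z hk hT).congr_of_eventuallyEq ?_
    filter_upwards [(R.isOpen_wedge k).mem_nhds hk] with w hw using glue_eq_wedge hpos hneg hw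

/-- A bound on the cut plane propagates to the cuts. -/
theorem le_of_glue (hpos : ∀ k, EqOn (hV k) h (R.wedgePos k))
    (hneg : ∀ k, EqOn (hV k) h (R.wedgeNeg k)) {T : Finset ℂ}
    (hdV : ∀ k, ∀ z ∈ R.wedge k, z ∉ T → DifferentiableAt ℂ (hV k) z)
    {w : ℂ → ℝ} (hw : Continuous w) {C : ℝ} {U : Set ℂ} (hU : IsOpen U)
    (hb : ∀ z ∈ U, z ∈ R.Omega → ‖h z‖ * w z ≤ C) {z : ℂ} (hz : z ∈ U) (hp : ∀ k, z ≠ R.p k)
    (hT : z ∉ T) : ‖R.glue h hV z‖ * w z ≤ C := by
  by_cases hΩ : z ∈ R.Omega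
  · rw [glue_eq_Omega hΩ]; exact hb z hz hΩ
  obtain ⟨k, hc, hk⟩ := R.exists_mem_of_notMem_Omega hΩ hp
  rw [glue_eq_wedge hpos hneg hk]
  have : (𝓝[R.wedgePos k] z).NeBot :=
      mem_closure_iff_nhdsWithin_neBot.1 (R.mem_closure_wedgePos hc hk)
  refine le_of_tendsto (x := 𝓝[R.wedgePos k] z)
    (((hdV k z hk hT).continuousAt.norm.mul hw.continuousAt).tendsto.mono_left
        nhdsWithin_le_nhds) ?_
  filter_upwards [self_mem_nhdsWithin, nhdsWithin_le_nhds (hU.mem_nhds hz)] with v hv hvU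
  show ‖hV k v‖ * w v ≤ C
  rw [hpos k hv]
  exact hb v hvU (R.wedgePos_subset k hv)

end Rays

/-- A system of functions on the sheets, compatible with the crossings. -/
structure SheetFun (S : Sheets R) where
  /-- The finite set of exceptional points. -/
  T : Finset ℂ
  /-- The function on each sheet over the cut plane. -/
  g : Fin M.n → ℂ → ℂ
  /-- Its continuation on each wedge. -/
  gV : Fin R.r → Fin M.n → ℂ → ℂ
  pos : ∀ k i, EqOn (gV k i) (g i) (R.wedgePos k)
  neg : ∀ k i, EqOn (gV k i) (g (S.σ k i)) (R.wedgeNeg k)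
  diff : ∀ i, ∀ z ∈ R.Omega, z ∉ T → DifferentiableAt ℂ (g i) z
  diffV : ∀ k i, ∀ z ∈ R.wedge k, z ∉ T → DifferentiableAt ℂ (gV k i) z
  growth : ∀ q : ℂ, q ∈ T ∨ q ∈ Set.range R.p → ∀ i, ∃ (N : ℕ) (C : ℝ),
    ∀ᶠ z in 𝓝[≠] q, z ∈ R.Omega → ‖g i z‖ * ‖z - q‖ ^ N ≤ C
  growth_infty : ∀ i, ∃ (N : ℕ) (C : ℝ),
    ∀ᶠ z in Bornology.cobounded ℂ, z ∈ R.Omega → ‖g i z‖ ≤ C * ‖z‖ ^ N

/-- The branches are bounded near every point. -/
theorem norm_branch_le_near {S : Sheets R} (q : ℂ) :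
    ∃ B : ℝ, ∀ᶠ z in 𝓝[≠] q, z ∈ R.Omega → ∀ i, ‖S.θ.η i z‖ ≤ B := by
  have hc : Continuous fun z => 1 + ∑ k ∈ Finset.range M.n, ‖(M.P.coeff k).eval z‖ := by fun_prop
  refine ⟨(1 + ∑ k ∈ Finset.range M.n, ‖(M.P.coeff k).eval q‖) + 1, ?_⟩
  filter_upwards [nhdsWithin_le_nhds ((hc.tendsto q).eventually (eventually_le_nhds
    (lt_add_one _)))] with z hz hzΩ i
  exact (M.root_bound ((S.θ.branch i).root z hzΩ)).trans hz

/-- Branches grow at most polynomially at infinity. -/
theorem norm_branch_le_infty (M : Model ℂ F) :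
    ∃ (D : ℕ) (B : ℝ), ∀ z : ℂ, 1 ≤ ‖z‖ → ∀ y, M.IsRootAt z y → ‖y‖ ≤ B * ‖z‖ ^ D := by
  set D := (Finset.range M.n).sup fun k => (M.P.coeff k).natDegree
  refine ⟨D, 1 + ∑ k ∈ Finset.range M.n,
    ∑ j ∈ Finset.range ((M.P.coeff k).natDegree + 1), ‖(M.P.coeff k).coeff j‖, fun z hz y hy => ?_⟩
  refine (M.root_bound hy).trans ?_
  rw [add_mul, one_mul, Finset.sum_mul]
  refine add_le_add (one_le_pow₀ hz) (Finset.sum_le_sum fun k hk => ?_)
  rw [eval_eq_sum_range, Finset.sum_mul]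
  refine (norm_sum_le _ _).trans (Finset.sum_le_sum fun j hj => ?_)
  rw [norm_mul, norm_pow]
  refine mul_le_mul_of_nonneg_left (pow_le_pow_right₀ hz ?_) (norm_nonneg _)
  rw [Finset.mem_range] at hj
  have := Finset.le_sup (f := fun k => (M.P.coeff k).natDegree) hk
  omega

namespace SheetFun

variable {S : Sheets R} (G : SheetFun S)

/-- The symmetric sums `∑ gᵢ θᵢ^j`. -/
def sumFun (j : ℕ) : ℂ → ℂ :=
  R.glue (fun z => ∑ i, G.g i z * S.θ.η i z ^ j)
    (fun k z => ∑ i, G.gV k i z * (S.w k).η i z ^ j)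

theorem sum_pos (j : ℕ) (k : Fin R.r) :
    EqOn (fun z => ∑ i, G.gV k i z * (S.w k).η i z ^ j)
      (fun z => ∑ i, G.g i z * S.θ.η i z ^ j) (R.wedgePos k) := fun z hz => by
  refine Finset.sum_congr rfl fun i _ => ?_
  rw [G.pos k i hz, S.pos k i hz]

theorem sum_neg (j : ℕ) (k : Fin R.r) :
    EqOn (fun z => ∑ i, G.gV k i z * (S.w k).η i z ^ j)
      (fun z => ∑ i, G.g i z * S.θ.η i z ^ j) (R.wedgeNeg k) := fun z hz => by
  show ∑ i, G.gV k i z * (S.w k).η i z ^ j = ∑ i, G.g i z * S.θ.η i z ^ j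
  rw [← Equiv.sum_comp (S.σ k) fun i => G.g i z * S.θ.η i z ^ j]
  refine Finset.sum_congr rfl fun i _ => ?_
  rw [G.neg k i hz, S.neg k i hz]

/-- The symmetric sums are rational functions. -/
theorem exists_rational_sum (j : ℕ) :
    ∃ (N : ℕ) (a : ℂ[X]), ∀ z ∈ R.Omega, z ∉ G.T →
      (∑ i, G.g i z * S.θ.η i z ^ j) *
        ((∏ q ∈ G.T ∪ Finset.univ.image R.p, (X - Polynomial.C q)) ^ N).eval z = a.eval z := by
  classical
  set T' := G.T ∪ Finset.univ.image R.p with hT'
  have hmem : ∀ q, q ∈ T' ↔ q ∈ G.T ∨ q ∈ Set.range R.p := by simp [hT']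
  have hdV : ∀ k, ∀ z ∈ R.wedge k, z ∉ G.T →
      DifferentiableAt ℂ (fun z => ∑ i, G.gV k i z * (S.w k).η i z ^ j) z := fun k w hw hwT =>
    DifferentiableAt.fun_sum fun i _ => (G.diffV k i w hw hwT).mul
      ((((S.w k).branch i).differentiableAt (R.isOpen_wedge k) differentiableOn_id
        (fun u hu => R.good_wedge hu) hw).pow j)
  have hd : ∀ z ∉ T', DifferentiableAt ℂ (G.sumFun j) z := by
    intro z hz
    rw [hmem, not_or] at hz
    refine Rays.differentiableAt_glue (G.sum_pos j) (G.sum_neg j) (T := G.T) ?_ hdV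
      (fun k h => hz.2 ⟨k, h.symm⟩) hz.1
    intro w hw hwT
    exact DifferentiableAt.fun_sum fun i _ => (G.diff i w hw hwT).mul
      (((S.θ.branch i).differentiableAt R.isOpen_Omega differentiableOn_id
        (fun u hu => R.good_Omega hu) hw).pow j)
  have hloc : ∀ q ∈ T', ∃ (N : ℕ) (C : ℝ), ∀ᶠ z in 𝓝[≠] q, ‖G.sumFun j z‖ * ‖z - q‖ ^ N ≤ C := by
    intro q hq
    choose Ni Ci hNi using G.growth q ((hmem q).1 hq)
    obtain ⟨B, hB⟩ := norm_branch_le_near (S := S) q
    refine ⟨Finset.univ.sup Ni, ∑ i, max (Ci i) 0 * max B 0 ^ j, ?_⟩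
    have hpunct : ∀ᶠ z in 𝓝[≠] q, z ∉ T' := by
      filter_upwards [(nhdsNE_le_cofinite q) T'.finite_toSet.compl_mem_cofinite] with z hz using hz
    have hev : ∀ᶠ z in 𝓝[≠] q, z ∈ R.Omega →
        ‖∑ i, G.g i z * S.θ.η i z ^ j‖ * ‖z - q‖ ^ Finset.univ.sup Ni
          ≤ ∑ i, max (Ci i) 0 * max B 0 ^ j := by
      filter_upwards [(eventually_all).2 hNi, hB,
        nhdsWithin_le_nhds (Metric.closedBall_mem_nhds q one_pos)] with z hz hzB hz1 hzΩ
      rw [Metric.mem_closedBall, dist_eq_norm] at hz1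
      refine (mul_le_mul_of_nonneg_right (norm_sum_le _ _) (by positivity)).trans ?_
      rw [Finset.sum_mul]
      refine Finset.sum_le_sum fun i _ => ?_
      rw [norm_mul, norm_pow, mul_right_comm]
      refine mul_le_mul ?_ (pow_le_pow_left₀ (norm_nonneg _)
          ((hzB hzΩ i).trans (le_max_left _ _)) j)
        (by positivity) (le_max_right _ _)
      refine ((mul_le_mul_of_nonneg_left (pow_le_pow_of_le_one (norm_nonneg _) hz1
        (Finset.le_sup (f := Ni) (Finset.mem_univ i))) (norm_nonneg _)).trans (hz i hzΩ)).trans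
        (le_max_left _ _)
    obtain ⟨U, hU, hUo, hqU⟩ := eventually_nhds_iff.1 (eventually_nhdsWithin_iff.1 (hpunct.and hev))
    rw [eventually_nhdsWithin_iff]
    filter_upwards [hUo.mem_nhds hqU] with z hzU hzq
    have hz2 := (hU z hzU hzq).1
    rw [hmem, not_or] at hz2
    exact Rays.le_of_glue (G.sum_pos j) (G.sum_neg j) hdV
      (w := fun v => ‖v - q‖ ^ Finset.univ.sup Ni) (by fun_prop)
      (hUo.inter isOpen_compl_singleton)
      (fun v hv hvΩ => (hU v hv.1 hv.2).2 hvΩ) ⟨hzU, hzq⟩ (fun k h => hz2.2 ⟨k, h.symm⟩) hz2.1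
  have hinf : ∃ (N : ℕ) (C : ℝ), ∀ᶠ z in Bornology.cobounded ℂ,
      ‖G.sumFun j z‖ ≤ C * ‖z‖ ^ N := by
    choose Ni Ci hNi using G.growth_infty
    obtain ⟨D, B, hB⟩ := norm_branch_le_infty M
    refine ⟨Finset.univ.sup Ni + D * j, ∑ i, max (Ci i) 0 * max B 0 ^ j, ?_⟩
    obtain ⟨ρ, hρ⟩ := (Metric.hasBasis_cobounded_compl_closedBall (0 : ℂ)).eventually_iff.1
      ((eventually_all.2 hNi).and ((tendsto_norm_cobounded_atTop.eventually
          (eventually_ge_atTop 1)).and
        (show ∀ᶠ z in Bornology.cobounded ℂ, z ∉ T' from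
          (Metric.cobounded_eq_cocompact (α := ℂ) ▸ cocompact_le_cofinite)
            T'.finite_toSet.compl_mem_cofinite)))
    have hUo : IsOpen (Metric.closedBall (0 : ℂ) ρ)ᶜ := Metric.isClosed_closedBall.isOpen_compl
    filter_upwards [(Metric.hasBasis_cobounded_compl_closedBall (0 : ℂ)).mem_of_mem
        (i := ρ) trivial]
      with z hz
    have hz2 := (hρ.2 hz).2.2
    rw [hmem, not_or] at hz2
    have key := Rays.le_of_glue (G.sum_pos j) (G.sum_neg j) hdV
      (w := fun v => (max ‖v‖ 1 ^ (Finset.univ.sup Ni + D * j))⁻¹)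
      (C := ∑ i, max (Ci i) 0 * max B 0 ^ j)
      (Continuous.inv₀ (by fun_prop) fun v => (by positivity)) hUo
      (fun v hv hvΩ => ?_) hz (fun k h => hz2.2 ⟨k, h.symm⟩) hz2.1
    · rwa [max_eq_left (hρ.2 hz).2.1, ← div_eq_mul_inv, div_le_iff₀
        (pow_pos (by linarith [(hρ.2 hz).2.1]) _)] at key
    · obtain ⟨h1, h2, -⟩ := hρ.2 hv
      rw [max_eq_left h2, ← div_eq_mul_inv, div_le_iff₀ (pow_pos (by linarith) _)]
      refine (norm_sum_le _ _).trans ?_
      rw [Finset.sum_mul]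
      refine Finset.sum_le_sum fun i _ => ?_
      rw [norm_mul, norm_pow, pow_add, pow_mul, mul_mul_mul_comm, ← mul_pow]
      refine mul_le_mul ?_ (pow_le_pow_left₀ (norm_nonneg _)
        ((hB v h2 _ ((S.θ.branch i).root v hvΩ)).trans
          (mul_le_mul_of_nonneg_right (le_max_left _ _) (by positivity))) j)
        (by positivity) (mul_nonneg (le_max_right _ _) (by positivity))
      exact (h1 i hvΩ).trans (mul_le_mul (le_max_left _ _)
        (pow_le_pow_right₀ h2 (Finset.le_sup (f := Ni) (Finset.mem_univ i))) (by positivity)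
        (le_max_right _ _))
  obtain ⟨N, a, ha⟩ := exists_rational_of_growth T' (G.sumFun j) hd hloc hinf
  refine ⟨N, a, fun z hz hzT => ?_⟩
  have hzT' : z ∉ T' := by
    rw [hmem, not_or]
    exact ⟨hzT, by rintro ⟨k, rfl⟩; exact hz k (R.p_mem_cut k)⟩
  rw [← ha z hzT', sumFun, Rays.glue_eq_Omega hz, ← Finset.prod_pow]
  simp [Polynomial.eval_prod]

end SheetFun

/-- The constant system `1`. -/
def SheetFun.one (S : Sheets R) : SheetFun S where
  T := ∅
  g _ _ := 1
  gV _ _ _ := 1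
  pos _ _ := fun _ _ => rfl
  neg _ _ := fun _ _ => rfl
  diff _ _ _ _ := differentiableAt_const _
  diffV _ _ _ _ _ := differentiableAt_const _
  growth _ _ _ := ⟨0, 1, Eventually.of_forall fun _ _ => by simp⟩
  growth_infty _ := ⟨0, 1, Eventually.of_forall fun _ _ => by simp⟩

/-- Weighted power sums determine the weights. -/
theorem vandermonde_mulVec_eq_of_powerSums {n : ℕ} {η g c : Fin n → ℂ}
    (hη : Function.Injective η) {w δ : ℂ} (hw : w ≠ 0)
    (h : (w • ((Matrix.vandermonde η).transpose * Matrix.vandermonde η)).mulVec c =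
      fun k : Fin n => δ * ((∑ i, g i * η i ^ (k : ℕ)) * w)) :
    (Matrix.vandermonde η).mulVec c = fun i => δ * g i := by
  set V := Matrix.vandermonde η
  have hinj : Function.Injective V.transpose.mulVec :=
    Matrix.mulVec_injective_iff_isUnit.2 ((Matrix.isUnit_iff_isUnit_det _).2 (by
      rw [Matrix.det_transpose, isUnit_iff_ne_zero]
      exact Matrix.det_vandermonde_ne_zero_iff.2 hη))
  refine hinj ?_
  rw [Matrix.mulVec_mulVec]
  have h3 : (w • (V.transpose * V)).mulVec c = w • V.transpose.mulVec (fun i => δ * g i) := by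
    rw [h]
    funext k
    simp only [Pi.smul_apply, smul_eq_mul, Matrix.mulVec, dotProduct, Matrix.transpose_apply, V,
      Matrix.vandermonde_apply, Finset.mul_sum, Finset.sum_mul]
    exact Finset.sum_congr rfl fun i _ => by ring
  rw [Matrix.smul_mulVec] at h3
  exact smul_right_injective _ hw h3

/-- A compatible system of moderate growth is given by an element of the function field. -/
theorem SheetFun.exists_elem {S : Sheets R} (G : SheetFun S) :
    ∃ (f : F) (T' : Finset ℂ), ∀ z ∈ R.Omega, z ∉ T' →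
      M.RegAt f z ∧ ∀ i, M.val f z (S.θ.η i z) = G.g i z := by
  classical
  set T0 := G.T ∪ Finset.univ.image R.p
  choose Na a ha using G.exists_rational_sum
  choose Nb b hb using (SheetFun.one S).exists_rational_sum
  set N := (Finset.range M.n).sup Na + (Finset.range (2 * M.n)).sup Nb
  set D : ℂ[X] := ∏ q ∈ T0, (X - Polynomial.C q) with hD
  set D1 : ℂ[X] := ∏ q ∈ (∅ : Finset ℂ) ∪ Finset.univ.image R.p, (X - Polynomial.C q) with hD1
  have hD1' : ∀ z, D1.eval z = 0 → ∃ k, R.p k = z := fun z hz => by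
    simp only [hD1, eval_prod, Finset.prod_eq_zero_iff, Finset.empty_union, Finset.mem_image,
      Finset.mem_univ, true_and, eval_sub, eval_X, eval_C, sub_eq_zero] at hz
    obtain ⟨q, ⟨k, hk⟩, hq⟩ := hz
    exact ⟨k, hk.trans hq.symm⟩
  let av : Fin M.n → ℂ[X] := fun k => a k * D ^ (N - Na k) * D1 ^ N
  let B : Matrix (Fin M.n) (Fin M.n) ℂ[X] :=
    Matrix.of fun k j => b ((k : ℕ) + j) * D1 ^ (N - Nb ((k : ℕ) + j)) * D ^ N
  have hav : ∀ z ∈ R.Omega, z ∉ G.T → ∀ k : Fin M.n,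
      (av k).eval z = (∑ i, G.g i z * S.θ.η i z ^ (k : ℕ)) * (D.eval z ^ N * D1.eval z ^ N) := by
    intro z hz hzT k
    have hle : Na k ≤ N := (Finset.le_sup (Finset.mem_range.2 k.isLt)).trans (Nat.le_add_right _ _)
    simp only [av, eval_mul, eval_pow, ← ha k z hz hzT]
    rw [show D.eval z ^ N = D.eval z ^ Na k * D.eval z ^ (N - Na k) by
      rw [← pow_add, Nat.add_sub_cancel' hle]]
    simp only [T0, hD]
    ring
  have hB : ∀ z ∈ R.Omega, ∀ k j : Fin M.n,
      (B k j).eval z = (∑ i, S.θ.η i z ^ ((k : ℕ) + j)) * (D.eval z ^ N * D1.eval z ^ N) := by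
    intro z hz k j
    have hle : Nb ((k : ℕ) + j) ≤ N :=
      (Finset.le_sup (Finset.mem_range.2 (by omega : (k : ℕ) + j < 2 * M.n))).trans
        (Nat.le_add_left _ _)
    have h := hb ((k : ℕ) + j) z hz (by simp [SheetFun.one])
    simp only [SheetFun.one, one_mul] at h
    simp only [B, Matrix.of_apply, eval_mul, eval_pow, ← h]
    rw [show D1.eval z ^ N = D1.eval z ^ Nb ((k : ℕ) + j) * D1.eval z ^ (N - Nb ((k : ℕ) + j)) by
      rw [← pow_add, Nat.add_sub_cancel' hle]]
    ring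
  set δ := B.det with hδ
  set num := B.adjugate.mulVec av
  obtain ⟨T', hT'⟩ : ∃ T' : Finset ℂ, T' = G.T ∪ δ.roots.toFinset := ⟨_, rfl⟩
  have hw : ∀ z ∈ R.Omega, z ∉ G.T → D.eval z ^ N * D1.eval z ^ N ≠ 0 := by
    intro z hz hzT
    refine mul_ne_zero (pow_ne_zero _ ?_) (pow_ne_zero _ fun h0 => ?_)
    · simp only [hD, eval_prod, Finset.prod_ne_zero_iff, eval_sub, eval_X, eval_C, sub_ne_zero]
      intro q hq hzq
      simp only [T0, Finset.mem_union, Finset.mem_image, Finset.mem_univ, true_and] at hq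
      rcases hq with hq | ⟨k, hk⟩
      · exact hzT (hzq ▸ hq)
      · exact R.p_ne_of_mem_Omega hz k (hk.trans hzq.symm)
    · obtain ⟨k, hk⟩ := hD1' z h0
      exact R.p_ne_of_mem_Omega hz k hk
  have hBV : ∀ z ∈ R.Omega, B.map (evalRingHom z) = (D.eval z ^ N * D1.eval z ^ N) •
      ((Matrix.vandermonde fun i => S.θ.η i z).transpose *
        Matrix.vandermonde fun i => S.θ.η i z) := by
    intro z hz
    ext k j
    simp only [Matrix.map_apply, coe_evalRingHom, hB z hz, Matrix.smul_apply, Matrix.mul_apply,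
      Matrix.transpose_apply, Matrix.vandermonde_apply, ← pow_add, smul_eq_mul]
    ring
  have hmain : ∀ z ∈ R.Omega, z ∉ G.T → δ.eval z ≠ 0 := by
    intro z hz hzT
    have hV : (Matrix.vandermonde fun i => S.θ.η i z).det ≠ 0 :=
      Matrix.det_vandermonde_ne_zero_iff.2 (S.θ.injective z hz)
    rw [hδ, ← coe_evalRingHom, RingHom.map_det, RingHom.mapMatrix_apply, hBV z hz, Matrix.det_smul,
      Matrix.det_mul, Matrix.det_transpose]
    exact mul_ne_zero (pow_ne_zero _ (hw z hz hzT)) (mul_ne_zero hV hV)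
  have hδ0 : δ ≠ 0 := by
    intro h0
    have hfin : (R.Omega \ ↑G.T).Nonempty := by
      have : R.Omega.Infinite := infinite_of_mem_nhds (0 : ℂ)
        (R.isOpen_Omega.mem_nhds R.zero_mem_Omega)
      exact (this.sdiff G.T.finite_toSet).nonempty
    obtain ⟨z, hz, hzT⟩ := hfin
    exact hmain z hz hzT (by simp [h0])
  let A : ℂ[X][X] := ∑ j : Fin M.n, Polynomial.C (num j) * Polynomial.X ^ (j : ℕ)
  refine ⟨M.ev A / aeval M.x δ, T', fun z hz hzT' => ?_⟩
  rw [hT', Finset.mem_union, not_or] at hzT'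
  have hzT := hzT'.1
  have hδz := hmain z hz hzT
  have hrep : M.ev A / aeval M.x δ * aeval M.x δ = M.ev A :=
    div_mul_cancel₀ _ (M.aeval_ne_zero hδ0)
  refine ⟨⟨A, δ, hδz, hrep⟩, fun i => ?_⟩
  rw [M.val_eq hrep hδz ((S.θ.branch i).root z hz), div_eq_iff hδz]
  -- linear algebra
  set V := Matrix.vandermonde fun i => S.θ.η i z
  set w := D.eval z ^ N * D1.eval z ^ N
  set c : Fin M.n → ℂ := fun j => (num j).eval z
  have h1 : (B.map (evalRingHom z)).mulVec c
      = fun k : Fin M.n => δ.eval z * ((∑ i, G.g i z * S.θ.η i z ^ (k : ℕ)) * w) := by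
    funext k
    have e : B.mulVec num = δ • av := by
      simp only [num, Matrix.mulVec_mulVec, Matrix.mul_adjugate, Matrix.smul_mulVec,
        Matrix.one_mulVec, hδ]
    have := congrArg (fun v : Fin M.n → ℂ[X] => (v k).eval z) e
    simp only [Matrix.mulVec, dotProduct, eval_finsetSum, eval_mul, Pi.smul_apply, smul_eq_mul,
      hav z hz hzT k] at this
    simpa [Matrix.mulVec, dotProduct, c, w] using this
  have h2 : V.mulVec c = fun i => δ.eval z * G.g i z :=
    vandermonde_mulVec_eq_of_powerSums (S.θ.injective z hz) (hw z hz hzT)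
      (by rw [← hBV z hz, h1])
  have h4 := congr_fun h2 i
  simp only [Matrix.mulVec, dotProduct, V, Matrix.vandermonde_apply, c] at h4
  simp only [A, map_sum, map_mul, evAt_C, map_pow, evAt_X]
  rw [mul_comm (G.g i z), ← h4]
  exact Finset.sum_congr rfl fun j _ => mul_comm _ _

/-- An element all of whose values vanish is zero. -/
theorem Model.eq_zero_of_values {S : Sheets R} {f : F} (T : Finset ℂ)
    (h : ∀ z ∈ R.Omega, z ∉ T → ∀ i, M.val f z (S.θ.η i z) = 0) : f = 0 := by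
  classical
  obtain ⟨A, d, hd, hrep⟩ := M.exists_rep' f
  rw [← M.ev_modByMonic] at hrep
  set A' := A %ₘ M.P with hA'
  suffices A' = 0 by
    rw [this, map_zero, mul_eq_zero] at hrep
    exact hrep.resolve_right (M.aeval_ne_zero hd)
  have hdeg : A' = 0 ∨ A'.natDegree < M.n := by
    by_cases h0 : A' = 0
    · exact Or.inl h0
    · exact Or.inr (natDegree_lt_natDegree h0 (degree_modByMonic_lt _ M.monic))
  refine Polynomial.ext fun j => ?_
  rw [coeff_zero]
  rcases hdeg with h0 | hlt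
  · simp [h0]
  refine Polynomial.eq_zero_of_infinite_isRoot _ ?_
  have hinf : (R.Omega \ (↑T ∪ {z | d.IsRoot z})).Infinite :=
    (infinite_of_mem_nhds (0 : ℂ) (R.isOpen_Omega.mem_nhds R.zero_mem_Omega)).sdiff
      (T.finite_toSet.union (Polynomial.finite_setOfPred_isRoot hd))
  refine hinf.mono fun z hz => ?_
  obtain ⟨hzΩ, hzT⟩ := hz
  simp only [Set.mem_union, Finset.mem_coe, mem_ofPred_eq, not_or] at hzT
  refine coeff_eval_eq_zero_of_evAt hlt (S.θ.injective z hzΩ) (fun i => ?_) j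
  have := h z hzΩ hzT.1 i
  rw [M.val_eq hrep hzT.2 ((S.θ.branch i).root z hzΩ), div_eq_zero_iff] at this
  exact this.resolve_right hzT.2

/-- The monodromy is transitive. -/
theorem Sheets.transitive (S : Sheets R) : IsTransitiveMono S.σ := by
  classical
  intro T hT
  let G : SheetFun S :=
    { T := ∅
      g := fun i _ => if i ∈ T then 1 else 0
      gV := fun _ i _ => if i ∈ T then 1 else 0
      pos := fun _ _ _ _ => rfl
      neg := fun k i _ _ => by simp only [← hT k i]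
      diff := fun _ _ _ _ => differentiableAt_const _
      diffV := fun _ _ _ _ _ => differentiableAt_const _
      growth := fun _ _ i => ⟨0, 1, Eventually.of_forall fun _ _ => by split_ifs <;> simp⟩
      growth_infty := fun i => ⟨0, 1, Eventually.of_forall fun _ _ => by split_ifs <;> simp⟩ }
  obtain ⟨f, T', hf⟩ := G.exists_elem
  have hsq : f * (f - 1) = 0 := by
    refine Model.eq_zero_of_values (S := S) T' fun z hz hzT i => ?_
    obtain ⟨hreg, hv⟩ := hf z hz hzT
    have hroot : M.IsRootAt z (S.θ.η i z) := (S.θ.branch i).root z hz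
    have hone : M.RegAt (1 : F) z := ⟨1, 1, by simp, by simp⟩
    have hneg : M.RegAt (f - 1) z := by
      have h1 : M.RegAt (algebraMap ℂ F (-1)) z := M.regAt_algebraMap _ z
      simpa [sub_eq_add_neg] using hreg.add h1
    have h2 : M.val (f - 1) z (S.θ.η i z) = M.val f z (S.θ.η i z) - 1 := by
      have := Model.val_add hneg hone hroot
      rw [sub_add_cancel, Model.val_one hroot] at this
      rw [this]; ring
    rw [Model.val_mul hreg hneg hroot, h2, hv i]
    by_cases hi : i ∈ T <;> simp [G, hi]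
  obtain ⟨z, hz, hzT⟩ := ((infinite_of_mem_nhds (0 : ℂ)
    (R.isOpen_Omega.mem_nhds R.zero_mem_Omega)).sdiff T'.finite_toSet).nonempty
  obtain ⟨-, hv⟩ := hf z hz hzT
  rcases mul_eq_zero.1 hsq with h0 | h1
  · left
    refine Set.eq_empty_of_forall_notMem fun i hi => ?_
    have := hv i
    have hroot : M.IsRootAt z (S.θ.η i z) := (S.θ.branch i).root z hz
    rw [h0, Model.val_zero hroot] at this
    simp [G, hi] at this
  · right
    refine Set.eq_univ_of_forall fun i => ?_
    by_contra hi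
    have := hv i
    have hroot : M.IsRootAt z (S.θ.η i z) := (S.θ.branch i).root z hz
    rw [sub_eq_zero.1 h1, Model.val_one hroot] at this
    simp [G, hi] at this

end Fermat.Agent.Tors
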