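import Fermat.Agent.FF.Curve
import Fermat.Agent.FF.DiffGenus
import Fermat.Agent.Tors.Glue

/-!
# The genus of a model and the number of monodromy classes

Riemann–Hurwitz for the projection `x` of a model gives the number of cycles of the local monodromy,
hence `m ^ (2 g)` classes of cochains with trivial loop sums modulo coboundaries.
-/

noncomputable section

open Polynomial AlgebraicCurve Fermat.Agent.FF
open scoped Real

namespace Fermat.Agent.Tors

namespace Model

variable {K F : Type*} [Field K] [Field F] [Algebra K F] [IsAlgClosed K] [CharZero K]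

/-- Riemann–Hurwitz for the projection `x` of a model. -/
theorem two_genus_sub_two (M : Model K F) (S : Finset K) (hS : ∀ c, M.disc.eval c = 0 → c ∈ S) :
    2 * (genusFF K F : ℤ) - 2 = ((S.card : ℤ) - 1) * M.n -
      ((∑ c ∈ S, (M.fibre (some c)).card) + (M.fibre none).card : ℕ) := by
  classical
  have := M.isFunctionField
  have hT : ∀ v, v ∈ M.fibre none ∪ S.biUnion (fun c => M.fibre (some c)) ↔
      v.ord M.x < 0 ∨ ∃ c ∈ S, 0 < v.ord (M.x - algebraMap K F c) := by
    intro v
    rw [Finset.mem_union, Finset.mem_biUnion, mem_fibre]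
    refine or_congr ?_ (exists_congr fun c => and_congr_right fun _ => mem_fibre M)
    show 0 < v.ord M.x⁻¹ ↔ _
    rw [v.ord_inv]
    omega
  rw [Diff.two_genus_sub_two_eq M.transc S _ hT ?_, M.finrank_eq, Finset.card_union_of_disjoint,
    Finset.card_biUnion]
  · push_cast
    ring
  · intro c _ c' _ hne
    refine Finset.disjoint_left.2 fun v hv hv' => hne ?_
    exact M.over_some_unique (M.mem_fibre.1 hv) (M.mem_fibre.1 hv')
  · refine Finset.disjoint_left.2 fun v hv hv' => ?_
    obtain ⟨c, -, hc⟩ := Finset.mem_biUnion.1 hv'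
    exact absurd (M.over_unique (M.mem_fibre.1 hv) (M.mem_fibre.1 hc)) (by simp)
  · intro v c hc hv
    exact M.ord_xi_eq_one (fun h => hc (hS c h)) hv

end Model

/-- A permutation and its inverse have as many cycles. -/
theorem natCard_cycles_inv {ι : Type*} (p : Equiv.Perm ι) :
    Nat.card (Quotient (cyc p⁻¹)) = Nat.card (Quotient (cyc p)) :=
  Nat.card_congr (Quotient.congrRight fun _ _ => Equiv.Perm.sameCycle_inv)

section Complex

variable {F : Type*} [Field F] [Algebra ℂ F] {M : Model ℂ F} {R : Rays M}

variable (S : Sheets R)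

/-- The monodromy around a finite branch point has a cycle for each place above it. -/
theorem Sheets.natCard_cycles_finite (k : Fin R.r) :
    Nat.card (Quotient (cyc (S.σ k))) = (M.fibre (some (R.p k))).card := by
  obtain ⟨L, h, B, -, -, hgood, -, -, -, hmon⟩ := S.exists_lifts_finite k
  rw [← natCard_cycles_inv, ← (Model.monodromy_cycles B hgood hmon).2.1]

/-- The monodromy at infinity has a cycle for each place above infinity. -/
theorem Sheets.natCard_cycles_infty :
    Nat.card (Quotient (cyc (tau S.σ))) = (M.fibre none).card := by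
  obtain ⟨L, h, B, -, hgood, -, -, -, hmon⟩ := S.exists_lifts_infty
  rw [← natCard_cycles_inv, ← (Model.monodromy_cycles B hgood hmon).2.1]

/-- The number of punctures, by Riemann–Hurwitz. -/
theorem Sheets.natCard_punct :
    (Nat.card (Punct S.σ) : ℤ) = ((R.r : ℤ) - 1) * M.n - (2 * (genusFF ℂ F : ℤ) - 2) := by
  classical
  have h1 := M.two_genus_sub_two (Finset.univ.image R.p) fun c hc => by
    obtain ⟨k, rfl⟩ := R.disc c hc
    simp
  rw [Finset.card_image_of_injective _ R.p_injective, Finset.card_univ, Fintype.card_fin,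
    Finset.sum_image fun _ _ _ _ h => R.p_injective h] at h1
  rw [h1, Punct, Nat.card_sum, Nat.card_sigma, S.natCard_cycles_infty,
    Finset.sum_congr rfl fun k _ => S.natCard_cycles_finite k]
  ring

/-- There are `m ^ 2g` monodromy classes. -/
theorem Sheets.natCard_monoClasses {m : ℕ} (hm : 0 < m) :
    Nat.card (MonoClasses S.σ (ZMod m)) = m ^ (2 * genusFF ℂ F) := by
  have : NeZero m := ⟨hm.ne'⟩
  have : Nonempty (Fin M.n) := ⟨⟨0, M.n_pos⟩⟩
  have h := Tors.natCard_monoClasses (A := ZMod m) S.σ S.transitive
  rw [Nat.card_zmod, Fintype.card_fin] at h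
  have hp := S.natCard_punct
  have he : R.r * M.n + 2 = 2 * genusFF ℂ F + (M.n + Nat.card (Punct S.σ)) := by
    zify
    rw [hp]
    ring
  rw [he, pow_add m (2 * genusFF ℂ F)] at h
  exact Nat.eq_of_mul_eq_mul_right (pow_pos hm _) h

end Complex

end Fermat.Agent.Tors
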