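import Fermat.Prelude.Def_AlgebraicCurve_BaseChangeGalois
import Fermat.Agent.Mono.PicBaseChange
import Fermat.Agent.Tors.Genus

/-!
# Maps between models with conjugate equations

If the equation of `M'` is the image of that of `M` under a map of constants, the homomorphism of
function fields sending `x` to `x` and `θ` to `θ`, and the extension of constants it gives.
-/

noncomputable section

open Polynomial IntermediateField AlgebraicCurve

namespace Fermat.Agent.Tors

variable {K L F F' : Type*} [Field K] [Field L] [Field F] [Field F'] [Algebra K F] [Algebra L F']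

namespace Model

/-- The equation of `M'` is the image of the one of `M`. -/
def IsImage (σ : K →+* L) (M : Model K F) (M' : Model L F') : Prop :=
  M'.P = M.P.map (mapRingHom σ)

variable {σ : K →+* L} {M : Model K F} {M' : Model L F'}

theorem IsImage.n_eq (h : IsImage σ M M') : M'.n = M.n := by
  rw [n, n, h, M.monic.natDegree_map]

theorem IsImage.ev_map_eq_zero (h : IsImage σ M M') {A : K[X][X]} (hA : M.ev A = 0) :
    M'.ev (A.map (mapRingHom σ)) = 0 := by
  rw [M'.ev_eq_zero_iff, h]
  exact Polynomial.map_dvd _ (M.ev_eq_zero_iff.1 hA)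

/-- The value of the map on a fraction does not depend on the presentation. -/
theorem IsImage.cross (h : IsImage σ M M') {f : F} {A B : K[X][X]} {d e : K[X]}
    (hA : f * aeval M.x d = M.ev A) (hB : f * aeval M.x e = M.ev B) :
    M'.ev (A.map (mapRingHom σ)) * aeval M'.x (e.map σ)
      = M'.ev (B.map (mapRingHom σ)) * aeval M'.x (d.map σ) := by
  have h0 := h.ev_map_eq_zero (A := A * C e - B * C d) (by
    simp only [map_sub, map_mul, ev_C, ← hA, ← hB]; ring)
  simpa [sub_eq_zero] using h0

/-- The underlying function of `mapHom`. -/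
def mapFun (M : Model K F) (M' : Model L F') (σ : K →+* L) (f : F) : F' :=
  M'.ev ((M.exists_rep' f).choose.map (mapRingHom σ)) /
    aeval M'.x ((M.exists_rep' f).choose_spec.choose.map σ)

theorem aeval_map_ne_zero {d : K[X]} (hd : d ≠ 0) : aeval M'.x (d.map σ) ≠ 0 :=
  M'.aeval_ne_zero ((Polynomial.map_ne_zero_iff σ.injective).2 hd)

theorem IsImage.mapFun_spec (h : IsImage σ M M') {f : F} {A : K[X][X]} {d : K[X]}
    (hA : f * aeval M.x d = M.ev A) :
    mapFun M M' σ f * aeval M'.x (d.map σ) = M'.ev (A.map (mapRingHom σ)) := by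
  have hd' := (M.exists_rep' f).choose_spec.choose_spec
  rw [mapFun, div_mul_eq_mul_div, div_eq_iff (aeval_map_ne_zero (M' := M') hd'.1)]
  exact h.cross hd'.2 hA

theorem IsImage.mapFun_eq (h : IsImage σ M M') {f : F} {A : K[X][X]} {d : K[X]} (hd : d ≠ 0)
    (hA : f * aeval M.x d = M.ev A) :
    mapFun M M' σ f = M'.ev (A.map (mapRingHom σ)) / aeval M'.x (d.map σ) := by
  rw [eq_div_iff (aeval_map_ne_zero (M' := M') hd), h.mapFun_spec hA]

/-- The comparison map on a polynomial in `x` and `θ`. -/
theorem IsImage.mapFun_ev (h : IsImage σ M M') (A : K[X][X]) :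
    mapFun M M' σ (M.ev A) = M'.ev (A.map (mapRingHom σ)) := by
  simpa using h.mapFun_eq (f := M.ev A) (A := A) (one_ne_zero (α := K[X])) (by simp)

/-- The map of function fields sending `x` to `x` and `θ` to `θ`. -/
def IsImage.mapHom (h : IsImage σ M M') : F →+* F' where
  toFun := mapFun M M' σ
  map_one' := by simpa using h.mapFun_ev (C 1)
  map_zero' := by simpa using h.mapFun_ev 0
  map_mul' f g := by
    obtain ⟨A, d, hd, hA⟩ := M.exists_rep' f
    obtain ⟨B, e, he, hB⟩ := M.exists_rep' g
    rw [h.mapFun_eq (A := A * B) (mul_ne_zero hd he) (by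
      rw [map_mul, map_mul, ← hA, ← hB]; ring), h.mapFun_eq hd hA, h.mapFun_eq he hB]
    simp [div_mul_div_comm]
  map_add' f g := by
    obtain ⟨A, d, hd, hA⟩ := M.exists_rep' f
    obtain ⟨B, e, he, hB⟩ := M.exists_rep' g
    rw [h.mapFun_eq (A := A * C e + B * C d) (mul_ne_zero hd he) (by
      simp only [map_add, map_mul, ev_C, ← hA, ← hB]; ring), h.mapFun_eq hd hA, h.mapFun_eq he hB,
      div_add_div _ _ (aeval_map_ne_zero (M' := M') hd) (aeval_map_ne_zero (M' := M') he)]
    simp only [Polynomial.map_add, Polynomial.map_mul, map_add, map_mul, map_C, ev_C,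
      coe_mapRingHom]
    ring

variable (h : IsImage σ M M')

theorem IsImage.mapHom_ev (A : K[X][X]) : h.mapHom (M.ev A) = M'.ev (A.map (mapRingHom σ)) :=
  h.mapFun_ev A

theorem IsImage.mapHom_aeval (a : K[X]) : h.mapHom (aeval M.x a) = aeval M'.x (a.map σ) := by
  simpa using h.mapHom_ev (C a)

theorem IsImage.mapHom_x : h.mapHom M.x = M'.x := by simpa using h.mapHom_aeval X

theorem IsImage.mapHom_theta : h.mapHom M.θ = M'.θ := by simpa using h.mapHom_ev X

theorem IsImage.mapHom_algebraMap (c : K) :
    h.mapHom (algebraMap K F c) = algebraMap L F' (σ c) := by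
  simpa using h.mapHom_aeval (C c)

/-- Homomorphisms agreeing on constants, `x` and `θ` are equal. -/
theorem ringHom_ext {T : Type*} [Field T] {φ ψ : F →+* T} (M : Model K F)
    (hc : ∀ c, φ (algebraMap K F c) = ψ (algebraMap K F c)) (hx : φ M.x = ψ M.x)
    (hθ : φ M.θ = ψ M.θ) : φ = ψ := by
  have h1 : φ.comp (aeval (R := K) M.x).toRingHom = ψ.comp (aeval (R := K) M.x).toRingHom := by
    refine Polynomial.ringHom_ext (fun c => ?_) ?_
    · simpa using hc c
    · simpa using hx
  have h2 : φ.comp M.ev = ψ.comp M.ev := by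
    refine Polynomial.ringHom_ext (fun a => ?_) ?_
    · simpa using RingHom.congr_fun h1 a
    · simpa using hθ
  refine RingHom.ext fun f => ?_
  obtain ⟨A, d, hd, hA⟩ := M.exists_rep' f
  have ha : φ (aeval M.x d) = ψ (aeval M.x d) := RingHom.congr_fun h1 d
  have hb : φ (M.ev A) = ψ (M.ev A) := RingHom.congr_fun h2 A
  rw [← hA, map_mul, map_mul, ← ha] at hb
  exact mul_right_cancel₀ ((map_ne_zero φ).2 (M.aeval_ne_zero hd)) hb

/-- A linear relation between images descends along a semilinear projection. -/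
theorem IsImage.proj (φ : L →+ K) (hφ : ∀ k l, φ (σ k * l) = k * φ l) {r : ℕ} (c : Fin r → L)
    (f : Fin r → F) (hf : ∑ i, c i • h.mapHom (f i) = 0) : ∑ i, φ (c i) • f i = 0 := by
  classical
  choose A d hd hA using fun i => M.exists_rep' (f i)
  set D : K[X] := ∏ i, d i with hD
  set B : Fin r → K[X][X] := fun i => (A i * C (∏ j ∈ Finset.univ.erase i, d j)) %ₘ M.P with hB
  have hB' : ∀ i, f i * aeval M.x D = M.ev (B i) := fun i => by
    rw [hB, ev_modByMonic, map_mul, ev_C, ← hA, mul_assoc, ← map_mul,
      Finset.mul_prod_erase _ _ (Finset.mem_univ i)]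
  have hev : M'.ev (∑ i, C (C (c i)) * (B i).map (mapRingHom σ)) = 0 := by
    rw [map_sum]
    calc ∑ i, M'.ev (C (C (c i)) * (B i).map (mapRingHom σ))
        = (∑ i, c i • h.mapHom (f i)) * h.mapHom (aeval M.x D) := by
          rw [Finset.sum_mul]
          refine Finset.sum_congr rfl fun i _ => ?_
          rw [smul_mul_assoc, ← map_mul, hB', h.mapHom_ev, map_mul, ev_C, aeval_C, Algebra.smul_def]
      _ = 0 := by rw [hf, zero_mul]
  have hdeg : (∑ i, C (C (c i)) * (B i).map (mapRingHom σ)).degree < M'.P.degree := by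
    refine lt_of_le_of_lt (degree_sum_le _ _) ((Finset.sup_lt_iff
      (bot_lt_iff_ne_bot.2 (degree_ne_bot.2 M'.monic.ne_zero))).2 fun i _ => ?_)
    refine lt_of_le_of_lt ((degree_mul_le _ _).trans (add_le_add degree_C_le degree_map_le)) ?_
    rw [zero_add, h, M.monic.degree_map]
    exact degree_modByMonic_lt _ M.monic
  have h0 := M'.indep _ hdeg hev
  have hzero : ∑ i, C (C (φ (c i))) * B i = 0 := by
    refine Polynomial.ext fun k => Polynomial.ext fun l => ?_
    have := congrArg (fun P : L[X][X] => φ ((P.coeff k).coeff l)) h0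
    simp only [finsetSum_coeff, coeff_C_mul, coeff_map, coe_mapRingHom, coeff_zero, map_zero,
      map_sum] at this ⊢
    rw [← this]
    refine Finset.sum_congr rfl fun i _ => ?_
    rw [mul_comm (c i), hφ, mul_comm]
  have hD0 : aeval M.x D ≠ 0 := M.aeval_ne_zero (Finset.prod_ne_zero_iff.2 fun i _ => hd i)
  refine (mul_eq_zero.1 ?_).resolve_right hD0
  rw [Finset.sum_mul]
  calc ∑ i, φ (c i) • f i * aeval M.x D = M.ev (∑ i, C (C (φ (c i))) * B i) := by
        rw [map_sum]
        refine Finset.sum_congr rfl fun i _ => ?_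
        rw [smul_mul_assoc, hB', map_mul, ev_C, aeval_C, Algebra.smul_def]
    _ = 0 := by rw [hzero, map_zero]

/-- The extension of constants given by a pair of models is a compositum. -/
theorem IsImage.isConstExt : Mono.IsConstExt σ h.mapHom where
  compat := h.mapHom_algebraMap
  proj := fun φ hφ _ c f hf => h.proj φ hφ c f hf
  gen := by
    rw [eq_top_iff, ← M'.adjoin_x_theta_eq_top]
    refine IntermediateField.adjoin.mono L _ _ ?_
    rintro y (rfl | rfl)
    · exact ⟨M.x, h.mapHom_x⟩
    · exact ⟨M.θ, h.mapHom_theta⟩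

end Model

end Fermat.Agent.Tors
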