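import Fermat.Agent.Tors.Root

/-!
# Orders at the punctures and cycle sums of the jumps

For a system of `m`-th roots of `f` with jumps `c`, the loop sums of `c` are the orders of `f` at
the punctures modulo `m`.
-/

noncomputable section

open Polynomial Filter Topology Set AlgebraicCurve Complex Fermat.Agent.FF Equiv
open scoped Real

namespace Fermat.Agent.Tors

variable {F : Type*} [Field F] [Algebra ℂ F] {M : Model ℂ F} {m : ℕ} [NeZero m]

open scoped Classical in
/-- A permutation and its inverse have the same cycles. -/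
theorem sum_cyc_inv {ι A : Type*} [Fintype ι] [AddCommGroup A] (p : Perm ι) (f : ι → A) (i : ι) :
    ∑ j with Quotient.mk (cyc p⁻¹) j = Quotient.mk (cyc p⁻¹) i, f j
      = ∑ j with Quotient.mk (cyc p) j = Quotient.mk (cyc p) i, f j := by
  refine Finset.sum_congr (Finset.filter_congr fun j _ => ?_) fun _ _ => rfl
  exact ⟨fun h => Quotient.sound (s := cyc p) (Perm.sameCycle_inv.1 (Quotient.exact h)),
    fun h => Quotient.sound (s := cyc p⁻¹) (Perm.sameCycle_inv.2 (Quotient.exact h))⟩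

namespace Model.Branches

variable {b : Option ℂ} {L₁ : ℝ}

/-- Roots of `f` along all lifts at `b`. -/
theorem exists_roots_along (B : M.Branches (halfPlane L₁) (phi b))
    (hgood : ∀ u ∈ halfPlane L₁, M.Good (phi b u)) {f : F} (hf : f ≠ 0) (T : Finset ℂ) :
    ∃ (L : ℝ) (G : Fin M.n → ℂ → ℂ), L ≤ L₁ ∧
      (∀ u ∈ halfPlane L, phi b u ∉ T ∧ M.RegAt f (phi b u)) ∧
      ∀ i, ContinuousOn (G i) (halfPlane L) ∧ ∀ u ∈ halfPlane L,
        G i u ^ m = M.along b (B.η i) f u ∧ G i u ≠ 0 := by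
  obtain ⟨L', hL'⟩ := exists_halfPlane_of_eventually
    ((eventually_phi_notMem b _ T.finite_toSet).and
      ((M.eventually_regAt b f).and (M.eventually_regAt b f⁻¹)))
  choose Li hLi using fun i => (B.isLift hgood i).continuousOn_along f
  obtain ⟨L, hL1, hL2, hL3⟩ : ∃ L, L ≤ L₁ ∧ L ≤ L' ∧ ∀ i, L ≤ Li i := by
    obtain ⟨B₀, hB₀⟩ := Finite.bddBelow_range Li
    exact ⟨min (min L₁ L') B₀, (min_le_left _ _).trans (min_le_left _ _),
      (min_le_left _ _).trans (min_le_right _ _),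
      fun i => (min_le_right _ _).trans (hB₀ ⟨i, rfl⟩)⟩
  have hsub : ∀ {L'' : ℝ}, L ≤ L'' → halfPlane L ⊆ halfPlane L'' :=
    fun h u hu => lt_of_lt_of_le (show u.re < L from hu) h
  have hne : ∀ i, ∀ u ∈ halfPlane L, M.along b (B.η i) f u ≠ 0 := fun i u hu =>
    M.val_ne_zero hf (hL' u (hsub hL2 hu)).2.1 (hL' u (hsub hL2 hu)).2.2
      ((B.branch i).root u (hsub hL1 hu))
  have hG : ∀ i, ∃ G : ℂ → ℂ, ContinuousOn G (halfPlane L) ∧
      ∀ u, G u ^ m = M.along b (B.η i) f u := fun i =>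
    Complex.exists_continuousOn_pow_eq (isSimplyConnected_halfPlane L) (isOpen_halfPlane L)
      ((hLi i).mono (hsub (hL3 i)))
      (fun h => by obtain ⟨u, hu, hu0⟩ := h; exact hne i u hu hu0) (NeZero.ne m)
  choose G hGc hGp using hG
  refine ⟨L, G, hL1, fun u hu => ⟨(hL' u (hsub hL2 hu)).1, (hL' u (hsub hL2 hu)).2.1⟩,
    fun i => ⟨hGc i, fun u hu => ⟨hGp i u, fun h0 => hne i u hu ?_⟩⟩⟩
  rw [← hGp i u, h0, zero_pow (NeZero.ne m)]

/-- A translation law valid on an open piece holds everywhere. -/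
theorem translate_law (B : M.Branches (halfPlane L₁) (phi b)) {π' : Perm (Fin M.n)}
    (hπ : ∀ i, ∀ u ∈ halfPlane L₁, B.η i (u + 2 * π * I) = B.η (π' i) u) {f : F} {L : ℝ}
    (hL : L ≤ L₁) {G : Fin M.n → ℂ → ℂ} (hGc : ∀ i, ContinuousOn (G i) (halfPlane L))
    (hG : ∀ i, ∀ u ∈ halfPlane L, G i u ^ m = M.along b (B.η i) f u ∧ G i u ≠ 0)
    {i : Fin M.n} {δ : ZMod m} {u₀ : ℂ} (hu₀ : u₀ ∈ halfPlane L)
    (h₀ : G i (u₀ + 2 * π * I) = ZMod.stdAddChar δ * G (π' i) u₀) :
    ∀ u ∈ halfPlane L, G i (u + 2 * π * I) = ZMod.stdAddChar δ * G (π' i) u := by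
  have hmap : MapsTo (fun u : ℂ => u + 2 * π * I) (halfPlane L) (halfPlane L) := fun u hu => by
    simpa using add_two_pi_I_mem_halfPlane hu 1
  obtain ⟨x, hx⟩ := exists_eq_stdAddChar_mul (m := m) (convex_halfPlane L).isPreconnected
    ((hGc i).comp (by fun_prop) hmap) (hGc (π' i)) (fun u hu => (hG _ u hu).2) (fun u hu => by
      rw [Function.comp_apply, (hG i _ (hmap hu)).1, (hG _ u hu).1]
      simp only [Model.along, (phi_periodic b) u,
        hπ i u (lt_of_lt_of_le (show u.re < L from hu) hL)])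
  have : x = δ := ZMod.injective_stdAddChar (mul_right_cancel₀ (hG _ u₀ hu₀).2
    ((hx u₀ hu₀).symm.trans h₀))
  subst this
  exact hx

end Model.Branches

namespace RootSys

open Fermat.Agent.Tors.Sheets (bd bd_succ bd_top bd_r bd_lt_succ)

variable {R : Rays M} {S : Sheets R} {f : F} {c : Fin R.r → Fin M.n → ZMod m}

theorem continuousOn_g (G : RootSys S m f c) (i : Fin M.n) {V : Set ℂ} {φ : ℂ → ℂ}
    (hφ : ContinuousOn φ V) (hV : MapsTo φ V R.Omega) : ContinuousOn (G.g i ∘ φ) V :=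
  ContinuousOn.comp (fun _ hz => (G.diff i _ hz).continuousAt.continuousWithinAt) hφ hV

theorem continuousOn_gV (G : RootSys S m f c) (k : Fin R.r) (i : Fin M.n) {V : Set ℂ} {φ : ℂ → ℂ}
    (hφ : ContinuousOn φ V) (hV : MapsTo φ V (R.wedge k)) : ContinuousOn (G.gV k i ∘ φ) V :=
  ContinuousOn.comp (fun _ hz => (G.diffV k i _ hz).continuousAt.continuousWithinAt) hφ hV

open scoped Classical in
/-- **Orders at a finite puncture** are minus the cycle sums modulo `m`. -/
theorem cast_ord_finite (G : RootSys S m f c) (hf : f ≠ 0) (k : Fin R.r) :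
    (∀ q : Quotient (cyc (S.σ k)), ∃ v, M.Over (some (R.p k)) v ∧
      ((v.ord f : ℤ) : ZMod m) = -cycleSum S.σ c (.inl ⟨k, q⟩)) ∧
    ∀ v, M.Over (some (R.p k)) v → ∃ q : Quotient (cyc (S.σ k)),
      ((v.ord f : ℤ) : ZMod m) = -cycleSum S.σ c (.inl ⟨k, q⟩) := by
  obtain ⟨L₁, h, B, hh, hhπ, hgood, hs0, hs1, hrect, hmon⟩ := S.exists_lifts_finite k
  obtain ⟨L, H, hL, hT, hH⟩ := B.exists_roots_along (m := m) hgood hf G.T
  set a₀ := (R.p k).arg
  have hcont : Continuous ((phi (some (R.p k)))) := continuous_phi _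
  have hmono : ∀ {a b}, strip L a b ⊆ strip L₁ a b := fun {a b} =>
    strip_mono hL le_rfl le_rfl
  -- comparison on the three pieces
  have hx : ∀ i, ∃ x : ZMod m, ∀ u ∈ strip L a₀ (a₀ + 2 * π),
      G.g i ((phi (some (R.p k))) u) = ZMod.stdAddChar x * H i u := fun i => by
    refine exists_eq_stdAddChar_mul (convex_strip _ _ _).isPreconnected
      (G.continuousOn_g i hcont.continuousOn fun u hu => (hs0 u (hmono hu)).1)
      ((hH i).1.mono (strip_subset_halfPlane _ _ _)) (fun u hu => ((hH i).2 u hu.1).2)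
      fun u hu => ?_
    show G.g i (phi (some (R.p k)) u) ^ m = _
    rw [((hH i).2 u hu.1).1, Model.along, (hs0 u (hmono hu)).2 i,
      (G.pow i _ (hs0 u (hmono hu)).1 (hT u hu.1).1).2]
  choose x hx using hx
  have hy : ∀ i, ∀ u ∈ strip L (a₀ - h) (a₀ + h),
      G.gV k i ((phi (some (R.p k))) u) = ZMod.stdAddChar (x i) * H i u := fun i => by
    obtain ⟨y, hy⟩ := exists_eq_stdAddChar_mul (m := m)
      (convex_strip L (a₀ - h) (a₀ + h)).isPreconnected
      (G.continuousOn_gV k i hcont.continuousOn fun u hu => (hrect u (hmono hu)).1)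
      ((hH i).1.mono (strip_subset_halfPlane _ _ _)) (fun u hu => ((hH i).2 u hu.1).2)
      (fun u hu => by
        rw [Function.comp_apply, ((hH i).2 u hu.1).1, Model.along, (hrect u (hmono hu)).2.1 i,
          G.powV i (hrect u (hmono hu)).1 (hT u hu.1).2])
    obtain ⟨u₁, hu₁⟩ := strip_nonempty (L := L) (show a₀ < a₀ + h by linarith)
    have hu₁' : u₁ ∈ strip L (a₀ - h) (a₀ + h) := strip_mono le_rfl (by linarith) le_rfl hu₁
    have hu₁'' : u₁ ∈ strip L a₀ (a₀ + 2 * π) :=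
      strip_mono le_rfl le_rfl (by linarith [Real.pi_pos]) hu₁
    have e := (hy u₁ hu₁').symm.trans (G.pos k i ((hrect u₁ (hmono hu₁')).2.2.1 hu₁.2.1))
    rw [show G.g i ((phi (some (R.p k))) u₁) = _ from hx i u₁ hu₁''] at e
    have : y = x i := ZMod.injective_stdAddChar (mul_right_cancel₀ ((hH i).2 u₁ hu₁.1).2 e)
    subst this
    exact hy
  -- the translation law
  obtain ⟨u₂, hu₂⟩ := strip_nonempty (L := L) (show a₀ - h < a₀ by linarith)
  have hu₂' : u₂ ∈ strip L (a₀ - h) (a₀ + h) := strip_mono le_rfl le_rfl (by linarith) hu₂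
  have hu₂T : u₂ + 2 * π * I ∈ strip L a₀ (a₀ + 2 * π) := by
    obtain ⟨h1, h2, h3⟩ := hu₂
    refine ⟨?_, ?_, ?_⟩ <;> simp <;> linarith
  set δ : Fin M.n → ZMod m := fun i => x ((S.σ k)⁻¹ i) - c k ((S.σ k)⁻¹ i) - x i
  have hδ : ∀ i, ∀ u ∈ halfPlane L,
      H i (u + 2 * π * I) = ZMod.stdAddChar (δ i) * H ((S.σ k)⁻¹ i) u := fun i => by
    refine B.translate_law hmon hL (fun j => (hH j).1) (fun j => (hH j).2) hu₂.1 ?_
    set j := (S.σ k)⁻¹ i
    have e1 := hy j u₂ hu₂'
    rw [G.neg k j ((hrect u₂ (hmono hu₂')).2.2.2 hu₂.2.2)] at e1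
    dsimp only at e1
    rw [show S.σ k j = i from Equiv.apply_symm_apply _ _] at e1
    have e2 := hx i _ hu₂T
    rw [phi_periodic] at e2
    rw [e2, ← mul_assoc, ← AddChar.map_add_eq_mul] at e1
    refine mul_left_cancel₀ (stdAddChar_ne_zero (c k j + x i)) ?_
    rw [e1, ← mul_assoc, ← AddChar.map_add_eq_mul]
    congr 2
    show x j = c k j + x i + (x j - c k j - x i)
    ring
  have hsum : ∀ i, ∑ j with Quotient.mk (cyc (S.σ k)⁻¹) j = Quotient.mk (cyc (S.σ k)⁻¹) i, δ j
      = -cycleSum S.σ c (.inl ⟨k, Quotient.mk _ i⟩) := fun i => by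
    rw [sum_cyc_inv, ← sum_filter_cyc_comp (S.σ k) δ]
    simp only [δ, Perm.coe_inv, Equiv.symm_apply_apply, Finset.sum_sub_distrib,
      sum_filter_cyc_comp (S.σ k) x]
    simp [cycleSum]
  have key := fun i => (Model.cast_ord_eq_cycle_sum B hgood hmon hf (fun j => (hH j).1)
    (fun j u hu => ((hH j).2 u hu).1) hδ i).trans (hsum i)
  refine ⟨fun q => ?_, fun v hv => ?_⟩
  · induction q using Quotient.inductionOn with
    | h i => exact ⟨_, Model.placeOf_over (B.isLift hgood i), key i⟩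
  · obtain ⟨i, rfl⟩ := Model.exists_lift_of_over B.η (B.isLift hgood)
      (eventually_of_mem (halfPlane_mem_negInf L₁) B.injective) hv
    exact ⟨_, key i⟩

open scoped Classical in
/-- **Orders at infinity** are the cycle sums modulo `m`. -/
theorem cast_ord_infty (G : RootSys S m f c) (hf : f ≠ 0) :
    (∀ q : Quotient (cyc (tau S.σ)), ∃ v, M.Over none v ∧
      ((v.ord f : ℤ) : ZMod m) = cycleSum S.σ c (.inr q)) ∧
    ∀ v, M.Over none v → ∃ q : Quotient (cyc (tau S.σ)),
      ((v.ord f : ℤ) : ZMod m) = cycleSum S.σ c (.inr q) := by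
  obtain ⟨L₁, h, B, hh, hgood, hgap, hsec, hrect, hmon⟩ := S.exists_lifts_infty
  obtain ⟨L, H, hL, hT, hH⟩ := B.exists_roots_along (m := m) hgood hf G.T
  have hcont : Continuous ((phi none)) := continuous_phi _
  have hmono : ∀ {a b}, strip L a b ⊆ strip L₁ a b := fun {a b} =>
    strip_mono hL le_rfl le_rfl
  have hx : ∀ j : ℕ, j ≤ R.r → ∀ i, ∃ x : ZMod m, ∀ u ∈ strip L (-bd R (j + 1)) (-bd R j),
      G.g (pre S.σ j i) ((phi none) u) = ZMod.stdAddChar x * H i u := fun j hj i => by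
    refine exists_eq_stdAddChar_mul (convex_strip _ _ _).isPreconnected
      (G.continuousOn_g _ hcont.continuousOn fun u hu => (hsec j hj u (hmono hu)).1)
      ((hH i).1.mono (strip_subset_halfPlane _ _ _)) (fun u hu => ((hH i).2 u hu.1).2)
      fun u hu => ?_
    show G.g (pre S.σ j i) (phi none u) ^ m = _
    rw [((hH i).2 u hu.1).1, Model.along, (hsec j hj u (hmono hu)).2 i,
      (G.pow _ _ (hsec j hj u (hmono hu)).1 (hT u hu.1).1).2]
  choose! x hx using hx
  have hstep : ∀ (k : Fin R.r) i,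
      x ((k : ℕ) + 1) i = c k (pre S.σ ((k : ℕ) + 1) i) + x k i := by
    intro k i
    set j := pre S.σ ((k : ℕ) + 1) i with hj
    have hσj : S.σ k j = pre S.σ k i := by
      rw [hj, pre_succ, Perm.mul_apply, Perm.coe_inv, Equiv.apply_symm_apply]
    obtain ⟨y, hy⟩ := exists_eq_stdAddChar_mul (m := m)
      (convex_strip L (-(R.p k).arg - h) (-(R.p k).arg + h)).isPreconnected
      (G.continuousOn_gV k j hcont.continuousOn fun u hu => (hrect k u (hmono hu)).1)
      ((hH i).1.mono (strip_subset_halfPlane _ _ _)) (fun u hu => ((hH i).2 u hu.1).2)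
      (fun u hu => by
        rw [Function.comp_apply, ((hH i).2 u hu.1).1, Model.along, (hrect k u (hmono hu)).2.1 i,
          G.powV j (hrect k u (hmono hu)).1 (hT u hu.1).2])
    have hbk : bd R ((k : ℕ) + 1) = (R.p k).arg := bd_succ k.isLt
    -- above the ray: sector `k`
    obtain ⟨u₁, hu₁⟩ := strip_nonempty (L := L)
      (show -(R.p k).arg < -(R.p k).arg + h by linarith)
    have hu₁' : u₁ ∈ strip L (-(R.p k).arg - h) (-(R.p k).arg + h) :=
      strip_mono le_rfl (by linarith) le_rfl hu₁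
    have hu₁'' : u₁ ∈ strip L (-bd R ((k : ℕ) + 1)) (-bd R k) := by
      refine strip_mono le_rfl (by rw [hbk]) ?_ hu₁
      have := hgap k (by omega)
      linarith
    have e1 := hy u₁ hu₁'
    rw [Function.comp_apply, G.neg k j ((hrect k u₁ (hmono hu₁')).2.2.2 hu₁.2.1)] at e1
    dsimp only at e1
    rw [hσj, hx k (by omega) i u₁ hu₁'', ← mul_assoc, ← AddChar.map_add_eq_mul] at e1
    have e1' := ZMod.injective_stdAddChar (mul_right_cancel₀ ((hH i).2 u₁ hu₁.1).2 e1)
    -- below the ray: sector `k + 1`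
    obtain ⟨u₂, hu₂⟩ := strip_nonempty (L := L)
      (show -(R.p k).arg - h < -(R.p k).arg by linarith)
    have hu₂' : u₂ ∈ strip L (-(R.p k).arg - h) (-(R.p k).arg + h) :=
      strip_mono le_rfl le_rfl (by linarith) hu₂
    have hu₂'' : u₂ ∈ strip L (-bd R ((k : ℕ) + 1 + 1)) (-bd R ((k : ℕ) + 1)) := by
      refine strip_mono le_rfl ?_ (by rw [hbk]) hu₂
      have := hgap ((k : ℕ) + 1) (by omega)
      linarith
    have e2 := hy u₂ hu₂'
    rw [Function.comp_apply, G.pos k j ((hrect k u₂ (hmono hu₂')).2.2.1 hu₂.2.2),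
      hx ((k : ℕ) + 1) (by omega) i u₂ hu₂''] at e2
    have e2' := ZMod.injective_stdAddChar (mul_right_cancel₀ ((hH i).2 u₂ hu₂.1).2 e2)
    rw [e2', ← e1']
  have hxr : ∀ i, x R.r i = bigLoop S.σ c i + x 0 i := by
    intro i
    have : ∀ k : Fin R.r, c k (pre S.σ ((k : ℕ) + 1) i) = x ((k : ℕ) + 1) i - x k i := fun k => by
      rw [hstep k i]; ring
    rw [bigLoop, Finset.sum_congr rfl fun k _ => this k,
      Fin.sum_univ_eq_sum_range (fun k => x (k + 1) i - x k i) R.r,
      Finset.sum_range_sub (fun k => x k i), sub_add_cancel]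
  obtain ⟨u₃, hu₃⟩ := strip_nonempty (L := L)
    (show -bd R (R.r + 1) < -bd R R.r by linarith [bd_lt_succ (R := R) (le_refl R.r)])
  have hu₃T : u₃ + 2 * π * I ∈ strip L (-bd R (0 + 1)) (-bd R 0) := by
    obtain ⟨h1, h2, h3⟩ := hu₃
    have := bd_top (R := R)
    have := bd_r (R := R)
    refine ⟨?_, ?_, ?_⟩ <;> simp <;> linarith
  set δ : Fin M.n → ZMod m := fun i => x R.r ((tau S.σ)⁻¹ i) - x 0 i
  have hδ : ∀ i, ∀ u ∈ halfPlane L,
      H i (u + 2 * π * I) = ZMod.stdAddChar (δ i) * H ((tau S.σ)⁻¹ i) u := fun i => by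
    refine B.translate_law hmon hL (fun j => (hH j).1) (fun j => (hH j).2) hu₃.1 ?_
    set j := (tau S.σ)⁻¹ i
    have e1 := hx R.r le_rfl j u₃ hu₃
    rw [show pre S.σ R.r j = i from Equiv.apply_symm_apply (tau S.σ) i] at e1
    have e2 := hx 0 (Nat.zero_le _) i _ hu₃T
    rw [phi_periodic, pre_zero, Perm.one_apply] at e2
    rw [e2] at e1
    refine mul_left_cancel₀ (stdAddChar_ne_zero (x 0 i)) ?_
    rw [e1, ← mul_assoc, ← AddChar.map_add_eq_mul]
    congr 2
    show x R.r j = x 0 i + (x R.r j - x 0 i)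
    ring
  have hsum : ∀ i, ∑ j with Quotient.mk (cyc (tau S.σ)⁻¹) j = Quotient.mk (cyc (tau S.σ)⁻¹) i, δ j
      = cycleSum S.σ c (.inr (Quotient.mk _ i)) := fun i => by
    rw [sum_cyc_inv, ← sum_filter_cyc_comp (tau S.σ) δ]
    simp only [δ, Perm.coe_inv, Equiv.symm_apply_apply, Finset.sum_sub_distrib, hxr,
      Finset.sum_add_distrib, sum_filter_cyc_comp (tau S.σ) (x 0)]
    simp [cycleSum]
  have key := fun i => (Model.cast_ord_eq_cycle_sum B hgood hmon hf (fun j => (hH j).1)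
    (fun j u hu => ((hH j).2 u hu).1) hδ i).trans (hsum i)
  refine ⟨fun q => ?_, fun v hv => ?_⟩
  · induction q using Quotient.inductionOn with
    | h i => exact ⟨_, Model.placeOf_over (B.isLift hgood i), key i⟩
  · obtain ⟨i, rfl⟩ := Model.exists_lift_of_over B.η (B.isLift hgood)
      (eventually_of_mem (halfPlane_mem_negInf L₁) B.injective) hv
    exact ⟨_, key i⟩

/-- The jumps have trivial loop sums iff the orders at the punctures are divisible by `m`. -/
theorem cycleSum_eq_zero_iff (G : RootSys S m f c) (hf : f ≠ 0) :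
    cycleSum S.σ c = 0 ↔ ∀ v, (M.Over none v ∨ ∃ k, M.Over (some (R.p k)) v) →
      (m : ℤ) ∣ v.ord f := by
  constructor
  · intro h0 v hv
    rw [← ZMod.intCast_zmod_eq_zero_iff_dvd]
    rcases hv with hv | ⟨k, hv⟩
    · obtain ⟨q, hq⟩ := (G.cast_ord_infty hf).2 v hv
      rw [hq, h0]; rfl
    · obtain ⟨q, hq⟩ := (G.cast_ord_finite hf k).2 v hv
      rw [hq, h0]; simp
  · intro hv
    funext q
    rcases q with ⟨k, q⟩ | q
    · obtain ⟨v, hov, hq⟩ := (G.cast_ord_finite hf k).1 q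
      rw [(ZMod.intCast_zmod_eq_zero_iff_dvd _ _).2 (hv v (Or.inr ⟨k, hov⟩))] at hq
      exact neg_eq_zero.1 hq.symm
    · obtain ⟨v, hov, hq⟩ := (G.cast_ord_infty hf).1 q
      rw [(ZMod.intCast_zmod_eq_zero_iff_dvd _ _).2 (hv v (Or.inl hov))] at hq
      exact hq.symm

/-- At good points the orders are divisible by `m`. -/
theorem dvd_ord_of_good (G : RootSys S m f c) (hf : f ≠ 0) {q : ℂ} (hq : ∀ k, R.p k ≠ q)
    {v : Place ℂ F} (hv : M.Over (some q) v) : (m : ℤ) ∣ v.ord f := by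
  have hgoodq : M.Good q := R.good_of_ne hq
  have key : ∀ (U : Set ℂ), IsOpen U → q ∈ U → (∀ z ∈ U, M.Good z) → ∀ B : M.Branches U id,
      ∀ h : Fin M.n → ℂ → ℂ, (∀ i, ∀ z ∈ U, DifferentiableAt ℂ (h i) z) →
      (∀ i, ∀ z ∈ U, z ∉ G.T → M.RegAt f z → h i z ^ m = M.val f z (B.η i z)) →
      (m : ℤ) ∣ v.ord f := by
    intro U hU hqU hUgood B h hd hp
    obtain ⟨ε, hε, hsub⟩ := Metric.isOpen_iff.1 hU q hqU
    have hball := Model.phi_some_mem_ball q hε
    have hl : ∀ i, M.IsLift (some q) (B.η i ∘ phi (some q)) := fun i =>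
      ((B.branch i).mono hsub).isLift hε fun z hz => hUgood z (hsub hz)
    have hinj : ∀ᶠ u in negInf, Function.Injective fun i => (B.η i ∘ phi (some q)) u :=
      eventually_of_mem (halfPlane_mem_negInf _) fun u hu => B.injective _ (hsub (hball hu))
    obtain ⟨i, hi⟩ := Model.exists_lift_of_over _ hl hinj hv
    have hev : ∀ᶠ u in negInf, (h i ∘ phi (some q)) u ^ m
        = M.along (some q) (B.η i ∘ phi (some q)) f u := by
      filter_upwards [halfPlane_mem_negInf (Real.log ε), eventually_phi_notMem (some q) _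
        G.T.finite_toSet, M.eventually_regAt (some q) f] with u hu huT hreg
      exact hp i _ (hsub (hball hu)) huT hreg
    have h1 := (hl i).root_translate hf (L₀ := Real.log ε)
      (ContinuousOn.comp (fun z hz => (hd i z (hsub hz)).continuousAt.continuousWithinAt)
        (continuous_phi _).continuousOn hball) hev 1 (ζ := 1) (Eventually.of_forall fun u => by
        simp [(phi_periodic (some q)) u])
    rw [hi, M.ord_xi_eq_one hgoodq hv, eq_comm, Complex.exp_eq_one_iff] at h1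
    obtain ⟨a, ha⟩ := h1
    refine ⟨a, ?_⟩
    have hm : (m : ℂ) ≠ 0 := by exact_mod_cast (NeZero.ne m)
    have hpi : (2 * π * I : ℂ) ≠ 0 := by simp [Real.pi_ne_zero]
    have : ((v.ord f : ℤ) : ℂ) = ((m : ℤ) * a : ℤ) := by
      push_cast at ha ⊢
      field_simp at ha
      linear_combination ha
    exact_mod_cast this
  by_cases hqΩ : q ∈ R.Omega
  · exact key R.Omega R.isOpen_Omega hqΩ (fun z hz => R.good_Omega hz) S.θ G.g G.diff
      fun i z hz hzT _ => (G.pow i z hz hzT).2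
  · obtain ⟨k, -, hk⟩ := R.exists_mem_of_notMem_Omega hqΩ fun k => (hq k).symm
    exact key (R.wedge k) (R.isOpen_wedge k) hk (fun z hz => R.good_wedge hz) (S.w k) (G.gV k)
      (G.diffV k) fun i z hz _ hreg => G.powV i hz hreg

/-- With trivial loop sums all orders are divisible by `m`. -/
theorem dvd_ord (G : RootSys S m f c) (hf : f ≠ 0) (hc : cycleSum S.σ c = 0) (v : Place ℂ F) :
    (m : ℤ) ∣ v.ord f := by
  obtain ⟨b, hb⟩ := M.exists_over v
  rcases b with _ | q
  · exact (G.cycleSum_eq_zero_iff hf).1 hc v (Or.inl hb)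
  · by_cases h : ∃ k, R.p k = q
    · obtain ⟨k, rfl⟩ := h
      exact (G.cycleSum_eq_zero_iff hf).1 hc v (Or.inr ⟨k, hb⟩)
    · exact G.dvd_ord_of_good hf (fun k hk => h ⟨k, hk⟩) hb

end RootSys

end Fermat.Agent.Tors
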