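import Fermat.Agent.Tors.Genus
import Fermat.Agent.Tors.RootPunct

/-!
# At most `m ^ 2g` classes are killed by `m`

A torsion class gives an `m`-th root system and so a monodromy class; this bounds the number of
classes of degree zero killed by `m` by `m ^ (2 g)`.
-/

noncomputable section

open Polynomial Filter Topology Set AlgebraicCurve Complex Fermat.Agent.FF Equiv
open scoped Real

namespace Fermat.Agent.Tors

/-- A set is finite if the cardinalities of its finite subsets are bounded. -/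
theorem finite_of_forall_card_le {α : Type*} {s : Set α} {N : ℕ}
    (h : ∀ A : Finset α, ↑A ⊆ s → A.card ≤ N) : s.Finite := by
  by_contra hs
  obtain ⟨A, hA, hcard⟩ := Set.Infinite.exists_subset_card_eq hs (N + 1)
  have := h A hA
  omega

/-- Two divisors of degree zero have the same class when their difference is principal. -/
theorem pic0_mk_eq_iff {K F : Type*} [Field K] [Field F] [Algebra K F]
    {D E : Divisor.degZero (K := K) (F := F)} :
    Pic0.mk D = Pic0.mk E ↔
      ∃ γ : F, γ ≠ 0 ∧ ∀ v, (D : Divisor K F) v - (E : Divisor K F) v = v.ord γ := by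
  rw [Pic0.mk, Pic0.mk, ← sub_eq_zero, ← QuotientAddGroup.mk_sub, QuotientAddGroup.eq_zero_iff]
  simp [AddSubgroup.mem_addSubgroupOf, Divisor.mem_principal, Divisor.IsPrincipal]

/-- A class is killed by `m` when `m` times a representative is the divisor of a function. -/
theorem mem_torsion_iff_exists {K F : Type*} [Field K] [Field F] [Algebra K F] {m : ℕ}
    {D : Divisor.degZero (K := K) (F := F)} :
    Pic0.mk D ∈ Pic0.torsion K F m ↔
      ∃ f : F, f ≠ 0 ∧ ∀ v, (m : ℤ) * (D : Divisor K F) v = v.ord f := by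
  rw [Pic0.mem_torsion, show (m : ℤ) • Pic0.mk D = Pic0.mk ((m : ℤ) • D) from rfl,
    ← Pic0.mk_zero, pic0_mk_eq_iff]
  simp

variable {F : Type*} [Field F] [Algebra ℂ F] {M : Model ℂ F} {R : Rays M} {m : ℕ} [NeZero m]

/-- Away from the punctures a function without zeros and poles there is a unit. -/
theorem Rays.regAt_of_supp (R : Rays M) {f : F}
    (hsupp : ∀ v : Place ℂ F, v.ord f ≠ 0 → M.Over none v ∨ ∃ k, M.Over (some (R.p k)) v) {z : ℂ}
    (hz : ∀ k, R.p k ≠ z) : M.RegAt f z ∧ M.RegAt f⁻¹ z := by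
  have hgood : M.Good z := R.good_of_ne hz
  have h0 : ∀ v, M.Over (some z) v → v.ord f = 0 := by
    intro v hv
    by_contra hne
    rcases hsupp v hne with h | ⟨k, h⟩
    · exact M.not_over_none_and_some hv h
    · exact hz k (M.over_some_unique h hv)
  exact ⟨M.regAt_of_regular hgood fun v hv => (h0 v hv).ge,
    M.regAt_of_regular hgood fun v hv => by rw [v.ord_inv, h0 v hv, neg_zero]⟩

/-- A function supported on the punctures has roots on all sheets. -/
theorem Sheets.exists_rootSys (S : Sheets R) {f : F} (hf : f ≠ 0)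
    (hsupp : ∀ v : Place ℂ F, v.ord f ≠ 0 → M.Over none v ∨ ∃ k, M.Over (some (R.p k)) v) :
    ∃ c, Nonempty (RootSys S m f c) := by
  have hΩ : ∀ z ∈ R.Omega, M.RegAt f z ∧ M.RegAt f⁻¹ z := fun z hz =>
    R.regAt_of_supp hsupp (R.p_ne_of_mem_Omega hz)
  have hV : ∀ k, ∀ z ∈ R.wedge k, M.RegAt f z ∧ M.RegAt f⁻¹ z := fun k z hz =>
    R.regAt_of_supp hsupp (R.p_ne_of_mem_wedge hz)
  have hroot : ∀ (U : Set ℂ), IsOpen U → IsSimplyConnected U → ∀ h : ℂ → ℂ,
      (∀ z ∈ U, DifferentiableAt ℂ h z) → (∀ z ∈ U, h z ≠ 0) →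
      ∃ g : ℂ → ℂ, ∀ z ∈ U, DifferentiableAt ℂ g z ∧ g z ^ m = h z ∧ g z ≠ 0 := by
    intro U hU hUc h hd hne
    obtain ⟨g, hgc, hg⟩ := Complex.exists_continuousOn_pow_eq hUc hU
      (fun z hz => (hd z hz).continuousAt.continuousWithinAt)
      (fun h0 => by obtain ⟨z, hz, hz0⟩ := h0; exact hne z hz hz0) (NeZero.ne m)
    have hg0 : ∀ z ∈ U, g z ≠ 0 := fun z hz h0 =>
      hne z hz (by rw [← hg z, h0, zero_pow (NeZero.ne m)])
    exact ⟨g, fun z hz => ⟨differentiableAt_of_pow_eq (NeZero.ne m)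
      (hgc.continuousAt (hU.mem_nhds hz)) (hd z hz) (hg0 z hz) (Eventually.of_forall hg),
      hg z, hg0 z hz⟩⟩
  choose g hg using fun i => hroot R.Omega R.isOpen_Omega R.isSimplyConnected_Omega
    (fun z => M.val f z (S.θ.η i z)) (fun z hz => S.differentiableAt_val_theta f i hz (hΩ z hz).1)
    fun z hz => M.val_ne_zero hf (hΩ z hz).1 (hΩ z hz).2 ((S.θ.branch i).root z hz)
  choose gW hgW using fun k i => hroot (R.wedge k) (R.isOpen_wedge k) (R.isSimplyConnected_wedge k)
    (fun z => M.val f z ((S.w k).η i z))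
    (fun z hz => S.differentiableAt_val_w f k i hz (hV k z hz).1)
    fun z hz => M.val_ne_zero hf (hV k z hz).1 (hV k z hz).2 (((S.w k).branch i).root z hz)
  have hpos : ∀ k i, ∃ x : ZMod m, ∀ z ∈ R.wedgePos k, g i z = ZMod.stdAddChar x * gW k i z := by
    intro k i
    refine exists_eq_stdAddChar_mul (R.convex_wedgePos k).isPreconnected
      (fun z hz => (hg i z (R.wedgePos_subset k hz)).1.continuousAt.continuousWithinAt)
      (fun z hz => (hgW k i z hz.1).1.continuousAt.continuousWithinAt)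
      (fun z hz => (hgW k i z hz.1).2.2) fun z hz => ?_
    rw [(hg i z (R.wedgePos_subset k hz)).2.1, (hgW k i z hz.1).2.1, S.pos k i hz]
  choose x hx using hpos
  have hneg : ∀ k i, ∃ y : ZMod m, ∀ z ∈ R.wedgeNeg k,
      ZMod.stdAddChar (x k i) * gW k i z = ZMod.stdAddChar y * g (S.σ k i) z := by
    intro k i
    refine exists_eq_stdAddChar_mul (R.convex_wedgeNeg k).isPreconnected
      (fun z hz => ((hgW k i z hz.1).1.const_mul _).continuousAt.continuousWithinAt)
      (fun z hz => (hg _ z (R.wedgeNeg_subset k hz)).1.continuousAt.continuousWithinAt)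
      (fun z hz => (hg _ z (R.wedgeNeg_subset k hz)).2.2) fun z hz => ?_
    rw [mul_pow, stdAddChar_pow_eq_one, one_mul, (hg _ z (R.wedgeNeg_subset k hz)).2.1,
      (hgW k i z hz.1).2.1, S.neg k i hz]
  choose c hc using hneg
  exact ⟨c, ⟨{
    T := ∅
    g := g
    gV := fun k i z => ZMod.stdAddChar (x k i) * gW k i z
    pos := fun k i z hz => (hx k i z hz).symm
    neg := fun k i z hz => hc k i z hz
    diff := fun i z hz => (hg i z hz).1
    diffV := fun k i z hz => (hgW k i z hz).1.const_mul _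
    pow := fun i z hz _ => ⟨(hΩ z hz).1, (hg i z hz).2.1⟩ }⟩⟩

/-- Every finite set of classes killed by `m` has at most `m ^ 2g` elements. -/
theorem card_le_of_torsion [FF.IsFunctionField ℂ F] (A : Finset (Pic0 ℂ F))
    (hA : ∀ x ∈ A, x ∈ Pic0.torsion ℂ F m) : A.card ≤ m ^ (2 * genusFF ℂ F) := by
  classical
  obtain ⟨M₀⟩ := exists_model (K := ℂ) (F := F)
  choose D hD using fun x : Pic0 ℂ F => Pic0.mk_surjective x
  have hex : ∀ x : A, ∃ f : F, f ≠ 0 ∧ ∀ v, (m : ℤ) * (D x : Divisor ℂ F) v = v.ord f := fun x =>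
    mem_torsion_iff_exists.1 (by rw [hD]; exact hA x x.2)
  choose f hf hfv using hex
  obtain ⟨M, R, hR⟩ := exists_rays M₀ (Finset.univ.biUnion fun x : A => (D x : Divisor ℂ F).support)
  obtain ⟨S⟩ := R.nonempty_sheets
  have hsupp : ∀ x : A, ∀ v : Place ℂ F, v.ord (f x) ≠ 0 →
      M.Over none v ∨ ∃ k, M.Over (some (R.p k)) v := by
    intro x v hv
    refine hR v (Finset.mem_biUnion.2 ⟨x, Finset.mem_univ _, ?_⟩)
    rw [Finsupp.mem_support_iff]
    intro h0
    rw [← hfv x v, h0, mul_zero] at hv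
    exact hv rfl
  choose c hG using fun x : A => S.exists_rootSys (m := m) (hf x) (hsupp x)
  have hker : ∀ x, c x ∈ (cycleSum S.σ : (Fin R.r → Fin M.n → ZMod m) →+ _).ker := fun x => by
    rw [AddMonoidHom.mem_ker, (hG x).some.cycleSum_eq_zero_iff (hf x)]
    exact fun v _ => ⟨_, (hfv x v).symm⟩
  let Φ : A → MonoClasses S.σ (ZMod m) := fun x => QuotientAddGroup.mk ⟨c x, hker x⟩
  have hinj : Function.Injective Φ := by
    intro x y hxy
    rw [QuotientAddGroup.eq_iff_sub_mem, AddSubgroup.mem_addSubgroupOf] at hxy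
    obtain ⟨a, ha⟩ := hxy
    obtain ⟨γ, hγ⟩ := (hG x).some.exists_pow_eq_of_gauge (hG y).some (hf y) a ha.symm
    refine Subtype.ext ?_
    rw [← hD x, ← hD y, pic0_mk_eq_iff]
    refine ⟨γ, fun h0 => ?_, fun v => ?_⟩
    · rw [h0, zero_pow (NeZero.ne m)] at hγ
      exact mul_ne_zero (hf x) (inv_ne_zero (hf y)) hγ.symm
    · have := congrArg v.ord hγ
      rw [FF.ord_pow, v.ord_mul (hf x) (inv_ne_zero (hf y)), v.ord_inv, ← hfv x v,
          ← hfv y v] at this
      refine mul_left_cancel₀ (show (m : ℤ) ≠ 0 by exact_mod_cast (NeZero.ne m)) ?_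
      linear_combination -this
  have hcard := S.natCard_monoClasses (m := m) (Nat.pos_of_ne_zero (NeZero.ne m))
  have hfin : Finite (MonoClasses S.σ (ZMod m)) := Nat.finite_of_card_ne_zero (by
    rw [hcard]; exact pow_ne_zero _ (NeZero.ne m))
  rw [← hcard, ← Nat.card_eq_finsetCard]
  exact Nat.card_le_card_of_injective Φ hinj

/-- The `m`-torsion of the class group is finite. -/
theorem finite_torsion [FF.IsFunctionField ℂ F] : Finite (Pic0.torsion ℂ F m) :=
  (finite_of_forall_card_le fun A hA => card_le_of_torsion (m := m) A fun _ hx => hA hx).to_subtype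

/-- **At most `m ^ (2 g)` classes are killed by `m`.** -/
theorem natCard_torsion_le [FF.IsFunctionField ℂ F] :
    Nat.card (Pic0.torsion ℂ F m) ≤ m ^ (2 * genusFF ℂ F) := by
  classical
  have := finite_torsion (F := F) (m := m)
  have hfin : (Pic0.torsion ℂ F m : Set (Pic0 ℂ F)).Finite := Set.toFinite _
  rw [show Nat.card (Pic0.torsion ℂ F m) = hfin.toFinset.card from
    Nat.card_eq_card_finite_toFinset hfin]
  exact card_le_of_torsion _ fun x hx => by simpa using hx

end Fermat.Agent.Tors
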