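import Fermat.Agent.Mono.AutFixed
import Fermat.Agent.Mono.DescentSurj
import Fermat.Agent.Tors.Map
import Fermat.Agent.Tors.Upper

/-!
# Extension of algebraically closed constants for models

For models with conjugate equations: the places, genus and degree-zero classes of the extension of
constants, the semilinear action of the automorphisms of the constants, and invariance of the
`m`-torsion of `Pic⁰`.
-/

noncomputable section

open Polynomial IntermediateField AlgebraicCurve

namespace Fermat.Agent.Tors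

variable {K L F F' : Type*} [Field K] [Field L] [Field F] [Field F'] [Algebra K F] [Algebra L F']

/-- Over algebraically closed constants all residue fields are trivial. -/
theorem hasTrivialResidue {K F : Type*} [Field K] [Field F] [Algebra K F] [IsAlgClosed K]
    [FF.IsFunctionField K F] (v : Place K F) : Mono.HasTrivialResidue v := by
  intro x hx
  obtain ⟨c, hc⟩ := FF.exists_const (v := v) ((FF.mem_iff_ord_nonneg v).mp hx)
  exact ⟨c, hc⟩

namespace Model

variable {σ : K →+* L} {M : Model K F} {M' : Model L F'}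

theorem IsImage.mapHom_xi (h : IsImage σ M M') (b : Option K) :
    h.mapHom (M.xi b) = M'.xi (b.map σ) := by
  cases b with
  | some c => simp [xi, h.mapHom_x, h.mapHom_algebraMap]
  | none => simp [xi, h.mapHom_x]

section Places

variable [IsAlgClosed K] [IsAlgClosed L] [FF.IsFunctionField K F] [FF.IsFunctionField L F']
variable (h : IsImage σ M M')

/-- The place above a place. -/
def IsImage.placeUp (v : Place K F) : Place L F' := Mono.placeMap h.isConstExt hasTrivialResidue v

omit [FF.IsFunctionField L F'] [IsAlgClosed L] in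
theorem IsImage.ord_placeUp (v : Place K F) (f : F) :
    (h.placeUp v).ord (h.mapHom f) = v.ord f :=
  Mono.ord_placeMap h.isConstExt hasTrivialResidue v f

omit [FF.IsFunctionField L F'] [IsAlgClosed L] in
theorem IsImage.placeUp_injective : Function.Injective h.placeUp :=
  Mono.placeMap_injective h.isConstExt hasTrivialResidue

omit [FF.IsFunctionField L F'] [IsAlgClosed L] in
theorem IsImage.over_placeUp (b : Option K) (v : Place K F) :
    M'.Over (b.map σ) (h.placeUp v) ↔ M.Over b v := by
  rw [Over, Over, ← h.mapHom_xi, h.ord_placeUp]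

omit [FF.IsFunctionField L F'] [IsAlgClosed L] in
theorem IsImage.exists_placeUp_eq {b : Option K} {w : Place L F'} (hw : M'.Over (b.map σ) w) :
    ∃ v, h.placeUp v = w := by
  refine Mono.exists_placeMap_eq h.isConstExt hasTrivialResidue w ⟨M.xi b, ?_⟩
  rw [h.mapHom_xi]
  exact ne_of_gt hw

include h in
omit [FF.IsFunctionField L F'] in
theorem IsImage.card_fibre (b : Option K) : (M'.fibre (b.map σ)).card = (M.fibre b).card := by
  classical
  rw [← Finset.card_image_of_injective _ h.placeUp_injective]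
  congr 1
  ext w
  rw [Finset.mem_image, mem_fibre]
  constructor
  · intro hw
    obtain ⟨v, rfl⟩ := h.exists_placeUp_eq hw
    exact ⟨v, M.mem_fibre.2 ((h.over_placeUp b v).1 hw), rfl⟩
  · rintro ⟨v, hv, rfl⟩
    exact (h.over_placeUp b v).2 (M.mem_fibre.1 hv)

include h in
omit [FF.IsFunctionField L F'] in
/-- An image model has the same genus. -/
theorem IsImage.genus_eq [CharZero K] [CharZero L] : genusFF L F' = genusFF K F := by
  classical
  set S := M.disc.roots.toFinset with hS
  have hS' : ∀ c, M.disc.eval c = 0 → c ∈ S := fun c hc => by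
    rw [hS, Multiset.mem_toFinset, mem_roots M.disc_ne_zero]; exact hc
  have hT : ∀ c, M'.disc.eval c = 0 → c ∈ S.image σ := by
    intro c hc
    obtain ⟨A, B, hAB⟩ := M.exists_bezout
    have hmem : M.disc.map σ ∈ M'.discIdeal := by
      refine M'.mem_discIdeal.2 ⟨A.map (mapRingHom σ), B.map (mapRingHom σ), ?_⟩
      have := congrArg (Polynomial.map (mapRingHom σ)) hAB
      rw [Polynomial.map_add, Polynomial.map_mul, Polynomial.map_mul, Polynomial.map_C,
        ← derivative_map, ← h] at this
      exact this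
    have hr : c ∈ (M.disc.map σ).roots := (mem_roots ((Polynomial.map_ne_zero_iff σ.injective).2
      M.disc_ne_zero)).2 (eval_eq_zero_of_dvd_of_eval_eq_zero (M'.disc_dvd hmem) hc)
    rw [(IsAlgClosed.splits M.disc).roots_map σ, Multiset.mem_map] at hr
    obtain ⟨c₀, hc₀, rfl⟩ := hr
    exact Finset.mem_image_of_mem _ (Multiset.mem_toFinset.2 hc₀)
  have e1 := M.two_genus_sub_two S hS'
  have e2 := M'.two_genus_sub_two _ hT
  have hn : M'.fibre none = M'.fibre (Option.map σ none) := rfl
  rw [Finset.card_image_of_injective _ σ.injective, h.n_eq,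
    Finset.sum_image fun _ _ _ _ e => σ.injective e, hn, h.card_fibre none,
    Finset.sum_congr rfl fun c _ =>
      (show (M'.fibre (some (σ c))).card = (M.fibre (some c)).card from h.card_fibre (some c))]
    at e2
  omega

/-- Base change on `Pic⁰`. -/
def IsImage.picUp : Pic0 K F →+ Pic0 L F' :=
  Mono.picMap h.isConstExt hasTrivialResidue FF.place_deg_eq_one FF.place_deg_eq_one

theorem IsImage.exists_picUp_eq (D : Divisor.degZero (K := L) (F := F'))
    (hD : ∀ w ∈ (D : Divisor L F').support, ∃ b : Option K, M'.Over (b.map σ) w) :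
    ∃ x, h.picUp x = Pic0.mk D := by
  classical
  have hE : Mono.divMap h.isConstExt hasTrivialResidue _ = (D : Divisor L F') :=
    Mono.divMap_comap h.isConstExt hasTrivialResidue (D : Divisor L F') fun w hw => by
      obtain ⟨b, hb⟩ := hD w hw; exact h.exists_placeUp_eq hb
  set E := Finsupp.comapDomain (Mono.placeMap h.isConstExt hasTrivialResidue) (D : Divisor L F')
    (Mono.placeMap_injective h.isConstExt hasTrivialResidue).injOn
  have hdeg : E ∈ Divisor.degZero (K := K) (F := F) := by
    rw [Divisor.mem_degZero, ← Mono.degree_divMap h.isConstExt hasTrivialResidue FF.place_deg_eq_one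
      FF.place_deg_eq_one E, hE, Divisor.mem_degZero.1 D.2]
  exact ⟨Pic0.mk ⟨E, hdeg⟩, congrArg Pic0.mk (Subtype.ext hE)⟩

end Places

/-- A presentation of `f` with monic denominator dividing every other denominator. -/
theorem exists_rep_min (M : Model K F) (f : F) :
    ∃ (A : K[X][X]) (d : K[X]), d.Monic ∧ A.degree < M.P.degree ∧ f * aeval M.x d = M.ev A ∧
      ∀ (B : K[X][X]) (e : K[X]), f * aeval M.x e = M.ev B → d ∣ e := by
  classical
  let I : Ideal K[X] :=
    { carrier := {d | ∃ A, f * aeval M.x d = M.ev A}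
      add_mem' := fun {a b} ⟨A, hA⟩ ⟨B, hB⟩ =>
        ⟨A + B, by rw [map_add, map_add, mul_add, hA, hB]⟩
      zero_mem' := ⟨0, by simp⟩
      smul_mem' := fun c a ⟨A, hA⟩ =>
        ⟨C c * A, by rw [smul_eq_mul, map_mul, map_mul, ev_C, mul_left_comm, hA]⟩ }
  obtain ⟨g, hg⟩ := IsPrincipalIdealRing.principal I
  replace hg : I = Ideal.span {g} := hg
  have hg0 : g ≠ 0 := by
    rintro rfl
    obtain ⟨A, d, hd, hA⟩ := M.exists_rep' f
    have hm : d ∈ I := ⟨A, hA⟩
    rw [hg, Ideal.span_singleton_eq_bot.2 rfl, Ideal.mem_bot] at hm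
    exact hd hm
  obtain ⟨A, hA⟩ : normalize g ∈ I := by
    rw [hg, Ideal.mem_span_singleton]
    exact (normalize_associated g).symm.dvd
  refine ⟨A %ₘ M.P, normalize g, monic_normalize hg0, degree_modByMonic_lt _ M.monic,
    by rw [ev_modByMonic, hA], fun B e hB => ?_⟩
  have hm : e ∈ I := ⟨B, hB⟩
  rw [hg, Ideal.mem_span_singleton] at hm
  exact normalize_dvd_iff.2 hm

section Galois

variable [Algebra K L] (h : IsImage (algebraMap K L) M M')

include h in
theorem IsImage.self_image (g : L ≃ₐ[K] L) :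
    IsImage (g : L →+* L) M' M' := by
  rw [IsImage, h, Polynomial.map_map, mapRingHom_comp]
  congr 2
  exact RingHom.ext fun a => (g.commutes a).symm

/-- An automorphism of the constants, acting on the coefficients. -/
def IsImage.autHom (g : L ≃ₐ[K] L) : F' →+* F' := (h.self_image g).mapHom

theorem IsImage.autHom_comp (g g' : L ≃ₐ[K] L) :
    (h.autHom g).comp (h.autHom g') = h.autHom (g * g') := by
  refine Model.ringHom_ext M' (fun c => ?_) ?_ ?_ <;>
    simp [IsImage.autHom, IsImage.mapHom_algebraMap, IsImage.mapHom_x, IsImage.mapHom_theta]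

theorem IsImage.autHom_one : h.autHom (1 : L ≃ₐ[K] L) = RingHom.id F' := by
  refine Model.ringHom_ext M' (fun c => ?_) ?_ ?_ <;>
    simp [IsImage.autHom, IsImage.mapHom_algebraMap, IsImage.mapHom_x, IsImage.mapHom_theta]

/-- The semilinear action of `Aut(L/K)`. -/
def IsImage.galois : (L ≃ₐ[K] L) →* SemilinearAut L F' where
  toFun g := ⟨(RingEquiv.ofRingHom (h.autHom g) (h.autHom g⁻¹)
      (by rw [h.autHom_comp, mul_inv_cancel, h.autHom_one])
      (by rw [h.autHom_comp, inv_mul_cancel, h.autHom_one]), g.toRingEquiv),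
    fun a => (h.self_image g).mapHom_algebraMap a⟩
  map_one' := Subtype.ext (Prod.ext (RingEquiv.ext fun f => RingHom.congr_fun h.autHom_one f) rfl)
  map_mul' g g' := Subtype.ext (Prod.ext
    (RingEquiv.ext fun f => (RingHom.congr_fun (h.autHom_comp g g') f).symm) rfl)

theorem IsImage.galois_smul (g : L ≃ₐ[K] L) (f : F') : h.galois g • f = h.autHom g f := rfl

theorem IsImage.galois_fix (g : L ≃ₐ[K] L) (f : F) : h.galois g • h.mapHom f = h.mapHom f := by
  show ((h.autHom g).comp h.mapHom) f = _
  refine RingHom.congr_fun (Model.ringHom_ext M (fun c => ?_) ?_ ?_) f <;>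
    simp [IsImage.autHom, IsImage.mapHom_algebraMap, IsImage.mapHom_x, IsImage.mapHom_theta]

variable [IsAlgClosed K] [IsAlgClosed L] [CharZero K]

/-- An eigenfunction is, up to a constant, defined over `K`. -/
theorem IsImage.exists_eq_smul_mapHom {f : F'} (hf : f ≠ 0)
    (heig : ∀ g : L ≃ₐ[K] L, ∃ c : L, h.galois g • f = c • f) :
    ∃ (a : L) (f₀ : F), a ≠ 0 ∧ f = a • h.mapHom f₀ := by
  classical
  obtain ⟨A, d, hd, hdeg, hA, hmin⟩ := M'.exists_rep_min f
  have hA0 : A ≠ 0 := by
    rintro rfl
    rw [map_zero, mul_eq_zero] at hA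
    exact hA.elim hf (M'.aeval_ne_zero hd.ne_zero)
  obtain ⟨k, hk⟩ : ∃ k, A.coeff k ≠ 0 := by
    by_contra hne; simp only [not_exists, not_not] at hne; exact hA0 (Polynomial.ext (by simpa))
  obtain ⟨l, hl⟩ : ∃ l, (A.coeff k).coeff l ≠ 0 := by
    by_contra hne; simp only [not_exists, not_not] at hne; exact hk (Polynomial.ext (by simpa))
  set a := (A.coeff k).coeff l with ha
  -- transformation of the least presentation
  have hkey : ∀ g : L ≃ₐ[K] L, ∃ c : L, d.map (g : L →+* L) = d ∧
      ∀ i j, g ((A.coeff i).coeff j) = c * (A.coeff i).coeff j := by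
    intro g
    obtain ⟨c, hc⟩ := heig g
    rw [h.galois_smul] at hc
    have hc0 : c ≠ 0 := by
      rintro rfl
      rw [zero_smul] at hc
      exact hf ((map_eq_zero (h.autHom g)).1 hc)
    have himg := congrArg (h.autHom g) hA
    rw [map_mul, hc, IsImage.autHom, IsImage.mapHom_aeval, IsImage.mapHom_ev, Algebra.smul_def]
      at himg
    have hrep : f * aeval M'.x (d.map (g : L →+* L)) =
        M'.ev (C (C c⁻¹) * A.map (mapRingHom (g : L →+* L))) := by
      rw [map_mul, ← himg, ev_C, aeval_C, ← mul_assoc, ← mul_assoc, ← map_mul,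
        inv_mul_cancel₀ hc0, map_one, one_mul]
    have hde : d.map (g : L →+* L) = d :=
      eq_of_monic_of_dvd_of_natDegree_le hd (hd.map _) (hmin _ _ hrep) (hd.natDegree_map _).le
    refine ⟨c, hde, fun i j => ?_⟩
    have hev : M'.ev (A.map (mapRingHom (g : L →+* L)) - C (C c) * A) = 0 := by
      rw [map_sub, map_mul, ← hA, ← himg, hde, ev_C, aeval_C]; ring
    have h0 := M'.indep _ (lt_of_le_of_lt (degree_sub_le _ _) (max_lt
      (lt_of_le_of_lt degree_map_le hdeg)
      (lt_of_le_of_lt ((degree_mul_le _ _).trans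
        (add_le_add degree_C_le le_rfl)) (by rwa [zero_add])))) hev
    have := congrArg (fun P : L[X][X] => (P.coeff i).coeff j) h0
    simpa [sub_eq_zero] using this
  have hfix : ∀ z : L, (∀ g : L ≃ₐ[K] L, g z = z) → z ∈ (algebraMap K L).range := fun z hz =>
    Mono.mem_range_of_forall_fixed hz
  obtain ⟨d₀, hd₀⟩ : d ∈ lifts (algebraMap K L) := by
    refine (lifts_iff_coeff_lifts d).2 fun j => hfix _ fun g => ?_
    obtain ⟨c, hde, -⟩ := hkey g
    simpa using congrArg (fun p => p.coeff j) hde
  obtain ⟨A₀, hA₀⟩ : C (C a⁻¹) * A ∈ lifts (mapRingHom (algebraMap K L)) := by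
    refine (lifts_iff_coeff_lifts _).2 fun i => ?_
    obtain ⟨q, hq⟩ : (C (C a⁻¹) * A).coeff i ∈ lifts (algebraMap K L) := by
      refine (lifts_iff_coeff_lifts _).2 fun j => hfix _ fun g => ?_
      obtain ⟨c, -, hc⟩ := hkey g
      have hga : g a = c * a := hc k l
      have hc0 : c ≠ 0 := by
        rintro rfl
        rw [zero_mul, map_eq_zero] at hga
        exact hl hga
      simp only [coeff_C_mul, map_mul, map_inv₀, hga, hc, mul_inv]
      field_simp
    exact ⟨q, hq⟩
  refine ⟨a, M.ev A₀ / aeval M.x d₀, hl, ?_⟩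
  have hd₀' : d₀.map (algebraMap K L) = d := hd₀
  have hA₀' : A₀.map (mapRingHom (algebraMap K L)) = C (C a⁻¹) * A := hA₀
  rw [map_div₀, h.mapHom_ev, h.mapHom_aeval, hd₀', hA₀', map_mul, ev_C, aeval_C, Algebra.smul_def,
    ← hA, ← mul_div_assoc, ← mul_assoc, ← map_mul, mul_inv_cancel₀ hl, map_one, one_mul,
    mul_div_assoc, div_self (M'.aeval_ne_zero hd.ne_zero), mul_one]

variable [FF.IsFunctionField K F] [FF.IsFunctionField L F']

theorem IsImage.picUp_injective : Function.Injective h.picUp := by
  rw [injective_iff_map_eq_zero]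
  intro z hz
  obtain ⟨D, rfl⟩ := Pic0.mk_surjective z
  rw [IsImage.picUp, Mono.picMap_mk, ← Pic0.mk_zero, pic0_mk_eq_iff] at hz
  obtain ⟨f, hf, hfv⟩ := hz
  have hD : ∀ w, Mono.divMap h.isConstExt hasTrivialResidue (D : Divisor K F) w = w.ord f :=
    fun w => by simpa using hfv w
  obtain ⟨a, f₀, ha, rfl⟩ := h.exists_eq_smul_mapHom hf fun g =>
    Mono.exists_eq_smul_of_divisor_smul_eq
      (fun f _ hf => FF.mem_range_of_ord_nonneg fun v => (hf v).ge) _ hf hD
      (Mono.smul_divMap_eq h.isConstExt hasTrivialResidue h.galois_fix g _)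
  rw [← Pic0.mk_zero, pic0_mk_eq_iff]
  have hf₀ : f₀ ≠ 0 := by rintro rfl; simp at hf
  refine ⟨f₀, hf₀, fun v => ?_⟩
  have := hD (h.placeUp v)
  rw [IsImage.placeUp, Mono.divMap_apply_placeMap, Algebra.smul_def,
    FF.ord_algebraMap_mul _ ha, Mono.ord_placeMap] at this
  simpa using this

omit [CharZero K] in
theorem IsImage.mem_range_picUp {m : ℕ} (hfin : Finite (Pic0.torsion L F' m)) {z : Pic0 L F'}
    (hz : z ∈ Pic0.torsion L F' m) : z ∈ Set.range h.picUp := by
  refine Mono.mem_range_picMap_of_finite_orbit (ρ := h.galois) h.isConstExt hasTrivialResidue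
    FF.place_deg_eq_one FF.place_deg_eq_one hasTrivialResidue h.galois_fix
    (fun c hc => Mono.mem_range_of_finite_orbit hc)
    (fun f _ hf => FF.mem_range_of_ord_nonneg fun v => (hf v).ge)
    (u := M.x) ?_ z ?_
  · rintro ⟨c, hc⟩
    exact M.transc (hc ▸ isAlgebraic_algebraMap c)
  · refine (Set.toFinite (Pic0.torsion L F' m : Set (Pic0 L F'))).subset ?_
    rintro _ ⟨g, rfl⟩
    exact SemilinearAut.smul_mem_torsion _ hz

include h in
/-- **The `m`-torsion of `Pic⁰` is invariant under extension of algebraically closed constants.** -/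
theorem IsImage.natCard_torsion_eq (m : ℕ) (hfin : Finite (Pic0.torsion L F' m)) :
    Nat.card (Pic0.torsion K F m) = Nat.card (Pic0.torsion L F' m) := by
  refine Nat.card_congr (Equiv.ofBijective (fun x => ⟨h.picUp x.1, ?_⟩) ⟨?_, ?_⟩)
  · rw [Pic0.mem_torsion, ← map_zsmul, Pic0.mem_torsion.1 x.2, map_zero]
  · intro x y hxy
    exact Subtype.ext (h.picUp_injective (congrArg Subtype.val hxy))
  · rintro ⟨z, hz⟩
    obtain ⟨x, rfl⟩ := h.mem_range_picUp hfin hz
    refine ⟨⟨x, Pic0.mem_torsion.2 (h.picUp_injective ?_)⟩, rfl⟩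
    rw [map_zsmul, Pic0.mem_torsion.1 hz, map_zero]

end Galois

end Model

end Fermat.Agent.Tors
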