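import Mathlib

/-!
# Countable algebraically closed subfields and embeddings into `ℂ`

A countable algebraically closed field of characteristic zero containing prescribed countable data
exists and embeds into `ℂ`; this is used to transfer torsion counts from `ℂ`.
-/

noncomputable section

open Cardinal

namespace Fermat.Agent.Tors

universe u

/-- A countable set lies in a countable algebraically closed subfield. -/
theorem exists_countable_isAlgClosed_ge {K : Type u} [Field K] [IsAlgClosed K] [CharZero K]
    (T : Set K) (hT : T.Countable) :
    ∃ E : IntermediateField ℚ K, IsAlgClosed E ∧ Countable E ∧ T ⊆ E := by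
  set k := IntermediateField.adjoin ℚ T
  refine ⟨(algebraicClosure k K).restrictScalars ℚ, ?_, ?_, fun t ht => ?_⟩
  · exact (algebraicClosure.isAlgClosure (F := k) (E := K)).isAlgClosed
  · have hk : #k ≤ ℵ₀ := by
      have h := IntermediateField.lift_cardinalMk_adjoin_le ℚ (E := K) T
      simp only [Cardinal.lift_id'] at h
      refine h.trans ?_
      exact max_le (max_le (by simp) (by simpa using hT.le_aleph0)) le_rfl
    show Countable (algebraicClosure k K)
    rw [← Cardinal.mk_le_aleph0_iff]
    exact (Algebra.IsAlgebraic.cardinalMk_le_max k _).trans (max_le hk le_rfl)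
  · exact IntermediateField.algebraMap_mem (algebraicClosure k K)
      (⟨t, IntermediateField.subset_adjoin ℚ T ht⟩ : k)

/-- A countable algebraically closed field of characteristic zero embeds into `ℂ`. -/
theorem nonempty_ringHom_complex (E : Type u) [Field E] [CharZero E] [Countable E] :
    Nonempty (E →+* ℂ) := by
  classical
  obtain ⟨s, hs⟩ := exists_isTranscendenceBasis ℚ E
  obtain ⟨t, ht⟩ := exists_isTranscendenceBasis ℚ ℂ
  have : Infinite t := by
    rw [Cardinal.infinite_iff,
        ← IsAlgClosed.cardinal_eq_cardinal_transcendence_basis_of_aleph0_lt' _ ht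
      Cardinal.mk_le_aleph0 (by rw [Cardinal.mk_complex]; exact Cardinal.aleph0_lt_continuum),
      Cardinal.mk_complex]
    exact Cardinal.aleph0_le_continuum
  obtain ⟨e, he⟩ := Countable.exists_injective_nat s
  let f : s → t := fun i => Infinite.natEmbedding t (e i)
  have hf : Function.Injective f := (Infinite.natEmbedding t).injective.comp he
  set A := Algebra.adjoin ℚ (Set.range ((↑) : s → E))
  have hind : AlgebraicIndependent ℚ (fun i : s => ((f i : t) : ℂ)) := ht.1.comp f hf
  let φ : A →ₐ[ℚ] ℂ := (MvPolynomial.aeval fun i : s => ((f i : t) : ℂ)).comp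
    hs.1.aevalEquiv.symm.toAlgHom
  have hφ : Function.Injective φ :=
    fun _ _ hab => hs.1.aevalEquiv.symm.injective
      (algebraicIndependent_iff_injective_aeval.1 hind hab)
  let : Algebra A ℂ := φ.toRingHom.toAlgebra
  have : Module.IsTorsionFree A ℂ :=
    Module.isTorsionFree_iff_algebraMap_injective.2 hφ
  have : Algebra.IsAlgebraic A E := hs.isAlgebraic
  exact ⟨(IsAlgClosed.lift (R := A) (S := E) (M := ℂ)).toRingHom⟩

end Fermat.Agent.Tors
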