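import Fermat.Agent.Tors.BaseModel
import Fermat.Agent.Tors.Complex
import Fermat.Agent.Tors.Extend
import Fermat.Agent.Tors.Field

/-!
# Torsion of the class group of a function field in characteristic zero

**`Pic⁰[m]` has `m ^ (2 g)` elements** for a function field over an algebraically closed field of
characteristic zero, by reduction to a countable level embedded in `ℂ`.
-/

noncomputable section

open Polynomial IntermediateField AlgebraicCurve

namespace Fermat.Agent.Tors

variable {K F : Type*} [Field K] [Field F] [Algebra K F] [IsAlgClosed K] [CharZero K]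

/-- A finite set of classes killed by `m` has at most `m ^ 2g` elements, and this is the exact
count if the torsion is finite: all is defined at a countable level, which embeds in `ℂ`. -/
theorem torsion_level [FF.IsFunctionField K F] {m : ℕ} [NeZero m] (A : Finset (Pic0 K F))
    (hA : ∀ x ∈ A, x ∈ Pic0.torsion K F m) :
    A.card ≤ m ^ (2 * genusFF K F) ∧
      (Finite (Pic0.torsion K F m) →
        Nat.card (Pic0.torsion K F m) = m ^ (2 * genusFF K F)) := by
  classical
  obtain ⟨M⟩ := exists_model (K := K) (F := F)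
  choose D hD using fun x : Pic0 K F => Pic0.mk_surjective x
  choose b hb using fun w : Place K F => M.exists_over w
  set T : Finset K := (M.P.coeffs.biUnion fun a : K[X] => a.coeffs) ∪
    (A.biUnion fun x => (D x : Divisor K F).support).biUnion fun w => (b w).toFinset with hTdef
  obtain ⟨E, hEalg, hEcnt, hET⟩ := exists_countable_isAlgClosed_ge (T : Set K) T.countable_toSet
  have := hEalg
  have := hEcnt
  have : CharZero E := charZero_of_injective_algebraMap (algebraMap ℚ E).injective
  set ε : E →+* K := algebraMap E K with hε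
  have hlift : M.P ∈ lifts (mapRingHom ε) := by
    refine (lifts_iff_coeff_lifts _).2 fun k => ?_
    obtain ⟨q, hq⟩ : M.P.coeff k ∈ lifts ε := by
      refine (lifts_iff_coeff_lifts _).2 fun l => ?_
      by_cases h0 : (M.P.coeff k).coeff l = 0
      · exact ⟨0, by rw [h0, map_zero]⟩
      · have hk : M.P.coeff k ≠ 0 := fun h => h0 (by simp [h])
        exact ⟨⟨_, hET (Finset.mem_union_left _
          (Finset.mem_biUnion.2 ⟨_, coeff_mem_coeffs hk, coeff_mem_coeffs h0⟩))⟩, rfl⟩
    exact ⟨q, hq⟩
  obtain ⟨P₀, hP, -, hmon⟩ := lifts_and_degree_eq_and_monic hlift M.monic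
  have hirr₀ : Irreducible P₀ :=
    hmon.irreducible_of_irreducible_map (mapRingHom ε) _ (by rw [hP]; exact M.irreducible_P)
  obtain ⟨F₀, instF₀, instA₀, M₀, hM₀⟩ := exists_model_of_irreducible P₀ hmon hirr₀
  have h : Model.IsImage ε M₀ M := by rw [Model.IsImage, hM₀, hP]
  obtain ⟨j⟩ := nonempty_ringHom_complex E
  obtain ⟨Fc, instFc, instAc, Mc, hMc⟩ := exists_model_of_irreducible (P₀.map (mapRingHom j))
    (hmon.map _) (irreducible_map_of_isAlgClosed j hmon hirr₀)
  have : FF.IsFunctionField E F₀ := M₀.isFunctionField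
  have : FF.IsFunctionField ℂ Fc := Mc.isFunctionField
  -- comparison with `ℂ`
  let : Algebra E ℂ := j.toAlgebra
  have hc : Model.IsImage (algebraMap E ℂ) M₀ Mc := by rw [Model.IsImage, hM₀]; exact hMc
  have hcard₀ : Nat.card (Pic0.torsion E F₀ m) = m ^ (2 * genusFF K F) := by
    rw [hc.natCard_torsion_eq m finite_torsion, natCard_torsion_complex, h.genus_eq, hc.genus_eq]
  have : Finite (Pic0.torsion E F₀ m) :=
    Nat.finite_of_card_ne_zero (by rw [hcard₀]; exact pow_ne_zero _ (NeZero.ne m))
  refine ⟨?_, fun hfin => ?_⟩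
  · have hx : ∀ x : A, ∃ y : Pic0.torsion E F₀ m, h.picUp y.1 = x.1 := by
      intro x
      obtain ⟨y, hy⟩ := h.exists_picUp_eq (D x) fun w hw => by
        cases hbw : b w with
        | none => exact ⟨none, by simpa [hbw] using hb w⟩
        | some c =>
          have hcE : c ∈ E := hET (Finset.mem_union_right _ (Finset.mem_biUnion.2
            ⟨w, Finset.mem_biUnion.2 ⟨x, x.2, hw⟩, by simp [hbw]⟩))
          exact ⟨some ⟨c, hcE⟩, by simpa [hbw, hε] using hb w⟩
      rw [hD] at hy
      refine ⟨⟨y, Pic0.mem_torsion.2 (h.picUp_injective ?_)⟩, hy⟩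
      rw [map_zsmul, hy, Pic0.mem_torsion.1 (hA _ x.2), map_zero]
    choose y hy using hx
    rw [← hcard₀, ← Nat.card_eq_finsetCard]
    exact Nat.card_le_card_of_injective y fun a b hab =>
      Subtype.ext (by rw [← hy a, ← hy b, hab])
  · rw [← h.natCard_torsion_eq m hfin, hcard₀]

variable (K F)

/-- `Pic⁰[m]` has `m ^ 2g` elements. -/
theorem natCard_torsion [FF.IsFunctionField K F] {m : ℕ} (hm : 0 < m) :
    Nat.card (Pic0.torsion K F m) = m ^ (2 * genusFF K F) := by
  classical
  have : NeZero m := ⟨hm.ne'⟩
  exact (torsion_level (K := K) (F := F) (m := m) ∅ (by simp)).2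
    (finite_of_forall_card_le fun A hA => (torsion_level A fun _ hx => hA hx).1).to_subtype

end Fermat.Agent.Tors
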