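import Mathlib.FieldTheory.RatFunc.AsPolynomial
import Mathlib.RingTheory.Jacobson.Ring
import Fermat.Agent.Tors.Map

/-!
# Models with a prescribed equation

An irreducible monic polynomial in two variables defines a function field with a plane model, and
stays irreducible over a larger algebraically closed field of constants when the ground field is
algebraically closed.
-/

noncomputable section

open Polynomial IntermediateField AlgebraicCurve

namespace Fermat.Agent.Tors

universe u

theorem Model.irreducible_P {K F : Type*} [Field K] [Field F] [Algebra K F] (M : Model K F) :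
    Irreducible M.P := by
  refine M.monic.irreducible_iff_natDegree.2 ⟨fun h => ?_, fun G H hG hH hGH => ?_⟩
  · simpa [h] using M.ev_P
  · have h0 : M.ev G * M.ev H = 0 := by rw [← map_mul, hGH, ev_P]
    have hdeg : G.natDegree + H.natDegree = M.n := by
      rw [Model.n, ← hGH, hG.natDegree_mul hH]
    have key : ∀ Q : K[X][X], Q.Monic → M.ev Q = 0 → M.n ≤ Q.natDegree := by
      intro Q hQ hQ0
      by_contra hlt
      refine hQ.ne_zero (M.indep Q ?_ hQ0)
      rw [degree_eq_natDegree hQ.ne_zero, degree_eq_natDegree M.monic.ne_zero]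
      exact_mod_cast lt_of_not_ge hlt
    rcases mul_eq_zero.1 h0 with hz | hz
    · exact Or.inr (by have := key G hG hz; omega)
    · exact Or.inl (by have := key H hH hz; omega)

/-- An irreducible monic equation stays irreducible over a larger algebraically closed field. -/
theorem irreducible_map_of_isAlgClosed {K L : Type*} [Field K] [Field L] [IsAlgClosed K]
    (σ : K →+* L) {P : K[X][X]} (hP : P.Monic) (hirr : Irreducible P) :
    Irreducible (P.map (mapRingHom σ)) := by
  classical
  let : Algebra K L := σ.toAlgebra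
  have hPn : 0 < P.natDegree := (hP.natDegree_pos).2 hirr.ne_one
  refine (hP.map _).irreducible_iff_natDegree.2 ⟨fun h => ?_, fun G H hG hH hGH => ?_⟩
  · have := congrArg natDegree h
    rw [hP.natDegree_map, natDegree_one] at this
    omega
  set T : Finset L := (G.coeffs ∪ H.coeffs).biUnion (fun a : L[X] => a.coeffs) with hT
  set R := Algebra.adjoin K (T : Set L) with hR
  have : Algebra.FiniteType K R :=
    R.fg_iff_finiteType.1 (Subalgebra.fg_adjoin_finset T)
  obtain ⟨I, hI⟩ := Ideal.exists_maximal R
  let : Field (R ⧸ I) := Ideal.Quotient.field I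
  have : Algebra.FiniteType K (R ⧸ I) :=
    Algebra.FiniteType.of_surjective (Ideal.Quotient.mkₐ K I) (Ideal.Quotient.mkₐ_surjective K I)
  have : Module.Finite K (R ⧸ I) := finite_of_finite_type_of_isJacobsonRing K (R ⧸ I)
  let e : K ≃ₐ[K] R ⧸ I := AlgEquiv.ofBijective (Algebra.ofId K _)
    IsAlgClosed.algebraMap_bijective_of_isIntegral
  let π : R →ₐ[K] K := e.symm.toAlgHom.comp (Ideal.Quotient.mkₐ K I)
  let incl : R[X] →+* L[X] := mapRingHom (R.val : R →+* L)
  have hlift : ∀ Q : L[X][X], Q.Monic → (∀ a ∈ Q.coeffs, ∀ b ∈ a.coeffs, b ∈ T) →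
      ∃ Q' : R[X][X], Q'.Monic ∧ Q'.map incl = Q := by
    intro Q hQ hmem
    have hl : Q ∈ lifts incl := by
      refine (lifts_iff_coeff_lifts Q).2 fun k => ?_
      obtain ⟨q, hq⟩ : Q.coeff k ∈ lifts (R.val : R →+* L) := by
        refine (lifts_iff_coeff_lifts _).2 fun l => ?_
        by_cases h0 : (Q.coeff k).coeff l = 0
        · exact ⟨0, by simp [h0]⟩
        · have hk : Q.coeff k ≠ 0 := fun h => h0 (by simp [h])
          exact ⟨⟨_, Algebra.subset_adjoin
            (hmem _ (coeff_mem_coeffs hk) _ (coeff_mem_coeffs h0))⟩, rfl⟩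
      exact ⟨q, hq⟩
    obtain ⟨Q', h1, -, h3⟩ := lifts_and_degree_eq_and_monic hl hQ
    exact ⟨Q', h3, h1⟩
  obtain ⟨G', hG', hG'm⟩ := hlift G hG fun a ha b hb =>
    Finset.mem_biUnion.2 ⟨a, Finset.mem_union_left _ ha, hb⟩
  obtain ⟨H', hH', hH'm⟩ := hlift H hH fun a ha b hb =>
    Finset.mem_biUnion.2 ⟨a, Finset.mem_union_right _ ha, hb⟩
  have hincl : Function.Injective incl := map_injective _ Subtype.val_injective
  have hprod : G' * H' = P.map (mapRingHom (algebraMap K R)) := by
    refine map_injective _ hincl ?_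
    rw [Polynomial.map_mul, hG'm, hH'm, hGH, Polynomial.map_map, mapRingHom_comp]
    rfl
  have hspec := congrArg (Polynomial.map (mapRingHom (π : R →+* K))) hprod
  rw [Polynomial.map_mul, Polynomial.map_map, mapRingHom_comp,
    show (π : R →+* K).comp (algebraMap K R) = RingHom.id K from π.comp_algebraMap,
    show mapRingHom (RingHom.id K) = RingHom.id K[X] from RingHom.ext fun a => Polynomial.map_id,
    Polynomial.map_id] at hspec
  have hd := (hP.irreducible_iff_natDegree.1 hirr).2 _ _ (hG'.map _) (hH'.map _) hspec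
  rw [hG'.natDegree_map, hH'.natDegree_map] at hd
  rw [← hG'm, ← hH'm, hG'.natDegree_map, hH'.natDegree_map]
  exact hd

/-- An irreducible monic equation has a model. -/
theorem exists_model_of_irreducible {K : Type u} [Field K] (P : K[X][X]) (hP : P.Monic)
    (hirr : Irreducible P) :
    ∃ (F : Type u) (_ : Field F) (_ : Algebra K F) (M : Model K F), M.P = P := by
  classical
  set φ := algebraMap K[X] (RatFunc K) with hφ
  have hq : Irreducible (P.map φ) :=
    (hP.irreducible_iff_irreducible_map_fraction_map (K := RatFunc K)).1 hirr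
  have : Fact (Irreducible (P.map φ)) := ⟨hq⟩
  let F := AdjoinRoot (P.map φ)
  let of : RatFunc K →+* F := AdjoinRoot.of (P.map φ)
  have hx : ∀ a : K[X], aeval (of RatFunc.X) a = of (φ a) := by
    intro a
    have : ((aeval (R := K) (of RatFunc.X)).toRingHom) = of.comp φ := by
      refine Polynomial.ringHom_ext (fun c => ?_) ?_
      · simp only [AlgHom.toRingHom_eq_coe, RingHom.coe_coe, aeval_C, RingHom.comp_apply, hφ,
          RatFunc.algebraMap_C]
        rfl
      · simp [hφ]
    exact RingHom.congr_fun this a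
  have hcomp : (aeval (R := K) (of RatFunc.X)).toRingHom = of.comp φ := RingHom.ext hx
  have hev : ∀ A : K[X][X], A.eval₂ (aeval (R := K) (of RatFunc.X)).toRingHom
      (AdjoinRoot.root (P.map φ)) = AdjoinRoot.mk (P.map φ) (A.map φ) := by
    intro A
    rw [hcomp, ← Polynomial.eval₂_map, ← AdjoinRoot.aeval_eq]
    rfl
  refine ⟨F, inferInstance, inferInstance, ⟨of RatFunc.X, AdjoinRoot.root _, P, hP, ?_, ?_, ?_, ?_⟩,
    rfl⟩
  · rw [transcendental_iff]
    intro a ha
    rw [hx] at ha
    exact (map_eq_zero_iff φ (IsFractionRing.injective _ _)).1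
      ((map_eq_zero_iff of of.injective).1 ha)
  · rw [hev, AdjoinRoot.mk_self]
  · intro A hA h
    rw [hev, AdjoinRoot.mk_eq_zero] at h
    have hinj : Function.Injective φ := IsFractionRing.injective _ _
    refine (Polynomial.map_eq_zero_iff hinj).1 (eq_zero_of_dvd_of_degree_lt h ?_)
    rwa [degree_map_eq_of_injective hinj, degree_map_eq_of_injective hinj]
  · intro f
    obtain ⟨Q, rfl⟩ := AdjoinRoot.mk_surjective f
    obtain ⟨b, hbm, hb⟩ := IsLocalization.integerNormalization_spec (nonZeroDivisors K[X]) Q
    refine ⟨IsLocalization.integerNormalization (nonZeroDivisors K[X]) Q, b,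
      nonZeroDivisors.ne_zero hbm, ?_⟩
    rw [hev, hb, hx]
    rw [Algebra.smul_def, map_mul, mul_comm]
    rfl

end Fermat.Agent.Tors
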