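import Fermat.Agent.Tors.Dbar

/-!
# The Cauchy transform of continuous functions

Uniform bound, uniform continuity and decay; stability of holomorphy.
-/

noncomputable section

open Complex MeasureTheory Filter Topology Set
open scoped Real ContDiff

namespace Fermat.Agent.Tors

/-- The kernel truncated to the disc of radius `r`. -/
def kerDisc (r : ℝ) (u : ℂ) : ℝ := (Metric.closedBall (0 : ℂ) r).indicator (fun u => ‖u⁻¹‖) u

theorem integrable_kerDisc (r : ℝ) : Integrable (kerDisc r) :=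
  (integrable_indicator_iff measurableSet_closedBall).2
    (locallyIntegrable_inv.integrableOn_isCompact (isCompact_closedBall _ _)).norm

theorem kerDisc_nonneg (r : ℝ) (u : ℂ) : 0 ≤ kerDisc r u :=
  indicator_nonneg (fun _ _ => norm_nonneg _) u

theorem integral_kerDisc {r : ℝ} (hr : 0 < r) : ∫ u, kerDisc r u = r * ∫ u, kerDisc 1 u := by
  have h := Measure.integral_comp_smul (volume : Measure ℂ) (kerDisc r) r
  have hs : ∀ u : ℂ, kerDisc r (r • u) = r⁻¹ * kerDisc 1 u := by
    intro u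
    have hn : ‖r • u‖ = r * ‖u‖ := by rw [norm_smul, Real.norm_eq_abs, abs_of_pos hr]
    by_cases hu : ‖u‖ ≤ 1
    · rw [kerDisc, indicator_of_mem, kerDisc, indicator_of_mem, norm_inv, norm_inv, hn, mul_inv]
      · simpa using hu
      · rw [mem_closedBall_zero_iff, hn]; exact mul_le_of_le_one_right hr.le hu
    · rw [kerDisc, indicator_of_notMem, kerDisc, indicator_of_notMem, mul_zero]
      · simpa using hu
      · rw [mem_closedBall_zero_iff, hn, not_le]
        exact lt_mul_of_one_lt_right hr (not_le.1 hu)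
  simp only [hs, Complex.finrank_real_complex, smul_eq_mul, integral_const_mul] at h
  rw [abs_of_pos (by positivity)] at h
  field_simp at h
  linarith

theorem norm_inv_le_kerDisc (u : ℂ) : ‖u⁻¹‖ ≤ kerDisc 1 u + 1 := by
  by_cases hu : ‖u‖ ≤ 1
  · rw [kerDisc, indicator_of_mem (by simpa using hu)]; linarith
  · rw [kerDisc, indicator_of_notMem (by simpa using hu), zero_add, norm_inv]
    exact inv_le_one_of_one_le₀ (not_le.1 hu).le

theorem integrableOn_sub_inv (z : ℂ) (R : ℝ) :
    IntegrableOn (fun w => ‖(z - w)⁻¹‖) (Metric.closedBall (0 : ℂ) R) := by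
  refine Integrable.mono'
    (g := fun w => kerDisc 1 (z - w) + 1) ?_ (Measurable.aestronglyMeasurable (by fun_prop)) ?_
  · exact (((integrable_kerDisc 1).comp_sub_left z).integrableOn).add
      (integrableOn_const (measure_closedBall_lt_top).ne)
  · exact Eventually.of_forall fun w => by
      rw [norm_norm]; exact norm_inv_le_kerDisc _

theorem setIntegral_sub_inv_le (z : ℂ) (R : ℝ) :
    ∫ w in Metric.closedBall (0 : ℂ) R, ‖(z - w)⁻¹‖
      ≤ (∫ u, kerDisc 1 u) + volume.real (Metric.closedBall (0 : ℂ) R) := by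
  calc ∫ w in Metric.closedBall (0 : ℂ) R, ‖(z - w)⁻¹‖
      ≤ ∫ w in Metric.closedBall (0 : ℂ) R, (kerDisc 1 (z - w) + 1) :=
        setIntegral_mono_on (integrableOn_sub_inv z R)
          (((integrable_kerDisc 1).comp_sub_left z).integrableOn.add
            (integrableOn_const (measure_closedBall_lt_top).ne))
          measurableSet_closedBall fun w _ => norm_inv_le_kerDisc _
    _ ≤ _ := by
        rw [integral_add ((integrable_kerDisc 1).comp_sub_left z).integrableOn
          (integrableOn_const (measure_closedBall_lt_top).ne), setIntegral_const, smul_eq_mul,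
          mul_one]
        refine add_le_add ?_ le_rfl
        rw [← integral_sub_left_eq_self (kerDisc 1) volume z]
        exact setIntegral_le_integral ((integrable_kerDisc 1).comp_sub_left z)
          (Eventually.of_forall fun w => kerDisc_nonneg _ _)

theorem cauchyT_eq_setIntegral {v : ℂ → ℂ} {R : ℝ} (hR : ∀ w, R < ‖w‖ → v w = 0) (z : ℂ) :
    cauchyT v z = (π : ℂ)⁻¹ * ∫ w in Metric.closedBall (0 : ℂ) R, v w / (z - w) := by
  rw [cauchyT, setIntegral_eq_integral_of_forall_compl_eq_zero]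
  intro w hw
  rw [mem_closedBall_zero_iff, not_le] at hw
  simp [hR w hw]

theorem hasCompactSupport_of_radius {v : ℂ → ℂ} {R : ℝ} (hR : ∀ w, R < ‖w‖ → v w = 0) :
    HasCompactSupport v :=
  HasCompactSupport.intro (isCompact_closedBall 0 R) fun w hw => hR w (by simpa using hw)

/-- The transform is bounded by the supremum norm times the integral of the kernel. -/
theorem norm_cauchyT_le {v : ℂ → ℂ} {R B : ℝ} (hR : ∀ w, R < ‖w‖ → v w = 0) (hB : ∀ w, ‖v w‖ ≤ B)
    (z : ℂ) : ‖cauchyT v z‖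
      ≤ π⁻¹ * B * ∫ w in Metric.closedBall (0 : ℂ) R, ‖(z - w)⁻¹‖ := by
  rw [cauchyT_eq_setIntegral hR, norm_mul, norm_inv, Complex.norm_real, Real.norm_eq_abs,
    abs_of_pos Real.pi_pos, mul_assoc, ← integral_const_mul B]
  refine mul_le_mul_of_nonneg_left ?_ (by positivity)
  refine norm_integral_le_of_norm_le ((integrableOn_sub_inv z R).const_mul B)
    (Eventually.of_forall fun w => ?_)
  rw [div_eq_mul_inv, norm_mul]
  exact mul_le_mul_of_nonneg_right (hB w) (norm_nonneg _)

theorem exists_cauchyT_bound (R : ℝ) : ∃ C : ℝ, 0 ≤ C ∧ ∀ (v : ℂ → ℂ) (B : ℝ),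
    (∀ w, R < ‖w‖ → v w = 0) → (∀ w, ‖v w‖ ≤ B) → ∀ z, ‖cauchyT v z‖ ≤ C * B := by
  refine ⟨π⁻¹ * ((∫ u, kerDisc 1 u) + volume.real (Metric.closedBall (0 : ℂ) R)),
    mul_nonneg (by positivity) (add_nonneg (integral_nonneg (kerDisc_nonneg 1)) measureReal_nonneg),
    fun v B hR hB z => (norm_cauchyT_le hR hB z).trans ?_⟩
  have hB0 : 0 ≤ B := (norm_nonneg _).trans (hB 0)
  calc π⁻¹ * B * ∫ w in Metric.closedBall (0 : ℂ) R, ‖(z - w)⁻¹‖
      ≤ π⁻¹ * B * ((∫ u, kerDisc 1 u) + volume.real (Metric.closedBall (0 : ℂ) R)) :=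
        mul_le_mul_of_nonneg_left (setIntegral_sub_inv_le z R) (by positivity)
    _ = _ := by ring

/-- Comparison of the Cauchy kernel at nearby points. -/
theorem norm_inv_sub_inv_le {a b : ℂ} {η δ : ℝ} (hη : 0 < η) (hδ : δ ≤ η) (hab : ‖a - b‖ ≤ δ) :
    ‖a⁻¹ - b⁻¹‖ ≤ kerDisc (2 * η) a + kerDisc (2 * η) b + δ / η ^ 2 := by
  have hδ0 : 0 ≤ δ := (norm_nonneg _).trans hab
  have hmem : ∀ x : ℂ, ‖x‖ ≤ 2 * η → ‖x⁻¹‖ = kerDisc (2 * η) x := fun x hx => by
    rw [kerDisc, indicator_of_mem (by simpa using hx)]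
  have h0 : 0 ≤ δ / η ^ 2 := by positivity
  by_cases h : ‖a‖ ≤ η ∨ ‖b‖ ≤ η
  · have h2 : ‖a‖ ≤ 2 * η ∧ ‖b‖ ≤ 2 * η := by
      have h3 := norm_sub_norm_le a b
      have h4 := norm_sub_norm_le b a
      rw [norm_sub_rev] at h4
      rcases h with h | h <;> constructor <;> linarith
    refine (norm_sub_le _ _).trans ?_
    rw [hmem a h2.1, hmem b h2.2]
    linarith
  · rw [not_or, not_le, not_le] at h
    have ha : a ≠ 0 := norm_pos_iff.1 (hη.trans h.1)
    have hb : b ≠ 0 := norm_pos_iff.1 (hη.trans h.2)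
    rw [inv_sub_inv ha hb, norm_div, norm_mul, norm_sub_rev]
    have : ‖a - b‖ / (‖a‖ * ‖b‖) ≤ δ / η ^ 2 :=
      div_le_div₀ hδ0 hab (by positivity) (by
        rw [sq]; exact mul_le_mul h.1.le h.2.le hη.le (norm_nonneg _))
    linarith [kerDisc_nonneg (2 * η) a, kerDisc_nonneg (2 * η) b]

/-- The transforms of uniformly bounded functions are uniformly equicontinuous. -/
theorem exists_cauchyT_modulus (R : ℝ) {ε : ℝ} (hε : 0 < ε) : ∃ δ > 0, ∀ (v : ℂ → ℂ) (B : ℝ),
    Continuous v → (∀ w, R < ‖w‖ → v w = 0) → (∀ w, ‖v w‖ ≤ B) →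
    ∀ z z', ‖z - z'‖ < δ → ‖cauchyT v z - cauchyT v z'‖ ≤ ε * B := by
  set c := ∫ u, kerDisc 1 u
  have hc : 0 ≤ c := integral_nonneg (kerDisc_nonneg 1)
  set A := volume.real (Metric.closedBall (0 : ℂ) R)
  have hA : 0 ≤ A := measureReal_nonneg
  obtain ⟨η, hη, hηε⟩ : ∃ η > 0, π⁻¹ * (4 * η * c) ≤ ε / 2 := by
    refine ⟨ε / 2 / (π⁻¹ * 4 * (c + 1)), by positivity, ?_⟩
    rw [show π⁻¹ * (4 * (ε / 2 / (π⁻¹ * 4 * (c + 1))) * c)
      = ε / 2 * (c / (c + 1)) by field_simp]
    exact mul_le_of_le_one_right (by linarith) (by rw [div_le_one (by linarith)]; linarith)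
  refine ⟨min η (η ^ 2 * (ε / 2) / (π⁻¹ * (A + 1))), lt_min hη (by positivity),
    fun v B hv hR hB z z' hzz => ?_⟩
  have hB0 : 0 ≤ B := (norm_nonneg _).trans (hB 0)
  set δ := ‖z - z'‖
  have hint : ∀ x, IntegrableOn (fun w => v w / (x - w)) (Metric.closedBall (0 : ℂ) R) := fun x =>
    (integrable_div_sub' hv (hasCompactSupport_of_radius hR) x).integrableOn
  have hK : ∀ x, IntegrableOn (fun w => kerDisc (2 * η) (x - w)) (Metric.closedBall (0 : ℂ) R) :=
    fun x => ((integrable_kerDisc _).comp_sub_left x).integrableOn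
  have hKle : ∀ x, ∫ w in Metric.closedBall (0 : ℂ) R, kerDisc (2 * η) (x - w) ≤ 2 * η * c := by
    intro x
    rw [← integral_kerDisc (by linarith : 0 < 2 * η),
      ← integral_sub_left_eq_self (kerDisc (2 * η)) volume x]
    exact setIntegral_le_integral ((integrable_kerDisc _).comp_sub_left x)
      (Eventually.of_forall fun w => kerDisc_nonneg _ _)
  rw [cauchyT_eq_setIntegral hR, cauchyT_eq_setIntegral hR, ← mul_sub, norm_mul, norm_inv,
    Complex.norm_real, Real.norm_eq_abs, abs_of_pos Real.pi_pos, ← integral_sub (hint z) (hint z')]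
  have hconst : IntegrableOn (fun _ : ℂ => δ / η ^ 2) (Metric.closedBall (0 : ℂ) R) :=
    integrableOn_const (measure_closedBall_lt_top).ne
  refine (mul_le_mul_of_nonneg_left (norm_integral_le_of_norm_le
    ((((hK z).add (hK z')).add hconst).const_mul B) (Eventually.of_forall fun w => ?_))
    (by positivity)).trans ?_
  · rw [div_eq_mul_inv, div_eq_mul_inv, ← mul_sub, norm_mul]
    exact mul_le_mul (hB w) (norm_inv_sub_inv_le hη (hzz.le.trans (min_le_left _ _))
      (by rw [sub_sub_sub_cancel_right])) (norm_nonneg _) hB0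
  · simp only [Pi.add_apply]
    have hKK : IntegrableOn (fun a => kerDisc (2 * η) (z - a) + kerDisc (2 * η) (z' - a))
        (Metric.closedBall (0 : ℂ) R) := (hK z).add (hK z')
    rw [integral_const_mul, integral_add hKK hconst,
      integral_add (hK z) (hK z'), setIntegral_const, smul_eq_mul]
    have h1 : π⁻¹ * (A * (δ / η ^ 2)) ≤ ε / 2 := by
      have h2 : δ ≤ η ^ 2 * (ε / 2) / (π⁻¹ * (A + 1)) := hzz.le.trans (min_le_right _ _)
      rw [le_div_iff₀ (by positivity)] at h2
      have h3 : π⁻¹ * (A * (δ / η ^ 2)) ≤ π⁻¹ * ((A + 1) * (δ / η ^ 2)) :=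
        mul_le_mul_of_nonneg_left (mul_le_mul_of_nonneg_right (by linarith) (by positivity))
          (by positivity)
      refine h3.trans ?_
      rw [show π⁻¹ * ((A + 1) * (δ / η ^ 2)) = δ * (π⁻¹ * (A + 1)) / η ^ 2 by ring,
        div_le_iff₀ (by positivity)]
      linarith
    calc π⁻¹ * (B * ((∫ w in Metric.closedBall (0 : ℂ) R, kerDisc (2 * η) (z - w))
          + (∫ w in Metric.closedBall (0 : ℂ) R, kerDisc (2 * η) (z' - w)) + A * (δ / η ^ 2)))
        ≤ π⁻¹ * (B * (2 * η * c + 2 * η * c + A * (δ / η ^ 2))) := by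
          refine mul_le_mul_of_nonneg_left (mul_le_mul_of_nonneg_left ?_ hB0) (by positivity)
          linarith [hKle z, hKle z']
      _ = B * (π⁻¹ * (4 * η * c) + π⁻¹ * (A * (δ / η ^ 2))) := by ring
      _ ≤ ε * B := by
          rw [mul_comm ε]
          exact mul_le_mul_of_nonneg_left (by linarith) hB0

theorem continuous_cauchyT {v : ℂ → ℂ} (hv : Continuous v) {R : ℝ}
    (hR : ∀ w, R < ‖w‖ → v w = 0) : Continuous (cauchyT v) := by
  obtain ⟨B, hB⟩ := hv.bounded_above_of_compact_support (hasCompactSupport_of_radius hR)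
  rw [Metric.continuous_iff]
  intro z ε hε
  have hB0 : 0 ≤ B := (norm_nonneg _).trans (hB 0)
  obtain ⟨δ, hδ, h⟩ := exists_cauchyT_modulus R (ε := ε / (B + 1)) (by positivity)
  refine ⟨δ, hδ, fun y hy => ?_⟩
  rw [dist_eq_norm] at hy ⊢
  refine lt_of_le_of_lt (h v B hv hR hB y z hy) ?_
  rw [div_mul_eq_mul_div, div_lt_iff₀ (by linarith)]
  linarith

theorem cauchyT_add {v w : ℂ → ℂ} {R : ℝ} (hv : Continuous v) (hw : Continuous w)
    (hRv : ∀ u, R < ‖u‖ → v u = 0) (hRw : ∀ u, R < ‖u‖ → w u = 0) (z : ℂ) :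
    cauchyT (fun u => v u + w u) z = cauchyT v z + cauchyT w z := by
  simp only [cauchyT, add_div]
  rw [integral_add (integrable_div_sub' hv (hasCompactSupport_of_radius hRv) z)
    (integrable_div_sub' hw (hasCompactSupport_of_radius hRw) z), mul_add]

theorem cauchyT_sub {v w : ℂ → ℂ} {R : ℝ} (hv : Continuous v) (hw : Continuous w)
    (hRv : ∀ u, R < ‖u‖ → v u = 0) (hRw : ∀ u, R < ‖u‖ → w u = 0) (z : ℂ) :
    cauchyT (fun u => v u - w u) z = cauchyT v z - cauchyT w z := by
  simp only [cauchyT, sub_div]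
  rw [integral_sub (integrable_div_sub' hv (hasCompactSupport_of_radius hRv) z)
    (integrable_div_sub' hw (hasCompactSupport_of_radius hRw) z), mul_sub]

theorem cauchyT_const_mul (c : ℂ) (v : ℂ → ℂ) (z : ℂ) :
    cauchyT (fun u => c * v u) z = c * cauchyT v z := by
  simp only [cauchyT, mul_div_assoc, integral_const_mul]
  ring

theorem contDiff_cauchyT {v : ℂ → ℂ} (hv : ContDiff ℝ 1 v) (hs : HasCompactSupport v) :
    ContDiff ℝ 1 (cauchyT v) := by
  rw [funext (cauchyT_eq_convolution v)]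
  exact contDiff_const.mul (hs.contDiff_convolution_right _ locallyIntegrable_inv hv)

theorem exists_smooth_approx {v : ℂ → ℂ} (hv : Continuous v) {ε : ℝ} (hε : 0 < ε) :
    ∃ g : ℂ → ℂ, ContDiff ℝ 1 g ∧ (∀ z, ‖g z - v z‖ ≤ ε) ∧
      Function.support g ⊆ Function.support v := by
  obtain ⟨g, h1, h2, h3⟩ := hv.exists_contDiff_approx (1 : ℕ∞) (ε := fun _ => ε) continuous_const
    fun _ => hε
  exact ⟨g, by simpa using h1, fun z => by simpa [dist_eq_norm] using (h2 z).le, h3⟩

/-- The transform is holomorphic off the support. -/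
theorem differentiableOn_cauchyT_off_support {v : ℂ → ℂ} (hv : Continuous v) {R : ℝ}
    (hR : ∀ w, R < ‖w‖ → v w = 0) {U : Set ℂ} (hU : IsOpen U) (h0 : ∀ w ∈ U, v w = 0) :
    DifferentiableOn ℂ (cauchyT v) U := by
  obtain ⟨C, hC0, hC⟩ := exists_cauchyT_bound R
  choose g hg1 hg2 hg3 using fun k : ℕ => exists_smooth_approx hv
    (Nat.one_div_pos_of_nat (n := k) : (0 : ℝ) < 1 / ((k : ℝ) + 1))
  have hgz : ∀ k w, v w = 0 → g k w = 0 := fun k w h => by
    by_contra hne; exact hg3 k hne h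
  have hgR : ∀ k w, R < ‖w‖ → g k w = 0 := fun k w h => hgz k w (hR w h)
  have hlim : TendstoUniformly (fun k => cauchyT (g k)) (cauchyT v) atTop := by
    rw [Metric.tendstoUniformly_iff]
    intro ε hε
    filter_upwards [(tendsto_one_div_add_atTop_nhds_zero_nat (𝕜 := ℝ)).eventually
      (eventually_lt_nhds (show (0 : ℝ) < ε / (C + 1) by positivity))] with k hk z
    rw [dist_eq_norm, ← cauchyT_sub hv (hg1 k).continuous hR (hgR k)]
    refine lt_of_le_of_lt (hC _ (1 / ((k : ℝ) + 1)) (fun w hw => by simp [hR w hw, hgR k w hw])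
      (fun w => by rw [norm_sub_rev]; exact hg2 k w) z) ?_
    rw [lt_div_iff₀ (by linarith)] at hk
    have : (0 : ℝ) ≤ 1 / ((k : ℝ) + 1) := by positivity
    linarith
  refine (hlim.tendstoUniformlyOn.tendstoLocallyUniformlyOn).differentiableOn
    (Eventually.of_forall fun k z hz => ?_) hU
  refine (differentiableAt_of_dbar_eq_zero
    ((differentiable_cauchyT (hg1 k) (hasCompactSupport_of_radius (hgR k))) z)
        ?_).differentiableWithinAt
  rw [dbar_cauchyT (hg1 k) (hasCompactSupport_of_radius (hgR k)), hgz k z (h0 z hz)]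

/-- For compactly supported `E`, the combination `∑ E H` is the transform of its formal `∂̄`. -/
theorem exists_cauchyT_eq_combination {ι : Type*} [Fintype ι] {E : ι → ℂ → ℂ}
    (hE : ∀ j, ContDiff ℝ 1 (E j)) {K : Set ℂ} (hK : IsCompact K)
    (hE0 : ∀ j z, z ∉ K → E j z = 0) {P H v : ι → ℂ → ℂ}
    (hP : ∀ j, Differentiable ℂ (P j)) (hv : ∀ j, Continuous (v j)) {R : ℝ}
    (hvR : ∀ j w, R < ‖w‖ → v j w = 0) (hH : ∀ j z, H j z = P j z + cauchyT (v j) z) :
    ∃ (W : ℂ → ℂ) (R' : ℝ), Continuous W ∧ (∀ w, R' < ‖w‖ → W w = 0) ∧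
      (∀ z, W z = ∑ j, (dbar (E j) z * H j z + E j z * v j z)) ∧
      ∀ z, cauchyT W z = ∑ j, E j z * H j z := by
  obtain ⟨R', hR'⟩ := hK.isBounded.subset_closedBall 0
  have hdE0 : ∀ j z, z ∉ K → dbar (E j) z = 0 := fun j z hz => by
    rw [dbar_congr (g := fun _ => (0 : ℂ)) (eventually_of_mem
      (hK.isClosed.isOpen_compl.mem_nhds hz) fun w hw => hE0 j w hw), dbar_const]
  have hHc : ∀ j, Continuous (H j) := fun j => by
    rw [funext (hH j)]
    exact (hP j).continuous.add (continuous_cauchyT (hv j) (hvR j))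
  set W : ℂ → ℂ := fun z => ∑ j, (dbar (E j) z * H j z + E j z * v j z)
  have hW : Continuous W := continuous_finsetSum _ fun j _ =>
    ((continuous_dbar (hE j)).mul (hHc j)).add ((hE j).continuous.mul (hv j))
  have hWR : ∀ w, R' < ‖w‖ → W w = 0 := fun w hw => by
    have : w ∉ K := fun h => by
      have := mem_closedBall_zero_iff.1 (hR' h); linarith
    simp [W, hdE0 _ w this, hE0 _ w this]
  -- approximation
  choose g hg1 hg2 hg3 using fun (k : ℕ) (j : ι) => exists_smooth_approx (hv j)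
      (Nat.one_div_pos_of_nat (n := k) : (0 : ℝ) < 1 / ((k : ℝ) + 1))
  have hgR : ∀ k j w, R < ‖w‖ → g k j w = 0 := fun k j w h => by
    by_contra hne; exact hg3 k j hne (hvR j w h)
  set Hk : ℕ → ι → ℂ → ℂ := fun k j z => P j z + cauchyT (g k j) z
  have hHk : ∀ k j, ContDiff ℝ 1 (Hk k j) := fun k j =>
    (((hP j).contDiff (n := 1)).restrict_scalars ℝ).add
      (contDiff_cauchyT (hg1 k j) (hasCompactSupport_of_radius (hgR k j)))
  set Gk : ℕ → ℂ → ℂ := fun k z => ∑ j, E j z * Hk k j z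
  have hGk : ∀ k, ContDiff ℝ 1 (Gk k) := fun k => ContDiff.sum fun j _ => (hE j).mul (hHk k j)
  have hGks : ∀ k, HasCompactSupport (Gk k) := fun k =>
    HasCompactSupport.intro hK fun z hz => by simp [Gk, hE0 _ z hz]
  set Wk : ℕ → ℂ → ℂ := fun k z => ∑ j, (dbar (E j) z * Hk k j z + E j z * g k j z)
  have hWk : ∀ k z, dbar (Gk k) z = Wk k z := by
    intro k z
    rw [dbar_sum _ _ fun j _ => (((hE j).differentiable one_ne_zero) z).fun_mul
      (((hHk k j).differentiable one_ne_zero) z)]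
    refine Finset.sum_congr rfl fun j _ => ?_
    rw [dbar_mul (((hE j).differentiable one_ne_zero) z) (((hHk k j).differentiable one_ne_zero) z),
      dbar_add (((hP j).differentiableAt).restrictScalars ℝ)
        ((differentiable_cauchyT (hg1 k j) (hasCompactSupport_of_radius (hgR k j))) z),
      dbar_eq_zero_of_differentiableAt (hP j).differentiableAt,
      dbar_cauchyT (hg1 k j) (hasCompactSupport_of_radius (hgR k j))]
    ring
  obtain ⟨C, hC0, hC⟩ := exists_cauchyT_bound R
  obtain ⟨C', hC'0, hC'⟩ := exists_cauchyT_bound R'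
  have hHdiff : ∀ k j z, ‖Hk k j z - H j z‖ ≤ C * (1 / ((k : ℝ) + 1)) := fun k j z => by
    rw [hH, show Hk k j z = P j z + cauchyT (g k j) z from rfl, add_sub_add_left_eq_sub,
      ← cauchyT_sub (hg1 k j).continuous (hv j) (hgR k j) (hvR j)]
    exact hC _ _ (fun w hw => by simp [hgR k j w hw, hvR j w hw]) (hg2 k j) z
  choose BE hBE using fun j => (hE j).continuous.bounded_above_of_compact_support
    (HasCompactSupport.intro hK (hE0 j))
  choose BD hBD using fun j => (continuous_dbar (hE j)).bounded_above_of_compact_support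
    (HasCompactSupport.intro hK (hdE0 j))
  suffices hkey : ∀ z, cauchyT W z = ∑ j, E j z * H j z from
    ⟨W, R', hW, hWR, fun z => rfl, hkey⟩
  intro z
  have hlim0 : Tendsto (fun k : ℕ => (1 : ℝ) / ((k : ℝ) + 1)) atTop (𝓝 0) :=
    tendsto_one_div_add_atTop_nhds_zero_nat
  have h1 : Tendsto (fun k => Gk k z) atTop (𝓝 (∑ j, E j z * H j z)) := by
    refine tendsto_finsetSum _ fun j _ => Tendsto.const_mul _ ?_
    refine tendsto_iff_norm_sub_tendsto_zero.2 (squeeze_zero (fun k => norm_nonneg _)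
      (fun k => hHdiff k j z) ?_)
    simpa using hlim0.const_mul C
  have h2 : Tendsto (fun k => cauchyT (Wk k) z) atTop (𝓝 (cauchyT W z)) := by
    refine tendsto_iff_norm_sub_tendsto_zero.2 (squeeze_zero (fun k => norm_nonneg _)
      (g := fun k : ℕ => C' * ((∑ j, (BD j * C + BE j)) * (1 / ((k : ℝ) + 1)))) (fun k => ?_) ?_)
    · have hWkR : ∀ w, R' < ‖w‖ → Wk k w = 0 := fun w hw => by
        have : w ∉ K := fun h => by
          have := mem_closedBall_zero_iff.1 (hR' h); linarith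
        simp [Wk, hdE0 _ w this, hE0 _ w this]
      have hWkc : Continuous (Wk k) := continuous_finsetSum _ fun j _ =>
        ((continuous_dbar (hE j)).mul (hHk k j).continuous).add
          ((hE j).continuous.mul (hg1 k j).continuous)
      rw [← cauchyT_sub hWkc hW hWkR hWR]
      refine hC' _ _ (fun w hw => by simp [hWkR w hw, hWR w hw]) (fun w => ?_) z
      simp only [Wk, W, ← Finset.sum_sub_distrib, Finset.sum_mul]
      refine (norm_sum_le _ _).trans (Finset.sum_le_sum fun j _ => ?_)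
      calc _ = ‖dbar (E j) w * (Hk k j w - H j w) + E j w * (g k j w - v j w)‖ := by
            congr 1; ring
        _ ≤ ‖dbar (E j) w‖ * ‖Hk k j w - H j w‖ + ‖E j w‖ * ‖g k j w - v j w‖ :=
            (norm_add_le _ _).trans (add_le_add (norm_mul_le _ _) (norm_mul_le _ _))
        _ ≤ BD j * (C * (1 / ((k : ℝ) + 1))) + BE j * (1 / ((k : ℝ) + 1)) := add_le_add
            (mul_le_mul (hBD j w) (hHdiff k j w) (norm_nonneg _)
                ((norm_nonneg _).trans (hBD j w)))
            (mul_le_mul (hBE j w) (hg2 k j w) (norm_nonneg _) ((norm_nonneg _).trans (hBE j w)))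
        _ = _ := by ring
    · simpa using (hlim0.const_mul (∑ j, (BD j * C + BE j))).const_mul C'
  refine tendsto_nhds_unique h2 (h1.congr fun k => ?_)
  rw [← cauchyT_dbar (hGk k) (hGks k) z, funext (hWk k)]

/-- Weak solutions of a `∂̄`-system give holomorphic combinations. -/
theorem differentiableAt_of_dbar_system {ι : Type*} [Fintype ι] {U : Set ℂ} (hU : IsOpen U)
    {e : ι → ℂ → ℂ} (he : ∀ j, ContDiffOn ℝ 1 (e j) U) {P H v : ι → ℂ → ℂ}
    (hP : ∀ j, Differentiable ℂ (P j)) (hv : ∀ j, Continuous (v j)) {R : ℝ}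
    (hvR : ∀ j w, R < ‖w‖ → v j w = 0) (hH : ∀ j z, H j z = P j z + cauchyT (v j) z)
    (hrel : ∀ z ∈ U, ∑ j, (dbar (e j) z * H j z + e j z * v j z) = 0) {z₀ : ℂ} (hz₀ : z₀ ∈ U) :
    DifferentiableAt ℂ (fun z => ∑ j, e j z * H j z) z₀ := by
  obtain ⟨r, hr, hrU⟩ := Metric.nhds_basis_closedBall.mem_iff.1 (hU.mem_nhds hz₀)
  let b : ContDiffBump z₀ := ⟨r / 2, r, half_pos hr, half_lt_self hr⟩
  set χ : ℂ → ℂ := fun z => ((b z : ℝ) : ℂ) with hχdef
  have hχ : ContDiff ℝ 1 χ := Complex.ofRealCLM.contDiff.comp b.contDiff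
  have hχ0 : ∀ z, z ∉ Metric.closedBall z₀ r → χ z = 0 := fun z hz => by
    have : r ≤ dist z z₀ := (not_le.1 hz).le
    simp [χ, b.zero_of_le_dist this]
  have hχ1 : ∀ z ∈ Metric.ball z₀ (r / 2), χ z = 1 := fun z hz => by
    simp [χ, b.one_of_mem_closedBall (Metric.ball_subset_closedBall hz : z ∈
        Metric.closedBall z₀ (r/2))]
  set E : ι → ℂ → ℂ := fun j z => χ z * e j z
  have hE0 : ∀ j z, z ∉ Metric.closedBall z₀ r → E j z = 0 := fun j z hz => by
    simp [E, hχ0 z hz]
  have hE : ∀ j, ContDiff ℝ 1 (E j) := fun j => by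
    refine contDiff_iff_contDiffAt.2 fun z => ?_
    by_cases hz : z ∈ U
    · exact hχ.contDiffAt.mul ((he j).contDiffAt (hU.mem_nhds hz))
    · refine ContDiffAt.congr_of_eventuallyEq (contDiffAt_const (c := (0 : ℂ))) ?_
      filter_upwards [Metric.isClosed_closedBall.isOpen_compl.mem_nhds
        (fun h => hz (hrU h) : z ∈ (Metric.closedBall z₀ r)ᶜ)] with w hw using hE0 j w hw
  obtain ⟨W, R', hW, hWR, hWeq, hkey⟩ :=
    exists_cauchyT_eq_combination hE (isCompact_closedBall z₀ r) hE0 hP hv hvR hH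
  have hW0 : ∀ z ∈ Metric.ball z₀ (r / 2), W z = 0 := by
    intro z hz
    have hzU : z ∈ U := hrU ((Metric.ball_subset_ball (half_le_self hr.le)).trans
      Metric.ball_subset_closedBall hz)
    rw [hWeq, ← hrel z hzU]
    refine Finset.sum_congr rfl fun j _ => ?_
    have hev : E j =ᶠ[𝓝 z] e j := eventually_of_mem (Metric.isOpen_ball.mem_nhds hz) fun w hw => by
      simp [E, hχ1 w hw]
    rw [dbar_congr hev, hev.self_of_nhds]
  have hd := (differentiableOn_cauchyT_off_support hW hWR Metric.isOpen_ball hW0).differentiableAt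
    (Metric.ball_mem_nhds z₀ (half_pos hr))
  refine hd.congr_of_eventuallyEq (eventually_of_mem (Metric.ball_mem_nhds z₀ (half_pos hr))
    fun z hz => ?_)
  simp [hkey, E, hχ1 z hz]

end Fermat.Agent.Tors
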