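import Mathlib

/-!
# The Cauchy transform on the complex plane

For a compactly supported `C¹` function `v : ℂ → ℂ`, the function
`T v z = π⁻¹ ∫ v w / (z - w)` solves `∂̄ (T v) = v` and decays at infinity.
-/

noncomputable section

open Complex MeasureTheory Filter Topology Set Convolution
open scoped Real

namespace Fermat.Agent.Tors

/-- The Wirtinger derivative `∂̄ f`. -/
def dbar (f : ℂ → ℂ) (z : ℂ) : ℂ := (fderiv ℝ f z 1 + I * fderiv ℝ f z I) / 2

/-- The Cauchy transform. -/
def cauchyT (v : ℂ → ℂ) (z : ℂ) : ℂ := (π : ℂ)⁻¹ * ∫ w, v w / (z - w)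

section basic

variable {f g : ℂ → ℂ} {z : ℂ}

theorem dbar_const (c : ℂ) (z : ℂ) : dbar (fun _ => c) z = 0 := by
  simp [dbar]

theorem dbar_congr (h : f =ᶠ[𝓝 z] g) : dbar f z = dbar g z := by
  simp [dbar, h.fderiv_eq]

theorem dbar_eq_zero_of_differentiableAt (h : DifferentiableAt ℂ f z) : dbar f z = 0 := by
  have h2 := (differentiableAt_complex_iff_differentiableAt_real.1 h).2
  simp only [dbar, h2, smul_eq_mul]
  rw [← mul_assoc, I_mul_I]
  ring

theorem differentiableAt_of_dbar_eq_zero (h : DifferentiableAt ℝ f z) (hd : dbar f z = 0) :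
    DifferentiableAt ℂ f z := by
  refine differentiableAt_complex_iff_differentiableAt_real.2 ⟨h, ?_⟩
  simp only [dbar, div_eq_zero_iff, OfNat.ofNat_ne_zero, or_false] at hd
  rw [smul_eq_mul]
  have : fderiv ℝ f z 1 = -(I * fderiv ℝ f z I) := eq_neg_of_add_eq_zero_left hd
  rw [this, mul_neg, ← mul_assoc, I_mul_I]
  ring

theorem dbar_add (hf : DifferentiableAt ℝ f z) (hg : DifferentiableAt ℝ g z) :
    dbar (fun w => f w + g w) z = dbar f z + dbar g z := by
  simp [dbar, fderiv_fun_add hf hg]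
  ring

theorem dbar_sum {ι : Type*} (s : Finset ι) (F : ι → ℂ → ℂ)
    (h : ∀ i ∈ s, DifferentiableAt ℝ (F i) z) :
    dbar (fun w => ∑ i ∈ s, F i w) z = ∑ i ∈ s, dbar (F i) z := by
  simp only [dbar, fderiv_fun_sum h, FunLike.coe_sum, Finset.sum_apply, Finset.mul_sum,
    ← Finset.sum_add_distrib, Finset.sum_div]

theorem dbar_mul (hf : DifferentiableAt ℝ f z) (hg : DifferentiableAt ℝ g z) :
    dbar (fun w => f w * g w) z = f z * dbar g z + g z * dbar f z := by
  simp [dbar, fderiv_fun_mul hf hg]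
  ring

theorem dbar_mul_holo_left (hf : DifferentiableAt ℂ f z) (hg : DifferentiableAt ℝ g z) :
    dbar (fun w => f w * g w) z = f z * dbar g z := by
  rw [dbar_mul (hf.restrictScalars ℝ) hg, dbar_eq_zero_of_differentiableAt hf, mul_zero, add_zero]

theorem dbar_const_mul (c : ℂ) (hf : DifferentiableAt ℝ f z) :
    dbar (fun w => c * f w) z = c * dbar f z :=
  dbar_mul_holo_left (differentiableAt_const c) hf

theorem continuous_dbar (hf : ContDiff ℝ 1 f) : Continuous (dbar f) := by
  have h := hf.continuous_fderiv one_ne_zero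
  unfold dbar
  fun_prop

end basic

/-- The Cauchy kernel is locally integrable. -/
theorem locallyIntegrable_inv : LocallyIntegrable (fun w : ℂ => w⁻¹) volume := by
  rw [locallyIntegrable_iff]
  intro k hk
  obtain ⟨R, hR⟩ := hk.isBounded.subset_closedBall 0
  refine IntegrableOn.mono_set ?_ hR
  refine ⟨(measurable_inv).aestronglyMeasurable.restrict, ?_⟩
  rw [hasFiniteIntegral_iff_enorm, ← lintegral_indicator measurableSet_closedBall,
    ← Complex.lintegral_comp_polarCoord_symm]
  calc ∫⁻ p in polarCoord.target, ENNReal.ofReal p.1 •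
        (Metric.closedBall (0 : ℂ) R).indicator (fun w => ‖w⁻¹‖ₑ) (Complex.polarCoord.symm p)
      ≤ ∫⁻ p in polarCoord.target, (Icc (0 : ℝ) R ×ˢ Icc (-π) π).indicator (fun _ => 1) p := by
        refine setLIntegral_mono' (by
          rw [polarCoord_target]; exact measurableSet_Ioi.prod measurableSet_Ioo) fun p hp => ?_
        obtain ⟨hp1, hp2⟩ := hp
        have hp1 : (0 : ℝ) < p.1 := hp1
        have hn : ‖Complex.polarCoord.symm p‖ = p.1 := by
          rw [Complex.norm_polarCoord_symm, abs_of_pos hp1]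
        by_cases hc : Complex.polarCoord.symm p ∈ Metric.closedBall (0 : ℂ) R
        · rw [indicator_of_mem hc, indicator_of_mem, smul_eq_mul]
          · rw [← ofReal_norm, norm_inv, hn, ← ENNReal.ofReal_mul hp1.le,
              mul_inv_cancel₀ hp1.ne', ENNReal.ofReal_one]
          · rw [mem_closedBall_zero_iff, hn] at hc
            exact ⟨⟨hp1.le, hc⟩, Ioo_subset_Icc_self hp2⟩
        · rw [indicator_of_notMem hc, smul_zero]
          exact zero_le
    _ ≤ ∫⁻ p, (Icc (0 : ℝ) R ×ˢ Icc (-π) π).indicator (fun _ => (1 : ENNReal)) p :=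
        setLIntegral_le_lintegral _ _
    _ < ⊤ := by
        rw [lintegral_indicator_const (measurableSet_Icc.prod measurableSet_Icc), one_mul]
        exact (isCompact_Icc.prod isCompact_Icc).measure_lt_top

/-- The Wirtinger derivative in polar coordinates. -/
theorem smul_dbar_div_polar (g : ℂ → ℂ) {r : ℝ} (hr : r ≠ 0) (θ : ℝ) :
    r • (dbar g (r * ((Real.cos θ : ℂ) + Real.sin θ * I)) /
        (r * ((Real.cos θ : ℂ) + Real.sin θ * I))) =
      (fderiv ℝ g (r * ((Real.cos θ : ℂ) + Real.sin θ * I)) ((Real.cos θ : ℂ) + Real.sin θ * I) +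
        I * fderiv ℝ g (r * ((Real.cos θ : ℂ) + Real.sin θ * I))
          (I * ((Real.cos θ : ℂ) + Real.sin θ * I))) / 2 := by
  set e : ℝ → ℂ := fun θ => (Real.cos θ : ℂ) + Real.sin θ * I
  have hr0 : (r : ℂ) ≠ 0 := by exact_mod_cast hr
  have he0 : e θ ≠ 0 := fun h => by
    have h1 : ‖e θ‖ = 1 := by
      simp only [e, Complex.norm_add_mul_I, Real.cos_sq_add_sin_sq, Real.sqrt_one]
    simp [h] at h1
  set L := fderiv ℝ g (r * e θ) with hL
  have hlin : ∀ x : ℂ, L x = (x.re : ℂ) * L 1 + (x.im : ℂ) * L I := by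
    intro x
    conv_lhs => rw [show x = x.re • (1 : ℂ) + x.im • I by simp]
    rw [map_add, map_smul, map_smul, Complex.real_smul, Complex.real_smul]
  have h1 : L (e θ) = (Real.cos θ : ℂ) * L 1 + (Real.sin θ : ℂ) * L I := by
    rw [hlin]
    simp [e, Complex.cos_ofReal_re, Complex.sin_ofReal_re]
  have h2 : L (I * e θ) = -(Real.sin θ : ℂ) * L 1 + (Real.cos θ : ℂ) * L I := by
    rw [hlin]
    simp [e, Complex.cos_ofReal_re, Complex.sin_ofReal_re]
  have hinv : ((Real.cos θ : ℂ) - Real.sin θ * I) * e θ = 1 := by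
    have := Real.cos_sq_add_sin_sq θ
    simp only [e]
    have h' : ((Real.cos θ : ℂ)) ^ 2 + (Real.sin θ : ℂ) ^ 2 = 1 := by exact_mod_cast this
    linear_combination h' - (Real.sin θ : ℂ) ^ 2 * I_mul_I
  show r • (dbar g (r * e θ) / (r * e θ)) = (L (e θ) + I * L (I * e θ)) / 2
  rw [h1, h2, dbar, ← hL, Complex.real_smul]
  field_simp
  linear_combination (-1 : ℂ) * (L 1 + L I * I) * hinv
    - (L I * e θ * (Real.sin θ : ℂ)) * I_mul_I

/-- The Cauchy–Pompeiu formula. -/
theorem integral_dbar_div {g : ℂ → ℂ} (hg : ContDiff ℝ 1 g) (hs : HasCompactSupport g) :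
    ∫ w, dbar g w / w = -(π : ℂ) * g 0 := by
  obtain ⟨R₀, hR₀⟩ := hs.isBounded.subset_closedBall 0
  set R : ℝ := max R₀ 0 + 1
  have hR : 0 < R := by positivity
  have hout : ∀ w : ℂ, R ≤ ‖w‖ → w ∉ tsupport g := by
    intro w hw hmem
    have := mem_closedBall_zero_iff.1 (hR₀ hmem)
    linarith [le_max_left R₀ 0]
  set e : ℝ → ℂ := fun θ => (Real.cos θ : ℂ) + Real.sin θ * I
  have he : Continuous e := by fun_prop
  set A : ℝ × ℝ → ℂ := fun p => fderiv ℝ g (p.1 * e p.2) (e p.2)
  set B : ℝ × ℝ → ℂ := fun p => fderiv ℝ g (p.1 * e p.2) (I * e p.2)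
  have hdg := hg.continuous_fderiv one_ne_zero
  have hA : Continuous A := by fun_prop
  have hB : Continuous B := by fun_prop
  have henorm : ∀ θ, ‖e θ‖ = 1 := fun θ => by
    simp only [e, Complex.norm_add_mul_I, Real.cos_sq_add_sin_sq, Real.sqrt_one]
  have hzero : ∀ r θ : ℝ, R ≤ r → fderiv ℝ g (r * e θ) = 0 := by
    intro r θ hr
    refine image_eq_zero_of_notMem_tsupport fun hm => hout _ ?_ (tsupport_fderiv_subset ℝ hm)
    rw [norm_mul, henorm, mul_one, Complex.norm_real, Real.norm_eq_abs, abs_of_nonneg (by linarith)]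
    exact hr
  -- radial integral
  have hrad : ∀ θ, ∫ r in Icc 0 R, A (r, θ) = -g 0 := by
    intro θ
    rw [integral_Icc_eq_integral_Ioc, ← intervalIntegral.integral_of_le hR.le]
    have hd : ∀ r : ℝ, HasDerivAt (fun t : ℝ => g (t * e θ)) (A (r, θ)) r := by
      intro r
      have h1 : HasDerivAt (fun t : ℝ => (t : ℂ) * e θ) (e θ) r := by
        simpa using ((hasDerivAt_id r).ofReal_comp.mul_const (e θ))
      exact ((hg.differentiable one_ne_zero _).hasFDerivAt).comp_hasDerivAt r h1
    rw [intervalIntegral.integral_eq_sub_of_hasDerivAt (fun r _ => hd r)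
      ((hA.comp (Continuous.prodMk_left θ)).intervalIntegrable _ _)]
    have : g (R * e θ) = 0 := image_eq_zero_of_notMem_tsupport (hout _ (by
      rw [norm_mul, henorm, mul_one, Complex.norm_real, Real.norm_eq_abs, abs_of_pos hR]))
    simp [this]
  -- angular integral
  have hang : ∀ r : ℝ, r ≠ 0 → ∫ θ in Icc (-π) π, B (r, θ) = 0 := by
    intro r hr
    rw [integral_Icc_eq_integral_Ioc, ← intervalIntegral.integral_of_le (by linarith [Real.pi_pos])]
    have hd : ∀ θ : ℝ, HasDerivAt (fun s : ℝ => g (r * e s)) (r • B (r, θ)) θ := by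
      intro θ
      have h1 : HasDerivAt (fun s : ℝ => (r : ℂ) * e s) (r • (I * e θ)) θ := by
        have hc := (Real.hasDerivAt_cos θ).ofReal_comp
        have hs := (Real.hasDerivAt_sin θ).ofReal_comp
        convert! ((hc.add (hs.mul_const I)).const_mul (r : ℂ)) using 1
        simp only [e, Complex.real_smul, ofReal_neg]
        linear_combination (r : ℂ) * (Real.sin θ : ℂ) * I_mul_I
      convert! ((hg.differentiable one_ne_zero _).hasFDerivAt).comp_hasDerivAt θ h1 using 1
      rw [map_smul]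
    have h2 := intervalIntegral.integral_eq_sub_of_hasDerivAt (a := -π) (b := π) (fun θ _ => hd θ)
      (((hB.comp (Continuous.prodMk_right r)).const_smul r).intervalIntegrable _ _)
    rw [intervalIntegral.integral_smul] at h2
    simp [e, hr] at h2
    simpa using h2
  rw [← Complex.integral_comp_polarCoord_symm]
  have hpt : ∀ p ∈ polarCoord.target,
      p.1 • (dbar g (Complex.polarCoord.symm p) / Complex.polarCoord.symm p)
        = (Icc (0 : ℝ) R ×ˢ Icc (-π) π).indicator (fun p => (A p + I * B p) / 2) p := by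
    intro p hp
    obtain ⟨hp1, hp2⟩ := hp
    have hp1 : (0 : ℝ) < p.1 := hp1
    have hsym : Complex.polarCoord.symm p = p.1 * e p.2 := by simp [e]
    rw [hsym]
    by_cases hc : p.1 ≤ R
    · have hmem : p ∈ Icc (0 : ℝ) R ×ˢ Icc (-π) π := ⟨⟨hp1.le, hc⟩, Ioo_subset_Icc_self hp2⟩
      rw [indicator_of_mem hmem]
      exact smul_dbar_div_polar g hp1.ne' p.2
    · rw [indicator_of_notMem (fun h => hc h.1.2), dbar, hzero _ _ (le_of_not_ge hc)]
      simp
  rw [setIntegral_congr_fun (by
      rw [polarCoord_target]; exact measurableSet_Ioi.prod measurableSet_Ioo) hpt]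
  have hK : IsCompact (Icc (0 : ℝ) R ×ˢ Icc (-π) π) := isCompact_Icc.prod isCompact_Icc
  have hae : (polarCoord.target ∩ Icc (0 : ℝ) R ×ˢ Icc (-π) π : Set (ℝ × ℝ))
      =ᵐ[volume] (Icc (0 : ℝ) R ×ˢ Icc (-π) π : Set (ℝ × ℝ)) := by
    rw [polarCoord_target, prod_inter_prod, Measure.volume_eq_prod]
    refine Measure.set_prod_ae_eq ?_ ?_
    · rw [show Ioi (0 : ℝ) ∩ Icc 0 R = Ioc 0 R by ext x; simp; grind]
      exact Ioc_ae_eq_Icc
    · rw [inter_eq_left.2 Ioo_subset_Icc_self]
      exact Ioo_ae_eq_Icc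
  rw [setIntegral_indicator hK.measurableSet, setIntegral_congr_set hae]
  have hiA : IntegrableOn A (Icc (0 : ℝ) R ×ˢ Icc (-π) π) := hA.continuousOn.integrableOn_compact hK
  have hiB : IntegrableOn B (Icc (0 : ℝ) R ×ˢ Icc (-π) π) := hB.continuousOn.integrableOn_compact hK
  rw [integral_div, integral_add hiA (hiB.const_mul I), integral_const_mul]
  have h1 : ∫ p in Icc (0 : ℝ) R ×ˢ Icc (-π) π, A p = -(2 * π : ℂ) * g 0 := by
    rw [Measure.volume_eq_prod] at hiA ⊢
    rw [← setIntegral_prod_swap]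
    rw [setIntegral_prod (fun q : ℝ × ℝ => A q.swap)
        ((hA.comp continuous_swap).continuousOn.integrableOn_compact
      (isCompact_Icc.prod isCompact_Icc))]
    simp only [Prod.swap_prod_mk, hrad]
    rw [setIntegral_const, measureReal_def, Real.volume_Icc,
      ENNReal.toReal_ofReal (by linarith [Real.pi_pos]), Complex.real_smul]
    push_cast
    ring
  have h2 : ∫ p in Icc (0 : ℝ) R ×ˢ Icc (-π) π, B p = 0 := by
    rw [Measure.volume_eq_prod] at hiB ⊢
    rw [setIntegral_prod _ hiB, integral_Icc_eq_integral_Ioc]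
    refine setIntegral_eq_zero_of_forall_eq_zero fun r hr => hang r hr.1.ne'
  rw [h1, h2]
  ring

theorem integrable_div_sub {v : ℂ → ℂ} (hv : Continuous v) (hs : HasCompactSupport v) (z : ℂ) :
    Integrable (fun w => v (z - w) / w) := by
  have h := hs.convolutionExists_right (ContinuousLinearMap.mul ℝ ℂ) locallyIntegrable_inv hv z
  simpa [ConvolutionExistsAt, div_eq_mul_inv, mul_comm] using h

theorem integrable_div_sub' {v : ℂ → ℂ} (hv : Continuous v) (hs : HasCompactSupport v) (z : ℂ) :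
    Integrable (fun w => v w / (z - w)) := by
  simpa using (integrable_div_sub hv hs z).comp_sub_left z

theorem cauchyT_eq_convolution (v : ℂ → ℂ) (z : ℂ) :
    cauchyT v z
      = (π : ℂ)⁻¹ * ((fun w => w⁻¹) ⋆[ContinuousLinearMap.mul ℝ ℂ, volume] v) z := by
  rw [cauchyT, convolution_def, ← integral_sub_left_eq_self _ volume z]
  congr 1
  refine integral_congr_ae (Eventually.of_forall fun w => ?_)
  simp [div_eq_mul_inv, mul_comm]

variable {v : ℂ → ℂ}

theorem hasFDerivAt_cauchyT (hv : ContDiff ℝ 1 v) (hs : HasCompactSupport v) (z : ℂ) :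
    HasFDerivAt (cauchyT v) ((π : ℂ)⁻¹ • ((fun w => w⁻¹)
      ⋆[(ContinuousLinearMap.mul ℝ ℂ).precompR ℂ, volume] fderiv ℝ v) z) z := by
  have h := hs.hasFDerivAt_convolution_right (ContinuousLinearMap.mul ℝ ℂ)
    locallyIntegrable_inv hv z
  have h' := h.const_mul (π : ℂ)⁻¹
  exact h'.congr_of_eventuallyEq (Eventually.of_forall fun w => cauchyT_eq_convolution v w)

theorem differentiable_cauchyT (hv : ContDiff ℝ 1 v) (hs : HasCompactSupport v) :
    Differentiable ℝ (cauchyT v) :=
  fun z => (hasFDerivAt_cauchyT hv hs z).differentiableAt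

theorem dbar_comp_sub_left {g : ℂ → ℂ} (hg : ContDiff ℝ 1 g) (z w : ℂ) :
    dbar (fun u => g (z - u)) w = -dbar g (z - w) := by
  have : HasFDerivAt (fun u => g (z - u))
      ((fderiv ℝ g (z - w)).comp (-ContinuousLinearMap.id ℝ ℂ)) w :=
    ((hg.differentiable one_ne_zero _).hasFDerivAt).comp w ((hasFDerivAt_id w).const_sub z)
  simp [dbar, this.fderiv]
  ring

/-- The Cauchy transform solves the `∂̄` equation. -/
theorem dbar_cauchyT (hv : ContDiff ℝ 1 v) (hs : HasCompactSupport v) (z : ℂ) :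
    dbar (cauchyT v) z = v z := by
  have hc := hv.continuous_fderiv one_ne_zero
  have key : ∀ x : ℂ, fderiv ℝ (cauchyT v) z x
      = (π : ℂ)⁻¹ * ∫ w, fderiv ℝ v (z - w) x / w := by
    intro x
    rw [(hasFDerivAt_cauchyT hv hs z).fderiv,
      show ∀ (c : ℂ) (f : ℂ →L[ℝ] ℂ), (c • f) x = c • f x from fun _ _ => rfl,
      convolution_precompR_apply _ locallyIntegrable_inv (hs.fderiv ℝ) hc z x,
      convolution_def, smul_eq_mul]
    congr 1
    refine integral_congr_ae (Eventually.of_forall fun w => ?_)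
    simp [div_eq_mul_inv, mul_comm]
  have hx : ∀ x : ℂ, Integrable (fun w => fderiv ℝ v (z - w) x / w) := by
    intro x
    exact integrable_div_sub (v := fun w => fderiv ℝ v w x) (by fun_prop)
      (HasCompactSupport.fderiv_apply ℝ hs x) z
  rw [dbar, key, key, ← mul_assoc, mul_comm I, mul_assoc, ← mul_add,
    ← integral_const_mul, ← integral_add (hx 1) ((hx I).const_mul I), mul_div_assoc, ← integral_div]
  set g : ℂ → ℂ := fun w => v (z - w)
  have hg : ContDiff ℝ 1 g := hv.comp (contDiff_const.sub contDiff_id)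
  have hgs : HasCompactSupport g := hs.comp_homeomorph (Homeomorph.subLeft z)
  have hdg : ∀ w, dbar g w = -dbar v (z - w) := dbar_comp_sub_left hv z
  have h0 : ∫ w, dbar v (z - w) / w = (π : ℂ) * v z := by
    have := integral_dbar_div hg hgs
    simp only [hdg, neg_div, integral_neg] at this
    simp only [g, sub_zero] at this
    linear_combination (-1 : ℂ) * this
  have h1 : (fun w => (fderiv ℝ v (z - w) 1 / w + I * (fderiv ℝ v (z - w) I / w)) / 2)
      = fun w => dbar v (z - w) / w := by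
    funext w
    simp only [dbar]
    ring
  rw [h1, h0, ← mul_assoc, inv_mul_cancel₀ (by simp [Real.pi_ne_zero]), one_mul]

/-- The Cauchy transform of `∂̄ g` is `g`. -/
theorem cauchyT_dbar {g : ℂ → ℂ} (hg : ContDiff ℝ 1 g) (hs : HasCompactSupport g) (z : ℂ) :
    cauchyT (dbar g) z = g z := by
  rw [cauchyT_eq_convolution, convolution_def]
  set f : ℂ → ℂ := fun w => g (z - w) with hfdef
  have hf : ContDiff ℝ 1 f := hg.comp (contDiff_const.sub contDiff_id)
  have hfs : HasCompactSupport f := hs.comp_homeomorph (Homeomorph.subLeft z)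
  have hdf : ∀ w, dbar f w = -dbar g (z - w) := dbar_comp_sub_left hg z
  have := integral_dbar_div hf hfs
  simp only [hdf, neg_div, integral_neg] at this
  simp only [hfdef, sub_zero] at this
  have h2 : ∫ w, (ContinuousLinearMap.mul ℝ ℂ) w⁻¹ (dbar g (z - w)) = (π : ℂ) * g z := by
    have hh : ∫ w, dbar g (z - w) / w = (π : ℂ) * g z := by linear_combination (-1 : ℂ) * this
    rw [← hh]
    refine integral_congr_ae (Eventually.of_forall fun w => ?_)
    simp [div_eq_mul_inv, mul_comm]
  rw [h2, ← mul_assoc, inv_mul_cancel₀ (by simp [Real.pi_ne_zero]), one_mul]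

end Fermat.Agent.Tors
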