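import Fermat.Agent.Tors.SysMat
import Fermat.Agent.Tors.Upper

/-!
# Every monodromy class comes from a function

Every cochain with trivial loop sums is the jump of an `m`-th root of a function, found by solving a
twisted `∂̄`-system; cohomologous jumps come from functions differing by an `m`-th power.
-/

noncomputable section

open Polynomial Filter Topology Set AlgebraicCurve Complex Fermat.Agent.FF
open scoped Real ContDiff

namespace Fermat.Agent.Tors

variable {F : Type*} [Field F] [Algebra ℂ F] {M : Model ℂ F} {R : Rays M}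

/-- The slit plane is dense. -/
theorem Rays.dense_Omega (R : Rays M) : Dense R.Omega := by
  intro z
  by_cases hz : z ∈ R.Omega
  · exact subset_closure hz
  have hcut : ∀ k, ∀ w ∈ R.cut k, w ≠ R.p k → w ∈ closure R.Omega := by
    intro k w hw hne
    have hwedge := R.mem_wedge_of_mem_cut hw hne
    exact closure_mono (R.wedgePos_subset k) (R.mem_closure_wedgePos hw hwedge)
  simp only [Rays.Omega, mem_ofPred_eq, not_forall, not_not] at hz
  obtain ⟨k, hk⟩ := hz
  by_cases hne : z = R.p k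
  · subst hne
    have hlim : Tendsto (fun t : ℝ => (t : ℂ) * R.p k) (𝓝[>] 1) (𝓝 (R.p k)) := by
      have : Tendsto (fun t : ℝ => (t : ℂ) * R.p k) (𝓝 1) (𝓝 (((1 : ℝ) : ℂ) * R.p k)) :=
        Continuous.tendsto (by fun_prop) 1
      simpa using this.mono_left nhdsWithin_le_nhds
    refine isClosed_closure.mem_of_tendsto hlim ?_
    filter_upwards [self_mem_nhdsWithin] with t (ht : 1 < t)
    have hd : (t : ℂ) * R.p k / R.p k = t := mul_div_cancel_right₀ _ (R.p_ne k)
    refine hcut k _ ⟨by rw [hd]; simp, by rw [hd]; simpa using ht.le⟩ fun h => ?_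
    rw [mul_eq_right₀ (R.p_ne k)] at h
    norm_cast at h
    linarith
  · exact hcut k z hk hne

theorem contDiffOn_of_differentiableOn {f : ℂ → ℂ} {U : Set ℂ} (hU : IsOpen U)
    (hf : ∀ z ∈ U, DifferentiableAt ℂ f z) : ContDiffOn ℝ 1 f U :=
  ((DifferentiableOn.contDiffOn (fun z hz => (hf z hz).differentiableWithinAt) hU :
    ContDiffOn ℂ 1 f U)).restrict_scalars ℝ

variable {m : ℕ} [NeZero m]

/-- The matrix of the twisted `∂̄`-system: given by the frame on the sheets and on the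
neighbourhoods of the cuts, it is continuous and has compact support. -/
theorem TwistFrame.exists_sysMat {S : Sheets R} {c : Fin R.r → Fin M.n → ZMod m}
    (W : TwistFrame S m c) :
    ∃ (A : ℂ → Matrix (Fin M.n) (Fin M.n) ℂ) (R₀ : ℝ), Continuous A ∧
      (∀ z, R₀ < ‖z‖ → A z = 0) ∧ (∀ z ∈ R.Omega, A z = sysMat S.θ.η W.s z) ∧
      ∀ k, ∀ z ∈ W.N k, A z = sysMat (S.w k).η (W.sV k) z := by
  classical
  have hs0 : ∀ i z, W.s i z ≠ 0 := fun i z => norm_pos_iff.1 (by rw [W.norm_s]; exact one_pos)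
  have hsV0 : ∀ k i z, W.sV k i z ≠ 0 := fun k i z =>
    norm_pos_iff.1 (by rw [W.norm_sV]; exact one_pos)
  set A : ℂ → Matrix (Fin M.n) (Fin M.n) ℂ := fun z =>
    if z ∈ R.Omega then sysMat S.θ.η W.s z
    else if h : ∃ k, z ∈ W.N k then sysMat (S.w h.choose).η (W.sV h.choose) z else 0 with hA
  have hAΩ : ∀ z ∈ R.Omega, A z = sysMat S.θ.η W.s z := fun z hz => if_pos hz
  have hAN : ∀ k, ∀ z ∈ W.N k, A z = sysMat (S.w k).η (W.sV k) z := by
    intro k z hz
    by_cases hΩ : z ∈ R.Omega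
    · rw [hAΩ z hΩ]
      have hwz := W.N_subset k hz
      have him : (z / R.p k).im ≠ 0 := fun h0 =>
        hΩ k ⟨h0, (R.re_gt_one_of_mem_wedge hwz).le⟩
      rcases him.lt_or_gt with h | h
      · have hnb := ((W.isOpen_N k).inter (R.isOpen_wedgeNeg k)).mem_nhds
          (show z ∈ W.N k ∩ R.wedgeNeg k from ⟨hz, hwz, h⟩)
        refine (sysMat_perm (S.σ k) (S.θ.injective z hΩ)
          (fun i => S.neg k i ⟨hwz, h⟩) fun i => ?_).symm
        have he : W.sV k i =ᶠ[𝓝 z] fun w => ZMod.stdAddChar (c k i) * W.s (S.σ k i) w :=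
          eventually_of_mem hnb fun w hw => W.neg k i hw
        rw [dbar_congr he, he.self_of_nhds, dbar_const_mul _
          (((W.smooth _).contDiffAt (R.isOpen_Omega.mem_nhds hΩ)).differentiableAt one_ne_zero),
          ← mul_neg, mul_div_mul_left _ _ (stdAddChar_ne_zero _)]
      · have hnb := ((W.isOpen_N k).inter (R.isOpen_wedgePos k)).mem_nhds
          (show z ∈ W.N k ∩ R.wedgePos k from ⟨hz, hwz, h⟩)
        refine (sysMat_perm (1 : Equiv.Perm (Fin M.n)) (S.θ.injective z hΩ)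
          (fun i => S.pos k i ⟨hwz, h⟩) fun i => ?_).symm
        have he : W.sV k i =ᶠ[𝓝 z] W.s i := eventually_of_mem hnb fun w hw => W.pos k i hw
        rw [dbar_congr he, he.self_of_nhds]
        rfl
    · have hex : ∃ l, z ∈ W.N l := ⟨k, hz⟩
      have hl : hex.choose = k := by
        simp only [Rays.Omega, mem_ofPred_eq, not_forall, not_not] at hΩ
        obtain ⟨l, hl⟩ := hΩ
        rw [R.eq_of_mem_cut_of_mem_wedge hl (W.N_subset k hz),
          R.eq_of_mem_cut_of_mem_wedge hl (W.N_subset _ hex.choose_spec)]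
      simp only [hA]
      rw [if_neg hΩ, dif_pos hex, hl]
  have hA0 : ∀ z, (∀ i, (z ∈ R.Omega → dbar (W.s i) z = 0) ∧
      ∀ l, z ∈ W.N l → dbar (W.sV l i) z = 0) → A z = 0 := by
    intro z h
    by_cases hΩ : z ∈ R.Omega
    · rw [hAΩ z hΩ, sysMat_eq_zero fun i => (h i).1 hΩ]
    by_cases hex : ∃ l, z ∈ W.N l
    · obtain ⟨l, hl⟩ := hex
      rw [hAN l z hl, sysMat_eq_zero fun i => (h i).2 l hl]
    · simp only [hA]
      rw [if_neg hΩ, dif_neg hex]
  have hAcont : Continuous A := by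
    refine continuous_iff_continuousAt.2 fun z => ?_
    by_cases hΩ : z ∈ R.Omega
    · exact (continuousAt_sysMat R.isOpen_Omega hΩ (fun i => (S.θ.branch i).cont) W.smooth
        (fun i => hs0 i z) (S.θ.injective z hΩ)).congr
        (eventually_of_mem (R.isOpen_Omega.mem_nhds hΩ) fun w hw => (hAΩ w hw).symm)
    · simp only [Rays.Omega, mem_ofPred_eq, not_forall, not_not] at hΩ
      obtain ⟨k, hk⟩ := hΩ
      by_cases hne : z = R.p k
      · subst hne
        exact continuousAt_const.congr ((W.near k).mono fun w hw => (hA0 w hw).symm)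
      · have hzN := W.cut_subset k z hk hne
        exact (continuousAt_sysMat (W.isOpen_N k) hzN
          (fun i => ((S.w k).branch i).cont.mono (W.N_subset k)) (W.smoothV k) (fun i => hsV0 k i z)
          ((S.w k).injective z (W.N_subset k hzN))).congr
          (eventually_of_mem ((W.isOpen_N k).mem_nhds hzN) fun w hw => (hAN k w hw).symm)
  obtain ⟨R₀, hR₀⟩ := W.far
  exact ⟨A, R₀, hAcont, fun z hz => hA0 z (hR₀ z hz), hAΩ, hAN⟩

/-- A continuous vector killed by the twisted Vandermonde matrix off a finite set vanishes. -/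
theorem Sheets.eq_zero_of_sheetSum_eq_zero (S : Sheets R) {s : Fin M.n → ℂ → ℂ}
    (hs0 : ∀ i z, s i z ≠ 0) {H : ℂ → Fin M.n → ℂ} (hHc : Continuous H) (T : Finset ℂ)
    (h : ∀ z ∈ R.Omega, z ∉ T → ∀ i, ∑ j : Fin M.n, S.θ.η i z ^ (j : ℕ) * s i z * H z j = 0) :
    H = fun _ => 0 := by
  refine Continuous.ext_on (R.dense_Omega.sdiff_finite T.finite_toSet) hHc continuous_const
    fun z hz => Matrix.eq_zero_of_mulVec_eq_zero
      (Matrix.det_vandermonde_ne_zero_iff.2 (S.θ.injective z hz.1)) (funext fun i => ?_)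
  have h' := h z hz.1 hz.2 i
  simp only [mul_right_comm _ (s i z), ← Finset.sum_mul, mul_eq_zero] at h'
  simpa [Matrix.mulVec, dotProduct, Matrix.vandermonde_apply] using h'.resolve_right (hs0 i z)

/-- A twisted combination of powers of the branches is bounded near every point. -/
theorem Sheets.sheetSum_le_near (S : Sheets R) {s : Fin M.n → ℂ → ℂ} (hs : ∀ i z, ‖s i z‖ = 1)
    {H : ℂ → Fin M.n → ℂ} (hH : Continuous H) (q : ℂ) (i : Fin M.n) :
    ∃ C : ℝ, ∀ᶠ z in 𝓝[≠] q, z ∈ R.Omega →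
      ‖∑ j : Fin M.n, S.θ.η i z ^ (j : ℕ) * s i z * H z j‖ ≤ C := by
  obtain ⟨B, hB⟩ := norm_branch_le_near (S := S) q
  refine ⟨∑ j : Fin M.n, max B 0 ^ (j : ℕ) * (‖H q j‖ + 1), ?_⟩
  have hev : ∀ᶠ z in 𝓝[≠] q, ∀ j, ‖H z j‖ ≤ ‖H q j‖ + 1 :=
    nhdsWithin_le_nhds (eventually_all.2 fun j =>
      (((continuous_apply j).comp hH).norm.continuousAt).eventually
        (eventually_le_nhds (lt_add_one _)))
  filter_upwards [hB, hev] with z hz hzH hzΩ
  refine (norm_sum_le _ _).trans (Finset.sum_le_sum fun j _ => ?_)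
  rw [norm_mul, norm_mul, hs, mul_one, norm_pow]
  exact mul_le_mul (pow_le_pow_left₀ (norm_nonneg _) ((hz hzΩ i).trans (le_max_left _ _)) _)
    (hzH j) (norm_nonneg _) (by positivity)

/-- With coefficients of polynomial growth, so grows a twisted combination of powers of the
branches. -/
theorem Sheets.sheetSum_le_infty (S : Sheets R) {s : Fin M.n → ℂ → ℂ} (hs : ∀ i z, ‖s i z‖ = 1)
    {H : ℂ → Fin M.n → ℂ}
    (hH : ∀ j, ∃ (d : ℕ) (C : ℝ), ∀ z : ℂ, 1 ≤ ‖z‖ → ‖H z j‖ ≤ C * ‖z‖ ^ d) (i : Fin M.n) :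
    ∃ (K : ℕ) (C : ℝ), ∀ᶠ z in Bornology.cobounded ℂ, z ∈ R.Omega →
      ‖∑ j : Fin M.n, S.θ.η i z ^ (j : ℕ) * s i z * H z j‖ ≤ C * ‖z‖ ^ K := by
  choose d C hC using hH
  obtain ⟨D, B, hB⟩ := norm_branch_le_infty M
  refine ⟨Finset.univ.sup fun j : Fin M.n => D * j + d j,
    ∑ j : Fin M.n, max B 0 ^ (j : ℕ) * max (C j) 0, ?_⟩
  filter_upwards [tendsto_norm_cobounded_atTop.eventually (eventually_ge_atTop 1)] with z hz hzΩ
  rw [Finset.sum_mul]
  refine (norm_sum_le _ _).trans (Finset.sum_le_sum fun j hj => ?_)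
  rw [norm_mul, norm_mul, hs, mul_one, norm_pow]
  have h1 : ‖S.θ.η i z‖ ^ (j : ℕ) ≤ max B 0 ^ (j : ℕ) * ‖z‖ ^ (D * j) := by
    rw [pow_mul, ← mul_pow]
    exact pow_le_pow_left₀ (norm_nonneg _) ((hB z hz _ ((S.θ.branch i).root z hzΩ)).trans
      (mul_le_mul_of_nonneg_right (le_max_left _ _) (by positivity))) _
  have h2 : ‖H z j‖ ≤ max (C j) 0 * ‖z‖ ^ d j :=
    (hC j z hz).trans (mul_le_mul_of_nonneg_right (le_max_left _ _) (by positivity))
  refine (mul_le_mul h1 h2 (norm_nonneg _) (by positivity)).trans ?_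
  rw [mul_mul_mul_comm, ← pow_add]
  exact mul_le_mul_of_nonneg_left (pow_le_pow_right₀ hz
    (Finset.le_sup (f := fun j : Fin M.n => D * j + d j) hj)) (by positivity)

/-- A solution of the twisted `∂̄`-system combines with the branches to holomorphic functions. -/
theorem differentiableAt_twistedSum {n : ℕ} {U : Set ℂ} (hU : IsOpen U) {θ s : Fin n → ℂ → ℂ}
    (hθ : ∀ i, ∀ z ∈ U, DifferentiableAt ℂ (θ i) z)
    (hinj : ∀ z ∈ U, Function.Injective fun i => θ i z) (hs : ∀ i, ContDiffOn ℝ 1 (s i) U)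
    (hs0 : ∀ i z, s i z ≠ 0) {A : ℂ → Matrix (Fin n) (Fin n) ℂ} (hA : Continuous A) {R₀ : ℝ}
    (hR₀ : ∀ z, R₀ < ‖z‖ → A z = 0) (hAU : ∀ z ∈ U, A z = sysMat θ s z) {P : Fin n → ℂ[X]}
    {H : ℂ → Fin n → ℂ} (hHc : Continuous H)
    (hH : ∀ j z, H z j = (P j).eval z + cauchyT (fun w => ∑ l, A w j l * H w l) z) (i : Fin n)
    {z : ℂ} (hz : z ∈ U) :
    DifferentiableAt ℂ (fun w => ∑ j : Fin n, θ i w ^ (j : ℕ) * s i w * H w j) z := by
  have hvc : ∀ j, Continuous fun w => ∑ l, A w j l * H w l := fun j =>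
    continuous_finsetSum _ fun l _ => (hA.matrix_elem j l).mul ((continuous_apply l).comp hHc)
  refine differentiableAt_of_dbar_system hU
    (e := fun (j : Fin n) w => θ i w ^ (j : ℕ) * s i w) (H := fun j w => H w j)
    (P := fun j w => (P j).eval w) (fun j =>
      ((contDiffOn_of_differentiableOn hU (hθ i)).pow _).mul (hs i))
    (fun j => (P j).differentiable) hvc
    (R := R₀) (fun j w hw => by simp [hR₀ w hw]) hH (fun w hw => ?_) hz
  rw [hAU w hw]
  exact sysMat_rel (hinj w hw) (fun l => hθ l w hw)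
    (fun l => ((hs l).contDiffAt (hU.mem_nhds hw)).differentiableAt one_ne_zero)
    (fun l => hs0 l w) (H w) i

/-- A cochain with trivial loop sums is the jump of a root of some function. -/
theorem Sheets.exists_rootSys_of_cochain (S : Sheets R) (c : Fin R.r → Fin M.n → ZMod m)
    (hc : cycleSum S.σ c = 0) : ∃ f : F, f ≠ 0 ∧ Nonempty (RootSys S m f c) := by
  classical
  obtain ⟨W⟩ := S.exists_twistFrame c hc
  have hs0 : ∀ i z, W.s i z ≠ 0 := fun i z => norm_pos_iff.1 (by rw [W.norm_s]; exact one_pos)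
  have hsV0 : ∀ k i z, W.sV k i z ≠ 0 := fun k i z =>
    norm_pos_iff.1 (by rw [W.norm_sV]; exact one_pos)
  obtain ⟨A, R₀, hAcont, hR₀, hAΩ, hAN⟩ := W.exists_sysMat
  obtain ⟨P, H, B, hP, hHc, hH, hHB⟩ := exists_dbar_solution M.n_pos A hAcont hR₀
  -- the sheets
  set g : Fin M.n → ℂ → ℂ := fun i z => ∑ j : Fin M.n, S.θ.η i z ^ (j : ℕ) * W.s i z * H z j
  set gN : Fin R.r → Fin M.n → ℂ → ℂ := fun k i z =>
    ∑ j : Fin M.n, (S.w k).η i z ^ (j : ℕ) * W.sV k i z * H z j
  set gV : Fin R.r → Fin M.n → ℂ → ℂ := fun k i z =>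
    if 0 < (z / R.p k).im then g i z
    else if (z / R.p k).im < 0 then ZMod.stdAddChar (c k i) * g (S.σ k i) z else gN k i z with hgV
  have hHj : ∀ j z, H z j = (P j).eval z + cauchyT (fun w => ∑ l, A w j l * H w l) z := fun j z =>
    congr_fun (hH z) j
  have hdiff : ∀ i, ∀ z ∈ R.Omega, DifferentiableAt ℂ (g i) z := fun i z hz =>
    differentiableAt_twistedSum R.isOpen_Omega (fun l w hw => S.differentiableAt_theta l hw)
      S.θ.injective W.smooth hs0 hAcont hR₀ hAΩ hHc hHj i hz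
  have hdiffN : ∀ k i, ∀ z ∈ W.N k, DifferentiableAt ℂ (gN k i) z := fun k i z hz =>
    differentiableAt_twistedSum (W.isOpen_N k)
      (fun l w hw => S.differentiableAt_w k l (W.N_subset k hw))
      (fun w hw => (S.w k).injective w (W.N_subset k hw)) (W.smoothV k) (hsV0 k) hAcont hR₀ (hAN k)
      hHc hHj i hz
  have hgVN : ∀ k i, ∀ z ∈ W.N k, gV k i z = gN k i z := by
    intro k i z hz
    simp only [hgV]
    split_ifs with h h'
    · have hzp : z ∈ R.wedgePos k := ⟨W.N_subset k hz, h⟩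
      simp only [g, gN, W.pos k i ⟨hz, hzp⟩, S.pos k i hzp]
    · have hzn : z ∈ R.wedgeNeg k := ⟨W.N_subset k hz, h'⟩
      simp only [g, gN, W.neg k i ⟨hz, hzn⟩, S.neg k i hzn, Finset.mul_sum]
      exact Finset.sum_congr rfl fun j _ => by ring
    · rfl
  have hpos : ∀ k i, EqOn (gV k i) (g i) (R.wedgePos k) := fun k i z hz => if_pos hz.2
  have hneg : ∀ k i, EqOn (gV k i) (fun z => ZMod.stdAddChar (c k i) * g (S.σ k i) z)
      (R.wedgeNeg k) := fun k i z hz => by
    simp only [hgV]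
    rw [if_neg (not_lt.2 hz.2.le), if_pos hz.2]
  have hdiffV : ∀ k i, ∀ z ∈ R.wedge k, DifferentiableAt ℂ (gV k i) z := by
    intro k i z hz
    rcases lt_trichotomy (z / R.p k).im 0 with h | h | h
    · refine ((hdiff (S.σ k i) z (R.wedgeNeg_subset k ⟨hz, h⟩)).const_mul
        (ZMod.stdAddChar (c k i) : ℂ)).congr_of_eventuallyEq ?_
      exact eventually_of_mem ((R.isOpen_wedgeNeg k).mem_nhds ⟨hz, h⟩) fun w hw => hneg k i hw
    · have hne : z ≠ R.p k := (R.p_ne_of_mem_wedge hz k).symm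
      have hzN := W.cut_subset k z ⟨h, (R.re_gt_one_of_mem_wedge hz).le⟩ hne
      exact (hdiffN k i z hzN).congr_of_eventuallyEq
        (eventually_of_mem ((W.isOpen_N k).mem_nhds hzN) fun w hw => hgVN k i w hw)
    · refine (hdiff i z (R.wedgePos_subset k ⟨hz, h⟩)).congr_of_eventuallyEq ?_
      exact eventually_of_mem ((R.isOpen_wedgePos k).mem_nhds ⟨hz, h⟩) fun w hw => hpos k i hw
  let G : SheetFun S :=
    { T := ∅
      g := fun i z => g i z ^ m
      gV := fun k i z => gV k i z ^ m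
      pos := fun k i z hz => by simp only [hpos k i hz]
      neg := fun k i z hz => by
        simp only [hneg k i hz, mul_pow, stdAddChar_pow_eq_one, one_mul]
      diff := fun i z hz _ => (hdiff i z hz).pow m
      diffV := fun k i z hz _ => (hdiffV k i z hz).pow m
      growth := fun q _ i => by
        obtain ⟨C, hC⟩ := S.sheetSum_le_near W.norm_s hHc q i
        refine ⟨0, C ^ m, ?_⟩
        filter_upwards [hC] with z hz hzΩ
        rw [pow_zero, mul_one, norm_pow]
        exact pow_le_pow_left₀ (norm_nonneg _) (hz hzΩ) m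
      growth_infty := fun i => by
        obtain ⟨K, C, hC⟩ := S.sheetSum_le_infty W.norm_s (H := H)
          (fun j => ⟨(P j).natDegree,
            (∑ l ∈ Finset.range ((P j).natDegree + 1), ‖(P j).coeff l‖) + max B 0, fun z hz1 => by
            rw [hHj, add_mul]
            refine (norm_add_le _ _).trans (add_le_add (norm_eval_le _ hz1) ?_)
            refine ((norm_le_pi_norm (sysT A H z) j).trans (hHB z)).trans ?_
            exact (le_max_left B 0).trans (le_mul_of_one_le_right (le_max_right _ _)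
              (one_le_pow₀ hz1))⟩) i
        refine ⟨K * m, C ^ m, ?_⟩
        filter_upwards [hC] with z hz hzΩ
        rw [norm_pow, pow_mul, ← mul_pow]
        exact pow_le_pow_left₀ (norm_nonneg _) (hz hzΩ) m }
  obtain ⟨f, T, hf⟩ := G.exists_elem
  have hf0 : f ≠ 0 := by
    rintro rfl
    have hH0 : H = fun _ => 0 :=
      S.eq_zero_of_sheetSum_eq_zero hs0 hHc T fun z hz hzT i => by
        have h := (hf z hz hzT).2 i
        have hroot : M.IsRootAt z (S.θ.η i z) := (S.θ.branch i).root z hz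
        rw [Model.val_zero hroot] at h
        exact eq_zero_of_pow_eq_zero h.symm
    refine hP (funext fun j => Polynomial.funext fun z => ?_)
    have := hHj j z
    simp [hH0, cauchyT] at this
    simp [← this]
  exact ⟨f, hf0, ⟨{
    T := T
    g := g
    gV := gV
    pos := hpos
    neg := hneg
    diff := hdiff
    diffV := hdiffV
    pow := fun i z hz hzT => ⟨(hf z hz hzT).1, ((hf z hz hzT).2 i).symm⟩ }⟩⟩

theorem eqOn_stdAddChar_mul_of_pow_eq {U : Set ℂ} (hU : IsOpen U) (hUc : IsPreconnected U)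
    {G₁ G₂ : ℂ → ℂ} (h1 : ∀ z ∈ U, DifferentiableAt ℂ G₁ z) (h2 : ∀ z ∈ U, DifferentiableAt ℂ G₂ z)
    {T : Finset ℂ} (hne : ∀ z ∈ U, z ∉ T → G₂ z ≠ 0)
    (he : ∀ z ∈ U, z ∉ T → G₁ z ^ m = G₂ z ^ m) (hU0 : U.Nonempty) :
    ∃ x : ZMod m, EqOn G₁ (fun z => ZMod.stdAddChar x * G₂ z) U := by
  obtain ⟨u, hu⟩ := hU0
  obtain ⟨z₀, hz₀, hz₀T⟩ :=
    ((infinite_of_mem_nhds u (hU.mem_nhds hu)).sdiff T.finite_toSet).nonempty
  obtain ⟨ε, hε, hball⟩ :=
    Metric.isOpen_iff.1 (hU.inter T.finite_toSet.isClosed.isOpen_compl) z₀ ⟨hz₀, hz₀T⟩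
  obtain ⟨x, hx⟩ := exists_eq_stdAddChar_mul (m := m) (convex_ball z₀ ε).isPreconnected
    (fun z hz => (h1 z (hball hz).1).continuousAt.continuousWithinAt)
    (fun z hz => (h2 z (hball hz).1).continuousAt.continuousWithinAt)
    (fun z hz => hne z (hball hz).1 (hball hz).2) (fun z hz => he z (hball hz).1 (hball hz).2)
  have hd1 : DifferentiableOn ℂ G₁ U := fun z hz => (h1 z hz).differentiableWithinAt
  have hd2 : DifferentiableOn ℂ (fun z => ZMod.stdAddChar x * G₂ z) U :=
    fun z hz => ((h2 z hz).const_mul _).differentiableWithinAt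
  exact ⟨x, (hd1.analyticOnNhd hU).eqOn_of_preconnected_of_eventuallyEq (hd2.analyticOnNhd hU) hUc
    hz₀ (eventually_of_mem (Metric.ball_mem_nhds z₀ hε) hx)⟩

/-- If `f = f' · γ ^ m` the jumps of the roots are cohomologous. -/
theorem RootSys.gauge_of_pow_eq {S : Sheets R} {f f' : F} {c c' : Fin R.r → Fin M.n → ZMod m}
    (G : RootSys S m f c) (G' : RootSys S m f' c') (hf : f ≠ 0) {γ : F}
    (hγ : f = f' * γ ^ m) : ∃ a : Fin M.n → ZMod m, gauge S.σ a = c - c' := by
  classical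
  obtain ⟨Aγ, d, hd, hrep⟩ := M.exists_rep' γ
  set T := G.T ∪ G'.T ∪ d.roots.toFinset ∪ (M.finite_not_regAt f⁻¹).toFinset with hTdef
  have hT : ∀ z, z ∉ T → z ∉ G.T ∧ z ∉ G'.T ∧ d.eval z ≠ 0 ∧ M.RegAt f⁻¹ z := by
    intro z hz
    simpa [T, not_or, and_assoc, Polynomial.mem_roots hd] using hz
  set G₁ : Fin M.n → ℂ → ℂ := fun i z => G.g i z * d.eval z
  set G₂ : Fin M.n → ℂ → ℂ := fun i z => G'.g i z * evAt z (S.θ.η i z) Aγ
  have key : ∀ i, ∀ z ∈ R.Omega, z ∉ T → G₁ i z ^ m = G₂ i z ^ m ∧ G₁ i z ≠ 0 := by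
    intro i z hz hzT
    obtain ⟨hT1, hT2, hdz, hinv⟩ := hT z hzT
    obtain ⟨hr, hp⟩ := G.pow i z hz hT1
    obtain ⟨hr', hp'⟩ := G'.pow i z hz hT2
    have hy : M.IsRootAt z (S.θ.η i z) := (S.θ.branch i).root z hz
    have hγr : M.RegAt γ z := ⟨Aγ, d, hdz, hrep⟩
    refine ⟨?_, mul_ne_zero (G.ne_zero hf i hz hT1 hinv) hdz⟩
    simp only [G₁, G₂, mul_pow, hp, hp', hγ]
    rw [Model.val_mul hr' (hγr.pow m) hy, Model.val_pow hγr hy, M.val_eq hrep hdz hy, div_pow,
      mul_assoc, div_mul_cancel₀ _ (pow_ne_zero _ hdz)]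
  have hx : ∀ i, ∃ x : ZMod m, EqOn (G₁ i) (fun z => ZMod.stdAddChar x * G₂ i z) R.Omega := fun i =>
    eqOn_stdAddChar_mul_of_pow_eq R.isOpen_Omega R.isPreconnected_Omega
      (fun z hz => (G.diff i z hz).mul d.differentiable.differentiableAt)
      (fun z hz => (G'.diff i z hz).mul ((differentiable_evAt Aγ).differentiableAt.comp z
        (differentiableAt_id.prodMk (S.differentiableAt_theta i hz))))
      (T := T) (fun z hz hzT h0 => by
        obtain ⟨h1, h2⟩ := key i z hz hzT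
        rw [h0, zero_pow (NeZero.ne m)] at h1
        exact h2 (eq_zero_of_pow_eq_zero h1))
      (fun z hz hzT => (key i z hz hzT).1) ⟨0, R.zero_mem_Omega⟩
  choose x hx using hx
  refine ⟨x, funext fun k => funext fun i => ?_⟩
  have hVd : DifferentiableOn ℂ (fun z => G.gV k i z * d.eval z) (R.wedge k) := fun z hz =>
    ((G.diffV k i z hz).mul d.differentiable.differentiableAt).differentiableWithinAt
  have hVd' : DifferentiableOn ℂ
      (fun z => ZMod.stdAddChar (x i) * (G'.gV k i z * evAt z ((S.w k).η i z) Aγ)) (R.wedge k) :=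
    fun z hz => (((G'.diffV k i z hz).mul ((differentiable_evAt Aγ).differentiableAt.comp z
      (differentiableAt_id.prodMk
        (S.differentiableAt_w k i hz)))).const_mul _).differentiableWithinAt
  obtain ⟨zp, hzp⟩ := R.wedgePos_nonempty k
  have hwedge := (hVd.analyticOnNhd (R.isOpen_wedge k)).eqOn_of_preconnected_of_eventuallyEq
    (hVd'.analyticOnNhd (R.isOpen_wedge k)) (R.convex_wedge k).isPreconnected hzp.1
    (eventually_of_mem ((R.isOpen_wedgePos k).mem_nhds hzp) fun z hz => by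
      show G.gV k i z * d.eval z
        = ZMod.stdAddChar (x i) * (G'.gV k i z * evAt z ((S.w k).η i z) Aγ)
      rw [G.pos k i hz, G'.pos k i hz, S.pos k i hz]
      exact hx i (R.wedgePos_subset k hz))
  obtain ⟨zn, hzn⟩ := R.wedgeNeg_nonempty k
  obtain ⟨z, hz, hzT⟩ := ((infinite_of_mem_nhds zn ((R.isOpen_wedgeNeg k).mem_nhds hzn)).sdiff
    T.finite_toSet).nonempty
  have h1 := hwedge hz.1
  have hzΩ := R.wedgeNeg_subset k hz
  simp only [G.neg k i hz, G'.neg k i hz, S.neg k i hz] at h1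
  have h2 : G.g (S.σ k i) z * d.eval z = ZMod.stdAddChar (x (S.σ k i)) * G₂ (S.σ k i) z :=
    hx (S.σ k i) hzΩ
  have h3 : ZMod.stdAddChar (c k i + x (S.σ k i)) * G₂ (S.σ k i) z
      = ZMod.stdAddChar (x i + c' k i) * G₂ (S.σ k i) z := by
    rw [AddChar.map_add_eq_mul, AddChar.map_add_eq_mul]
    simp only [G₂] at h2 ⊢
    linear_combination h1 - (ZMod.stdAddChar (c k i) : ℂ) * h2
  have hG2 : G₂ (S.σ k i) z ≠ 0 := fun h0 => by
    obtain ⟨h1', h2'⟩ := key (S.σ k i) z hzΩ hzT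
    rw [h0, zero_pow (NeZero.ne m)] at h1'
    exact h2' (eq_zero_of_pow_eq_zero h1')
  have := ZMod.injective_stdAddChar (mul_right_cancel₀ hG2 h3)
  simp only [gauge_apply, Pi.sub_apply]
  linear_combination -this

end Fermat.Agent.Tors
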