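import Fermat.Agent.Tors.Cauchy

/-!
# Solving `∂̄ H = A H` with polynomial behaviour at infinity

A finite-rank correction of the operator `H ↦ T (A H)` is a contraction; a polynomial vector
annihilated by the correction gives a non-zero solution.
-/

noncomputable section

open Complex MeasureTheory Filter Topology Set BoundedContinuousFunction
open scoped Real

namespace Fermat.Agent.Tors

variable {n : ℕ}

/-- Bounded continuous vector functions. -/
abbrev BSpace (n : ℕ) : Type := ℂ →ᵇ (Fin n → ℂ)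

/-- The transform of `A u`. -/
def sysT (A : ℂ → Fin n → Fin n → ℂ) (u : ℂ → Fin n → ℂ) (z : ℂ) : Fin n → ℂ :=
  fun j => cauchyT (fun w => ∑ l, A w j l * u w l) z

variable {A : ℂ → Fin n → Fin n → ℂ} {R : ℝ}

/-- The integrand of `sysT` is continuous. -/
theorem continuous_sum_mul (hA : Continuous A) {u : ℂ → Fin n → ℂ} (hu : Continuous u) (j : Fin n) :
    Continuous (fun w => ∑ l, A w j l * u w l) :=
  continuous_finsetSum _ fun l _ =>
    (show Continuous fun w => A w j l by fun_prop).mul ((continuous_apply l).comp hu)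

/-- The integrand of `sysT` is supported in the disc supporting `A`. -/
theorem sum_mul_eq_zero (hR : ∀ w, R < ‖w‖ → A w = 0) (u : ℂ → Fin n → ℂ) (j : Fin n) (w : ℂ)
    (hw : R < ‖w‖) : ∑ l, A w j l * u w l = 0 := by simp [hR w hw]

/-- The integrand of `sysT` is bounded by bounds on `A` and on `u` over the disc. -/
theorem norm_sum_mul_le {CA : ℝ} (hCA : ∀ w, ‖A w‖ ≤ CA) (hR : ∀ w, R < ‖w‖ → A w = 0)
    {u : ℂ → Fin n → ℂ} {B : ℝ} (hB : ∀ w, ‖w‖ ≤ R → ‖u w‖ ≤ B) (hB0 : 0 ≤ B) (j : Fin n) (w : ℂ) :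
    ‖∑ l, A w j l * u w l‖ ≤ n * CA * B := by
  have hCA0 : 0 ≤ CA := (norm_nonneg _).trans (hCA 0)
  by_cases hw : R < ‖w‖
  · rw [sum_mul_eq_zero hR u j w hw, norm_zero]; positivity
  refine (norm_sum_le _ _).trans ((Finset.sum_le_sum (g := fun _ => CA * B) fun l _ => ?_).trans ?_)
  · rw [norm_mul]
    exact mul_le_mul (((norm_le_pi_norm (A w j) l).trans (norm_le_pi_norm (A w) j)).trans (hCA w))
      ((norm_le_pi_norm (u w) l).trans (hB w (not_lt.1 hw))) (norm_nonneg _) hCA0
  · simp [mul_assoc]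

/-- `sysT A` is additive on continuous functions. -/
theorem sysT_add (hA : Continuous A) (hR : ∀ w, R < ‖w‖ → A w = 0) {u u' : ℂ → Fin n → ℂ}
    (hu : Continuous u) (hu' : Continuous u') : sysT A (u + u') = sysT A u + sysT A u' := by
  funext z j
  simp only [sysT, Pi.add_apply, mul_add, Finset.sum_add_distrib]
  exact cauchyT_add (continuous_sum_mul hA hu j) (continuous_sum_mul hA hu' j)
    (sum_mul_eq_zero hR u j) (sum_mul_eq_zero hR u' j) z

/-- `sysT A` is homogeneous. -/
theorem sysT_smul (c : ℂ) (u : ℂ → Fin n → ℂ) : sysT A (c • u) = c • sysT A u := by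
  funext z j
  simp only [sysT, Pi.smul_apply, smul_eq_mul, mul_left_comm _ c, ← Finset.mul_sum]
  exact cauchyT_const_mul c _ z

/-- The Cauchy transform of functions supported in a fixed disc is uniformly small far away. -/
theorem exists_cauchyT_decay (R : ℝ) {ε : ℝ} (hε : 0 < ε) :
    ∃ R₂ : ℝ, ∀ (v : ℂ → ℂ) (B : ℝ), (∀ w, R < ‖w‖ → v w = 0) → (∀ w, ‖v w‖ ≤ B) →
      ∀ z, R₂ < ‖z‖ → ‖cauchyT v z‖ ≤ ε * B := by
  set V := volume.real (Metric.closedBall (0 : ℂ) R)
  have hV : 0 ≤ V := measureReal_nonneg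
  refine ⟨max R 0 + (π⁻¹ * (V + 1)) / ε + 1, ?_⟩
  intro v B hvR hvB z hz
  have hB0 : 0 ≤ B := (norm_nonneg _).trans (hvB 0)
  refine (norm_cauchyT_le hvR hvB z).trans ?_
  set D := ‖z‖ - max R 0
  have hD : (π⁻¹ * (V + 1)) / ε ≤ D := by simp only [D]; linarith
  have hD0 : 0 < D := lt_of_lt_of_le (by positivity) hD
  have : ∫ w in Metric.closedBall (0 : ℂ) R, ‖(z - w)⁻¹‖ ≤ V * D⁻¹ := by
    calc _ ≤ ∫ _ in Metric.closedBall (0 : ℂ) R, D⁻¹ :=
          setIntegral_mono_on (integrableOn_sub_inv z R)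
            (integrableOn_const (measure_closedBall_lt_top).ne) measurableSet_closedBall
            fun w hw => by
              rw [norm_inv]
              refine inv_anti₀ hD0 ?_
              rw [mem_closedBall_zero_iff] at hw
              have := norm_sub_norm_le z w
              have := le_max_left R 0
              linarith
      _ = _ := by rw [setIntegral_const, smul_eq_mul]
  calc π⁻¹ * B * ∫ w in Metric.closedBall (0 : ℂ) R, ‖(z - w)⁻¹‖
      ≤ π⁻¹ * B * (V * D⁻¹) := mul_le_mul_of_nonneg_left this (by positivity)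
    _ = B * (π⁻¹ * V / D) := by ring
    _ ≤ B * ε := by
        refine mul_le_mul_of_nonneg_left ?_ hB0
        rw [div_le_iff₀ hD0]
        rw [div_le_iff₀ hε] at hD
        nlinarith [inv_pos.2 Real.pi_pos]
    _ = _ := mul_comm _ _

/-- A partition of unity on a disc subordinate to finitely many discs of radius `δ`. -/
theorem exists_partition (R₂ : ℝ) {δ : ℝ} (hδ : 0 < δ) :
    ∃ (t : Finset ℂ) (φ : t → ℂ → ℝ), (∀ l, Continuous (φ l)) ∧ (∀ l z, 0 ≤ φ l z) ∧
      (∀ z, ∑ l, φ l z ≤ 1) ∧ (∀ z, ‖z‖ ≤ R₂ → ∑ l, φ l z = 1) ∧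
      ∀ l z, φ l z ≠ 0 → ‖z - (l : ℂ)‖ < δ := by
  obtain ⟨t, -, ht⟩ := (isCompact_closedBall (0 : ℂ) R₂).elim_nhds_subcover
    (fun z => Metric.ball z (δ / 2)) fun z _ => Metric.ball_mem_nhds z (half_pos hδ)
  let ψ : t → ℂ → ℝ := fun l z => max 0 (δ - ‖z - (l : ℂ)‖)
  let Sψ : ℂ → ℝ := fun z => max (∑ l, ψ l z) (δ / 2)
  have hSpos : ∀ z, 0 < Sψ z := fun z => lt_of_lt_of_le (half_pos hδ) (le_max_right _ _)
  let φ : t → ℂ → ℝ := fun l z => ψ l z / Sψ z
  have hψ0 : ∀ l z, 0 ≤ ψ l z := fun l z => le_max_left _ _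
  have hφ0 : ∀ l z, 0 ≤ φ l z := fun l z => div_nonneg (hψ0 l z) (hSpos z).le
  have hφsum : ∀ z, ∑ l, φ l z ≤ 1 := fun z => by
    rw [← Finset.sum_div, div_le_one (hSpos z)]; exact le_max_left _ _
  have hφone : ∀ z, ‖z‖ ≤ R₂ → ∑ l, φ l z = 1 := fun z hz => by
    obtain ⟨l, hl, hzl⟩ := mem_iUnion₂.1 (ht (mem_closedBall_zero_iff.2 hz))
    rw [Metric.mem_ball, dist_eq_norm] at hzl
    have h1 : δ / 2 ≤ ∑ l, ψ l z := le_trans (by
      show δ / 2 ≤ ψ ⟨l, hl⟩ z
      exact le_trans (by linarith) (le_max_right _ _))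
      (Finset.single_le_sum (fun l _ => hψ0 l z) (Finset.mem_univ _))
    rw [← Finset.sum_div, div_eq_one_iff_eq (hSpos z).ne']
    exact (max_eq_left h1).symm
  have hφclose : ∀ l z, φ l z ≠ 0 → ‖z - (l : ℂ)‖ < δ := fun l z h => by
    by_contra hle
    exact h (by simp [φ, ψ, max_eq_left (sub_nonpos.2 (not_lt.1 hle))])
  have hφc : ∀ l, Continuous (φ l) := fun l =>
    ((continuous_const.max (by fun_prop)).div
      ((continuous_finsetSum _ fun l _ => continuous_const.max (by fun_prop)).max continuous_const)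
      fun z => (hSpos z).ne')
  exact ⟨t, φ, hφc, hφ0, hφsum, hφone, hφclose⟩

/-- An operator on bounded functions with a common modulus of continuity and common decay is
close to an operator which only depends on the values at finitely many points. -/
theorem exists_near_finiteRank (L : BSpace n →L[ℂ] BSpace n) {η δ R₂ : ℝ} (hη : 0 ≤ η) (hδ : 0 < δ)
    (hLmod : ∀ u z z', ‖z - z'‖ < δ → ‖L u z - L u z'‖ ≤ η * ‖u‖)
    (hLdec : ∀ u z, R₂ < ‖z‖ → ‖L u z‖ ≤ η * ‖u‖) :
    ∃ (t : Finset ℂ) (Ff : BSpace n →L[ℂ] BSpace n), ‖L - Ff‖ ≤ 2 * η ∧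
      ∀ u, (∀ l : t, L u l = 0) → Ff u = 0 := by
  classical
  obtain ⟨t, φ, hφc, hφ0, hφsum, hφone, hφclose⟩ := exists_partition R₂ hδ
  let spread₀ : (t → Fin n → ℂ) →ₗ[ℂ] (BSpace n) :=
    { toFun := fun y => BoundedContinuousFunction.ofNormedAddCommGroup
        (fun z => ∑ l, (φ l z : ℂ) • y l)
        (continuous_finsetSum _ fun l _ => (Complex.continuous_ofReal.comp (hφc l)).smul
            continuous_const)
        ‖y‖ (fun z => by
          refine (norm_sum_le _ _).trans ?_
          calc ∑ l, ‖(φ l z : ℂ) • y l‖ ≤ ∑ l, φ l z * ‖y‖ := Finset.sum_le_sum fun l _ => by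
                rw [norm_smul, Complex.norm_real, Real.norm_eq_abs, abs_of_nonneg (hφ0 l z)]
                exact mul_le_mul_of_nonneg_left (norm_le_pi_norm y l) (hφ0 l z)
            _ ≤ ‖y‖ := by
                rw [← Finset.sum_mul]
                exact mul_le_of_le_one_left (norm_nonneg _) (hφsum z))
      map_add' := fun y y' => by ext z j; simp [Finset.sum_add_distrib]
      map_smul' := fun c y => by ext z j; simp [Finset.mul_sum, mul_left_comm] }
  let evs : (BSpace n) →ₗ[ℂ] (t → Fin n → ℂ) :=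
    { toFun := fun u l => L u l
      map_add' := fun u u' => by ext; simp
      map_smul' := fun c u => by ext; simp }
  let Ff : (BSpace n) →L[ℂ] (BSpace n) := spread₀.toContinuousLinearMap.comp
    (evs.mkContinuous ‖L‖ fun u => (pi_norm_le_iff_of_nonneg (by positivity)).2 fun l =>
      ((L u).norm_coe_le_norm _).trans (L.le_opNorm u))
  have hFf : ∀ u z, Ff u z = ∑ l, (φ l z : ℂ) • L u l := fun u z => rfl
  refine ⟨t, Ff, ?_, fun u hu => by ext z j; simp [hFf, hu]⟩
  refine ContinuousLinearMap.opNorm_le_bound _ (by positivity) fun u => ?_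
  refine (BoundedContinuousFunction.norm_le (by positivity)).2 fun z => ?_
  rw [_root_.sub_apply, BoundedContinuousFunction.sub_apply, hFf]
  have hdec : L u z - ∑ l, (φ l z : ℂ) • L u l
      = (∑ l, (φ l z : ℂ) • (L u z - L u l)) + ((1 - ∑ l, φ l z : ℝ) : ℂ) • L u z := by
    simp only [smul_sub, Finset.sum_sub_distrib, ← Finset.sum_smul, ofReal_sub, ofReal_one,
      ofReal_sum, sub_smul, one_smul]
    abel
  rw [hdec, mul_assoc, two_mul]
  refine (norm_add_le _ _).trans (add_le_add ((norm_sum_le _ _).trans ?_) ?_)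
  · calc ∑ l, ‖(φ l z : ℂ) • (L u z - L u l)‖ ≤ ∑ l, φ l z * (η * ‖u‖) :=
          Finset.sum_le_sum fun l _ => by
            rw [norm_smul, Complex.norm_real, Real.norm_eq_abs, abs_of_nonneg (hφ0 l z)]
            by_cases hl : φ l z = 0
            · simp [hl]
            · exact mul_le_mul_of_nonneg_left (hLmod u z _ (hφclose l z hl)) (hφ0 l z)
      _ ≤ η * ‖u‖ := by
          rw [← Finset.sum_mul]
          exact mul_le_of_le_one_left (by positivity) (hφsum z)
  · by_cases hz : ‖z‖ ≤ R₂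
    · simp only [hφone z hz, sub_self, ofReal_zero, zero_smul, norm_zero]; positivity
    rw [norm_smul, Complex.norm_real, Real.norm_eq_abs,
      abs_of_nonneg (sub_nonneg.2 (hφsum z))]
    refine (mul_le_of_le_one_left (norm_nonneg _)
      (by linarith [Finset.sum_nonneg fun l (_ : l ∈ Finset.univ) => hφ0 l z])).trans ?_
    exact hLdec u z (not_le.1 hz)

/-- **A non-zero solution of `∂̄ H = A H` with polynomial behaviour at infinity.** -/
theorem exists_dbar_solution (hn : 0 < n) (A : ℂ → Fin n → Fin n → ℂ) (hA : Continuous A)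
    {R : ℝ} (hR : ∀ w, R < ‖w‖ → A w = 0) :
    ∃ (P : Fin n → Polynomial ℂ) (H : ℂ → Fin n → ℂ) (B : ℝ), P ≠ 0 ∧ Continuous H ∧
      (∀ z, H z = (fun j => (P j).eval z) + sysT A H z) ∧ ∀ z, ‖sysT A H z‖ ≤ B := by
  classical
  obtain ⟨CA, hCA⟩ := hA.bounded_above_of_compact_support
    (HasCompactSupport.intro (isCompact_closedBall (0 : ℂ) R) fun w hw => hR w (by simpa using hw))
  have hCA0 : 0 ≤ CA := (norm_nonneg _).trans (hCA 0)
  have hcont : ∀ u : ℂ → Fin n → ℂ, Continuous u → Continuous (sysT A u) := fun u hu =>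
    continuous_pi fun j => continuous_cauchyT (continuous_sum_mul hA hu j) (sum_mul_eq_zero hR u j)
  obtain ⟨C, hC0, hC⟩ := exists_cauchyT_bound R
  have hbound : ∀ (u : ℂ → Fin n → ℂ) (B : ℝ), (∀ w, ‖w‖ ≤ R → ‖u w‖ ≤ B) → 0 ≤ B → ∀ z,
      ‖sysT A u z‖ ≤ C * (n * CA * B) := fun u B hB hB0 z =>
    (pi_norm_le_iff_of_nonneg (by positivity)).2 fun j => hC _ _ (sum_mul_eq_zero hR u j)
      (norm_sum_mul_le hCA hR hB hB0 j) z
  -- the operator on bounded functions
  let lift : (ℂ → Fin n → ℂ) → (BSpace n) := fun u =>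
    if h : Continuous u ∧ ∃ B, ∀ z, ‖sysT A u z‖ ≤ B then
      BoundedContinuousFunction.ofNormedAddCommGroup (sysT A u) (hcont u h.1) h.2.choose
        h.2.choose_spec
    else 0
  have hlift : ∀ u : ℂ → Fin n → ℂ, Continuous u → ⇑(lift u) = sysT A u := by
    intro u hu
    obtain ⟨B, hB⟩ := (isCompact_closedBall (0 : ℂ) R).exists_bound_of_continuousOn hu.continuousOn
    have h : Continuous u ∧ ∃ B, ∀ z, ‖sysT A u z‖ ≤ B := ⟨hu, _, hbound u (max B 0)
      (fun w hw => (hB w (by simpa using hw)).trans (le_max_left _ _)) (le_max_right _ _)⟩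
    simp only [lift, dif_pos h]
    rfl
  let L₀ : (BSpace n) →ₗ[ℂ] (BSpace n) :=
    { toFun := fun u => lift u
      map_add' := fun u u' => DFunLike.coe_injective (by
        rw [hlift _ (u + u').continuous, BoundedContinuousFunction.coe_add,
          sysT_add hA hR u.continuous u'.continuous, BoundedContinuousFunction.coe_add,
          hlift _ u.continuous, hlift _ u'.continuous])
      map_smul' := fun c u => BoundedContinuousFunction.ext fun z => by
        show lift ⇑(c • u) z = c • lift u z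
        rw [congr_fun (hlift _ (c • u).continuous) z, congr_fun (hlift _ u.continuous) z]
        exact congr_fun (sysT_smul c (u : ℂ → Fin n → ℂ)) z }
  let L : (BSpace n) →L[ℂ] (BSpace n) := L₀.mkContinuous (C * (n * CA)) fun u => by
    refine (BoundedContinuousFunction.norm_le (by positivity)).2 fun z => ?_
    rw [show (L₀ u) z = sysT A u z from congr_fun (hlift _ u.continuous) z]
    exact (hbound u ‖u‖ (fun w _ => u.norm_coe_le_norm w) (norm_nonneg _) z).trans
        (le_of_eq (by ring))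
  have hL : ∀ (u : (BSpace n)) (z : ℂ), L u z = sysT A u z := fun u z =>
    congr_fun (hlift _ u.continuous) z
  -- uniform continuity and decay
  set ε : ℝ := 1 / (4 * (n * CA + 1)) with hεdef
  have hε : 0 < ε := by positivity
  obtain ⟨δ, hδ, hmod⟩ := exists_cauchyT_modulus R hε
  obtain ⟨R₂, hdecay⟩ := exists_cauchyT_decay R hε
  obtain ⟨t, Ff, hsmall', hFf⟩ := exists_near_finiteRank L (η := ε * (n * CA)) (by positivity) hδ
    (fun u z z' hz' => by
      rw [hL, hL, mul_assoc]
      exact (pi_norm_le_iff_of_nonneg (by positivity)).2 fun j => hmod _ _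
        (continuous_sum_mul hA u.continuous j) (sum_mul_eq_zero hR u j)
        (norm_sum_mul_le hCA hR (fun w _ => u.norm_coe_le_norm w) (norm_nonneg _) j) z z' hz')
    (fun u z hz => by
      rw [hL, mul_assoc]
      exact (pi_norm_le_iff_of_nonneg (by positivity)).2 fun j => hdecay _ _
        (sum_mul_eq_zero hR u j)
        (norm_sum_mul_le hCA hR (fun w _ => u.norm_coe_le_norm w) (norm_nonneg _) j) z hz)
  have hsmall : ‖L - Ff‖ ≤ 1 / 2 := hsmall'.trans (by
    rw [hεdef, ← mul_assoc, mul_one_div, div_mul_eq_mul_div,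
      div_le_div_iff₀ (by positivity) (by norm_num)]
    linarith)
  let evs : (BSpace n) →ₗ[ℂ] (t → Fin n → ℂ) :=
    { toFun := fun u l => L u l
      map_add' := fun u u' => by ext; simp
      map_smul' := fun c u => by ext; simp }
  let U := Units.oneSub (L - Ff) (lt_of_le_of_lt hsmall (by norm_num))
  -- polynomials killed by the correction
  let D := t.card * n
  let Q₀ : (Fin (D + 1) → ℂ) →ₗ[ℂ] Polynomial ℂ :=
    { toFun := fun c => ∑ i : Fin (D + 1), Polynomial.monomial (i : ℕ) (c i)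
      map_add' := fun c c' => by simp [Finset.sum_add_distrib]
      map_smul' := fun a c => by simp [Finset.smul_sum, Polynomial.smul_monomial] }
  let Q : (Fin (D + 1) → ℂ) →ₗ[ℂ] (Fin n → Polynomial ℂ) :=
    (LinearMap.single ℂ (fun _ : Fin n => Polynomial ℂ) ⟨0, hn⟩).comp Q₀
  have hQ : ∀ c, Q c = 0 → c = 0 := by
    intro c hc
    have h0 := congrArg (fun P => P ⟨0, hn⟩) hc
    simp only [Q, Q₀, LinearMap.comp_apply, LinearMap.coe_single, Pi.single_eq_same, Pi.zero_apply,
      LinearMap.coe_mk, AddHom.coe_mk] at h0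
    funext i
    have := congrArg (fun p => Polynomial.coeff p (i : ℕ)) h0
    simpa [Polynomial.coeff_monomial, Fin.val_inj] using this
  have hevc : ∀ P : Fin n → Polynomial ℂ, Continuous (fun z j => (P j).eval z) := fun P =>
    continuous_pi fun j => (P j).continuous
  let bP : (Fin (D + 1) → ℂ) →ₗ[ℂ] (BSpace n) :=
    { toFun := fun c => lift (fun z j => (Q c j).eval z)
      map_add' := fun c c' => DFunLike.coe_injective (by
        rw [hlift _ (hevc _), BoundedContinuousFunction.coe_add, hlift _ (hevc _), hlift _ (hevc _),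
          ← sysT_add hA hR (hevc _) (hevc _)]
        congr 1
        funext z j
        simp)
      map_smul' := fun a c => BoundedContinuousFunction.ext fun z => by
        show lift _ z = a • lift _ z
        rw [congr_fun (hlift _ (hevc _)) z, congr_fun (hlift _ (hevc _)) z]
        refine Eq.trans ?_ (congr_fun (sysT_smul a _) z)
        congr 1
        funext z j
        simp }
  let Ψ : (Fin (D + 1) → ℂ) →ₗ[ℂ] (t → Fin n → ℂ) :=
    evs.comp ((↑U⁻¹ : (BSpace n) →L[ℂ] (BSpace n)).toLinearMap.comp bP)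
  obtain ⟨c, hc, hc0⟩ := Submodule.exists_mem_ne_zero_of_ne_bot
    (LinearMap.ker_ne_bot_of_finrank_lt (f := Ψ) (by
      simp [Module.finrank_pi_fintype, Module.finrank_fintype_fun_eq_card, D]))
  set u : (BSpace n) := (↑U⁻¹ : (BSpace n) →L[ℂ] (BSpace n)) (bP c) with hu
  have hFu : Ff u = 0 := hFf u fun l => congr_fun (LinearMap.mem_ker.1 hc) l
  have heq : u - L u = bP c := by
    have h1 : (↑U : (BSpace n) →L[ℂ] (BSpace n)) u = bP c := by
      rw [hu]
      show ((↑U : BSpace n →L[ℂ] BSpace n) * ↑U⁻¹) (bP c) = _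
      rw [Units.mul_inv]
      rfl
    have h2 : u - (L u - Ff u) = bP c := by rw [← h1, Units.val_oneSub]; rfl
    rwa [hFu, sub_zero] at h2
  set P := Q c
  let H : ℂ → Fin n → ℂ := fun z => (fun j => (P j).eval z) + u z
  have hHc : Continuous H := (hevc P).add u.continuous
  have hTH : ∀ z, sysT A H z = u z := by
    intro z
    have h1 := congr_fun (congrArg DFunLike.coe heq) z
    rw [BoundedContinuousFunction.coe_sub, Pi.sub_apply, hL,
      show bP c z = sysT A (fun z j => (P j).eval z) z from congr_fun (hlift _ (hevc P)) z] at h1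
    rw [show H = (fun z j => (P j).eval z) + ⇑u from rfl, sysT_add hA hR (hevc P) u.continuous,
      Pi.add_apply, ← h1, sub_add_cancel]
  exact ⟨P, H, ‖u‖, fun h0 => hc0 (hQ c h0), hHc, fun z => by rw [hTH z],
    fun z => by rw [hTH z]; exact u.norm_coe_le_norm z⟩

end Fermat.Agent.Tors
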