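import Fermat.Agent.Tors.Glue

/-!
# Values of elements of the function field on the sheets

Branches near good points, holomorphy of the values of functions on the sheets, and polar bounds for
their growth at the punctures and at infinity.
-/

noncomputable section

open Polynomial Filter Topology Set AlgebraicCurve Complex Fermat.Agent.FF
open scoped Real

namespace Fermat.Agent.Tors

variable {F : Type*} [Field F] [Algebra ℂ F] {M : Model ℂ F}

/-- A continuous root of a nonvanishing holomorphic function is holomorphic. -/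
theorem differentiableAt_of_pow_eq {g h : ℂ → ℂ} {z : ℂ} {m : ℕ} (hm : m ≠ 0)
    (hg : ContinuousAt g z) (hh : DifferentiableAt ℂ h z) (hne : g z ≠ 0)
    (he : ∀ᶠ w in 𝓝 z, g w ^ m = h w) : DifferentiableAt ℂ g z := by
  have hz : g z ^ m = h z := he.self_of_nhds
  have hhz : h z ≠ 0 := hz ▸ pow_ne_zero m hne
  have hm' : (m : ℂ) ≠ 0 := by exact_mod_cast hm
  set q : ℂ → ℂ := fun w => cexp (Complex.log (h w / h z) / m) with hq
  have hq1 : q z = 1 := by simp [q, div_self hhz]
  have hqd : DifferentiableAt ℂ q z := by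
    refine (DifferentiableAt.div_const ?_ _).cexp
    exact (hh.div_const _).clog (by simp [div_self hhz])
  set r : ℂ → ℂ := fun w => g w / (g z * q w)
  have hr : ContinuousAt r z :=
    hg.div (continuousAt_const.mul hqd.continuousAt) (by simp [hne, hq1])
  have hr1 : r z = 1 := by simp [r, hq1, div_self hne]
  have hfin : {x : ℂ | x ^ m = 1 ∧ x ≠ 1}.Finite := by
    refine (Polynomial.nthRootsFinset m (1 : ℂ)).finite_toSet.subset fun x hx => ?_
    simp [Polynomial.mem_nthRootsFinset (Nat.pos_of_ne_zero hm), hx.1]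
  have hev : ∀ᶠ w in 𝓝 z, r w = 1 := by
    have h1 : ∀ᶠ w in 𝓝 z, r w ∉ {x : ℂ | x ^ m = 1 ∧ x ≠ 1} :=
      hr.preimage_mem_nhds (hfin.isClosed.isOpen_compl.mem_nhds (by simp [hr1]))
    filter_upwards [h1, he, hh.continuousAt.eventually_ne hhz] with w hw hwe hw0
    by_contra hne'
    refine hw ⟨?_, hne'⟩
    simp only [r, q, div_pow, mul_pow, ← Complex.exp_nat_mul, mul_div_cancel₀ _ hm',
      Complex.exp_log (div_ne_zero hw0 hhz), hz, hwe]
    field_simp
  refine DifferentiableAt.congr_of_eventuallyEq ((hqd.const_mul (g z))) ?_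
  filter_upwards [hev] with w hw
  have hd : g z * q w ≠ 0 := mul_ne_zero hne (Complex.exp_ne_zero _)
  exact (div_eq_one_iff_eq hd).1 hw

namespace Model

/-- Branches on a disc around a good point. -/
theorem exists_branches_ball (M : Model ℂ F) {q : ℂ} (hq : M.Good q) :
    ∃ ε > 0, (∀ z ∈ Metric.ball q ε, M.Good z) ∧ Nonempty (M.Branches (Metric.ball q ε) id) := by
  obtain ⟨ε, hε, hsub⟩ := Metric.isOpen_iff.1 M.isOpen_good q hq
  refine ⟨ε, hε, fun z hz => hsub hz, Branches.nonempty Metric.isOpen_ball ?_ continuousOn_id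
    (fun z hz => hsub hz)⟩
  have := (convex_ball q ε).contractibleSpace ⟨q, Metric.mem_ball_self hε⟩
  show SimplyConnectedSpace (Metric.ball q ε)
  infer_instance

theorem phi_some_mem_ball (q : ℂ) {ε : ℝ} (hε : 0 < ε) :
    MapsTo (phi (some q)) (halfPlane (Real.log ε)) (Metric.ball q ε) := by
  intro u hu
  rw [Metric.mem_ball, dist_eq_norm]
  simp only [phi, add_sub_cancel_left, Complex.norm_exp]
  exact (Real.lt_log_iff_exp_lt hε).1 hu

/-- A branch near a good point gives a lift. -/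
theorem IsBranch.isLift {q : ℂ} {ε : ℝ} (hε : 0 < ε) (hgood : ∀ z ∈ Metric.ball q ε, M.Good z)
    {η : ℂ → ℂ} (h : M.IsBranch (Metric.ball q ε) id η) :
    M.IsLift (some q) (η ∘ phi (some q)) :=
  ⟨Real.log ε, h.comp (continuous_phi (some q)).continuousOn (phi_some_mem_ball q hε),
    fun _ hu => hgood _ (phi_some_mem_ball q hε hu)⟩

/-- Functions regular over a good point have a representative with nonvanishing denominator. -/
theorem regAt_of_regular (M : Model ℂ F) {f : F} {q : ℂ} (hq : M.Good q)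
    (hreg : ∀ v, M.Over (some q) v → 0 ≤ v.ord f) : M.RegAt f q := by
  classical
  obtain ⟨A, d, hd, h⟩ := M.exists_rep' f
  obtain ⟨ε, hε, hgood, ⟨B⟩⟩ := M.exists_branches_ball hq
  induction hk : d.rootMultiplicity q generalizing A d with
  | zero =>
    refine ⟨A, d, fun h0 => ?_, h⟩
    have := (rootMultiplicity_pos hd).2 h0
    omega
  | succ k ih =>
    obtain ⟨d', hd'⟩ : (X - Polynomial.C q) ∣ d :=
      dvd_iff_isRoot.2 ((rootMultiplicity_pos hd).1 (by omega))
    rw [← M.ev_modByMonic] at h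
    set A' := A %ₘ M.P with hA'
    have hvan : ∀ v, M.Over (some q) v → M.ev A' = 0 ∨ 0 < v.ord (M.ev A') := by
      intro v hv
      by_cases hf : f = 0
      · left; rw [← h, hf, zero_mul]
      right
      rw [← h, v.ord_mul hf (M.aeval_ne_zero hd), M.ord_aeval hv hd]
      have h1 := hreg v hv
      have h2 : 0 < v.ord (M.xi (some q)) := hv
      have h3 : 0 < v.ord (M.xi (some q)) * mu (some q) d :=
        mul_pos h2 (by simp [mu, hk])
      omega
    have hzero : ∀ i, evAt q (B.η i q) A' = 0 := by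
      intro i
      have hl := (B.branch i).isLift hε hgood
      have h1 := (hl.tendsto_zero_of_vanishing hvan).congr' (hl.along_ev A')
      have hc : ContinuousAt (fun z => evAt z (B.η i z) A') q :=
        ((differentiable_evAt A').continuous.continuousAt).comp
          (continuousAt_id.prodMk ((B.branch i).cont.continuousAt (Metric.ball_mem_nhds q hε)))
      exact tendsto_nhds_unique
        (hc.tendsto.comp ((tendsto_phi_some q).mono_right nhdsWithin_le_nhds)) h1
    have hdeg : A' = 0 ∨ A'.natDegree < M.n := by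
      by_cases h0 : A' = 0
      · exact Or.inl h0
      · exact Or.inr (natDegree_lt_natDegree h0 (degree_modByMonic_lt _ M.monic))
    have hdvd : Polynomial.C (X - Polynomial.C q) ∣ A' := by
      rw [C_dvd_iff_dvd_coeff]
      intro j
      rcases hdeg with h0 | hlt
      · simp [h0]
      rw [dvd_iff_isRoot, IsRoot.def]
      exact coeff_eval_eq_zero_of_evAt hlt (B.injective q (Metric.mem_ball_self hε)) hzero j
    obtain ⟨A'', hA''⟩ := hdvd
    have hd'0 : d' ≠ 0 := fun h0 => hd (by rw [hd', h0, mul_zero])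
    refine ih A'' d' hd'0 ?_ ?_
    · rw [hA'', hd', map_mul, map_mul, ev_C] at h
      refine mul_left_cancel₀ (M.aeval_ne_zero (X_sub_C_ne_zero q)) ?_
      linear_combination h
    · rw [hd', rootMultiplicity_mul (hd' ▸ hd), rootMultiplicity_X_sub_C_self] at hk
      omega

theorem val_ne_zero {f : F} (hf : f ≠ 0) {z y : ℂ} (h : M.RegAt f z) (h' : M.RegAt f⁻¹ z)
    (hy : M.IsRootAt z y) : M.val f z y ≠ 0 := by
  intro h0
  have := val_mul h h' hy
  rw [mul_inv_cancel₀ hf, val_one hy, h0, zero_mul] at this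
  exact one_ne_zero this

end Model

variable {R : Rays M} (S : Sheets R)

theorem Sheets.differentiableAt_theta (i : Fin M.n) {z : ℂ} (hz : z ∈ R.Omega) :
    DifferentiableAt ℂ (S.θ.η i) z :=
  (S.θ.branch i).differentiableAt R.isOpen_Omega differentiableOn_id
    (fun _ hu => R.good_Omega hu) hz

theorem Sheets.differentiableAt_w (k : Fin R.r) (i : Fin M.n) {z : ℂ} (hz : z ∈ R.wedge k) :
    DifferentiableAt ℂ ((S.w k).η i) z :=
  ((S.w k).branch i).differentiableAt (R.isOpen_wedge k) differentiableOn_id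
    (fun _ hu => R.good_wedge hu) hz

theorem Sheets.differentiableAt_val_theta (f : F) (i : Fin M.n) {z : ℂ} (hz : z ∈ R.Omega)
    (hf : M.RegAt f z) : DifferentiableAt ℂ (fun w => M.val f w (S.θ.η i w)) z :=
  M.differentiableAt_val (φ := id) differentiableAt_id (S.differentiableAt_theta i hz)
    (eventually_of_mem (R.isOpen_Omega.mem_nhds hz) fun w hw => (S.θ.branch i).root w hw) hf

theorem Sheets.differentiableAt_val_w (f : F) (k : Fin R.r) (i : Fin M.n) {z : ℂ}
    (hz : z ∈ R.wedge k) (hf : M.RegAt f z) :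
    DifferentiableAt ℂ (fun w => M.val f w ((S.w k).η i w)) z :=
  M.differentiableAt_val (φ := id) differentiableAt_id (S.differentiableAt_w k i hz)
    (eventually_of_mem ((R.isOpen_wedge k).mem_nhds hz) fun w hw => ((S.w k).branch i).root w hw) hf

/-- Values on the sheets have at most polar growth at a finite point. -/
theorem Sheets.val_growth (f : F) (q : ℂ) :
    ∃ (N : ℕ) (C : ℝ), ∀ᶠ z in 𝓝[≠] q, z ∈ R.Omega →
      M.RegAt f z ∧ ∀ i, ‖M.val f z (S.θ.η i z)‖ * ‖z - q‖ ^ N ≤ C := by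
  obtain ⟨A, d, hd, h⟩ := M.exists_rep' f
  obtain ⟨e, he, heq⟩ := Polynomial.exists_eq_pow_rootMultiplicity_mul_and_not_dvd d hd q
  rw [dvd_iff_isRoot] at heq
  obtain ⟨B, hB⟩ := norm_branch_le_near (S := S) q
  set E : ℂ → ℝ := fun z =>
    (∑ j ∈ Finset.range (A.natDegree + 1), ‖(A.coeff j).eval z‖ * max B 0 ^ j) / ‖e.eval z‖
  have hE : ContinuousAt E q :=
    ContinuousAt.div (Continuous.continuousAt (by fun_prop)) (Continuous.continuousAt (by fun_prop))
      (norm_ne_zero_iff.2 heq)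
  refine ⟨d.rootMultiplicity q, E q + 1, ?_⟩
  filter_upwards [hB, self_mem_nhdsWithin,
    nhdsWithin_le_nhds (hE.eventually (eventually_le_nhds (lt_add_one _))),
    nhdsWithin_le_nhds (e.continuous.continuousAt.eventually_ne heq)] with z hzB hzq hzE hze hzΩ
  have hzq : z - q ≠ 0 := sub_ne_zero.2 hzq
  have hde : d.eval z = (z - q) ^ d.rootMultiplicity q * e.eval z := by
    conv_lhs => rw [he]
    simp
  have hdz : d.eval z ≠ 0 := hde ▸ mul_ne_zero (pow_ne_zero _ hzq) hze
  refine ⟨⟨A, d, hdz, h⟩, fun i => le_trans ?_ hzE⟩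
  rw [M.val_eq h hdz ((S.θ.branch i).root z hzΩ), norm_div, hde, norm_mul, norm_pow]
  rw [show ‖evAt z (S.θ.η i z) A‖ / (‖z - q‖ ^ d.rootMultiplicity q * ‖e.eval z‖)
      * ‖z - q‖ ^ d.rootMultiplicity q = ‖evAt z (S.θ.η i z) A‖ / ‖e.eval z‖ by field_simp]
  refine div_le_div_of_nonneg_right ?_ (norm_nonneg _)
  rw [evAt_eq_sum]
  refine (norm_sum_le _ _).trans (Finset.sum_le_sum fun j _ => ?_)
  rw [norm_mul, norm_pow]
  exact mul_le_mul_of_nonneg_left
    (pow_le_pow_left₀ (norm_nonneg _) ((hzB hzΩ i).trans (le_max_left _ _)) j) (norm_nonneg _)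

theorem norm_eval_le (a : ℂ[X]) {z : ℂ} (hz : 1 ≤ ‖z‖) :
    ‖a.eval z‖ ≤ (∑ k ∈ Finset.range (a.natDegree + 1), ‖a.coeff k‖) * ‖z‖ ^ a.natDegree := by
  rw [eval_eq_sum_range, Finset.sum_mul]
  refine (norm_sum_le _ _).trans (Finset.sum_le_sum fun k hk => ?_)
  rw [norm_mul, norm_pow]
  rw [Finset.mem_range] at hk
  exact mul_le_mul_of_nonneg_left (pow_le_pow_right₀ hz (by omega)) (norm_nonneg _)

theorem exists_lower_bound_eval {d : ℂ[X]} (hd : d ≠ 0) :
    ∃ c > 0, ∀ᶠ z in Bornology.cobounded ℂ, c ≤ ‖d.eval z‖ := by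
  by_cases h0 : d.degree ≤ 0
  · rw [eq_C_of_degree_le_zero h0]
    refine ⟨‖d.coeff 0‖, norm_pos_iff.2 fun h => hd ?_, Eventually.of_forall fun z => by simp⟩
    rw [eq_C_of_degree_le_zero h0, h, map_zero]
  · exact ⟨1, one_pos,
      (d.tendsto_norm_atTop (not_le.1 h0) tendsto_norm_cobounded_atTop).eventually
        (eventually_ge_atTop 1)⟩

/-- Values on the sheets have at most polynomial growth at infinity. -/
theorem Sheets.val_growth_infty (f : F) :
    ∃ (N : ℕ) (C : ℝ), ∀ᶠ z in Bornology.cobounded ℂ, z ∈ R.Omega →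
      M.RegAt f z ∧ ∀ i, ‖M.val f z (S.θ.η i z)‖ ≤ C * ‖z‖ ^ N := by
  obtain ⟨A, d, hd, h⟩ := M.exists_rep' f
  obtain ⟨c, hc, hcd⟩ := exists_lower_bound_eval hd
  obtain ⟨D, B, hB⟩ := norm_branch_le_infty M
  set s := Finset.range (A.natDegree + 1)
  set N := s.sup fun j => (A.coeff j).natDegree + D * j
  refine ⟨N, (∑ j ∈ s, (∑ k ∈ Finset.range ((A.coeff j).natDegree + 1), ‖(A.coeff j).coeff k‖)
      * max B 0 ^ j) / c, ?_⟩
  filter_upwards [hcd, tendsto_norm_cobounded_atTop.eventually (eventually_ge_atTop 1)]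
    with z hz hz1 hzΩ
  have hdz : d.eval z ≠ 0 := norm_pos_iff.1 (hc.trans_le hz)
  refine ⟨⟨A, d, hdz, h⟩, fun i => ?_⟩
  rw [M.val_eq h hdz ((S.θ.branch i).root z hzΩ), norm_div, div_mul_eq_mul_div]
  refine div_le_div₀ (by positivity) ?_ hc hz
  rw [evAt_eq_sum, Finset.sum_mul]
  refine (norm_sum_le _ _).trans (Finset.sum_le_sum fun j hj => ?_)
  rw [norm_mul, norm_pow]
  refine (mul_le_mul (norm_eval_le _ hz1) (pow_le_pow_left₀ (norm_nonneg _)
    ((hB z hz1 _ ((S.θ.branch i).root z hzΩ)).trans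
      (mul_le_mul_of_nonneg_right (le_max_left B 0) (pow_nonneg (norm_nonneg z) D))) j)
    (pow_nonneg (norm_nonneg _) j)
      (mul_nonneg (Finset.sum_nonneg fun _ _ => norm_nonneg _)
          (pow_nonneg (norm_nonneg z) _))).trans ?_
  rw [mul_pow, mul_mul_mul_comm, ← pow_mul, ← pow_add]
  exact mul_le_mul_of_nonneg_left (pow_le_pow_right₀ hz1
    (Finset.le_sup (f := fun j => (A.coeff j).natDegree + D * j) hj)) (by positivity)

end Fermat.Agent.Tors
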