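import Fermat.Agent.Mono.Char
import Fermat.Agent.Tors.Count
import Fermat.Agent.Tors.Val

/-!
# Systems of `m`-th roots on the sheets and their jumps

`RootSys S m f c`: holomorphic `g` on every sheet with `g ^ m = f`, whose continuation across the
cuts is twisted by the cochain `c`.
-/

noncomputable section

open Polynomial Filter Topology Set AlgebraicCurve Complex Fermat.Agent.FF Equiv
open scoped Real

namespace Fermat.Agent.Tors

variable {m : ℕ} [NeZero m]

theorem stdAddChar_pow_eq_one (x : ZMod m) : (ZMod.stdAddChar x : ℂ) ^ m = 1 := by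
  rw [← AddChar.map_nsmul_eq_pow, nsmul_eq_mul, ZMod.natCast_self, zero_mul,
      AddChar.map_zero_eq_one]

theorem stdAddChar_ne_zero (x : ZMod m) : (ZMod.stdAddChar x : ℂ) ≠ 0 := fun h => by
  simpa [h, zero_pow (NeZero.ne m)] using stdAddChar_pow_eq_one x

/-- Two continuous `m`-th roots of the same function differ by a constant. -/
theorem exists_eq_stdAddChar_mul {U : Set ℂ} (hU : IsPreconnected U) {g₁ g₂ : ℂ → ℂ}
    (h1 : ContinuousOn g₁ U) (h2 : ContinuousOn g₂ U) (hne : ∀ u ∈ U, g₂ u ≠ 0)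
    (he : ∀ u ∈ U, g₁ u ^ m = g₂ u ^ m) :
    ∃ x : ZMod m, ∀ u ∈ U, g₁ u = ZMod.stdAddChar x * g₂ u := by
  rcases U.eq_empty_or_nonempty with rfl | ⟨u₀, hu₀⟩
  · exact ⟨0, by simp⟩
  have hroot : ∀ u ∈ U, (g₁ u / g₂ u) ^ m = 1 := fun u hu => by
    rw [div_pow, he u hu, div_self (pow_ne_zero _ (hne u hu))]
  obtain ⟨x, hx⟩ := Mono.exists_stdAddChar_eq (hroot u₀ hu₀)
  refine ⟨x, fun u hu => ?_⟩
  have hsub : ((fun w => g₁ w / g₂ w) '' U).Subsingleton := by
    by_contra hn
    rw [Set.not_subsingleton_iff] at hn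
    refine (hU.image _ (h1.div h2 hne)).infinite_of_nontrivial hn ?_
    refine (Polynomial.nthRootsFinset m (1 : ℂ)).finite_toSet.subset ?_
    rintro _ ⟨w, hw, rfl⟩
    simp [Polynomial.mem_nthRootsFinset (Nat.pos_of_ne_zero (NeZero.ne m)), hroot w hw]
  have h3 := hsub (mem_image_of_mem _ hu) (mem_image_of_mem _ hu₀)
  rw [hx, ← h3, div_mul_cancel₀ _ (hne u hu)]

section Cycle

variable {ι A : Type*} [AddCommGroup A]

open scoped Classical in
/-- Going round a cycle returns to the start and sums the jumps over the cycle. -/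
theorem exists_cycle_sum [Fintype ι] (p : Perm ι) (f : ι → A) (i : ι) :
    (p ^ Nat.card {j // p.SameCycle i j}) i = i ∧
      ∑ t ∈ Finset.range (Nat.card {j // p.SameCycle i j}), f ((p ^ t) i)
        = ∑ j with Quotient.mk (cyc p) j = Quotient.mk (cyc p) i, f j := by
  set L := Function.minimalPeriod p i
  have hper : Function.IsPeriodicPt p L i := Function.isPeriodicPt_minimalPeriod _ _
  have hiter : ∀ t : ℕ, (p^[t]) i = (p ^ t) i := fun t => by rw [Perm.coe_pow]
  have hLpos : 0 < L := Function.minimalPeriod_pos_of_mem_periodicPts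
    (Function.mk_mem_periodicPts (orderOf_pos p)
      (show p^[orderOf p] i = i by rw [hiter, pow_orderOf_eq_one, Perm.one_apply]))
  have hinj : Set.InjOn (fun t => (p ^ t) i) (Finset.range L : Set ℕ) := by
    intro a ha b hb hab
    simp only [Finset.coe_range, Set.mem_Iio] at ha hb
    exact Function.iterate_injOn_Iio_minimalPeriod ha hb (by simpa [hiter] using hab)
  have himg : (Finset.range L).image (fun t => (p ^ t) i)
      = Finset.univ.filter fun j => Quotient.mk (cyc p) j = Quotient.mk (cyc p) i := by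
    ext j
    simp only [Finset.mem_image, Finset.mem_range, Finset.mem_filter, Finset.mem_univ, true_and]
    constructor
    · rintro ⟨t, -, rfl⟩
      exact Quotient.sound (s := cyc p) (Perm.SameCycle.symm ⟨(t : ℤ), by simp⟩)
    · intro h
      obtain ⟨t, -, rfl⟩ := (Quotient.exact (s := cyc p) h).symm.exists_pow_eq'
      refine ⟨t % L, Nat.mod_lt _ hLpos, ?_⟩
      rw [← hiter, ← hiter, Function.IsPeriodicPt.iterate_mod_apply hper]
  have hcard : Nat.card {j // p.SameCycle i j} = L := by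
    rw [Nat.card_eq_fintype_card, Fintype.card_subtype]
    conv_rhs => rw [← Finset.card_range L, ← Finset.card_image_of_injOn hinj, himg]
    refine congrArg Finset.card (Finset.filter_congr fun j _ => ?_)
    exact ⟨fun h => Quotient.sound (s := cyc p) h.symm, fun h => (Quotient.exact h).symm⟩
  rw [hcard, ← himg, Finset.sum_image hinj, ← hiter]
  exact ⟨hper, rfl⟩

end Cycle

variable {F : Type*} [Field F] [Algebra ℂ F] {M : Model ℂ F} {R : Rays M}

namespace Model

variable {b : Option ℂ}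

/-- A root along a lift transforms under translation as dictated by the order. -/
theorem IsLift.root_translate {η : ℂ → ℂ} (h : M.IsLift b η) {f : F} (hf : f ≠ 0) {G : ℂ → ℂ}
    {L₀ : ℝ} (hG : ContinuousOn G (halfPlane L₀))
    (hpow : ∀ᶠ u in negInf, G u ^ m = M.along b η f u) (L : ℤ) {ζ : ℂ}
    (hζ : ∀ᶠ u in negInf, G (u + L * (2 * π * I)) = ζ * G u) :
    ζ = cexp (((placeOf h).ord f : ℂ) / ((placeOf h).ord (M.xi b) * m) * (L * (2 * π * I))) := by
  obtain ⟨w₀, hw₀, hlim⟩ := exists_tendsto_asymp h hf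
  set N : ℂ := ((placeOf h).ord f : ℂ)
  set e : ℂ := ((placeOf h).ord (M.xi b) : ℂ)
  have hm : (m : ℂ) ≠ 0 := by exact_mod_cast (NeZero.ne m)
  set K : ℂ → ℂ := fun u => G u * cexp (-(N / (e * m)) * u)
  have hK : Tendsto (fun u => K u ^ m) negInf (𝓝 w₀) := by
    refine hlim.congr' ?_
    filter_upwards [hpow] with u hu
    simp only [K, mul_pow, hu, ← Complex.exp_nat_mul]
    congr 2
    field_simp
  obtain ⟨w, hw, -, hKw⟩ := exists_tendsto_of_pow_tendsto (Nat.pos_of_ne_zero (NeZero.ne m))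
    (R := L₀) (hG.mul (Continuous.continuousOn (by fun_prop))) hw₀ hK
  have h2 : Tendsto (fun u => ζ * cexp (-(N / (e * m)) * (L * (2 * π * I))) * K u)
      negInf (𝓝 w) := by
    refine (hKw.comp (tendsto_translate L)).congr' ?_
    filter_upwards [hζ] with u hu
    show K _ = _
    simp only [K, hu, mul_add, Complex.exp_add]
    ring
  have h3 := tendsto_nhds_unique h2 (hKw.const_mul _)
  rw [eq_comm, mul_eq_right₀ hw, neg_mul, Complex.exp_neg, ← div_eq_mul_inv,
    div_eq_one_iff_eq (Complex.exp_ne_zero _)] at h3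
  exact h3

variable {L₁ : ℝ} (B : M.Branches (halfPlane L₁) (phi b))
  (hgood : ∀ u ∈ halfPlane L₁, M.Good (phi b u))

open scoped Classical in
/-- Roots along all lifts: orders are cycle sums of the multipliers. -/
theorem cast_ord_eq_cycle_sum {π' : Perm (Fin M.n)}
    (hπ : ∀ i, ∀ u ∈ halfPlane L₁, B.η i (u + 2 * π * I) = B.η (π' i) u) {f : F} (hf : f ≠ 0)
    {G : Fin M.n → ℂ → ℂ} {L₂ : ℝ} (hG : ∀ i, ContinuousOn (G i) (halfPlane L₂))
    (hpow : ∀ i, ∀ u ∈ halfPlane L₂, G i u ^ m = M.along b (B.η i) f u)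
    {δ : Fin M.n → ZMod m}
    (hδ : ∀ i, ∀ u ∈ halfPlane L₂, G i (u + 2 * π * I) = ZMod.stdAddChar (δ i) * G (π' i) u)
    (i : Fin M.n) :
    (((placeOf (B.isLift hgood i)).ord f : ℤ) : ZMod m)
      = ∑ j with Quotient.mk (cyc π') j = Quotient.mk (cyc π') i, δ j := by
  classical
  have hiter : ∀ L : ℕ, ∀ u ∈ halfPlane L₂, G i (u + L * (2 * π * I))
      = ZMod.stdAddChar (∑ t ∈ Finset.range L, δ ((π' ^ t) i)) * G ((π' ^ L) i) u := by
    intro L
    induction L with
    | zero => intro u _; simp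
    | succ L ih =>
      intro u hu
      have hu' : u + 2 * π * I ∈ halfPlane L₂ := by simpa using add_two_pi_I_mem_halfPlane hu 1
      rw [show u + ((L + 1 : ℕ) : ℂ) * (2 * π * I) = u + 2 * π * I + L * (2 * π * I) by
        push_cast; ring, ih _ hu', hδ _ u hu, Finset.sum_range_succ, AddChar.map_add_eq_mul,
        pow_succ' π' L, Perm.mul_apply]
      ring
  obtain ⟨hper, hsum⟩ := exists_cycle_sum π' δ i
  set L := Nat.card {j // π'.SameCycle i j} with hL
  have he := (monodromy_cycles B hgood hπ).2.2 i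
  have h1 := (B.isLift hgood i).root_translate (m := m) hf (hG i)
    (eventually_of_mem (halfPlane_mem_negInf L₂) fun u hu => hpow i u hu) (L : ℤ)
    (ζ := ZMod.stdAddChar (∑ t ∈ Finset.range L, δ ((π' ^ t) i))) (by
      filter_upwards [halfPlane_mem_negInf L₂] with u hu
      rw [Int.cast_natCast, hiter L u hu, hper])
  rw [he, ← hL, hsum] at h1
  have hL0 : (L : ℂ) ≠ 0 := by
    have hpos : (0 : ℤ) < (L : ℤ) := hL ▸ he ▸ placeOf_over (B.isLift hgood i)
    exact_mod_cast hpos.ne'
  refine ZMod.injective_stdAddChar ?_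
  rw [ZMod.stdAddChar_coe]
  convert h1.symm using 2
  push_cast
  field_simp

end Model

/-- A system of `m`-th roots of `f` on the sheets with jumps `c`. -/
structure RootSys (S : Sheets R) (m : ℕ) [NeZero m] (f : F)
    (c : Fin R.r → Fin M.n → ZMod m) where
  /-- The finite set of exceptional points. -/
  T : Finset ℂ
  /-- The root on each sheet over the cut plane. -/
  g : Fin M.n → ℂ → ℂ
  /-- Its continuation on each wedge. -/
  gV : Fin R.r → Fin M.n → ℂ → ℂ
  pos : ∀ k i, EqOn (gV k i) (g i) (R.wedgePos k)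
  neg : ∀ k i, EqOn (gV k i) (fun z => ZMod.stdAddChar (c k i) * g (S.σ k i) z) (R.wedgeNeg k)
  diff : ∀ i, ∀ z ∈ R.Omega, DifferentiableAt ℂ (g i) z
  diffV : ∀ k i, ∀ z ∈ R.wedge k, DifferentiableAt ℂ (gV k i) z
  pow : ∀ i, ∀ z ∈ R.Omega, z ∉ T → M.RegAt f z ∧ g i z ^ m = M.val f z (S.θ.η i z)

namespace RootSys

variable {S : Sheets R} {f f' : F} {c c' : Fin R.r → Fin M.n → ZMod m}

/-- The root on a wedge raised to the `m`th power is the value of the function. -/
theorem powV (G : RootSys S m f c) {k : Fin R.r} (i : Fin M.n) {z : ℂ} (hz : z ∈ R.wedge k)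
    (hf : M.RegAt f z) : G.gV k i z ^ m = M.val f z ((S.w k).η i z) := by
  have hc1 : ContinuousAt (fun w => G.gV k i w ^ m) z := ((G.diffV k i z hz).continuousAt).pow m
  have hc2 := (S.differentiableAt_val_w f k i hz hf).continuousAt
  have main : ∀ W : Set ℂ, IsOpen W → z ∈ closure W →
      (∀ w ∈ W, w ∉ G.T → G.gV k i w ^ m = M.val f w ((S.w k).η i w)) →
      G.gV k i z ^ m = M.val f z ((S.w k).η i z) := by
    intro W hW hzW hEq
    have hd : Dense ((G.T : Set ℂ))ᶜ := by
      simpa [Set.compl_eq_univ_sdiff] using dense_univ.sdiff_finite G.T.finite_toSet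
    have : (𝓝[W ∩ ((G.T : Set ℂ))ᶜ] z).NeBot := mem_closure_iff_nhdsWithin_neBot.1
      (closure_minimal (hd.open_subset_closure_inter hW) isClosed_closure hzW)
    exact tendsto_nhds_unique_of_eventuallyEq (hc1.tendsto.mono_left nhdsWithin_le_nhds)
      (hc2.tendsto.mono_left (nhdsWithin_le_nhds (s := W ∩ ((G.T : Set ℂ))ᶜ)))
      (eventually_of_mem self_mem_nhdsWithin fun w hw => hEq w hw.1 hw.2)
  have hpos : ∀ w ∈ R.wedgePos k, w ∉ G.T → G.gV k i w ^ m = M.val f w ((S.w k).η i w) :=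
    fun w hw hT => by
      rw [G.pos k i hw, S.pos k i hw]; exact (G.pow i w (R.wedgePos_subset k hw) hT).2
  have hneg : ∀ w ∈ R.wedgeNeg k, w ∉ G.T → G.gV k i w ^ m = M.val f w ((S.w k).η i w) :=
    fun w hw hT => by
      rw [G.neg k i hw, S.neg k i hw, mul_pow, stdAddChar_pow_eq_one, one_mul]
      exact (G.pow _ w (R.wedgeNeg_subset k hw) hT).2
  rcases lt_trichotomy (z / R.p k).im 0 with h | h | h
  · exact main _ (R.isOpen_wedgeNeg k) (subset_closure ⟨hz, h⟩) hneg
  · exact main _ (R.isOpen_wedgePos k)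
      (R.mem_closure_wedgePos ⟨h, (R.re_gt_one_of_mem_wedge hz).le⟩ hz) hpos
  · exact main _ (R.isOpen_wedgePos k) (subset_closure ⟨hz, h⟩) hpos

theorem ne_zero_V (G : RootSys S m f c) (hf : f ≠ 0) {k : Fin R.r} (i : Fin M.n) {z : ℂ}
    (hz : z ∈ R.wedge k) (h1 : M.RegAt f z) (h2 : M.RegAt f⁻¹ z) : G.gV k i z ≠ 0 := fun h0 => by
  have := G.powV i hz h1
  rw [h0, zero_pow (NeZero.ne m)] at this
  exact M.val_ne_zero hf h1 h2 (((S.w k).branch i).root z hz) this.symm

theorem ne_zero (G : RootSys S m f c) (hf : f ≠ 0) (i : Fin M.n) {z : ℂ} (hz : z ∈ R.Omega)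
    (hT : z ∉ G.T) (h2 : M.RegAt f⁻¹ z) : G.g i z ≠ 0 := fun h0 => by
  obtain ⟨h1, hpow⟩ := G.pow i z hz hT
  rw [h0, zero_pow (NeZero.ne m)] at hpow
  exact M.val_ne_zero hf h1 h2 ((S.θ.branch i).root z hz) hpow.symm

/-- Root systems with cohomologous jumps differ by an element of the function field. -/
theorem exists_pow_eq_of_gauge (G : RootSys S m f c) (G' : RootSys S m f' c') (hf' : f' ≠ 0)
    (a : Fin M.n → ZMod m) (ha : c - c' = gauge S.σ a) : ∃ γ : F, γ ^ m = f * f'⁻¹ := by
  classical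
  set T := G.T ∪ G'.T ∪ (M.finite_not_regAt f').toFinset ∪ (M.finite_not_regAt f'⁻¹).toFinset
  have hT : ∀ z, z ∉ T → z ∉ G.T ∧ z ∉ G'.T ∧ M.RegAt f' z ∧ M.RegAt f'⁻¹ z := by
    intro z hz
    simpa [T, not_or, and_assoc] using hz
  let g : Fin M.n → ℂ → ℂ := fun i z => ZMod.stdAddChar (-a i) * (G.g i z / G'.g i z)
  let gV : Fin R.r → Fin M.n → ℂ → ℂ := fun k i z =>
    ZMod.stdAddChar (-a i) * (G.gV k i z / G'.gV k i z)
  have hgpow : ∀ z ∈ R.Omega, z ∉ T → ∀ i,
      M.RegAt (f * f'⁻¹) z ∧ g i z ^ m = M.val (f * f'⁻¹) z (S.θ.η i z) := by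
    intro z hz hzT i
    obtain ⟨hT1, hT2, hr, hr'⟩ := hT z hzT
    obtain ⟨h1, hp⟩ := G.pow i z hz hT1
    obtain ⟨-, hp'⟩ := G'.pow i z hz hT2
    have hy : M.IsRootAt z (S.θ.η i z) := (S.θ.branch i).root z hz
    refine ⟨h1.mul hr', ?_⟩
    have hinv := Model.val_mul hr hr' hy
    rw [mul_inv_cancel₀ hf', Model.val_one hy] at hinv
    rw [mul_pow, stdAddChar_pow_eq_one, one_mul, div_pow, hp, hp', Model.val_mul h1 hr' hy,
      eq_inv_of_mul_eq_one_right hinv.symm, div_eq_mul_inv]
  have hbound : ∀ z ∈ R.Omega, z ∉ T → ∀ i,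
      ‖g i z‖ ≤ max 1 ‖M.val (f * f'⁻¹) z (S.θ.η i z)‖ := by
    intro z hz hzT i
    by_cases h1 : ‖g i z‖ ≤ 1
    · exact h1.trans (le_max_left _ _)
    rw [not_le] at h1
    refine le_trans ?_ (le_max_right _ _)
    rw [← (hgpow z hz hzT i).2, norm_pow]
    exact le_self_pow₀ h1.le (NeZero.ne m)
  let Q : SheetFun S :=
    { T := T
      g := g
      gV := gV
      pos := fun k i z hz => by simp only [g, gV, G.pos k i hz, G'.pos k i hz]
      neg := fun k i z hz => by
        have h : -a i + c k i = -a (S.σ k i) + c' k i := by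
          have h0 := congr_fun (congr_fun ha k) i
          simp only [Pi.sub_apply, gauge_apply] at h0
          linear_combination h0
        have h' := congrArg (fun x => (ZMod.stdAddChar x : ℂ)) h
        simp only [AddChar.map_add_eq_mul] at h'
        simp only [g, gV, G.neg k i hz, G'.neg k i hz]
        rw [← mul_div_assoc, ← mul_assoc, h', mul_assoc, mul_div_assoc,
          mul_div_mul_left _ _ (stdAddChar_ne_zero _)]
      diff := fun i z hz hzT => by
        obtain ⟨-, hT2, -, hr'⟩ := hT z hzT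
        exact ((G.diff i z hz).div (G'.diff i z hz) (G'.ne_zero hf' i hz hT2 hr')).const_mul _
      diffV := fun k i z hz hzT => by
        obtain ⟨-, -, hr, hr'⟩ := hT z hzT
        exact ((G.diffV k i z hz).div (G'.diffV k i z hz)
            (G'.ne_zero_V hf' i hz hr hr')).const_mul _
      growth := fun q _ i => by
        obtain ⟨N, C, hC⟩ := S.val_growth (f * f'⁻¹) q
        refine ⟨N, max 1 C, ?_⟩
        filter_upwards [hC, nhdsWithin_le_nhds (Metric.closedBall_mem_nhds q one_pos),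
          nhdsNE_le_cofinite q T.finite_toSet.compl_mem_cofinite] with z hz hz1 hzT hzΩ
        rw [Metric.mem_closedBall, dist_eq_norm] at hz1
        refine (mul_le_mul_of_nonneg_right (hbound z hzΩ hzT i) (by positivity)).trans ?_
        rw [max_mul_of_nonneg _ _ (by positivity), one_mul]
        exact max_le_max (pow_le_one₀ (norm_nonneg _) hz1) ((hz hzΩ).2 i)
      growth_infty := fun i => by
        obtain ⟨N, C, hC⟩ := S.val_growth_infty (f * f'⁻¹)
        refine ⟨N, max 1 C, ?_⟩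
        filter_upwards [hC, tendsto_norm_cobounded_atTop.eventually (eventually_ge_atTop 1),
          (Metric.cobounded_eq_cocompact (α := ℂ) ▸ cocompact_le_cofinite)
            T.finite_toSet.compl_mem_cofinite] with z hz hz1 hzT hzΩ
        refine (hbound z hzΩ hzT i).trans ?_
        rw [max_mul_of_nonneg _ _ (by positivity), one_mul]
        exact max_le_max (one_le_pow₀ hz1) ((hz hzΩ).2 i) }
  obtain ⟨γ, T', hγ⟩ := Q.exists_elem
  refine ⟨γ, sub_eq_zero.1 (Model.eq_zero_of_values (S := S) (T ∪ T') fun z hz hzT i => ?_)⟩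
  rw [Finset.mem_union, not_or] at hzT
  obtain ⟨h1, hv⟩ := hγ z hz hzT.2
  obtain ⟨hr, hp⟩ := hgpow z hz hzT.1 i
  have hy : M.IsRootAt z (S.θ.η i z) := (S.θ.branch i).root z hz
  have hsub : M.RegAt (γ ^ m - f * f'⁻¹) z := by
    have := (h1.pow m).add ((M.regAt_algebraMap (-1) z).mul hr)
    simpa [sub_eq_add_neg] using this
  have h2 := Model.val_add hsub hr hy
  rw [sub_add_cancel, Model.val_pow h1 hy, hv i, show Q.g i z = g i z from rfl, hp] at h2
  linear_combination -h2

end RootSys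

end Fermat.Agent.Tors
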