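import Fermat.Agent.Tors.Cauchy
import Fermat.Agent.Tors.Root

/-!
# A smooth unimodular frame with prescribed jumps

For a cochain with trivial loop sums, a smooth function on every sheet, of absolute value `1`,
which jumps by the cochain across the cuts and is locally constant near the punctures.
-/

noncomputable section

open Filter Topology Set Complex Equiv
open scoped Real ContDiff

namespace Fermat.Agent.Tors

variable {F : Type*} [Field F] [Algebra ℂ F] {M : Model ℂ F} {R : Rays M}

/-- A smooth frame on the sheets twisted by `c`. -/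
structure TwistFrame (S : Sheets R) (m : ℕ) [NeZero m] (c : Fin R.r → Fin M.n → ZMod m) where
  /-- The frame on each sheet over the cut plane, of absolute value `1`. -/
  s : Fin M.n → ℂ → ℂ
  /-- Its continuation near each cut. -/
  sV : Fin R.r → Fin M.n → ℂ → ℂ
  /-- An open neighbourhood of each cut inside its wedge. -/
  N : Fin R.r → Set ℂ
  isOpen_N : ∀ k, IsOpen (N k)
  N_subset : ∀ k, N k ⊆ R.wedge k
  cut_subset : ∀ k, ∀ z ∈ R.cut k, z ≠ R.p k → z ∈ N k
  smooth : ∀ i, ContDiffOn ℝ 1 (s i) R.Omega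
  smoothV : ∀ k i, ContDiffOn ℝ 1 (sV k i) (N k)
  norm_s : ∀ i z, ‖s i z‖ = 1
  norm_sV : ∀ k i z, ‖sV k i z‖ = 1
  pos : ∀ k i, EqOn (sV k i) (s i) (N k ∩ R.wedgePos k)
  neg : ∀ k i, EqOn (sV k i) (fun z => ZMod.stdAddChar (c k i) * s (S.σ k i) z)
    (N k ∩ R.wedgeNeg k)
  near : ∀ k, ∀ᶠ z in 𝓝 (R.p k), ∀ i, (z ∈ R.Omega → dbar (s i) z = 0) ∧
    ∀ l, z ∈ N l → dbar (sV l i) z = 0
  far : ∃ R₀ : ℝ, ∀ z : ℂ, R₀ < ‖z‖ → ∀ i, (z ∈ R.Omega → dbar (s i) z = 0) ∧
    ∀ l, z ∈ N l → dbar (sV l i) z = 0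

namespace Rays

variable (R)

/-- Number of rays of smaller argument. -/
def sector (z : ℂ) : ℕ := (Finset.univ.filter fun k => (R.p k).arg < z.arg).card

theorem sector_eq_of_lt {z : ℂ} (j : ℕ) (hj : j ≤ R.r)
    (h : ∀ k : Fin R.r, (R.p k).arg < z.arg ↔ (k : ℕ) < j) : R.sector z = j := by
  rw [sector, Finset.filter_congr fun k _ => h k]
  exact (Fintype.card_subtype _).symm.trans
    ((Fintype.card_congr (Fin.castLEquiv hj).symm).trans (Fintype.card_fin j))

theorem arg_ne_pi (k : Fin R.r) : (R.p k).arg ≠ π :=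
    fun h => R.im_ne k (Complex.arg_eq_pi_iff.1 h).2

theorem norm_p_sq_le (k : Fin R.r) : ‖R.p k‖ ^ 2 ≤ ∑ l, ‖R.p l‖ ^ 2 :=
  Finset.single_le_sum (f := fun l => ‖R.p l‖ ^ 2) (fun _ _ => sq_nonneg _) (Finset.mem_univ k)

theorem div_p_polar (k : Fin R.r) (z : ℂ) :
    (z / R.p k).re = ‖z‖ / ‖R.p k‖ * Real.cos (z.arg - (R.p k).arg) ∧
      (z / R.p k).im = ‖z‖ / ‖R.p k‖ * Real.sin (z.arg - (R.p k).arg) := by
  have e : z / R.p k
      = ((‖z‖ / ‖R.p k‖ : ℝ) : ℂ) * cexp (((z.arg - (R.p k).arg : ℝ) : ℂ) * I) := by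
    conv_lhs => rw [← Complex.norm_mul_exp_arg_mul_I z, ← Complex.norm_mul_exp_arg_mul_I (R.p k)]
    rw [ofReal_sub, sub_mul, Complex.exp_sub, ofReal_div]
    field_simp
  rw [e, re_ofReal_mul, im_ofReal_mul, exp_ofReal_mul_I_re, exp_ofReal_mul_I_im]
  exact ⟨rfl, rfl⟩

theorem arg_ne_of_mem_Omega {z : ℂ} (hz : z ∈ R.Omega) (hbig : ∑ l, ‖R.p l‖ ^ 2 ≤ ‖z‖ ^ 2)
    (k : Fin R.r) : z.arg ≠ (R.p k).arg := by
  intro h
  refine hz k ⟨?_, ?_⟩
  · rw [(R.div_p_polar k z).2, h, sub_self, Real.sin_zero, mul_zero]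
  · rw [(R.div_p_polar k z).1, h, sub_self, Real.cos_zero, mul_one,
      one_le_div (norm_pos_iff.2 (R.p_ne k))]
    exact (pow_le_pow_iff_left₀ (norm_nonneg _) (norm_nonneg _) two_ne_zero).1
      ((R.norm_p_sq_le k).trans hbig)

/-- Far out the sector is locally constant, up to identifying the first and the last one. -/
theorem eventually_sector {z : ℂ} (hz : z ∈ R.Omega) (hbig : ∑ l, ‖R.p l‖ ^ 2 < ‖z‖ ^ 2) :
    (∀ᶠ w in 𝓝 z, R.sector w = R.sector z) ∨
      (∀ᶠ w in 𝓝 z, R.sector w = 0 ∨ R.sector w = R.r) := by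
  have hz0 : z ≠ 0 := by
    rintro rfl
    rw [norm_zero, zero_pow two_ne_zero] at hbig
    linarith [Finset.sum_nonneg fun l (_ : l ∈ Finset.univ) => sq_nonneg ‖R.p l‖]
  by_cases hs : z ∈ slitPlane
  · left
    have hev : ∀ᶠ w in 𝓝 z, ∀ k, ((R.p k).arg < w.arg ↔ (R.p k).arg < z.arg) := by
      rw [eventually_all]
      intro k
      rcases (R.arg_ne_of_mem_Omega hz hbig.le k).lt_or_gt with h | h
      · filter_upwards [(continuousAt_arg hs).eventually (eventually_lt_nhds h)] with w hw
        exact ⟨fun h' => absurd h' (not_lt.2 hw.le), fun h' => absurd h' (not_lt.2 h.le)⟩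
      · filter_upwards [(continuousAt_arg hs).eventually (eventually_gt_nhds h)] with w hw
        exact ⟨fun _ => h, fun _ => hw⟩
    filter_upwards [hev] with w hw
    rw [sector, sector, Finset.filter_congr fun k _ => hw k]
  · right
    simp only [mem_slitPlane_iff, not_or, not_lt, not_not] at hs
    have hzre : z.re < 0 := lt_of_le_of_ne hs.1 fun h => hz0 (Complex.ext h hs.2)
    have hπ : z.arg = π := Complex.arg_eq_pi_iff.2 ⟨hzre, hs.2⟩
    have habs : ∀ w : ℂ, w ≠ 0 → |w.arg| = Real.arccos (w.re / ‖w‖) := fun w hw => by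
      rw [← Complex.cos_arg hw, ← Real.cos_abs, Real.arccos_cos (abs_nonneg _)
          (Complex.abs_arg_le_pi w)]
    have hcont : ContinuousAt (fun w : ℂ => Real.arccos (w.re / ‖w‖)) z :=
      Real.continuous_arccos.continuousAt.comp
        (Complex.continuous_re.continuousAt.div continuous_norm.continuousAt
            (norm_ne_zero_iff.2 hz0))
    have hev : ∀ᶠ w in 𝓝 z, ∀ k, |(R.p k).arg| < |w.arg| := by
      rw [eventually_all]
      intro k
      have hk : |(R.p k).arg| < Real.arccos (z.re / ‖z‖) := by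
        rw [← habs z hz0, hπ, abs_of_pos Real.pi_pos]
        exact abs_lt.2 ⟨Complex.neg_pi_lt_arg _,
          lt_of_le_of_ne (Complex.arg_le_pi _) (R.arg_ne_pi k)⟩
      filter_upwards [hcont.eventually (eventually_gt_nhds hk), eventually_ne_nhds hz0]
          with w hw hw0
      rwa [habs w hw0]
    filter_upwards [hev] with w hw
    rcases le_or_gt 0 w.arg with h | h
    · right
      refine R.sector_eq_of_lt R.r le_rfl fun k => iff_of_true ?_ k.isLt
      have := hw k
      rw [abs_of_nonneg h] at this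
      exact (le_abs_self _).trans_lt this
    · left
      refine R.sector_eq_of_lt 0 (Nat.zero_le _) fun k => iff_of_false ?_ (Nat.not_lt_zero _)
      have := hw k
      rw [abs_of_neg h] at this
      have := neg_abs_le (R.p k).arg
      intro h'
      linarith

/-- Cut-off at infinity. -/
def cutInf (z : ℂ) : ℝ := Real.smoothTransition (‖z‖ ^ 2 - (∑ l, ‖R.p l‖ ^ 2 + 1))

/-- Cut-off along the `k`-th cut. -/
def cutRay (k : Fin R.r) (z : ℂ) : ℝ :=
  Real.smoothTransition (4 * (z / R.p k).re - 2) *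
    Real.smoothTransition (2 - ((z / R.p k).im / (R.slope / 8)) ^ 2)

theorem contDiff_cutInf : ContDiff ℝ 1 R.cutInf :=
  Real.smoothTransition.contDiff.comp ((contDiff_norm_sq ℝ).sub contDiff_const)

theorem contDiff_cutRay (k : Fin R.r) : ContDiff ℝ 1 (R.cutRay k) := by
  have h1 : ContDiff ℝ 1 fun z : ℂ => z / R.p k := contDiff_id.div_const _
  exact (Real.smoothTransition.contDiff.comp
    ((contDiff_const.mul (Complex.reCLM.contDiff.comp h1)).sub contDiff_const)).mul
    (Real.smoothTransition.contDiff.comp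
      (contDiff_const.sub (((Complex.imCLM.contDiff.comp h1).div_const _).pow 2)))

/-- A closed set containing the support of the cut-off. -/
def cutRaySupp (k : Fin R.r) : Set ℂ :=
  {z | 1 / 2 ≤ (z / R.p k).re ∧ |(z / R.p k).im| ≤ R.slope / 4}

theorem isClosed_cutRaySupp (k : Fin R.r) : IsClosed (R.cutRaySupp k) :=
  (isClosed_le continuous_const (Complex.continuous_re.comp (continuous_id.div_const _))).inter
    (isClosed_le (Complex.continuous_im.comp (continuous_id.div_const _)).abs continuous_const)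

theorem cutRay_eq_zero {k : Fin R.r} {z : ℂ} (h : z ∉ R.cutRaySupp k) : R.cutRay k z = 0 := by
  simp only [cutRaySupp, mem_ofPred_eq, not_and_or, not_le] at h
  rcases h with h | h
  · rw [cutRay, Real.smoothTransition.zero_of_nonpos (by linarith), zero_mul]
  · have hs := R.slope_pos
    rw [cutRay, Real.smoothTransition.zero_of_nonpos (x := 2 - _) ?_, mul_zero]
    rw [div_pow, sub_nonpos, le_div_iff₀ (by positivity), ← sq_abs (z / R.p k).im]
    nlinarith [mul_le_mul h.le h.le (by positivity) (abs_nonneg _)]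

theorem notMem_cutRaySupp_of_mem_cut {k l : Fin R.r} (hkl : k ≠ l) {z : ℂ} (hz : z ∈ R.cut l) :
    z ∉ R.cutRaySupp k := by
  rintro ⟨h1, h2⟩
  set t := (z / R.p l).re
  have ht : 1 ≤ t := hz.2
  have he : z / R.p k = (t : ℂ) * (R.p l / R.p k) := by
    rw [show (t : ℂ) = z / R.p l from Complex.ext (by simp [t]) (by simp [hz.1])]
    field_simp [R.p_ne l]
  have hs := R.slope_lt hkl
  rw [he] at h1 h2
  rw [re_ofReal_mul] at h1
  rw [im_ofReal_mul, abs_mul, abs_of_pos (show 0 < t by linarith)] at h2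
  have h3 : t * (R.p l / R.p k).re ≤ t * |(R.p l / R.p k).re| :=
    mul_le_mul_of_nonneg_left (le_abs_self _) (by linarith)
  nlinarith [mul_lt_mul_of_pos_left hs (show 0 < t by linarith), R.slope_pos,
    mul_le_mul_of_nonneg_left (h1.trans h3) R.slope_pos.le]

theorem eventually_cutRay_one (k : Fin R.r) {z : ℂ} (hz : z ∈ R.cut k) :
    ∀ᶠ w in 𝓝 z, R.cutRay k w = 1 := by
  have hs := R.slope_pos
  have h1 : ∀ᶠ w in 𝓝 z, 3 / 4 < (w / R.p k).re :=
    (Complex.continuous_re.comp (continuous_id.div_const _)).continuousAt.eventually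
      (eventually_gt_nhds (show (3 / 4 : ℝ) < (z / R.p k).re by linarith [hz.2]))
  have h2 : ∀ᶠ w in 𝓝 z, |(w / R.p k).im| < R.slope / 8 :=
    ((Complex.continuous_im.comp (continuous_id.div_const _)).abs).continuousAt.eventually
      (eventually_lt_nhds (show |(z / R.p k).im| < R.slope / 8 by rw [hz.1, abs_zero]; linarith))
  filter_upwards [h1, h2] with w hw1 hw2
  rw [cutRay, Real.smoothTransition.one_of_one_le (by linarith),
    Real.smoothTransition.one_of_one_le, one_mul]
  have : ((w / R.p k).im / (R.slope / 8)) ^ 2 ≤ 1 := by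
    rw [sq_le_one_iff_abs_le_one, abs_div, abs_of_pos (by linarith : 0 < R.slope / 8),
      div_le_one (by linarith)]
    exact hw2.le
  linarith

/-- The points of the wedge of a ray near which only that ray's cut-off is active. -/
def tubeSet (k : Fin R.r) : Set ℂ :=
  {w | w ∈ R.wedge k ∧ (∀ l, l ≠ k → w ∉ R.cutRaySupp l) ∧ R.cutRay k w = 1 ∧
    |w.arg - (R.p k).arg| < 1 ∧ ∀ l, l ≠ k → ((R.p l).arg < w.arg ↔ l < k)}

/-- On the two sides of a tube the sector is constant. -/
theorem sector_of_mem_tubeSet {k : Fin R.r} {z : ℂ} (hz : z ∈ R.tubeSet k) :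
    (0 < (z / R.p k).im → R.sector z = (k : ℕ) + 1) ∧
      ((z / R.p k).im < 0 → R.sector z = k) := by
  obtain ⟨hw, -, -, habs, hord⟩ := hz
  rw [abs_lt] at habs
  have hsin := (R.div_p_polar k z).2
  have hpos : 0 ≤ ‖z‖ / ‖R.p k‖ := by positivity
  constructor <;> intro h <;> rw [hsin] at h
  · have hlt : (R.p k).arg < z.arg := by
      by_contra hle
      rw [not_lt] at hle
      have := Real.sin_nonpos_of_nonpos_of_neg_pi_le (x := z.arg - (R.p k).arg) (by linarith)
        (by linarith [Real.pi_gt_three])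
      linarith [mul_nonpos_of_nonneg_of_nonpos hpos this]
    refine R.sector_eq_of_lt _ k.isLt fun l => ?_
    by_cases hl : l = k
    · subst hl; exact iff_of_true hlt (Nat.lt_succ_self _)
    · rw [hord l hl]
      have : (l : ℕ) ≠ k := fun e => hl (Fin.ext e)
      exact ⟨fun h' => Nat.lt_succ_of_lt h', fun h' => Fin.lt_def.2 (by omega)⟩
  · have hlt : z.arg < (R.p k).arg := by
      by_contra hle
      rw [not_lt] at hle
      have := Real.sin_nonneg_of_nonneg_of_le_pi (x := z.arg - (R.p k).arg) (by linarith)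
        (by linarith [Real.pi_gt_three])
      linarith [mul_nonneg hpos this]
    refine R.sector_eq_of_lt _ k.isLt.le fun l => ?_
    by_cases hl : l = k
    · subst hl; exact iff_of_false (not_lt.2 hlt.le) (lt_irrefl _)
    · rw [hord l hl]; exact Fin.lt_def

/-- Near a point of a cut, the cut-offs of the other rays vanish. -/
theorem eventually_notMem_cutRaySupp {k : Fin R.r} {z : ℂ} (hz : z ∈ R.cut k) :
    ∀ᶠ w in 𝓝 z, ∀ l, l ≠ k → w ∉ R.cutRaySupp l := by
  rw [eventually_all]
  intro l
  by_cases hl : l = k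
  · exact Eventually.of_forall fun w h => absurd hl h
  · exact Eventually.mono ((R.isClosed_cutRaySupp l).isOpen_compl.mem_nhds
      (R.notMem_cutRaySupp_of_mem_cut hl hz)) fun w hw _ => hw

/-- A tube is a neighbourhood of its cut without the puncture. -/
theorem mem_interior_tubeSet {k : Fin R.r} {z : ℂ} (hz : z ∈ R.cut k) (hne : z ≠ R.p k) :
    z ∈ interior (R.tubeSet k) := by
  rw [mem_interior_iff_mem_nhds]
  have hwedge := R.mem_wedge_of_mem_cut hz hne
  have ht : 1 < (z / R.p k).re := R.re_gt_one_of_mem_wedge hwedge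
  have harg : z.arg = (R.p k).arg := by
    have hmul : z = ((z / R.p k).re : ℂ) * R.p k := by
      rw [show ((z / R.p k).re : ℂ) = z / R.p k from Complex.ext (by simp) (by simp [hz.1]),
        div_mul_cancel₀ _ (R.p_ne k)]
    rw [hmul, Complex.arg_real_mul _ (by linarith)]
  have hslit : z ∈ slitPlane := by
    rw [mem_slitPlane_iff_arg, harg]
    refine ⟨R.arg_ne_pi k, ?_⟩
    rintro rfl
    simp at ht
    linarith
  have hA := continuousAt_arg hslit
  have e1 := R.eventually_notMem_cutRaySupp hz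
  have e2 : ∀ᶠ w in 𝓝 z, |w.arg - (R.p k).arg| < 1 :=
    ((hA.sub continuousAt_const).abs).eventually (eventually_lt_nhds (by simp [harg]))
  have e3 : ∀ᶠ w in 𝓝 z, ∀ l, l ≠ k → ((R.p l).arg < w.arg ↔ l < k) := by
    rw [eventually_all]
    intro l
    rcases lt_trichotomy l k with hl | hl | hl
    · filter_upwards [hA.eventually (eventually_gt_nhds (show (R.p l).arg < z.arg by
        rw [harg]; exact R.mono hl))] with w hw _
      exact iff_of_true hw hl
    · exact Eventually.of_forall fun w h => absurd hl h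
    · filter_upwards [hA.eventually (eventually_lt_nhds (show z.arg < (R.p l).arg by
        rw [harg]; exact R.mono hl))] with w hw _
      exact iff_of_false (not_lt.2 hw.le) (not_lt.2 hl.le)
  filter_upwards [(R.isOpen_wedge k).mem_nhds hwedge, e1, R.eventually_cutRay_one k hz, e2, e3]
    with w h1 h2 h3 h4 h5 using ⟨h1, h2, h3, h4, h5⟩

end Rays

theorem dbar_eq_zero_of_eventually_const {f : ℂ → ℂ} {z a : ℂ} (h : ∀ᶠ w in 𝓝 z, f w = a) :
    dbar f z = 0 := (dbar_congr (g := fun _ => a) h).trans (dbar_const a z)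

/-- An integral lift of a cochain, real potentials for it at the punctures, and real values in the
sectors which jump by it across the rays. -/
theorem Sheets.exists_sectorValues (S : Sheets R) {m : ℕ} [NeZero m]
    (c : Fin R.r → Fin M.n → ZMod m) (hc : cycleSum S.σ c = 0) :
    ∃ (d : Fin R.r → Fin M.n → ℤ) (aK : Fin R.r → Fin M.n → ℝ) (Asec : ℕ → Fin M.n → ℝ),
      (∀ k i, ((d k i : ℤ) : ZMod m) = c k i) ∧ (∀ k i, aK k i - aK k (S.σ k i) = d k i) ∧
      (∀ (k : Fin R.r) x, Asec ((k : ℕ) + 1) x = Asec k (S.σ k x) + d k x) ∧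
      Asec R.r = Asec 0 := by
  classical
  have : Nonempty (Fin M.n) := ⟨⟨0, M.n_pos⟩⟩
  obtain ⟨d, hd, hdc⟩ := exists_int_lift S.σ S.transitive (Nat.pos_of_ne_zero (NeZero.ne m)) c hc
  -- real solutions at the punctures
  have hK : ∀ k, ∃ a : Fin M.n → ℝ, ∀ i, a i - a (S.σ k i) = d k i := fun k =>
    exists_sub_comp_eq (S.σ k) (fun i => (d k i : ℝ)) fun q => by
      have := congr_fun hd (.inl ⟨k, q⟩)
      simp only [cycleSum, AddMonoidHom.mk'_apply, Sum.elim_inl, Pi.zero_apply] at this
      rw [← Int.cast_sum, this, Int.cast_zero]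
  choose aK haK using hK
  obtain ⟨aI, haI⟩ := exists_sub_comp_eq (tau S.σ) (fun i => -((bigLoop S.σ d i : ℤ) : ℝ))
      fun q => by
    have := congr_fun hd (.inr q)
    simp only [cycleSum, AddMonoidHom.mk'_apply, Sum.elim_inr, Pi.zero_apply] at this
    rw [Finset.sum_neg_distrib, ← Int.cast_sum, this, Int.cast_zero, neg_zero]
  -- values in the sectors
  set Asec : ℕ → Fin M.n → ℝ := fun j x => aI ((pre S.σ j).symm x) +
    ∑ k ∈ Finset.univ.filter (fun k : Fin R.r => (k : ℕ) < j),
      (d k (pre S.σ ((k : ℕ) + 1) ((pre S.σ j).symm x)) : ℝ) with hAsec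
  have hsucc : ∀ (k : Fin R.r) x, Asec ((k : ℕ) + 1) x = Asec k (S.σ k x) + d k x := by
    intro k x
    set i := (pre S.σ ((k : ℕ) + 1)).symm x with hi
    have hxi : pre S.σ ((k : ℕ) + 1) i = x := Equiv.apply_symm_apply _ _
    have hki : (pre S.σ k).symm (S.σ k x) = i := by
      rw [Equiv.symm_apply_eq, ← hxi, pre_succ, Perm.mul_apply, Perm.coe_inv,
          Equiv.apply_symm_apply]
    simp only [hAsec, ← hi, hki]
    rw [add_assoc, show (Finset.univ.filter fun l : Fin R.r => (l : ℕ) < (k : ℕ) + 1)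
      = insert k (Finset.univ.filter fun l : Fin R.r => (l : ℕ) < (k : ℕ)) by
        ext l
        simp only [Finset.mem_filter, Finset.mem_univ, true_and, Finset.mem_insert, Fin.ext_iff]
        omega, Finset.sum_insert (by simp), hxi]
    ring
  have htop : Asec R.r = Asec 0 := by
    funext x
    obtain ⟨i, rfl⟩ := (tau S.σ).surjective x
    have h1 := haI i
    simp only [hAsec, show (pre S.σ R.r).symm (tau S.σ i) = i from Equiv.symm_apply_apply _ _,
      Nat.not_lt_zero, Finset.filter_false, Finset.sum_empty, add_zero, pre_zero,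
      Fin.is_lt, Finset.filter_true]
    show aI i + _ = aI (tau S.σ i)
    rw [bigLoop, Int.cast_sum] at h1
    linarith
  exact ⟨d, aK, Asec, fun k i => by rw [← hdc], haK, hsucc, htop⟩

/-- **Existence of a twist frame** for a cochain with trivial cycle sums. -/
theorem Sheets.exists_twistFrame (S : Sheets R) {m : ℕ} [NeZero m]
    (c : Fin R.r → Fin M.n → ZMod m) (hc : cycleSum S.σ c = 0) : Nonempty (TwistFrame S m c) := by
  classical
  obtain ⟨d, aK, Asec, hdc, haK, hsucc, htop⟩ := S.exists_sectorValues c hc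
  set ρ := ∑ l, ‖R.p l‖ ^ 2 with hρ
  set Φ : Fin M.n → ℂ → ℝ := fun i z => (1 - R.cutInf z) * ∑ l, R.cutRay l z * aK l i +
    R.cutInf z * Asec (R.sector z) i with hΦ
  set ΦV : Fin R.r → Fin M.n → ℂ → ℝ := fun k i z => (1 - R.cutInf z) * aK k i +
    R.cutInf z * Asec ((k : ℕ) + 1) i with hΦV
  set E : ℝ → ℂ := fun x => cexp (2 * π * I * (x : ℂ) / m) with hE
  have hEnorm : ∀ x, ‖E x‖ = 1 := fun x => by
    simp [E, Complex.norm_exp]
  have hEint : ∀ (x : ℝ) (a : ℤ), E (x + a) = ZMod.stdAddChar ((a : ℤ) : ZMod m) * E x := by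
    intro x a
    rw [ZMod.stdAddChar_coe, ← Complex.exp_add]
    simp only [E]
    congr 1
    push_cast
    ring
  have hEc : ContDiff ℝ 1 E := by
    refine ((Complex.contDiff_exp (𝕜 := ℝ)).comp ?_)
    exact (contDiff_const.mul Complex.ofRealCLM.contDiff).div_const _
  have hray : ∀ k, ∀ z ∈ R.tubeSet k, ∀ i, ∑ l, R.cutRay l z * aK l i = aK k i := by
    intro k z hz i
    rw [Finset.sum_eq_single k (fun l _ hl => by rw [R.cutRay_eq_zero (hz.2.1 l hl), zero_mul])
      (by simp), hz.2.2.1, one_mul]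
  have hcontInf : Continuous R.cutInf := R.contDiff_cutInf.continuous
  have hsum : ∀ i, ContDiff ℝ 1 fun z => ∑ l, R.cutRay l z * aK l i := fun i =>
    ContDiff.sum fun l _ => (R.contDiff_cutRay l).mul contDiff_const
  have hAloc : ∀ z ∈ R.Omega, ρ < ‖z‖ ^ 2 → ∀ i,
      ∀ᶠ w in 𝓝 z, Asec (R.sector w) i = Asec (R.sector z) i := by
    intro z hz hbig i
    rcases R.eventually_sector hz hbig with h | h
    · exact h.mono fun w hw => by rw [hw]
    · have hz' : Asec (R.sector z) i = Asec 0 i := by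
        rcases h.self_of_nhds with e | e <;> rw [e]
        rw [htop]
      filter_upwards [h] with w hw
      rw [hz']
      rcases hw with e | e <;> rw [e]
      rw [htop]
  have hΦsmooth : ∀ i, ContDiffOn ℝ 1 (Φ i) R.Omega := by
    intro i z hz
    refine ContDiffAt.contDiffWithinAt ?_
    have hbase : ContDiffAt ℝ 1 (fun w => (1 - R.cutInf w) * ∑ l, R.cutRay l w * aK l i) z :=
      (contDiffAt_const.sub R.contDiff_cutInf.contDiffAt).mul (hsum i).contDiffAt
    by_cases hsmall : ‖z‖ ^ 2 < ρ + 1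
    · refine hbase.congr_of_eventuallyEq ?_
      filter_upwards [((continuous_norm.pow 2).continuousAt (x := z)).eventually
        (eventually_lt_nhds hsmall)] with w hw
      have hw' : ‖w‖ ^ 2 < ρ + 1 := hw
      have : R.cutInf w = 0 := Real.smoothTransition.zero_of_nonpos (by linarith)
      simp [Φ, this]
    · refine (hbase.add (R.contDiff_cutInf.contDiffAt.mul
        (contDiffAt_const (c := Asec (R.sector z) i)))).congr_of_eventuallyEq ?_
      filter_upwards [hAloc z hz (by linarith [not_lt.1 hsmall]) i] with w hw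
      simp [Φ, hw]
  refine ⟨{
    s := fun i z => E (Φ i z)
    sV := fun k i z => E (ΦV k i z)
    N := fun k => interior (R.tubeSet k)
    isOpen_N := fun k => isOpen_interior
    N_subset := fun k z hz => (interior_subset hz).1
    cut_subset := fun k z hz hne => R.mem_interior_tubeSet hz hne
    smooth := fun i => hEc.comp_contDiffOn (hΦsmooth i)
    smoothV := fun k i => (hEc.comp (((contDiff_const.sub R.contDiff_cutInf).mul contDiff_const).add
      (R.contDiff_cutInf.mul contDiff_const))).contDiffOn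
    norm_s := fun i z => hEnorm _
    norm_sV := fun k i z => hEnorm _
    pos := fun k i z hz => ?_
    neg := fun k i z hz => ?_
    near := fun k => ?_
    far := ⟨ρ + 2, fun z hz i => ?_⟩ }⟩
  · have hN := interior_subset hz.1
    simp only [Φ, ΦV, hray k z hN i, (R.sector_of_mem_tubeSet hN).1 hz.2.2]
  · have hN := interior_subset hz.1
    rw [← hdc k i]
    show E (ΦV k i z) = ZMod.stdAddChar _ * E (Φ (S.σ k i) z)
    rw [← hEint]
    congr 1
    simp only [Φ, ΦV, hray k z hN (S.σ k i), (R.sector_of_mem_tubeSet hN).2 hz.2.2, hsucc]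
    linear_combination (1 - R.cutInf z) * haK k i
  · have e1 := R.eventually_notMem_cutRaySupp (R.p_mem_cut k)
    have e2 : ∀ᶠ w in 𝓝 (R.p k), R.cutInf w = 0 := by
      filter_upwards [((continuous_norm.pow 2).continuousAt (x := R.p k)).eventually
        (eventually_lt_nhds (show ‖R.p k‖ ^ 2 < ρ + 1 by linarith [R.norm_p_sq_le k]))] with w hw
      have hw' : ‖w‖ ^ 2 < ρ + 1 := hw
      exact Real.smoothTransition.zero_of_nonpos (by linarith)
    have hall := e1.and (e2.and (R.eventually_cutRay_one k (R.p_mem_cut k)))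
    filter_upwards [hall.eventually_nhds] with z hz i
    refine ⟨fun _ => dbar_eq_zero_of_eventually_const (a := E (aK k i)) ?_,
      fun l _ => dbar_eq_zero_of_eventually_const (a := E (aK l i)) ?_⟩
    · filter_upwards [hz] with w hw
      simp only [Φ, hw.2.1, zero_mul, add_zero, sub_zero, one_mul]
      rw [Finset.sum_eq_single k (fun l _ hl => by rw [R.cutRay_eq_zero (hw.1 l hl), zero_mul])
        (by simp), hw.2.2, one_mul]
    · filter_upwards [hz] with w hw
      simp [ΦV, hw.2.1]
  · have hρ0 : 0 ≤ ρ := Finset.sum_nonneg fun l _ => sq_nonneg _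
    have hsq : ρ + 1 + 1 < ‖z‖ ^ 2 := by nlinarith
    have e : ∀ᶠ w in 𝓝 z, R.cutInf w = 1 := by
      filter_upwards [((continuous_norm.pow 2).continuousAt (x := z)).eventually
        (eventually_gt_nhds hsq)] with w hw
      have hw' : ρ + 1 + 1 < ‖w‖ ^ 2 := hw
      exact Real.smoothTransition.one_of_one_le (by linarith)
    refine ⟨fun hzΩ => dbar_eq_zero_of_eventually_const (a := E (Asec (R.sector z) i)) ?_,
      fun l _ => dbar_eq_zero_of_eventually_const (a := E (Asec ((l : ℕ) + 1) i)) ?_⟩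
    · filter_upwards [e, hAloc z hzΩ (by linarith) i] with w hw hw'
      simp [Φ, hw, hw']
    · filter_upwards [e] with w hw
      simp [ΦV, hw]

end Fermat.Agent.Tors
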