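import Fermat.Agent.Tors.Neumann
import Fermat.Agent.Tors.Twist

/-!
# The coefficient matrix of the twisted `∂̄`-system

The matrix of the system `∂̄ H = A H` whose solutions give holomorphic combinations of the
powers of the branches twisted by a frame, with its invariance and continuity.
-/

noncomputable section

open Filter Topology Set Complex
open scoped Real ContDiff Matrix

namespace Fermat.Agent.Tors

variable {n : ℕ}

/-- The matrix `V⁻¹ · diag(-∂̄ s / s) · V` in the basis of powers of the branches. -/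
def sysMat (θ s : Fin n → ℂ → ℂ) (z : ℂ) : Matrix (Fin n) (Fin n) ℂ :=
  (Matrix.vandermonde fun i => θ i z)⁻¹ * Matrix.diagonal (fun i => -(dbar (s i) z) / s i z)
    * Matrix.vandermonde fun i => θ i z

/-- The powers of a branch form an eigenvector of the matrix, of eigenvalue `-∂̄ s / s`. -/
theorem sysMat_spec {θ s : Fin n → ℂ → ℂ} {z : ℂ}
    (hinj : Function.Injective fun i => θ i z) (i l : Fin n) :
    ∑ j : Fin n, θ i z ^ (j : ℕ) * sysMat θ s z j l =
      -(dbar (s i) z) / s i z * θ i z ^ (l : ℕ) := by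
  set V := Matrix.vandermonde fun i => θ i z with hV
  have hdet : IsUnit V.det := isUnit_iff_ne_zero.2 (Matrix.det_vandermonde_ne_zero_iff.2 hinj)
  have h : V * sysMat θ s z
      = Matrix.diagonal (fun i => -(dbar (s i) z) / s i z) * V := by
    show V * (V⁻¹ * _ * V) = _
    rw [← Matrix.mul_assoc, ← Matrix.mul_assoc, Matrix.mul_nonsing_inv V hdet, Matrix.one_mul]
  have := congr_fun (congr_fun h i) l
  rw [Matrix.mul_apply, Matrix.diagonal_mul] at this
  simpa [hV, Matrix.vandermonde_apply] using this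

/-- The matrix does not depend on the numbering of the sheets. -/
theorem sysMat_perm {θ θ' s s' : Fin n → ℂ → ℂ} {z : ℂ} (σ : Equiv.Perm (Fin n))
    (hinj : Function.Injective fun i => θ i z) (hθ : ∀ i, θ' i z = θ (σ i) z)
    (hs : ∀ i, -(dbar (s' i) z) / s' i z = -(dbar (s (σ i)) z) / s (σ i) z) :
    sysMat θ' s' z = sysMat θ s z := by
  have hinj' : Function.Injective fun i => θ' i z := fun a b h => σ.injective (hinj (by
    simpa [hθ] using h))
  funext j l
  have hzero : ((Matrix.vandermonde fun i => θ i z).mulVec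
      fun j => sysMat θ' s' z j l - sysMat θ s z j l) = 0 := by
    funext i
    obtain ⟨i, rfl⟩ := σ.surjective i
    simp only [Matrix.mulVec, dotProduct, Matrix.vandermonde_apply, mul_sub, Finset.sum_sub_distrib,
      Pi.zero_apply]
    rw [sysMat_spec hinj, ← hθ i, sysMat_spec hinj', hs, sub_self]
  exact sub_eq_zero.1 (congr_fun (Matrix.eq_zero_of_mulVec_eq_zero
    (Matrix.det_vandermonde_ne_zero_iff.2 hinj) hzero) j)

theorem sysMat_eq_zero {θ s : Fin n → ℂ → ℂ} {z : ℂ} (h : ∀ i, dbar (s i) z = 0) :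
    sysMat θ s z = 0 := by
  simp only [sysMat, h, neg_zero, zero_div]
  rw [Matrix.diagonal_zero, Matrix.mul_zero, Matrix.zero_mul]

theorem continuousAt_dbar {f : ℂ → ℂ} {U : Set ℂ} (hU : IsOpen U) (hf : ContDiffOn ℝ 1 f U)
    {z : ℂ} (hz : z ∈ U) : ContinuousAt (dbar f) z := by
  have h := (hf.continuousOn_fderiv_of_isOpen hU le_rfl).continuousAt (hU.mem_nhds hz)
  unfold dbar
  fun_prop

/-- The matrix of the twisted system is continuous. -/
theorem continuousAt_sysMat {θ s : Fin n → ℂ → ℂ} {U : Set ℂ} (hU : IsOpen U) {z : ℂ} (hz : z ∈ U)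
    (hθ : ∀ i, ContinuousOn (θ i) U) (hs : ∀ i, ContDiffOn ℝ 1 (s i) U) (hs0 : ∀ i, s i z ≠ 0)
    (hinj : Function.Injective fun i => θ i z) : ContinuousAt (sysMat θ s) z := by
  have hV : ContinuousAt (fun w => Matrix.vandermonde fun i => θ i w) z :=
    continuousAt_pi.2 fun i => continuousAt_pi.2 fun j =>
      ((hθ i).continuousAt (hU.mem_nhds hz)).pow _
  have hd : ContinuousAt (fun w i => -(dbar (s i) w) / s i w) z :=
    continuousAt_pi.2 fun i => ((continuousAt_dbar hU (hs i) hz).neg).div
      ((hs i).continuousOn.continuousAt (hU.mem_nhds hz)) (hs0 i)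
  have hdiag : Continuous fun v : Fin n → ℂ => Matrix.diagonal v :=
    continuous_id.matrix_diagonal
  have hD : ContinuousAt (fun w => Matrix.diagonal fun i => -(dbar (s i) w) / s i w) z :=
    ContinuousAt.comp' hdiag.continuousAt hd
  have hdet : (Matrix.vandermonde fun i => θ i z).det ≠ 0 :=
    Matrix.det_vandermonde_ne_zero_iff.2 hinj
  have hdetc : Continuous fun X : Matrix (Fin n) (Fin n) ℂ => X.det := continuous_id.matrix_det
  have hadjc : Continuous fun X : Matrix (Fin n) (Fin n) ℂ => X.adjugate :=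
    continuous_id.matrix_adjugate
  have h1 : ContinuousAt (fun w => (Matrix.vandermonde fun i => θ i w).det) z :=
    ContinuousAt.comp' hdetc.continuousAt hV
  have h2 : ContinuousAt (fun w => (Matrix.vandermonde fun i => θ i w).adjugate) z :=
    ContinuousAt.comp' hadjc.continuousAt hV
  have hVi : ContinuousAt (fun w => (Matrix.vandermonde fun i => θ i w)⁻¹) z := by
    simp only [Matrix.inv_def, Ring.inverse_eq_inv']
    exact (h1.inv₀ hdet).smul h2
  exact (hVi.mul hD).mul hV

/-- The relation which makes the combination holomorphic. -/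
theorem sysMat_rel {θ s : Fin n → ℂ → ℂ} {z : ℂ} (hinj : Function.Injective fun i => θ i z)
    (hθd : ∀ i, DifferentiableAt ℂ (θ i) z) (hsd : ∀ i, DifferentiableAt ℝ (s i) z)
    (hs0 : ∀ i, s i z ≠ 0) (H : Fin n → ℂ) (i : Fin n) :
    ∑ j : Fin n, (dbar (fun w => θ i w ^ (j : ℕ) * s i w) z * H j
      + θ i z ^ (j : ℕ) * s i z * ∑ l, sysMat θ s z j l * H l) = 0 := by
  have h1 : ∀ j : Fin n, dbar (fun w => θ i w ^ (j : ℕ) * s i w) z
      = θ i z ^ (j : ℕ) * dbar (s i) z := fun j =>
    dbar_mul_holo_left ((hθd i).pow _) (hsd i)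
  simp only [h1, Finset.sum_add_distrib, Finset.mul_sum]
  rw [Finset.sum_comm, ← Finset.sum_add_distrib]
  refine Finset.sum_eq_zero fun l _ => ?_
  rw [show (∑ j : Fin n, θ i z ^ (j : ℕ) * s i z * (sysMat θ s z j l * H l))
      = s i z * (∑ j : Fin n, θ i z ^ (j : ℕ) * sysMat θ s z j l) * H l by
    rw [Finset.mul_sum, Finset.sum_mul]; exact Finset.sum_congr rfl fun j _ => by ring,
    sysMat_spec hinj, ← mul_assoc (s i z), mul_div_cancel₀ _ (hs0 i)]
  ring

end Fermat.Agent.Tors
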